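import Fermat.Agent.Carayol.Bridge.Gens
import Fermat.Agent.Carayol.Bridge.Degree
import Fermat.Agent.Carayol.Bridge.NormProd
import Mathlib.RingTheory.Norm.Defs
import Mathlib.Analysis.Complex.Basic

/-!
# From `X₀(q² M′)` to a level structure

From the function field of `X₀(q ^ 2 * M')` to a field with full level structure.

Model: `F` is a subfield of the field `MeroH` of meromorphic functions on the upper half plane;
the parameter and the torsion coordinates come from the Weierstrass function of `⟨1, τ⟩` after a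
change of variables, and the embedding is `Kummer.embed` followed by `τ ↦ τ / q`, so that the
first line is spanned by `τ / q` and the second by `1 / q`.

Main result: `exists_bridge`.
-/

set_option autoImplicit false

open ModularCurve
open scoped MatrixGroups

namespace Fermat.Agent.Carayol

/-- The two degeneracy embeddings, `0` for the inclusion and `1` for `τ ↦ q τ`. -/
noncomputable def degenMap (K : Type) [Field K] [Algebra ℚ K] (q M' : ℕ) [NeZero q] [NeZero M']
    (i : Fin 2) :
    laurentBaseChange K (modularFunctionFieldFull (q * M')) →ₐ[K]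
      laurentBaseChange K (modularFunctionFieldFull (q * M' * q)) :=
  if i = 0 then heckeAlphaBar K (q * M') q else heckeBetaBar K (q * M') q

open Fermat.Agent.Kummer Fermat.Agent.Kummer.MeroH

theorem det_div_pos (q : ℕ) [NeZero q] : 0 < (!![(1 : ℤ), 0; 0, (q : ℤ)]).det :=
  det_upper_pos one_pos (by exact_mod_cast NeZero.pos q)

/-- `j(d τ / q)`. -/
theorem intComp_div_jScale (q : ℕ) [NeZero q] {d a b : ℕ} (hd : 0 < d)
    (hdet : 0 < (!![(b : ℤ), 0; 0, (a : ℤ)]).det) {c : ℕ} (hc : 0 < c) (hb : d = c * b)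
    (ha : q = c * a) :
    intComp !![(1 : ℤ), 0; 0, (q : ℤ)] (det_div_pos q) (jScale d hd) =
      intComp !![(b : ℤ), 0; 0, (a : ℤ)] hdet jMero := by
  subst hb ha
  have hc0 : (c : ℤ) ≠ 0 := by exact_mod_cast hc.ne'
  have hmat : (!![((c * b : ℕ) : ℤ), 0; 0, 1]) * !![(1 : ℤ), 0; 0, ((c * a : ℕ) : ℤ)] =
      (c : ℤ) • !![(b : ℤ), 0; 0, (a : ℤ)] := by
    ext i j
    fin_cases i <;> fin_cases j <;> simp [Matrix.mul_apply, Fin.sum_univ_two]
  have h1 : 0 < ((!![((c * b : ℕ) : ℤ), 0; 0, 1]) * !![(1 : ℤ), 0; 0, ((c * a : ℕ) : ℤ)]).det := by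
    rw [Matrix.det_mul]; exact mul_pos (det_scale hd) (det_div_pos _)
  rw [jScale, intComp_intComp (det_scale hd) (det_div_pos _) h1, intComp_congr h1 (hmat ▸ h1) hmat,
    intComp_smul hdet hc0]

/-- `τ ↦ τ / q` intertwines powers of the lower unipotent. -/
theorem slComp_lowerU_intComp_div (q : ℕ) [NeZero q] (b : ℤ) (x : MeroH) :
    slComp (lowerU ^ b) (intComp !![(1 : ℤ), 0; 0, (q : ℤ)] (det_div_pos q) x) =
      intComp !![(1 : ℤ), 0; 0, (q : ℤ)] (det_div_pos q) (slComp (lowerU ^ ((q : ℤ) * b)) x) := by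
  have hγ : ∀ γ : SL(2, ℤ), 0 < (γ : Matrix (Fin 2) (Fin 2) ℤ).det := fun γ => by
    rw [γ.2]; exact one_pos
  have hmat : !![(1 : ℤ), 0; 0, (q : ℤ)] * ((lowerU ^ b : SL(2, ℤ)) : Matrix (Fin 2) (Fin 2) ℤ) =
      ((lowerU ^ ((q : ℤ) * b) : SL(2, ℤ)) : Matrix (Fin 2) (Fin 2) ℤ) *
        !![(1 : ℤ), 0; 0, (q : ℤ)] := by
    rw [coe_lowerU_zpow, coe_lowerU_zpow]
    ext i j
    fin_cases i <;> fin_cases j <;> simp [Matrix.mul_apply, Fin.sum_univ_two]
  have h1 : 0 < (!![(1 : ℤ), 0; 0, (q : ℤ)] *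
      ((lowerU ^ b : SL(2, ℤ)) : Matrix (Fin 2) (Fin 2) ℤ)).det := by
    rw [Matrix.det_mul]; exact mul_pos (det_div_pos q) (hγ _)
  rw [← intComp_coe (lowerU ^ b) (hγ _), intComp_intComp (det_div_pos q) (hγ _) h1,
    intComp_congr h1 (hmat ▸ h1) hmat, ← intComp_intComp (hγ _) (det_div_pos q), intComp_coe]

/-- `j(τ / q)` is a conjugate of `j(q τ)`. -/
theorem intComp_div_jMero (q : ℕ) [NeZero q] :
    intComp !![(1 : ℤ), 0; 0, (q : ℤ)] (det_div_pos q) jMero =
      slComp ModularGroup.S⁻¹ (jScale q (NeZero.pos q)) := by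
  have hγ : ∀ γ : SL(2, ℤ), 0 < (γ : Matrix (Fin 2) (Fin 2) ℤ).det := fun γ => by
    rw [γ.2]; exact one_pos
  have hmat : !![(1 : ℤ), 0; 0, (q : ℤ)] =
      (ModularGroup.S : Matrix (Fin 2) (Fin 2) ℤ) * !![(q : ℤ), 0; 0, 1] *
        ((ModularGroup.S⁻¹ : SL(2, ℤ)) : Matrix (Fin 2) (Fin 2) ℤ) := by
    rw [Matrix.SpecialLinearGroup.coe_inv, ModularGroup.coe_S, Matrix.adjugate_fin_two_of]
    ext i j
    fin_cases i <;> fin_cases j <;> simp [Matrix.mul_apply, Fin.sum_univ_two]
  have h1 : 0 < ((ModularGroup.S : Matrix (Fin 2) (Fin 2) ℤ) * !![(q : ℤ), 0; 0, 1]).det := by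
    rw [Matrix.det_mul]; exact mul_pos (hγ _) (det_scale (NeZero.pos q))
  rw [intComp_congr _ (hmat ▸ det_div_pos q) hmat, ← intComp_intComp h1 (hγ _),
    ← intComp_intComp (hγ _) (det_scale (NeZero.pos q)), intComp_coe, intComp_coe, slComp_jMero]
  rfl

theorem dvd_sub_of_conj_eq {q r : ℕ} (hqr : r.Coprime q) {k l : Fin q}
    (h : (q : ℤ) ∣ (r : ℤ) * ((k : ℕ) : ℤ) - (r : ℤ) * ((l : ℕ) : ℤ)) : k = l := by
  rw [← mul_sub] at h
  have := Int.eq_zero_of_abs_lt_dvd
    ((Nat.isCoprime_iff_coprime.2 hqr.symm).dvd_of_dvd_mul_left h) (by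
      have hk := k.2
      have hl := l.2
      rw [abs_lt]
      constructor <;> omega)
  exact Fin.ext (by omega)

/-- The functions on `X₀(q² M′)` over `K` embed in a field with a level structure, fixed by
the torus, and products over each Borel subgroup are powers of norms along the degeneracy maps. -/
theorem exists_bridge (K : Type) [Field K] [Algebra ℚ K] (ι : K →+* ℂ) {q M' : ℕ} [NeZero q]
    [NeZero M'] (hq : q.Prime) (hqM : M'.Coprime q) :
    ∃ (F : Type) (_ : Field F) (_ : DecidableEq F) (_ : Algebra K F)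
      (L : LevelData K F (famOf q) q (auxLevel q M'))
      (emb : laurentBaseChange K (modularFunctionFieldFull (q * M' * q)) →ₐ[K] F),
      (∀ σ ∈ L.torus, ∀ x, σ (emb x) = emb x) ∧
      ∀ (i : Fin 2) (x : laurentBaseChange K (modularFunctionFieldFull (q * M' * q))),
        ∃ e : ℕ, 0 < e ∧ ∏ᶠ σ ∈ (L.borel i : Set (F ≃ₐ[K] F)), σ (emb x) =
          emb (degenMap K q M' i
            ((degenMap K q M' i).toRingHom.toAlgebra |> fun inst =>
              @Algebra.norm _ _ _ _ inst x)) ^ e := by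
  classical
  have : CharZero K := charZero_of_injective_algebraMap (algebraMap ℚ K).injective
  set r := auxLevel q M' with hrdef
  have : NeZero r := ⟨(auxLevel_pos (NeZero.pos M')).ne'⟩
  have hqr : r.Coprime q := coprime_auxLevel hq hqM
  obtain ⟨C, par, h⟩ := exists_model q
  obtain ⟨L, hpar, hcoord⟩ := exists_levelData h ι (q := q) (r := r)
  have : CharZero (bField (q * r) ι C par) :=
    charZero_of_injective_algebraMap (algebraMap K (bField (q * r) ι C par)).injective
  have := isElliptic_bridgeCurve h L hpar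
  have hfin : ∀ i, (L.borel i : Set (bField (q * r) ι C par ≃ₐ[K] _)).Finite := fun i =>
    L.finite_autGroup.subset fun σ hσ => hσ.1.1
  set φ := (intComp !![(1 : ℤ), 0; 0, (q : ℤ)] (det_div_pos q)).comp (embed ι (q * M' * q))
    with hφ
  -- the images of the generators
  have hgen : ∀ (d : ℕ) [NeZero d] (hd : d ∣ q * M' * q), ∃ a b : ℕ,
      φ (jdElt K _ d hd) = (jElem L a b : MeroH) ∧
        ((d.Coprime q ∧ a = q ∧ b = d) ∨ (a = 1 ∧ d = q * b)) := by
    intro d _ hd
    simp only [hφ, RingHom.comp_apply, embed_jdElt]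
    by_cases hqd : q ∣ d
    · obtain ⟨b, hb⟩ := hqd
      refine ⟨1, b, ?_, Or.inr ⟨rfl, hb⟩⟩
      have hbn : b ∣ q * r := by
        rw [hb, mul_assoc] at hd
        exact (Nat.dvd_of_mul_dvd_mul_left (NeZero.pos q) hd).trans
          ((mul_comm M' q).dvd.trans (mul_dvd_mul_left q (dvd_auxLevel q M')))
      have hb0 : 0 < b := Nat.pos_of_ne_zero fun h0 => NeZero.ne d (by rw [hb, h0, mul_zero])
      have hdet : 0 < (!![(b : ℤ), 0; 0, ((1 : ℕ) : ℤ)]).det :=
        det_upper_pos (by exact_mod_cast hb0) (by norm_num)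
      rw [coe_jElem h L hpar hcoord (one_dvd _) hbn hdet,
        intComp_div_jScale q (NeZero.pos d) hdet (NeZero.pos q) hb (mul_one q).symm]
    · have hc : d.Coprime q := ((hq.coprime_iff_not_dvd).2 hqd).symm
      refine ⟨q, d, ?_, Or.inl ⟨hc, rfl, rfl⟩⟩
      have hdn : d ∣ q * r :=
        ((hc.dvd_of_dvd_mul_left (hc.dvd_of_dvd_mul_right hd)).trans (dvd_auxLevel q M')).mul_left q
      have hdet : 0 < (!![(d : ℤ), 0; 0, (q : ℤ)]).det :=
        det_upper_pos (by exact_mod_cast NeZero.pos d) (by exact_mod_cast NeZero.pos q)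
      rw [coe_jElem h L hpar hcoord (dvd_mul_right q r) hdn hdet,
        intComp_div_jScale q (NeZero.pos d) hdet one_pos (one_mul d).symm (one_mul q).symm]
  have hφc : ∀ c, φ (algebraMap K _ c) = MeroH.const (ι c) := fun c => by
    simp only [hφ, RingHom.comp_apply, embed_algebraMap, intComp_const]
  have hmem : ∀ x, φ x ∈ bField (q * r) ι C par := by
    intro x
    refine mem_of_generators ((bField (q * r) ι C par).comap φ) (fun c => ?_) (fun d _ hd => ?_) x
    · rw [Subfield.mem_comap, hφc]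
      exact const_mem_bField _ ι c
    · obtain ⟨a, b, e, -⟩ := hgen d hd
      rw [Subfield.mem_comap, e]
      exact SetLike.coe_mem _
  let emb : laurentBaseChange K (modularFunctionFieldFull (q * M' * q)) →ₐ[K]
      bField (q * r) ι C par :=
    { φ.codRestrict _ hmem with commutes' := fun c => Subtype.ext (hφc c) }
  have hembj : ∀ (d : ℕ) [NeZero d] (hd : d ∣ q * M' * q), ∃ a b : ℕ,
      emb (jdElt K _ d hd) = jElem L a b ∧
        ((d.Coprime q ∧ a = q ∧ b = d) ∨ (a = 1 ∧ d = q * b)) := fun d _ hd => by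
    obtain ⟨a, b, e, hab⟩ := hgen d hd
    exact ⟨a, b, Subtype.ext e, hab⟩
  have hqq : ∀ b : ℕ, b.Coprime q ∨ q ∣ b := fun b =>
    (em (q ∣ b)).symm.imp_left fun hb => ((hq.coprime_iff_not_dvd).2 hb).symm
  refine ⟨bField (q * r) ι C par, inferInstance, _, inferInstance, L, emb, ?_, fun i => ?_⟩
  · -- the torus fixes the image
    rintro σ ⟨h0, h1⟩ x
    refine RingHom.congr_fun (f := σ.toAlgHom.toRingHom.comp emb.toRingHom) (g := emb.toRingHom)
      (ringHom_ext_generators (fun c => ?_) fun d _ hd => ?_) x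
    · simp
    · obtain ⟨a, b, e, hab⟩ := hembj d hd
      change σ (emb (jdElt K _ d hd)) = emb (jdElt K _ d hd)
      rw [e]
      refine jElem_fixed L hqr h0.1 ?_ ((hqq b).imp_right fun hb => ⟨hb, h1⟩)
      rcases hab with ⟨-, rfl, -⟩ | ⟨rfl, -⟩
      · exact Or.inr ⟨dvd_rfl, h0⟩
      · exact Or.inl (Nat.coprime_one_left q)
  have hd0 : degenMap K q M' 0 = heckeAlphaBar K (q * M') q := if_pos rfl
  have hd1 : degenMap K q M' 1 = heckeBetaBar K (q * M') q := if_neg (by decide)
  have hi : i = 0 ∨ i = 1 := by fin_cases i <;> simp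
  have hdeg : @Module.finrank (MFGenus.FL K (q * M')) (MFGenus.FL K (q * M' * q)) _ _
      (degenMap K q M' i).toRingHom.toAlgebra.toModule = q := by
    have hψ := dedekindPsi_mul_prime hq hqM
    rcases hi with rfl | rfl
    · rw [hd0]
      exact finrank_heckeAlphaBar (L := K) ι (q * M') q hψ
    · rw [hd1]
      exact finrank_heckeBetaBar (L := K) ι (q * M') q hψ
  have hfix : ∀ σ ∈ L.borel i, ∀ y,
      σ (emb (degenMap K q M' i y)) = emb (degenMap K q M' i y) := by
    intro σ hσ y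
    refine RingHom.congr_fun
      (f := σ.toAlgHom.toRingHom.comp (emb.toRingHom.comp (degenMap K q M' i).toRingHom))
      (g := emb.toRingHom.comp (degenMap K q M' i).toRingHom)
      (ringHom_ext_generators (fun c => ?_) fun d _ hd => ?_) y
    · simp
    · change σ (emb (degenMap K q M' i (jdElt K _ d hd))) = emb (degenMap K q M' i (jdElt K _ d hd))
      rcases hi with rfl | rfl
      · rw [hd0, heckeAlphaBar_jdElt]
        obtain ⟨a, b, e, hab⟩ := hembj d (hd.mul_right q)
        rw [e]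
        rcases hab with ⟨hc, rfl, rfl⟩ | ⟨rfl, rfl⟩
        · exact jElem_fixed L hqr hσ.1 (Or.inr ⟨dvd_rfl, hσ⟩) (Or.inl hc)
        · exact jElem_fixed L hqr hσ.1 (Or.inl (Nat.coprime_one_left q))
            (Or.inl (hqM.coprime_dvd_left (Nat.dvd_of_mul_dvd_mul_left (NeZero.pos q) hd)))
      · rw [hd1, heckeBetaBar_jdElt]
        obtain ⟨a, b, e, hab⟩ := hembj (q * d)
          ((mul_dvd_mul_left q hd).trans (dvd_of_eq (mul_comm q _)))
        rw [e]
        rcases hab with ⟨hc, -, -⟩ | ⟨rfl, hb⟩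
        · exact absurd (hc.coprime_dvd_left (dvd_mul_right q d))
            (by rw [Nat.coprime_self]; exact hq.one_lt.ne')
        · exact jElem_fixed L hqr hσ.1 (Or.inl (Nat.coprime_one_left q))
            ((hqq b).imp_right fun hb' => ⟨hb', hσ⟩)
  -- the automorphisms given by unipotents
  have hm : ∀ (g : SL(2, ℤ)), (g = ModularGroup.T ∨ g = lowerU) → ∀ k : ℕ,
      g ^ ((r : ℤ) * k) ∈ adm (admLevel q) := by
    intro g hg k
    obtain ⟨c, hc⟩ := admLevel_dvd_auxLevel q M'
    rw [← hrdef] at hc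
    rw [hc, Nat.cast_mul, mul_assoc, zpow_mul, zpow_natCast]
    rcases hg with rfl | rfl
    · exact zpow_mem (Subgroup.mem_sup_left (Subgroup.mem_zpowers _)) _
    · exact zpow_mem (Subgroup.mem_sup_right (Subgroup.mem_zpowers _)) _
  have hrq : (q : ZMod (q * r)) * r = 0 := by rw [← Nat.cast_mul, ZMod.natCast_self]
  suffices hs : ∃ s : Fin q → bField (q * r) ι C par ≃ₐ[K] bField (q * r) ι C par,
      (∀ k, s k ∈ L.borel i) ∧ ∀ k l, (∀ x, s k (emb x) = s l (emb x)) → k = l by
    obtain ⟨s, hsB, hinj⟩ := hs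
    obtain ⟨e, he, hprod⟩ := exists_prod_eq_norm_pow (degenMap K q M' i).toRingHom emb.toRingHom
      (L.borel i) (hfin i) hfix (NeZero.pos q) hdeg s hsB hinj
    exact fun x => ⟨e, he, hprod x⟩
  rcases hi with rfl | rfl
  · -- `τ ↦ τ / (r k τ + 1)`
    choose s hs using fun k : Fin q => exists_sigma h (q * r) ι (hm lowerU (Or.inr rfl) k)
    refine ⟨s, fun k => sigma_mem_borel h L hpar hcoord (hm lowerU (Or.inr rfl) k) (hs k) _
      (fun v => ?_) ?_, fun k l hkl => dvd_sub_of_conj_eq hqr ?_⟩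
    · rw [rowAct_lowerU_zpow]
      refine Prod.ext ?_ rfl
      simp only [Prod.smul_fst, Prod.smul_snd]
      simp only [nsmul_eq_mul]
      push_cast
      linear_combination (k : ZMod (q * r)) * v.2 * hrq
    · simp [rowAct_lowerU_zpow]
    · have hconj : ∀ x, slComp (lowerU ^ ((q : ℤ) * ((r : ℤ) * k))) (embed ι (q * M' * q) x) =
          slComp (lowerU ^ ((q : ℤ) * ((r : ℤ) * l))) (embed ι (q * M' * q) x) := by
        intro x
        apply (intComp !![(1 : ℤ), 0; 0, (q : ℤ)] (det_div_pos q)).injective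
        rw [← slComp_lowerU_intComp_div, ← slComp_lowerU_intComp_div]
        have := congrArg Subtype.val (hkl x)
        rwa [hs, hs] at this
      have heq := MFGenus.conjEmbed_injective ι (N := q * M' * q)
        (a₁ := QuotientGroup.mk (lowerU ^ ((q : ℤ) * ((r : ℤ) * k)))⁻¹)
        (a₂ := QuotientGroup.mk (lowerU ^ ((q : ℤ) * ((r : ℤ) * l)))⁻¹)
        (RingHom.ext fun x => by
          rw [MFGenus.conjEmbed_mk, MFGenus.conjEmbed_mk, inv_inv, inv_inv]; exact hconj x)
      rw [QuotientGroup.eq, inv_inv, ← zpow_neg, ← zpow_add, CongruenceSubgroup.Gamma0_mem,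
        coe_lowerU_zpow, ZMod.intCast_zmod_eq_zero_iff_dvd] at heq
      simp only [Matrix.of_apply, Matrix.cons_val', Matrix.cons_val_zero, Matrix.cons_val_one,
        Matrix.cons_val_fin_one] at heq
      rw [← mul_neg, ← mul_add, ← sub_eq_add_neg, Nat.cast_mul, Nat.cast_mul, mul_assoc] at heq
      exact dvd_trans (dvd_mul_left _ _)
        ((mul_dvd_mul_iff_left (Int.natCast_ne_zero.2 (NeZero.ne q))).1 heq)
  · -- `τ ↦ τ + r k`
    choose s hs using fun k : Fin q =>
      exists_sigma h (q * r) ι (hm ModularGroup.T (Or.inl rfl) k)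
    refine ⟨s, fun k => sigma_mem_borel h L hpar hcoord (hm ModularGroup.T (Or.inl rfl) k) (hs k) _
      (fun v => ?_) ?_, fun k l hkl => dvd_sub_of_conj_eq hqr ?_⟩
    · rw [rowAct_T_zpow]
      refine Prod.ext rfl ?_
      simp only [Prod.smul_fst, Prod.smul_snd]
      simp only [nsmul_eq_mul]
      push_cast
      linear_combination (k : ZMod (q * r)) * v.1 * hrq
    · simp [rowAct_T_zpow]
    · set g : ℕ → SL(2, ℤ) := fun k => ModularGroup.S⁻¹ * ModularGroup.T ^ ((r : ℤ) * k) with hg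
      have hconj : slComp (g k) (embed ι q (jdElt K q q dvd_rfl)) =
          slComp (g l) (embed ι q (jdElt K q q dvd_rfl)) := by
        simp only [hg, ← slComp_slComp, embed_jdElt, ← intComp_div_jMero]
        have := congrArg Subtype.val (hkl (jdElt K (q * M' * q) 1 (one_dvd _)))
        rw [hs, hs] at this
        change slComp _ (φ (jdElt K (q * M' * q) 1 (one_dvd _))) =
          slComp _ (φ (jdElt K (q * M' * q) 1 (one_dvd _))) at this
        rwa [hφ, RingHom.comp_apply, embed_jdElt, MFGenus.jScale_one] at this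
      have heq := MFGenus.conjEmbed_injective ι (N := q)
        (a₁ := QuotientGroup.mk (g k)⁻¹) (a₂ := QuotientGroup.mk (g l)⁻¹)
        (ringHom_ext_generators (fun c => by simp [MFGenus.conjEmbed_algebraMap]) fun d _ hd => by
          rw [MFGenus.conjEmbed_mk, MFGenus.conjEmbed_mk, inv_inv, inv_inv]
          rcases (Nat.dvd_prime hq).1 hd with rfl | rfl
          · simp [embed_jdElt, MFGenus.jScale_one, slComp_jMero]
          · exact hconj)
      rw [QuotientGroup.eq, inv_inv, CongruenceSubgroup.Gamma0_mem,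
        ZMod.intCast_zmod_eq_zero_iff_dvd, hg] at heq
      simp only [mul_inv_rev, inv_inv, mul_assoc, Matrix.SpecialLinearGroup.coe_mul,
        Matrix.SpecialLinearGroup.coe_inv, ModularGroup.coe_S, ← zpow_neg,
        ModularGroup.coe_T_zpow, Matrix.adjugate_fin_two_of] at heq
      simp [Matrix.mul_apply, Fin.sum_univ_two] at heq
      rwa [← dvd_neg, neg_sub, sub_eq_neg_add]

end Fermat.Agent.Carayol
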