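import Fermat.Agent.Carayol.Setup

/-!
# The family and the auxiliary level

The family of curves and the auxiliary level used at the prime `q`.

Main result: `coprime_auxLevel`.
-/

set_option autoImplicit false

open Polynomial

namespace Fermat.Agent.Carayol

/-- The family used at the prime `q`. -/
noncomputable def famOf (q : ℕ) : WeierstrassCurve ℤ[X] :=
  if q = 2 then deuringFam else legendreFam

/-- The auxiliary level, prime to `q`, for the tame level `M'`. -/
def auxLevel (q M' : ℕ) : ℕ :=
  if q = 2 then 9 * M' else 4 * M'

theorem famOf_two : famOf 2 = deuringFam := if_pos rfl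

theorem famOf_of_ne_two {q : ℕ} (h : q ≠ 2) : famOf q = legendreFam := if_neg h

/-- The auxiliary level is prime to `q`. -/
theorem coprime_auxLevel {q M' : ℕ} (hq : q.Prime) (h : M'.Coprime q) :
    (auxLevel q M').Coprime q := by
  unfold auxLevel
  split_ifs with h2
  · subst h2; exact Nat.Coprime.mul_left (by decide) h
  · refine Nat.Coprime.mul_left ?_ h
    exact (Nat.Coprime.pow_left 2 ((Nat.coprime_primes Nat.prime_two hq).mpr (Ne.symm h2)))

theorem auxLevel_pos {q M' : ℕ} (h : 0 < M') : 0 < auxLevel q M' := by
  unfold auxLevel; split_ifs <;> omega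

theorem dvd_auxLevel (q M' : ℕ) : M' ∣ auxLevel q M' := by
  unfold auxLevel; split_ifs <;> exact dvd_mul_left _ _

end Fermat.Agent.Carayol
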