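import Fermat.Agent.Carayol.PointVert

/-!
# Changes of parameter

Changes of parameter: affine substitutions with unit slope and inversion.

Main result: `isVert_inv_iff`.
-/

set_option autoImplicit false

open Polynomial IntermediateField
open scoped IntermediateField

namespace Fermat.Agent.Carayol

variable {K F : Type*} [Field K] [Field F] [Algebra K F]
variable {W : ValuationSubring K} {q : ℕ} {t t' : F}

/-- `t'` is obtained from `t` by an affine substitution with unit slope. -/
def IsAffineChange (W : ValuationSubring K) (t t' : F) : Prop :=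
  ∃ (a : Wˣ) (b : W), t' = algebraMap K F (a : W) * t + algebraMap K F b

theorem IsAffineChange.symm (h : IsAffineChange W t t') : IsAffineChange W t' t := by
  obtain ⟨a, b, rfl⟩ := h
  refine ⟨a⁻¹, -(((a⁻¹ : Wˣ) : W) * b), ?_⟩
  have huu : algebraMap K F ((a : W) : K) * algebraMap K F (((a⁻¹ : Wˣ) : W) : K) = 1 := by
    rw [← map_mul, ← MulMemClass.coe_mul, Units.mul_inv]; simp
  simp only [NegMemClass.coe_neg, MulMemClass.coe_mul, map_neg, map_mul]
  linear_combination (-t) * huu

theorem isAffineChange_sub (c : W) : IsAffineChange W t (t - algebraMap K F c) :=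
  ⟨1, -c, by simp [sub_eq_add_neg]⟩

theorem isAffineChange_one_sub : IsAffineChange W t (1 - t) :=
  ⟨-1, 1, by simp; ring⟩

/-- The substitution of polynomials. -/
theorem IsAffineChange.exists_comp (h : IsAffineChange W t t') :
    ∃ φ : W[X] →+* W[X], (∀ p, evW W t' p = evW W t (φ p)) ∧
      ∀ p, p.map (IsLocalRing.residue W) ≠ 0 → (φ p).map (IsLocalRing.residue W) ≠ 0 := by
  obtain ⟨a, b, rfl⟩ := h
  set l : W[X] := C (a : W) * X + C b
  refine ⟨compRingHom l, fun p => ?_, fun p hp => ?_⟩
  · refine congrArg (fun f : W[X] →+* F => f p) (Polynomial.ringHom_ext (g := (evW W t).comp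
      (compRingHom l)) (fun w => by simp [evW_C]) ?_)
    simp [l, evW_X, evW_C]
  · rw [coe_compRingHom_apply, Polynomial.map_comp]
    intro h0
    have hl : (l.map (IsLocalRing.residue W)).natDegree = 1 := by
      simp only [l, Polynomial.map_add, Polynomial.map_mul, map_C, map_X]
      exact natDegree_linear ((a.isUnit.map (IsLocalRing.residue W)).ne_zero)
    rcases comp_eq_zero_iff.mp h0 with h1 | ⟨-, h2⟩
    · exact hp h1
    · rw [h2, natDegree_C] at hl
      exact zero_ne_one hl

theorem IsAffineChange.range_evW_le (h : IsAffineChange W t t') :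
    (evW W t').range ≤ (evW W t).range := by
  obtain ⟨φ, hφ, -⟩ := h.exists_comp
  rintro _ ⟨p, rfl⟩
  exact ⟨φ p, (hφ p).symm⟩

theorem chart_le_of_range_le (h : (evW W t').range ≤ (evW W t).range) :
    chart W t' ≤ chart W t := by
  intro x hx
  refine mem_of_root_evW (S := chart W t) hx (fun p => ?_) fun y hy => ?_
  · obtain ⟨p', hp'⟩ := h ⟨p, rfl⟩
    rw [← hp']; exact evW_mem_chart p'
  · let : Algebra W[X] F := (evW W t).toAlgebra
    exact isIntegral_trans (R := W[X]) (A := integralClosure W[X] F) y hy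

theorem IsAffineChange.chart_eq (h : IsAffineChange W t t') : chart W t' = chart W t :=
  le_antisymm (chart_le_of_range_le h.range_evW_le) (chart_le_of_range_le h.symm.range_evW_le)

theorem IsAffineChange.isVert (h : IsAffineChange W t t') {V : ValuationSubring F}
    (hV : IsVert W q t V) : IsVert W q t' V := by
  obtain ⟨φ, hφ, hφ'⟩ := h.exists_comp
  exact ⟨fun p => hφ p ▸ hV.evW_mem _, hV.q_mem, fun p hp => hφ p ▸ hV.unit _ (hφ' p hp)⟩

theorem IsAffineChange.isVert_iff (h : IsAffineChange W t t') {V : ValuationSubring F} :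
    IsVert W q t' V ↔ IsVert W q t V :=
  ⟨h.symm.isVert, h.isVert⟩

theorem IsAffineChange.isPoint (h : IsAffineChange W t t') {M : ValuationSubring F}
    (hM : IsPoint W q t M) : IsPoint W q t' M := by
  obtain ⟨φ, hφ, -⟩ := h.exists_comp
  obtain ⟨a, b, rfl⟩ := h
  obtain ⟨w, hw⟩ := hM.exists_par
  refine ⟨fun p => hφ p ▸ hM.evW_mem _, hM.q_mem, (a : W) * w + b, ?_⟩
  simp only [AddMemClass.coe_add, MulMemClass.coe_mul, map_add, map_mul]
  rw [add_sub_add_right_eq_sub, ← mul_sub]
  exact nonunits_mul_left (by simpa [evW_C] using hM.evW_mem (C (a : W))) hw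

theorem IsAffineChange.isPoint_iff (h : IsAffineChange W t t') {M : ValuationSubring F} :
    IsPoint W q t' M ↔ IsPoint W q t M :=
  ⟨h.symm.isPoint, h.isPoint⟩

theorem IsAffineChange.through_iff (h : IsAffineChange W t t') {M V : ValuationSubring F} :
    Through W t' M V ↔ Through W t M V := by
  unfold Through; rw [h.chart_eq]

theorem IsAffineChange.locRing_eq (h : IsAffineChange W t t') (M : ValuationSubring F) :
    locRing W t' M = locRing W t M := by
  unfold locRing; rw [h.chart_eq]

theorem IsAffineChange.gen2_iff (h : IsAffineChange W t t') {M : ValuationSubring F} {z w : F} :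
    Gen2 W t' M z w ↔ Gen2 W t M z w := by
  unfold Gen2; rw [h.locRing_eq]

theorem IsAffineChange.goodPoint (h : IsAffineChange W t t') {M : ValuationSubring F}
    (hM : GoodPoint W q t M) : GoodPoint W q t' M where
  exists_gen V hV hT := by
    obtain ⟨z, w, hz, hg⟩ := hM.exists_gen V (h.isVert_iff.mp hV) (h.through_iff.mp hT)
    exact ⟨z, w, hz, h.gen2_iff.mpr hg⟩
  cross V V' hV hT hV' hT' hne := by
    rw [h.locRing_eq]
    exact hM.cross V V' (h.isVert_iff.mp hV) (h.through_iff.mp hT) (h.isVert_iff.mp hV')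
      (h.through_iff.mp hT') hne

theorem IsAffineChange.fixPar_eq (h : IsAffineChange W t t') : fixPar K t' = fixPar K t := by
  obtain ⟨a, b, rfl⟩ := h
  ext σ
  rw [mem_fixPar, mem_fixPar, map_add, map_mul, AlgEquiv.commutes, AlgEquiv.commutes,
    add_left_inj, mul_right_inj' ((_root_.map_ne_zero _).mpr fun e => ?_)]
  exact a.ne_zero (Subtype.ext e)

theorem IsAffineChange.cover (h : IsAffineChange W t t') (hc : Cover K t) : Cover K t' := by
  have hK : K⟮t'⟯ = K⟮t⟯ := by
    have key : ∀ {s s' : F}, IsAffineChange W s s' → K⟮s'⟯ ≤ K⟮s⟯ := by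
      rintro s _ ⟨a, b, rfl⟩
      exact adjoin_simple_le_iff.mpr (add_mem (mul_mem (IntermediateField.algebraMap_mem _ _)
        (mem_adjoin_simple_self K s)) (IntermediateField.algebraMap_mem _ _))
    exact le_antisymm (key h) (key h.symm)
  refine ⟨?_, hK ▸ hc.finite, hK ▸ hc.galois⟩
  obtain ⟨a, b, rfl⟩ := h
  intro halg
  refine hc.transcendental ?_
  have ha : algebraMap K F (a : W) ≠ 0 :=
    (_root_.map_ne_zero _).mpr fun e => a.ne_zero (Subtype.ext e)
  have := ((halg.sub (isAlgebraic_algebraMap (b : K))).mul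
    (isAlgebraic_algebraMap ((a : W) : K)⁻¹))
  rw [add_sub_cancel_right, map_inv₀, mul_comm, inv_mul_cancel_left₀ ha] at this
  exact this

theorem IsVert.inv (ht : Transcendental K t) {V : ValuationSubring F} (hV : IsVert W q t V) :
    IsVert W q t⁻¹ V := by
  have htV : t⁻¹ ∈ V := by simpa [evW_X] using hV.unit X (by simp)
  have ht0 : t ≠ 0 := fun h => ht (h ▸ isAlgebraic_zero)
  have hrev : ∀ p : W[X], evW W t⁻¹ p * t ^ p.natDegree = evW W t p.reverse := fun p => by
    have : Invertible t := invertibleOfNonzero ht0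
    have h := eval₂_reverse_mul_pow ((algebraMap K F).comp W.subtype) t p
    rw [invOf_eq_inv] at h
    -- reverse twice
    have h2 := eval₂_reflect_mul_pow ((algebraMap K F).comp W.subtype) t p.natDegree p.reverse
      ((reverse_natDegree_le p))
    rw [invOf_eq_inv, reverse, reflect_reflect] at h2
    exact h2
  have hp' : ∀ p : W[X], p.map (IsLocalRing.residue W) ≠ 0 →
      p.reverse.map (IsLocalRing.residue W) ≠ 0 := fun p hp h0 => hp (by
    ext i
    have h1 := congrArg (fun u => u.coeff (revAt p.natDegree i)) h0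
    simp only [coeff_map, coeff_zero, coeff_reverse, revAt_invol] at h1
    simpa using h1)
  refine ⟨fun p => ?_, hV.q_mem, fun p hp => ?_⟩
  · have := V.mul_mem _ _ (hV.evW_mem p.reverse) (pow_mem htV p.natDegree)
    rwa [← hrev, inv_pow, mul_inv_cancel_right₀ (pow_ne_zero _ ht0)] at this
  · have := V.mul_mem _ _ (hV.unit p.reverse (hp' p hp))
      (pow_mem (show t ∈ V by simpa [evW_X] using hV.evW_mem X) p.natDegree)
    rwa [← hrev, mul_inv, mul_assoc, inv_mul_cancel₀ (pow_ne_zero _ ht0), mul_one] at this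

/-- Inversion of the parameter keeps the vertical valuation rings. -/
theorem isVert_inv_iff (ht : Transcendental K t) {V : ValuationSubring F} :
    IsVert W q t⁻¹ V ↔ IsVert W q t V := by
  refine ⟨fun h => ?_, fun h => h.inv ht⟩
  simpa using h.inv (fun halg => ht (by simpa using halg.inv))

end Fermat.Agent.Carayol
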