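import Mathlib.RingTheory.UniqueFactorizationDomain.Kaplansky
import Mathlib.RingTheory.UniqueFactorizationDomain.Multiplicity
import Mathlib.RingTheory.Filtration
import Mathlib.RingTheory.Nakayama
import Mathlib.RingTheory.LocalRing.Basic
import Mathlib.RingTheory.LocalRing.MaximalIdeal.Basic
import Mathlib.Tactic.LinearCombination
import Mathlib.Tactic.Ring

/-!
# Regular local rings of dimension two

Two-dimensional regular local rings by hand: a Noetherian local domain whose maximal ideal is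
`(z, w)` and in which some non-maximal prime contains `z` is factorial; elements that are `n`th
powers up to units at every prime element are `n`th powers times units; compatible `n`th roots
of a unit on several branches `(z i)` glue.

Main result: `exists_glue`.
-/

set_option autoImplicit false

open IsLocalRing

namespace Fermat.Agent.Carayol

variable {R : Type*} [CommRing R] [IsLocalRing R] [IsNoetherianRing R]

section TwoGenerated

variable {z w : R} (hm : maximalIdeal R = Ideal.span {z, w})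
  {P : Ideal R} (hP : P.IsPrime) (hzP : z ∈ P) (hPm : P ≠ maximalIdeal R)

include hm hzP hPm hP in
omit [IsNoetherianRing R] in
theorem notMem_of_two_generated : w ∉ P := by
  intro hw
  refine hPm (le_antisymm (le_maximalIdeal hP.ne_top) ?_)
  rw [hm, Ideal.span_le]
  rintro x (rfl | rfl)
  exacts [hzP, hw]

include hm in
theorem exists_unit_mul_pow_add {x : R} (hx : x ∉ Ideal.span {z}) :
    ∃ (k : ℕ) (u : R), IsUnit u ∧ x - w ^ k * u ∈ Ideal.span {z} := by
  classical
  have hex : ∃ k, x ∉ Ideal.span {z} ⊔ Ideal.span {w ^ k} := by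
    by_contra! hall
    refine hx ?_
    rw [← Ideal.Quotient.eq_zero_iff_mem]
    have h0 := Ideal.iInf_pow_smul_eq_bot_of_le_jacobson (R := R) (M := R ⧸ Ideal.span {z})
      (Ideal.span {w}) (by
        rw [jacobson_eq_maximalIdeal ⊥ bot_ne_top, hm]
        exact Ideal.span_mono (by simp))
    rw [← Submodule.mem_bot R, ← h0, Submodule.mem_iInf]
    intro k
    obtain ⟨a, ha, b, hb, rfl⟩ := Submodule.mem_sup.mp (hall k)
    rw [map_add, Ideal.Quotient.eq_zero_iff_mem.mpr ha, zero_add]
    have : b ∈ Ideal.span {w} ^ k := by rwa [Ideal.span_singleton_pow]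
    simpa [Algebra.smul_def] using Submodule.smul_mem_smul this
      (Submodule.mem_top (x := (1 : R ⧸ Ideal.span {z})))
  obtain ⟨j, hj⟩ : ∃ j, Nat.find hex = j + 1 := by
    refine Nat.exists_eq_add_one_of_ne_zero fun h0 => ?_
    have := Nat.find_spec hex
    simp [h0] at this
  obtain ⟨a, ha, b, hb, hab⟩ := Submodule.mem_sup.mp
    (not_not.mp (Nat.find_min hex (show j < Nat.find hex by omega)))
  obtain ⟨u, rfl⟩ := Ideal.mem_span_singleton'.mp hb
  refine ⟨j, u, ?_, by rw [← hab, mul_comm u]; simpa using ha⟩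
  by_contra hu
  have hu' : u ∈ Ideal.span {z, w} := hm ▸ (mem_maximalIdeal u).mpr hu
  obtain ⟨c, d, rfl⟩ := Ideal.mem_span_pair.mp hu'
  refine Nat.find_spec hex ?_
  rw [hj, ← hab, show a + (c * z + d * w) * w ^ j = (a + c * w ^ j * z) + d * w ^ (j + 1) by ring]
  exact Submodule.add_mem_sup (add_mem ha
    (Ideal.mul_mem_left _ _ (Ideal.mem_span_singleton_self z)))
    (Ideal.mul_mem_left _ _ (Ideal.mem_span_singleton_self _))

include hm hP hzP hPm in
theorem eq_span_of_two_generated : P = Ideal.span {z} := by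
  refine le_antisymm (fun x hx => ?_) (Ideal.span_le.mpr (by simpa using hzP))
  by_contra hx'
  obtain ⟨k, u, hu, hmem⟩ := exists_unit_mul_pow_add hm hx'
  have h1 : w ^ k * u ∈ P := by
    have := sub_mem hx ((Ideal.span_le.mpr (by simpa using hzP) : Ideal.span {z} ≤ P) hmem)
    simpa using this
  rcases hP.mem_or_mem h1 with h | h
  · exact notMem_of_two_generated hm hP hzP hPm (hP.mem_of_pow_mem k h)
  · exact hP.ne_top (Ideal.eq_top_of_isUnit_mem _ h hu)

include hm hP hzP hPm in
theorem prime_of_two_generated (hz : z ≠ 0) : Prime z :=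
  (Ideal.span_singleton_prime hz).mp (eq_span_of_two_generated hm hP hzP hPm ▸ hP)

include hm hP hzP hPm in
/-- **Factoriality.** -/
theorem uniqueFactorizationMonoid_of_two_generated [IsDomain R] (hz : z ≠ 0) :
    UniqueFactorizationMonoid R := by
  classical
  have hzp := prime_of_two_generated hm hP hzP hPm hz
  have hwP := notMem_of_two_generated hm hP hzP hPm
  have hPz := eq_span_of_two_generated hm hP hzP hPm
  rw [UniqueFactorizationMonoid.iff_exists_prime_mem_of_isPrime]
  intro Q hQ0 hQ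
  by_cases hzQ : z ∈ Q
  · exact ⟨z, hzQ, hzp⟩
  have hfg : Q.FG := IsNoetherian.noetherian Q
  have hjac : Ideal.span {z} ≤ Ideal.jacobson ⊥ := by
    rw [jacobson_eq_maximalIdeal ⊥ bot_ne_top, hm]
    exact Ideal.span_mono (by simp)
  have hdiv : ∀ y ∈ Q, y ∈ Ideal.span {z} → y ∈ Ideal.span {z} • Q := fun y hy hy' => by
    obtain ⟨a, rfl⟩ := Ideal.mem_span_singleton'.mp hy'
    rw [mul_comm, Ideal.smul_eq_mul]
    exact Ideal.mul_mem_mul (Ideal.mem_span_singleton_self z)
      ((hQ.mem_or_mem hy).resolve_right hzQ)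
  have hex : ∃ k, ∃ x ∈ Q, ∃ u, IsUnit u ∧ x - w ^ k * u ∈ Ideal.span {z} := by
    by_contra h
    refine hQ0 (eq_bot_iff.mpr (Submodule.eq_bot_of_le_smul_of_le_jacobson_bot _ Q hfg
      (fun y hy => hdiv y hy ?_) hjac).le)
    by_contra hy'
    obtain ⟨k, u, hu, hmem⟩ := exists_unit_mul_pow_add hm hy'
    exact h ⟨k, y, hy, u, hu, hmem⟩
  obtain ⟨x, hx, u, hu, hxu⟩ := Nat.find_spec hex
  refine ⟨x, hx, ?_⟩
  have hQx : Q = Ideal.span {x} := by
    refine le_antisymm (Submodule.le_of_le_smul_of_le_jacobson_bot hfg hjac fun y hy => ?_)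
      (Ideal.span_le.mpr (by simpa using hx))
    by_cases hy' : y ∈ Ideal.span {z}
    · exact Submodule.mem_sup_right (hdiv y hy hy')
    obtain ⟨l, v, hv, hyv⟩ := exists_unit_mul_pow_add hm hy'
    obtain ⟨i, rfl⟩ := Nat.exists_eq_add_of_le (Nat.find_min' hex ⟨y, hy, v, hv, hyv⟩)
    obtain ⟨u, rfl⟩ := hu
    rw [show y = w ^ i * v * (↑u⁻¹ : R) * x + (y - w ^ i * v * (↑u⁻¹ : R) * x) by ring]
    refine Submodule.add_mem_sup (Ideal.mul_mem_left _ _ (Ideal.mem_span_singleton_self x))
      (hdiv _ (sub_mem hy (Ideal.mul_mem_left _ _ hx)) ?_)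
    have e : y - w ^ i * v * (↑u⁻¹ : R) * x = (y - w ^ (Nat.find hex + i) * v) -
        w ^ i * v * (↑u⁻¹ : R) * (x - w ^ Nat.find hex * u) := by
      have : (↑u⁻¹ : R) * u = 1 := u.inv_mul
      linear_combination (-(w ^ i * v * w ^ Nat.find hex)) * this
    rw [e]
    exact sub_mem hyv (Ideal.mul_mem_left _ _ hxu)
  have hx0 : x ≠ 0 := fun h => hQ0 (by rw [hQx, h, Ideal.span_singleton_eq_bot])
  exact (Ideal.span_singleton_prime hx0).mp (hQx ▸ hQ)

end TwoGenerated

section NthPower

variable {A : Type*} [CommRing A] [IsDomain A] [UniqueFactorizationMonoid A]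

/-- An element that is an `n`th power up to a unit at every prime element is one globally. -/
theorem exists_eq_pow_mul_unit {n : ℕ} (hn : 0 < n) {a : A} (ha : a ≠ 0)
    (h : ∀ p : A, Prime p → ∃ c d s t : A, c ≠ 0 ∧ d ≠ 0 ∧ ¬p ∣ s ∧ ¬p ∣ t ∧
      a * d ^ n * t = c ^ n * s) :
    ∃ (g : A) (u : Aˣ), a = g ^ n * u := by
  induction a using WellFounded.induction (wellFounded_dvdNotUnit (α := A)) with
  | _ a ih =>
    by_cases hu : IsUnit a
    · exact ⟨1, hu.unit, by simp⟩
    obtain ⟨p, hp', hpa⟩ := WfDvdMonoid.exists_irreducible_factor hu ha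
    have hp : Prime p := UniqueFactorizationMonoid.irreducible_iff_prime.mp hp'
    obtain ⟨c, d, s, t, hc, hd, hs, ht, e⟩ := h p hp
    have hpn : p ^ n ∣ a := by
      have hfin : ∀ x : A, x ≠ 0 → FiniteMultiplicity p x := fun x hx =>
        FiniteMultiplicity.of_prime_left hp hx
      have hs0 : s ≠ 0 := fun h => hs (h ▸ dvd_zero p)
      have ht0 : t ≠ 0 := fun h => ht (h ▸ dvd_zero p)
      have e' := congrArg (multiplicity p) e
      rw [multiplicity_mul hp (hfin _ (mul_ne_zero (mul_ne_zero ha (pow_ne_zero n hd)) ht0)),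
        multiplicity_mul hp (hfin _ (mul_ne_zero ha (pow_ne_zero n hd))),
        multiplicity_mul hp (hfin _ (mul_ne_zero (pow_ne_zero n hc) hs0)),
        (hfin d hd).multiplicity_pow hp, (hfin c hc).multiplicity_pow hp,
        multiplicity_eq_zero.mpr hs, multiplicity_eq_zero.mpr ht, add_zero, add_zero] at e'
      have hpos : 0 < multiplicity p a := Nat.pos_of_ne_zero fun h0 =>
        multiplicity_eq_zero.mp h0 hpa
      have hdvd : n ∣ multiplicity p a := by
        rw [← Nat.dvd_add_left (dvd_mul_right n (multiplicity p d)), e']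
        exact dvd_mul_right n _
      exact (pow_dvd_pow p (Nat.le_of_dvd hpos hdvd)).trans (pow_multiplicity_dvd p a)
    obtain ⟨b, rfl⟩ := hpn
    have hb : b ≠ 0 := fun h => ha (by simp [h])
    obtain ⟨g, u, rfl⟩ := ih b ⟨hb, p ^ n, fun h => hp.not_isUnit ((isUnit_pow_iff hn.ne').mp h),
        mul_comm _ _⟩ hb
      fun r hr => by
        obtain ⟨c, d, s, t, hc, hd, hs, ht, e⟩ := h r hr
        exact ⟨c, p * d, s, t, hc, mul_ne_zero hp.ne_zero hd, hs, ht, by
          linear_combination e + t * b * mul_pow p d n⟩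
    exact ⟨p * g, u, by ring⟩

end NthPower

section Glue

omit [IsNoetherianRing R]

variable {ι : Type*} [DecidableEq ι] (z : ι → R) (S : Finset ι)

theorem maximalIdeal_pow_le {i : ι} (hz : ∀ j ∈ S, maximalIdeal R = Ideal.span {z i, z j}) :
    maximalIdeal R ^ S.card ≤ Ideal.span {z i, ∏ j ∈ S, z j} := by
  induction S using Finset.induction_on with
  | empty =>
    refine le_of_le_of_eq le_top ((Ideal.eq_top_iff_one _).mpr (Ideal.subset_span ?_)).symm
    simp
  | @insert a s ha ih =>
    rw [Finset.card_insert_of_notMem ha, Finset.prod_insert ha, pow_succ]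
    refine le_trans (Ideal.mul_mono (ih fun j hj => hz j (Finset.mem_insert_of_mem hj))
      (hz a (Finset.mem_insert_self a s)).le) ((Ideal.span_mul_span' _ _).trans_le ?_)
    rw [Ideal.span_le]
    rintro _ ⟨x, hx, y, hy, rfl⟩
    rcases hx with rfl | rfl <;> rcases hy with rfl | rfl <;>
      rw [SetLike.mem_coe, Ideal.mem_span_pair]
    · exact ⟨z i, 0, by ring⟩
    · exact ⟨z a, 0, by ring⟩
    · exact ⟨∏ j ∈ s, z j, 0, by ring⟩
    · exact ⟨0, 1, by ring⟩

theorem exists_one_add_pow {A : Type*} [CommRing A] (x : A) (n : ℕ) :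
    ∃ r, (1 + x) ^ n = 1 + n * x + x ^ 2 * r := by
  induction n with
  | zero => exact ⟨0, by simp⟩
  | succ n ih =>
    obtain ⟨r, hr⟩ := ih
    exact ⟨r + n + x * r, by rw [pow_succ, hr]; push_cast; ring⟩

/-- A root to all orders at the closed point. -/
theorem exists_root_mod_pow {n : ℕ} (hn : IsUnit (n : R)) {u e₀ : R}
    (h₀ : e₀ ^ n * u - 1 ∈ maximalIdeal R) (k : ℕ) :
    ∃ w, w - e₀ ∈ maximalIdeal R ∧ w ^ n * u - 1 ∈ maximalIdeal R ^ (k + 1) := by
  induction k with
  | zero => exact ⟨e₀, by simp, by simpa using h₀⟩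
  | succ k ih =>
    obtain ⟨w, hw, hwk⟩ := ih
    obtain ⟨ν, hν⟩ := hn.exists_left_inv
    set a := w ^ n * u - 1 with ha
    have hat : a ∈ maximalIdeal R := Ideal.pow_le_self (Nat.succ_ne_zero k) hwk
    obtain ⟨r, hr⟩ := exists_one_add_pow (-(a * ν)) n
    refine ⟨w * (1 - a * ν), ?_, ?_⟩
    · rw [show w * (1 - a * ν) - e₀ = (w - e₀) - a * (w * ν) by ring]
      exact sub_mem hw (Ideal.mul_mem_right _ _ hat)
    · have : (w * (1 - a * ν)) ^ n * u - 1 = a ^ 2 * (-1 + (1 + a) * ν ^ 2 * r) := by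
        rw [mul_pow, sub_eq_add_neg (1 : R), hr]
        linear_combination (1 - a + r * a ^ 2 * ν ^ 2) * ((eq_add_of_sub_eq ha.symm)) -
          a * (1 + a) * hν
      rw [this]
      refine Ideal.mul_mem_right _ _
        (Ideal.pow_le_pow_right ?_ (pow_mul (maximalIdeal R) (k + 1) 2 ▸
        Ideal.pow_mem_pow hwk 2))
      omega

/-- **Compatible roots on the branches glue.** -/
theorem exists_glue {n : ℕ} (hn : IsUnit (n : R))
    (hz : ∀ i ∈ S, ∀ j ∈ S, i ≠ j → maximalIdeal R = Ideal.span {z i, z j})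
    (hzm : ∀ i ∈ S, z i ∈ maximalIdeal R) (hS : S.Nonempty) {u : R} {e : ι → R}
    (he : ∀ i ∈ S, e i ^ n * u - 1 ∈ Ideal.span {z i})
    (hcomp : ∀ i ∈ S, ∀ j ∈ S, e i - e j ∈ maximalIdeal R) :
    ∃ h, ∀ i ∈ S, h - e i ∈ Ideal.span {z i} := by
  obtain ⟨i₀, hi₀⟩ := hS
  have hspan : ∀ i ∈ S, Ideal.span {z i} ≤ maximalIdeal R := fun i hi =>
    Ideal.span_le.mpr (by simpa using hzm i hi)
  obtain ⟨w, hw, hwk⟩ := exists_root_mod_pow hn (hspan i₀ hi₀ (he i₀ hi₀)) S.card
  have hy : ∀ i ∈ S, ∃ y, e i - w - (∏ j ∈ S.erase i, z j) * y ∈ Ideal.span {z i} := by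
    intro i hi
    have hd : e i - w ∈ maximalIdeal R := by
      rw [show e i - w = (e i - e i₀) - (w - e i₀) by ring]
      exact sub_mem (hcomp i hi i₀ hi₀) hw
    have hpow : maximalIdeal R ^ (S.card + 1) ≤
        Ideal.span {z i, ∏ j ∈ S.erase i, z j} := by
      refine le_trans (Ideal.pow_le_pow_right ?_) (maximalIdeal_pow_le z (S.erase i) fun j hj =>
        hz i hi j (Finset.mem_of_mem_erase hj) (Finset.ne_of_mem_erase hj).symm)
      rw [Finset.card_erase_of_mem hi]; omega
    set T := ∑ k ∈ Finset.range n, e i ^ k * w ^ (n - 1 - k) with hT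
    have hTu : IsUnit (T * u) := by
      refine isUnit_iff_exists_inv.mpr ?_
      by_contra hne
      have hTm : T * u ∈ maximalIdeal R := (mem_maximalIdeal _).mpr
        fun hu => hne (isUnit_iff_exists_inv.mp hu)
      rw [← Ideal.Quotient.eq_zero_iff_mem] at hTm
      set π := Ideal.Quotient.mk (maximalIdeal R)
      have h1 : π (e i) = π w := Ideal.Quotient.eq.mpr hd
      have h2 : π w ^ n * π u = 1 := by
        rw [← map_pow, ← map_mul, ← map_one π]
        exact Ideal.Quotient.eq.mpr (Ideal.pow_le_self (Nat.succ_ne_zero _) hwk)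
      have hn0 : π (n : R) ≠ 0 := fun h => (mem_maximalIdeal _).mp
        (Ideal.Quotient.eq_zero_iff_mem.mp h) hn
      refine hn0 ?_
      have hT' : π T * π w = π (n : R) * π w ^ n := by
        rw [hT, map_sum, map_natCast, Finset.sum_mul]
        rw [Finset.sum_congr rfl (g := fun _ => π w ^ n) fun k hk => by
          have := Finset.mem_range.mp hk
          rw [map_mul, map_pow, map_pow, h1, mul_assoc, ← pow_succ, ← pow_add]
          congr 1; omega]
        simp
      rw [map_mul] at hTm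
      linear_combination π w * hTm - π u * hT' - π (n : R) * h2
    have hmem : (e i - w) * (T * u) ∈ Ideal.span {z i, ∏ j ∈ S.erase i, z j} := by
      have := geom_sum₂_mul (e i) w n
      rw [← hT] at this
      rw [show (e i - w) * (T * u) = (e i ^ n * u - 1) - (w ^ n * u - 1) by
        linear_combination u * this]
      exact sub_mem (Ideal.span_mono (by simp) (he i hi)) (hpow hwk)
    obtain ⟨a, b, hab⟩ := Ideal.mem_span_pair.mp (((Ideal.mul_unit_mem_iff_mem _ hTu).mp hmem))
    exact ⟨b, by rw [← hab]; exact Ideal.mem_span_singleton'.mpr ⟨a, by ring⟩⟩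
  choose! y hy using hy
  refine ⟨w + ∑ i ∈ S, (∏ j ∈ S.erase i, z j) * y i, fun i hi => ?_⟩
  rw [← Finset.add_sum_erase S _ hi]
  have : ∀ r ∈ S.erase i, (∏ j ∈ S.erase r, z j) * y r ∈ Ideal.span {z i} := fun r hr => by
    refine Ideal.mul_mem_right _ _ (Ideal.mem_span_singleton.mpr (Finset.dvd_prod_of_mem _ ?_))
    exact Finset.mem_erase.mpr ⟨(Finset.ne_of_mem_erase hr).symm, hi⟩
  rw [show ∀ s, w + ((∏ j ∈ S.erase i, z j) * y i + s) - e i =
    s - (e i - w - (∏ j ∈ S.erase i, z j) * y i) from fun s => by ring]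
  exact sub_mem (sum_mem this) (hy i hi)

end Glue

end Fermat.Agent.Carayol
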