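import Fermat.Agent.Carayol.PointVert
import Fermat.Agent.Carayol.Regular
import Mathlib.RingTheory.Nakayama
import Mathlib.RingTheory.FiniteType
import Mathlib.RingTheory.IntegralClosure.IntegrallyClosed

/-!
# Local rings from generators

Local rings at points from generators: if finitely many generators of the function field are
constants modulo `(z, w) + 𝔪²`, the local ring at the point is the localisation of the algebra
they generate, is two-generated and factorial.

Main result: `locRing_eq_of_generators`.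
-/

set_option autoImplicit false

open Polynomial IntermediateField
open scoped IntermediateField

namespace Fermat.Agent.Carayol

variable {K F : Type*} [Field K] [Field F] [Algebra K F]
variable {W : ValuationSubring K} {q : ℕ} {t : F} {M : ValuationSubring F}

section LocAt

variable {C : Subring F}

theorem le_locAt : C ≤ locAt C M := fun x hx =>
  ⟨x, hx, 1, one_mem _, one_notMem_nonunits M, mul_one x⟩

theorem locAt_mono {C' : Subring F} (h : C ≤ C') : locAt C M ≤ locAt C' M := by
  rintro x ⟨a, ha, b, hb, hbn, e⟩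
  exact ⟨a, h ha, b, h hb, hbn, e⟩

theorem locAt_locAt : locAt (locAt C M) M ≤ locAt C M := by
  rintro x ⟨a, ⟨a₁, ha₁, a₂, ha₂, ha₂n, ea⟩, b, ⟨b₁, hb₁, b₂, hb₂, hb₂n, eb⟩, hbn, e⟩
  refine ⟨a₁ * b₂, mul_mem ha₁ hb₂, b₁ * a₂, mul_mem hb₁ ha₂,
    mul_notMem_nonunits (eb ▸ mul_notMem_nonunits hbn hb₂n) ha₂n, ?_⟩
  rw [← ea, ← eb, ← e]; ring

theorem locAt_le_valuation (hC : C ≤ M.toSubring) : locAt C M ≤ M.toSubring := by
  rintro x ⟨a, ha, b, hb, hbn, hx⟩
  rw [eq_mul_inv_of_mul_eq hbn hx]
  exact M.mul_mem _ _ (hC ha) (inv_mem_of_notMem_nonunits' hbn)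

/-- The unit criterion in a localisation at the centre. -/
theorem isUnit_locAt_iff (hC : C ≤ M.toSubring) (x : locAt C M) :
    IsUnit x ↔ (x : F) ∉ M.nonunits := by
  constructor
  · intro hu hn
    obtain ⟨y, hy⟩ := hu.exists_right_inv
    refine one_notMem_nonunits M ?_
    rw [← show (x : F) * (y : F) = 1 from congrArg Subtype.val hy]
    exact nonunits_mul_right (locAt_le_valuation hC y.2) hn
  · intro hn
    obtain ⟨a, ha, b, hb, hbn, e⟩ := x.2
    refine isUnit_iff_exists_inv.mpr ⟨⟨(x : F)⁻¹, b, hb, a, ha,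
      e ▸ mul_notMem_nonunits hn hbn, ?_⟩, Subtype.ext ?_⟩
    · rw [← e, ← mul_assoc, inv_mul_cancel₀ (ne_zero_of_notMem_nonunits hn), one_mul]
    · exact mul_inv_cancel₀ (ne_zero_of_notMem_nonunits hn)

theorem isLocalRing_locAt (hC : C ≤ M.toSubring) : IsLocalRing (locAt C M) := by
  refine IsLocalRing.of_nonunits_add fun a b ha hb => ?_
  rw [mem_nonunits_iff, isUnit_locAt_iff hC, not_not] at ha hb ⊢
  rw [Subring.coe_add, ValuationSubring.mem_nonunits_iff]
  exact lt_of_le_of_lt (M.valuation.map_add _ _) (max_lt ha hb)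

theorem mem_maximalIdeal_locAt (hC : C ≤ M.toSubring) (x : locAt C M) :
    haveI := isLocalRing_locAt hC
    x ∈ IsLocalRing.maximalIdeal (locAt C M) ↔ (x : F) ∈ M.nonunits := by
  have := isLocalRing_locAt hC
  rw [IsLocalRing.mem_maximalIdeal, mem_nonunits_iff, isUnit_locAt_iff hC, not_not]

theorem isNoetherianRing_locAt (hC : C ≤ M.toSubring) [IsNoetherianRing C] :
    IsNoetherianRing (locAt C M) := by
  let S : Submonoid C :=
    { carrier := {b | (b : F) ∉ M.nonunits}
      one_mem' := one_notMem_nonunits M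
      mul_mem' := fun ha hb => mul_notMem_nonunits ha hb }
  let : Algebra C (locAt C M) := (Subring.inclusion le_locAt).toAlgebra
  have : IsLocalization S (locAt C M) :=
    { map_units := fun b => (isUnit_locAt_iff hC _).mpr b.2
      surj := fun x => by
        obtain ⟨a, ha, b, hb, hbn, e⟩ := x.2
        exact ⟨(⟨a, ha⟩, ⟨⟨b, hb⟩, hbn⟩), Subtype.ext e⟩
      exists_of_eq := fun {x y} h => ⟨1, by
        rw [show x = y from Subtype.ext (congrArg (fun u : locAt C M => (u : F)) h)]⟩ }
  exact IsLocalization.isNoetherianRing S (locAt C M) inferInstance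

end LocAt

/-- The `W`-algebra generated by a set. -/
def genRing (W : ValuationSubring K) (S : Set F) : Subring F :=
  Subring.closure (Set.range ((algebraMap K F).comp W.subtype) ∪ S)

theorem algebraMap_mem_genRing (S : Set F) (c : W) : algebraMap K F c ∈ genRing W S :=
  Subring.subset_closure (Or.inl ⟨c, rfl⟩)

theorem subset_genRing (S : Set F) : S ⊆ genRing W S :=
  fun _ hx => Subring.subset_closure (Or.inr hx)

theorem isNoetherianRing_genRing [IsNoetherianRing W] {S : Set F} (hS : S.Finite) :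
    IsNoetherianRing (genRing W S) := by
  have : Finite S := hS.to_subtype
  let f : MvPolynomial S W →+* F :=
    MvPolynomial.eval₂Hom ((algebraMap K F).comp W.subtype) (fun s => (s : F))
  have hr : f.range = genRing W S := by
    refine le_antisymm ?_ (Subring.closure_le.mpr ?_)
    · rintro _ ⟨p, rfl⟩
      induction p using MvPolynomial.induction_on with
      | C c => simpa [f] using algebraMap_mem_genRing S c
      | add a b ha hb => rw [map_add]; exact add_mem ha hb
      | mul_X a s ha =>
        rw [map_mul]; exact mul_mem ha (by simpa [f] using subset_genRing S s.2)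
    · rintro x (⟨c, rfl⟩ | hx)
      · exact ⟨MvPolynomial.C c, by simp [f]⟩
      · exact ⟨MvPolynomial.X ⟨x, hx⟩, by simp [f]⟩
  rw [← hr]
  exact isNoetherianRing_of_surjective _ _ f.rangeRestrict f.rangeRestrict_surjective

/-- A nonunit nonzero element of a factorial local ring with a prime other than the closed one
lies in a prime other than the closed one. -/
theorem exists_prime_of_mem {R : Type*} [CommRing R] [IsDomain R] [IsLocalRing R]
    [IsNoetherianRing R] [UniqueFactorizationMonoid R] {z : R} (hz0 : z ≠ 0)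
    (hz : z ∈ IsLocalRing.maximalIdeal R) {P : Ideal R} (hP : P.IsPrime) (hP0 : P ≠ ⊥)
    (hPm : P ≠ IsLocalRing.maximalIdeal R) :
    ∃ Q : Ideal R, Q.IsPrime ∧ z ∈ Q ∧ Q ≠ IsLocalRing.maximalIdeal R := by
  obtain ⟨π, hπ, hπz⟩ := WfDvdMonoid.exists_irreducible_factor
    ((IsLocalRing.mem_maximalIdeal z).mp hz) hz0
  have hp : Prime π := UniqueFactorizationMonoid.irreducible_iff_prime.mp hπ
  refine ⟨Ideal.span {π}, (Ideal.span_singleton_prime hp.ne_zero).mpr hp,
    Ideal.mem_span_singleton.mpr hπz, fun h => hP0 ?_⟩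
  have hle : P ≤ Ideal.span {π} • P := fun x hx => by
    obtain ⟨a, rfl⟩ := Ideal.mem_span_singleton'.mp
      ((IsLocalRing.le_maximalIdeal hP.ne_top).trans h.ge hx)
    have hπP : π ∉ P := fun hh => hPm (le_antisymm (IsLocalRing.le_maximalIdeal hP.ne_top)
      (h ▸ Ideal.span_le.mpr (by simpa using hh)))
    rw [mul_comm, Ideal.smul_eq_mul]
    exact Ideal.mul_mem_mul (Ideal.mem_span_singleton_self π) ((hP.mem_or_mem hx).resolve_right hπP)
  refine Submodule.eq_bot_of_le_smul_of_le_jacobson_bot _ P (IsNoetherian.noetherian P) hle ?_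
  rw [IsLocalRing.jacobson_eq_maximalIdeal ⊥ bot_ne_top, h]

/-- The hypothesis of `locRing_eq_of_generators` on one element. -/
def NearConst (W : ValuationSubring K) {C : Subring F} (M : ValuationSubring F)
    (I : Ideal (locAt C M)) (g : F) : Prop :=
  ∃ (c : W) (h : g - algebraMap K F c ∈ locAt C M), (⟨_, h⟩ : locAt C M) ∈ I

theorem isIntegrallyClosedIn_locRing (_hM : ∀ p : W[X], evW W t p ∈ M) :
    IsIntegrallyClosedIn (locRing W t M) F := by
  refine Subring.isIntegrallyClosedIn_iff.mpr fun {x} hx => ?_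
  obtain ⟨P, hP, hPx⟩ := hx
  -- a common denominator for the coefficients
  choose a ha b hb hbn he using fun i => (P.coeff i).2
  set d := ∏ i ∈ P.support, b i
  have hdC : d ∈ chart W t := prod_mem fun i _ => hb i
  have hdn : d ∉ M.nonunits := by
    refine Finset.prod_induction _ (· ∉ M.nonunits) (fun _ _ => mul_notMem_nonunits)
      (one_notMem_nonunits M) fun i _ => hbn i
  have hcoeff : ∀ i, ((P.coeff i : locRing W t M) : F) * d ∈ chart W t := fun i => by
    by_cases hi : i ∈ P.support
    · simp only [d]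
      rw [← Finset.mul_prod_erase _ _ hi, ← mul_assoc, he i]
      exact mul_mem (ha i) (prod_mem fun k _ => hb k)
    · rw [notMem_support_iff.mp hi, ZeroMemClass.coe_zero, zero_mul]; exact zero_mem _
  have hint : d * x ∈ chart W t := by
    let P' : F[X] := scaleRoots (P.map (locRing W t M).subtype) d
    have hP' : P' ∈ lifts (chart W t).subtype := by
      rw [lifts_iff_coeff_lifts]
      intro i
      refine ⟨⟨P'.coeff i, ?_⟩, rfl⟩
      simp only [P']
      rw [coeff_scaleRoots, coeff_map, hP.natDegree_map]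
      rcases lt_trichotomy i P.natDegree with hlt | rfl | hgt
      · obtain ⟨k, hk⟩ := Nat.exists_eq_add_of_lt hlt
        rw [show P.natDegree - i = k + 1 by omega, pow_succ', ← mul_assoc]
        exact mul_mem (hcoeff i) (pow_mem hdC k)
      · rw [Nat.sub_self, pow_zero, mul_one, hP.coeff_natDegree]
        exact one_mem _
      · rw [coeff_eq_zero_of_natDegree_lt hgt]; simp
    obtain ⟨Q, hQ, -, hQm⟩ := lifts_and_natDegree_eq_and_monic hP'
      ((monic_scaleRoots_iff d).mpr (hP.map _))
    let : Algebra W[X] F := (evW W t).toAlgebra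
    have h1 : IsIntegral (integralClosure W[X] F) (d * x) := by
      refine ⟨Q, hQm, ?_⟩
      show eval₂ (chart W t).subtype (d * x) Q = 0
      rw [eval₂_eq_eval_map, hQ]
      refine scaleRoots_eval₂_eq_zero (RingHom.id F) ?_
      rw [eval₂_map, RingHom.id_comp]; exact hPx
    exact isIntegral_trans (R := W[X]) (A := integralClosure W[X] F) _ h1
  exact ⟨d * x, hint, d, hdC, hdn, mul_comm x d⟩

/-- Membership in the local ring is checked at the valuation rings with the same centre. -/
theorem mem_locRing_of_forall (hM : IsPoint W q t M) {x : F}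
    (h : ∀ M' : ValuationSubring F, IsPoint W q t M' →
      (∀ a ∈ locRing W t M, a ∈ M' ∧ (a ∈ M.nonunits ↔ a ∈ M'.nonunits)) → x ∈ M') :
    x ∈ locRing W t M := by
  by_contra hx
  have hle := locRing_le hM.evW_mem
  have hCM : chart W t ≤ M.toSubring := fun y hy => mem_valuationSubring_of_mem_chart hy hM.evW_mem
  have : IsLocalRing (locRing W t M) := isLocalRing_locAt hCM
  let L : LocalSubring F := { toSubring := locRing W t M }
  have : IsIntegrallyClosedIn L.toSubring F := isIntegrallyClosedIn_locRing hM.evW_mem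
  obtain ⟨B, hB, hxB⟩ := LocalSubring.exists_le_valuationSubring_of_isIntegrallyClosedIn
    (R := L) (x := x) hx
  have hiff : ∀ a ∈ locRing W t M, a ∈ B ∧ (a ∈ M.nonunits ↔ a ∈ B.nonunits) := fun a ha => by
    refine ⟨hB.1 ha, fun hn => ?_, fun hn => ?_⟩
    · rw [ValuationSubring.mem_nonunits_iff_exists_mem_maximalIdeal]
      refine ⟨hB.1 ha, fun hu => ?_⟩
      exact ((isUnit_locAt_iff hCM ⟨a, ha⟩).mp (hB.2.map_nonunit (⟨a, ha⟩ : L.toSubring) hu)) hn
    · by_contra hn'
      have hi := inv_mem_locRing hM.evW_mem ha hn'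
      rcases (ValuationSubring.mem_nonunits_iff_or B).mp hn with h0 | h1
      · exact ne_zero_of_notMem_nonunits hn' h0
      · exact h1 (hB.1 hi)
  refine hxB (h B ⟨fun p => hB.1 (chart_le_locRing (evW_mem_chart p)), ?_, ?_⟩ hiff)
  · exact ((hiff _ (chart_le_locRing (natCast_mem_chart q))).2).mp hM.q_mem
  · obtain ⟨w, hw⟩ := hM.exists_par
    exact ⟨w,
      ((hiff _ (chart_le_locRing (sub_mem par_mem_chart (algebraMap_mem_chart w)))).2).mp hw⟩

theorem genRing_le_locRing {S : Set F} (hS : S ⊆ locRing W t M) :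
    genRing W S ≤ locRing W t M := by
  refine Subring.closure_le.mpr ?_
  rintro x (⟨c, rfl⟩ | hx)
  exacts [chart_le_locRing (algebraMap_mem_chart c), hS hx]

theorem genRing_le {S : Set F} (hM : ∀ p : W[X], evW W t p ∈ M) (hS : S ⊆ locRing W t M) :
    genRing W S ≤ M.toSubring :=
  (genRing_le_locRing hS).trans (locRing_le hM)

section Main

variable [IsAlgClosed (IsLocalRing.ResidueField W)] (hb : BaseData W q) (hc : Cover K t)
variable (hM : IsPoint W q t M) {V : ValuationSubring F} (hV : IsVert W q t V)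
  (hT : Through W t M V)
variable {S : Set F} (hS : S.Finite) (hSR : S ⊆ locRing W t M) (htS : t ∈ S)
variable (hgenF : IntermediateField.adjoin K S = ⊤)

include hb hc hM hS hSR htS hV hT hgenF in
omit [IsAlgClosed (IsLocalRing.ResidueField ↥W)] in
/-- **Local ring from generators.** -/
theorem locRing_eq_of_generators {z w : F} (hzC : z ∈ genRing W S) (hwC : w ∈ genRing W S)
    (hz0 : z ≠ 0) (hzV : z ∈ V.nonunits) (hwM : w ∈ M.nonunits)
    (hgen : haveI := isLocalRing_locAt (M := M) (C := genRing W S) (genRing_le hM.evW_mem hSR)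
      ∀ g ∈ S, NearConst W M
        (Ideal.span {⟨z, le_locAt hzC⟩, ⟨w, le_locAt hwC⟩} ⊔
          IsLocalRing.maximalIdeal (locAt (genRing W S) M) ^ 2) g)
    (hq : haveI := isLocalRing_locAt (M := M) (C := genRing W S) (genRing_le hM.evW_mem hSR)
      (q : locAt (genRing W S) M) ∈ Ideal.span {⟨z, le_locAt hzC⟩, ⟨w, le_locAt hwC⟩} ⊔
          IsLocalRing.maximalIdeal (locAt (genRing W S) M) ^ 2) :
    locRing W t M = locAt (genRing W S) M ∧ UniqueFactorizationMonoid (locRing W t M) ∧
      Gen2 W t M z w := by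
  classical
  have := hb.dvr
  set C := genRing W S with hCdef
  have hCR : C ≤ locRing W t M := genRing_le_locRing hSR
  have hC : C ≤ M.toSubring := genRing_le hM.evW_mem hSR
  have := isNoetherianRing_genRing (W := W) hS
  have := isNoetherianRing_locAt (M := M) hC
  have := isLocalRing_locAt (M := M) hC
  set L := locAt C M with hL
  have hLR : L ≤ locRing W t M := (locAt_mono hCR).trans locAt_locAt
  have hLV : L ≤ V.toSubring := hLR.trans (hT.locRing_le hV.evW_mem)
  set z' : L := ⟨z, le_locAt hzC⟩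
  set w' : L := ⟨w, le_locAt hwC⟩
  set 𝔪 := IsLocalRing.maximalIdeal L
  set I := Ideal.span {z', w'} ⊔ 𝔪 ^ 2 with hI
  have hzM : z ∈ M.nonunits := hT.nonunits hM.evW_mem (hCR hzC) hzV hV.evW_mem
  have hIm : I ≤ 𝔪 := by
    refine sup_le ?_ (Ideal.pow_le_self two_ne_zero)
    rw [Ideal.span_le]
    rintro _ (rfl | rfl)
    exacts [(mem_maximalIdeal_locAt hC _).mpr hzM, (mem_maximalIdeal_locAt hC _).mpr hwM]
  let cst : W →+* L := ((algebraMap K F).comp W.subtype).codRestrict L fun c =>
    le_locAt (algebraMap_mem_genRing S c)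
  have hnear : ∀ a : F, ∀ ha : a ∈ C, ∃ c : W, (⟨a, le_locAt ha⟩ : L) - cst c ∈ I := by
    intro a ha
    have : a ∈ Subring.closure (Set.range ((algebraMap K F).comp W.subtype) ∪ S) := ha
    induction this using Subring.closure_induction with
    | mem x hx =>
      rcases hx with ⟨c, rfl⟩ | hx
      · exact ⟨c, by convert I.zero_mem; exact sub_eq_zero.mpr (Subtype.ext rfl)⟩
      · obtain ⟨c, h, hmem⟩ := hgen x hx
        exact ⟨c, hmem⟩
    | zero => exact ⟨0, by rw [map_zero, sub_zero]; convert I.zero_mem; simp⟩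
    | one => exact ⟨1, by rw [map_one]; convert I.zero_mem; exact sub_eq_zero.mpr (Subtype.ext rfl)⟩
    | add x y hx hy ihx ihy =>
      obtain ⟨c, hc'⟩ := ihx hx; obtain ⟨d, hd⟩ := ihy hy
      refine ⟨c + d, ?_⟩
      convert I.add_mem hc' hd using 1
      refine Subtype.ext ?_
      simp only [map_add, AddSubgroupClass.coe_sub, Subring.coe_add]; ring
    | neg x hx ihx =>
      obtain ⟨c, hc'⟩ := ihx hx
      refine ⟨-c, ?_⟩
      convert I.neg_mem hc' using 1
      refine Subtype.ext ?_
      simp only [map_neg, AddSubgroupClass.coe_sub, Subring.coe_neg]; ring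
    | mul x y hx hy ihx ihy =>
      obtain ⟨c, hc'⟩ := ihx hx; obtain ⟨d, hd⟩ := ihy hy
      refine ⟨c * d, ?_⟩
      convert I.add_mem (I.mul_mem_right ⟨y, le_locAt hy⟩ hc') (I.mul_mem_left (cst c) hd) using 1
      refine Subtype.ext ?_
      simp only [map_mul, AddSubgroupClass.coe_sub, Subring.coe_add, Subring.coe_mul]; ring
  have hqI : ∀ c : W, algebraMap K F c ∈ M.nonunits → cst c ∈ I := by
    intro c hcn
    have hcm : c ∈ IsLocalRing.maximalIdeal W := by
      rw [IsLocalRing.mem_maximalIdeal]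
      intro hu
      exact (isUnit_locAt_iff hC _).mp (hu.map cst) hcn
    rw [hb.uniformizer, Ideal.mem_span_singleton'] at hcm
    obtain ⟨d, rfl⟩ := hcm
    rw [map_mul, map_natCast]
    exact I.mul_mem_left _ hq
  have hmI : 𝔪 ≤ Ideal.span {z', w'} ⊔ 𝔪 • 𝔪 := by
    intro x hx
    rw [smul_eq_mul, ← pow_two, ← hI]
    obtain ⟨a, ha, b, hb', hbn, e⟩ := x.2
    have hbu : IsUnit (⟨b, le_locAt hb'⟩ : L) := (isUnit_locAt_iff hC _).mpr hbn
    rw [← Ideal.mul_unit_mem_iff_mem I hbu, show x * ⟨b, le_locAt hb'⟩ = (⟨a, le_locAt ha⟩ : L) from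
      Subtype.ext e]
    obtain ⟨c, hc'⟩ := hnear a ha
    have hcm : cst c ∈ 𝔪 := by
      rw [show cst c = (⟨a, le_locAt ha⟩ : L) - ((⟨a, le_locAt ha⟩ : L) - cst c) by ring]
      refine sub_mem ?_ (hIm hc')
      rw [show (⟨a, le_locAt ha⟩ : L) = x * ⟨b, le_locAt hb'⟩ from Subtype.ext e.symm]
      exact Ideal.mul_mem_right _ _ hx
    have := I.add_mem hc' (hqI c ((mem_maximalIdeal_locAt hC _).mp hcm))
    rwa [sub_add_cancel] at this
  have hm : 𝔪 = Ideal.span {z', w'} := by
    refine le_antisymm (Submodule.le_of_le_smul_of_le_jacobson_bot (IsNoetherian.noetherian 𝔪)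
      ?_ hmI)
      (le_sup_left.trans hIm)
    rw [IsLocalRing.jacobson_eq_maximalIdeal ⊥ bot_ne_top]
  let P : Ideal L := (IsLocalRing.maximalIdeal V).comap (Subring.inclusion hLV)
  have hmemP : ∀ x : L, x ∈ P ↔ (x : F) ∈ V.nonunits := fun x => by
    rw [Ideal.mem_comap, ValuationSubring.mem_nonunits_iff_exists_mem_maximalIdeal]
    exact ⟨fun h => ⟨hLV x.2, h⟩, fun ⟨_, h⟩ => h⟩
  obtain ⟨w₀, hw₀⟩ := hM.exists_par
  have htw : t - algebraMap K F w₀ ∈ L :=
    le_locAt (sub_mem (subset_genRing S htS) (algebraMap_mem_genRing S w₀))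
  have hPm : P ≠ 𝔪 := fun h => hV.par_sub_notMem hc.transcendental w₀
    ((hmemP ⟨_, htw⟩).mp (h ▸ (mem_maximalIdeal_locAt hC _).mpr hw₀))
  have hz' : z' ≠ 0 := fun h => hz0 (congrArg Subtype.val h)
  have hufd := uniqueFactorizationMonoid_of_two_generated hm (Ideal.comap_isPrime _ _)
    ((hmemP z').mpr hzV) hPm hz'
  have : IsFractionRing L F := by
    have : FaithfulSMul L F := (faithfulSMul_iff_algebraMap_injective _ _).mpr Subtype.val_injective
    refine IsFractionRing.of_field _ _ fun x => ?_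
    let Z : IntermediateField K F :=
      { carrier := {x | ∃ a b : L, (b : F) ≠ 0 ∧ x = (a : F) / b}
        mul_mem' := by
          rintro _ _ ⟨a, b, hb', rfl⟩ ⟨a', b', hb'', rfl⟩
          exact ⟨a * a', b * b', by simp [hb', hb''], by simp [div_mul_div_comm]⟩
        one_mem' := ⟨1, 1, by simp, by simp⟩
        add_mem' := by
          rintro _ _ ⟨a, b, hb', rfl⟩ ⟨a', b', hb'', rfl⟩
          exact ⟨a * b' + b * a', b * b', by simp [hb', hb''], by simp [div_add_div _ _ hb' hb'']⟩
        zero_mem' := ⟨0, 1, by simp, by simp⟩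
        algebraMap_mem' := fun k => by
          obtain ⟨u, v, hv, rfl⟩ := IsFractionRing.div_surjective (A := W) k
          refine ⟨cst u, cst v, fun h => nonZeroDivisors.ne_zero hv ?_, map_div₀ _ _ _⟩
          exact Subtype.ext ((algebraMap K F).injective (h.trans (map_zero _).symm))
        inv_mem' := by
          rintro _ ⟨a, b, hb', rfl⟩
          rcases eq_or_ne (a : F) 0 with h | h
          · exact ⟨0, 1, by simp, by simp [h]⟩
          · exact ⟨b, a, h, inv_div _ _⟩ }
    have hZ : (⊤ : IntermediateField K F) ≤ Z := hgenF ▸ adjoin_le_iff.mpr fun s hs =>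
      ⟨⟨s, le_locAt (subset_genRing S hs)⟩, 1, by simp, by simp⟩
    obtain ⟨a, b, -, rfl⟩ := hZ (IntermediateField.mem_top (x := x))
    exact ⟨a, b, rfl⟩
  have hev : ∀ p : W[X], evW W t p ∈ L := fun p => le_locAt (by
    induction p using Polynomial.induction_on with
    | C c => rw [evW_C]; exact algebraMap_mem_genRing S c
    | add p r hp hr => rw [map_add]; exact add_mem hp hr
    | monomial n c h =>
      rw [pow_succ, ← mul_assoc, map_mul, evW_X]; exact mul_mem h (subset_genRing S htS))
  have hchart : chart W t ≤ L := fun x hx => mem_of_root_evW hx hev fun y hy => by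
    obtain ⟨u, rfl⟩ := IsIntegrallyClosed.isIntegral_iff.mp hy
    exact u.2
  have heq : locRing W t M = L := le_antisymm ((locAt_mono hchart).trans locAt_locAt) hLR
  refine ⟨heq, by rw [heq]; exact hufd, ?_⟩
  rw [Gen2, heq]
  refine ⟨le_locAt hzC, hzM, le_locAt hwC, hwM, fun x hx hxn => ?_⟩
  have : (⟨x, hx⟩ : L) ∈ Ideal.span {z', w'} := hm ▸ (mem_maximalIdeal_locAt hC _).mpr hxn
  obtain ⟨a, b, hab⟩ := Ideal.mem_span_pair.mp this
  exact ⟨a, a.2, b, b.2, (congrArg Subtype.val hab).symm⟩

end Main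

end Fermat.Agent.Carayol
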