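import Fermat.Agent.Carayol.Charts
import Fermat.Agent.Carayol.LocalGen

/-!
# Points in both charts

Points at which the parameter is a unit belong to both charts, with the same local ring and the
same components.

Main result: `GoodPoint.inv`.
-/

set_option autoImplicit false

open Polynomial

namespace Fermat.Agent.Carayol

variable {K F : Type*} [Field K] [Field F] [Algebra K F]
variable {W : ValuationSubring K} {q : ℕ} {t : F} {M : ValuationSubring F}
variable (hb : BaseData W q) (hM : IsPoint W q t M) (ht : t ∉ M.nonunits)

include hb hM ht in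
/-- A point at which the parameter is a unit is a point of the other chart. -/
theorem IsPoint.inv : IsPoint W q t⁻¹ M := by
  have ht0 : t ≠ 0 := ne_zero_of_notMem_nonunits ht
  have hW : ∀ w : W, algebraMap K F w ∈ M := fun w => by simpa [evW_C] using hM.evW_mem (C w)
  refine ⟨fun p => ?_, hM.q_mem, ?_⟩
  · induction p using Polynomial.induction_on with
    | C c => rw [evW_C]; exact hW c
    | add p r hp hr => rw [map_add]; exact add_mem hp hr
    | monomial n c h =>
      rw [pow_succ, ← mul_assoc, map_mul, evW_X]
      exact mul_mem h (inv_mem_of_notMem_nonunits' ht)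
  · obtain ⟨w, hw⟩ := hM.exists_par
    have hwn : algebraMap K F w ∉ M.nonunits := fun h => ht (by simpa using add_mem hw h)
    have hinv : (w : K)⁻¹ ∈ W := by
      have : ((w : K)⁻¹) ∈ M.comap (algebraMap K F) := by
        rw [ValuationSubring.mem_comap, map_inv₀]
        exact inv_mem_of_notMem_nonunits' hwn
      rwa [IsPoint.comap_algebraMap hb hM] at this
    have hw0 : algebraMap K F w ≠ 0 := ne_zero_of_notMem_nonunits hwn
    refine ⟨⟨_, hinv⟩, ?_⟩
    simp only [map_inv₀]
    rw [inv_sub_inv ht0 hw0, div_eq_mul_inv]
    refine nonunits_mul_right ?_ ?_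
    · rw [mul_inv]
      exact mul_mem (inv_mem_of_notMem_nonunits' ht) (inv_mem_of_notMem_nonunits' hwn)
    · rw [← neg_sub]; exact neg_mem hw

include hM ht in
theorem chart_inv_le_locRing : chart W t⁻¹ ≤ locRing W t M := by
  intro x hx
  refine mem_of_root_evW hx (fun p => ?_) fun y hy => ?_
  · induction p using Polynomial.induction_on with
    | C c => rw [evW_C]; exact chart_le_locRing (algebraMap_mem_chart c)
    | add p r hp hr => rw [map_add]; exact add_mem hp hr
    | monomial n c h =>
      rw [pow_succ, ← mul_assoc, map_mul, evW_X]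
      exact mul_mem h (inv_mem_locRing hM.evW_mem (chart_le_locRing par_mem_chart) ht)
  · exact (Subring.isIntegrallyClosedIn_iff.mp (isIntegrallyClosedIn_locRing hM.evW_mem)) hy

include hM ht in
theorem inv_notMem_nonunits : t⁻¹ ∉ M.nonunits := fun h => by
  rcases (ValuationSubring.mem_nonunits_iff_or M).mp h with h0 | h1
  · exact ne_zero_of_notMem_nonunits ht (inv_eq_zero.mp h0)
  · rw [inv_inv] at h1
    exact h1 (by simpa [evW_X] using hM.evW_mem X)

include hb hM ht in
theorem locRing_inv : locRing W t⁻¹ M = locRing W t M := by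
  refine le_antisymm ((locAt_mono (chart_inv_le_locRing hM ht)).trans locAt_locAt) ?_
  have h := chart_inv_le_locRing (hM.inv hb ht) (inv_notMem_nonunits hM ht)
  rw [inv_inv] at h
  exact (locAt_mono h).trans locAt_locAt

include hb hM ht in
theorem through_inv (hT : Transcendental K t) {V : ValuationSubring F} (hV : IsVert W q t V) :
    Through W t⁻¹ M V ↔ Through W t M V := by
  constructor
  · intro h x hx hxV
    have hM' := hM.inv hb ht
    refine h.nonunits hM'.evW_mem ?_ hxV ((isVert_inv_iff hT).mpr hV).evW_mem
    rw [locRing_inv hb hM ht]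
    exact chart_le_locRing hx
  · intro h x hx hxV
    exact h.nonunits hM.evW_mem (chart_inv_le_locRing hM ht hx) hxV hV.evW_mem

include hb hM ht in
/-- A good point where the parameter is a unit is good in the other chart. -/
theorem GoodPoint.inv (hT : Transcendental K t) (h : GoodPoint W q t M) :
    GoodPoint W q t⁻¹ M where
  exists_gen V hV hTh := by
    have hV' := (isVert_inv_iff hT).mp hV
    obtain ⟨z, w, hz, hg⟩ := h.exists_gen V hV' ((through_inv hb hM ht hT hV').mp hTh)
    exact ⟨z, w, hz, by unfold Gen2; rw [locRing_inv hb hM ht]; exact hg⟩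
  cross V V' hV hTh hV' hTh' hne := by
    have h₁ := (isVert_inv_iff hT).mp hV
    have h₂ := (isVert_inv_iff hT).mp hV'
    rw [locRing_inv hb hM ht]
    exact h.cross V V' h₁ ((through_inv hb hM ht hT h₁).mp hTh) h₂
      ((through_inv hb hM ht hT h₂).mp hTh') hne

end Fermat.Agent.Carayol
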