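import Fermat.Agent.Carayol.DivModField
import Mathlib.Algebra.DualNumber
import Mathlib.RingTheory.Polynomial.Basic

/-!
# The Hasse coefficient of the Legendre curve

The Legendre curve in odd characteristic `q`: the Hasse coefficient has degree `(q - 1) / 2` in
the parameter, does not vanish at `0` and `1`, and has simple zeros; the parameter is the `q`th
power of `xiOf`, an explicit expression in the abscissae of a point of order `q`.

Main result: `not_sq_dvd_topCoeff`.
-/

set_option autoImplicit false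

open Polynomial WeierstrassCurve

namespace Fermat.Agent.Carayol

/-- `y² = x (x - 1) (x - t)`. -/
def legendreAt {R : Type*} [CommRing R] (t : R) : WeierstrassCurve R := ⟨0, -(1 + t), 0, t, 0⟩

section Ring

variable {R S : Type*} [CommRing R] [CommRing S] (t : R)

theorem map_legendreAt (f : R →+* S) : (legendreAt t).map f = legendreAt (f t) := by
  ext <;> simp [legendreAt]

theorem legendreAt_Δ : (legendreAt t).Δ = 16 * (t * (t - 1)) ^ 2 := by
  simp only [legendreAt, WeierstrassCurve.Δ, WeierstrassCurve.b₂, WeierstrassCurve.b₄,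
    WeierstrassCurve.b₆, WeierstrassCurve.b₈]
  ring

theorem legendreAt_Ψ₂Sq : (legendreAt t).Ψ₂Sq = C 4 * (X * (X - 1) * (X - C t)) := by
  simp only [legendreAt, Ψ₂Sq, WeierstrassCurve.b₂, WeierstrassCurve.b₄, WeierstrassCurve.b₆,
    map_add, map_mul, map_pow, map_neg, map_ofNat, map_one, map_zero]
  ring

/-- The Hasse coefficient of the Legendre curve is that of `(x - 1)^m (x - t)^m` at `x^m`. -/
theorem hasseCoeff_legendreAt {q m : ℕ} (hm : q = 2 * m + 1) :
    hasseCoeff (legendreAt t) q = 4 ^ m * ((X - 1) ^ m * (X - C t) ^ m : R[X]).coeff m := by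
  rw [hasseCoeff, show (q - 1) / 2 = m by omega, legendreAt_Ψ₂Sq, mul_pow, ← C_pow, coeff_C_mul,
    show q - 1 = m + m by omega, mul_assoc, mul_pow, mul_pow, coeff_X_pow_mul]

end Ring

section Values

variable {k : Type*} [Field k] {q m : ℕ} [Fact q.Prime] [CharP k q]

theorem four_ne_zero' (h2 : q ≠ 2) : (4 : k) ≠ 0 := by
  rw [show (4 : k) = 2 * 2 by norm_num]
  exact mul_ne_zero (two_ne_zero_of_charP (q := q) h2) (two_ne_zero_of_charP (q := q) h2)

theorem isElliptic_legendreAt (h2 : q ≠ 2) {t : k} (h0 : t ≠ 0) (h1 : t ≠ 1) :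
    (legendreAt t).IsElliptic := by
  rw [isElliptic_iff, legendreAt_Δ, isUnit_iff_ne_zero]
  refine mul_ne_zero ?_ (pow_ne_zero 2 (mul_ne_zero h0 (sub_ne_zero.mpr h1)))
  rw [show (16 : k) = 4 * 4 by norm_num]
  exact mul_ne_zero (four_ne_zero' h2) (four_ne_zero' h2)

theorem hasseCoeff_legendreAt_zero (h2 : q ≠ 2) :
    hasseCoeff (legendreAt (0 : k)) q ≠ 0 := by
  obtain ⟨m, hm⟩ := odd_of_ne_two (q := q) h2
  rw [hasseCoeff_legendreAt 0 hm, map_zero, sub_zero]
  refine mul_ne_zero (pow_ne_zero m (four_ne_zero' h2)) ?_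
  conv_lhs => arg 2; rw [← zero_add m]
  rw [coeff_mul_X_pow, sub_eq_add_neg, ← map_one C, ← map_neg, coeff_X_add_C_pow]
  simp

theorem hasseCoeff_legendreAt_one (h2 : q ≠ 2) :
    hasseCoeff (legendreAt (1 : k)) q ≠ 0 := by
  obtain ⟨m, hm⟩ := odd_of_ne_two (q := q) h2
  rw [hasseCoeff_legendreAt 1 hm, map_one, ← pow_add, sub_eq_add_neg, ← map_one C, ← map_neg,
    coeff_X_add_C_pow, Nat.add_sub_cancel]
  refine mul_ne_zero (pow_ne_zero m (four_ne_zero' h2))
    (mul_ne_zero (pow_ne_zero m (by simp)) fun h => ?_)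
  rw [CharP.cast_eq_zero_iff k q] at h
  have := (Fact.out : q.Prime).dvd_factorial.mp
    (h.trans ⟨m.factorial * m.factorial, by
      rw [← mul_assoc, Nat.add_choose_mul_factorial_mul_factorial]⟩)
  omega

theorem coeff_hasseCoeff_legendreAt_X (h2 : q ≠ 2) :
    (hasseCoeff (legendreAt (X : k[X])) q).coeff ((q - 1) / 2) ≠ 0 := by
  obtain ⟨m, hm⟩ := odd_of_ne_two (q := q) h2
  rw [hasseCoeff_legendreAt X hm, show (q - 1) / 2 = m by omega,
    show (4 : k[X]) ^ m = C (4 ^ m) by rw [map_pow, map_ofNat], coeff_C_mul]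
  refine mul_ne_zero (pow_ne_zero m (four_ne_zero' h2)) ?_
  have hX1 : (X - 1 : k[X][X]) = X + C (-1) := by rw [map_neg, map_one, sub_eq_add_neg]
  have hXX : (X - C X : k[X][X]) = X + C (-X) := by rw [map_neg, sub_eq_add_neg]
  rw [hX1, hXX, coeff_mul, finsetSum_coeff]
  have e : ∀ i j : ℕ, ((X + C (-1) : k[X][X]) ^ m).coeff i * ((X + C (-X) : k[X][X]) ^ m).coeff j =
      C ((-1) ^ (m - i) * (m.choose i : k) * ((-1) ^ (m - j) * (m.choose j : k))) *
        X ^ (m - j) := by
    intro i j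
    rw [coeff_X_add_C_pow, coeff_X_add_C_pow, neg_pow (X : k[X])]
    simp only [map_mul, map_pow, map_neg, map_one, map_natCast]
    ring
  simp only [e, coeff_C_mul, coeff_X_pow]
  rw [Finset.sum_eq_single (m, 0)]
  · simp
  · rintro ⟨i, j⟩ hij hne
    rw [Finset.HasAntidiagonal.mem_antidiagonal] at hij
    rw [if_neg fun h => hne (by
      rcases Nat.eq_zero_or_pos j with rfl | hj
      · simp at hij; rw [hij]
      · simp at hij h; omega), mul_zero]
  · intro h
    exact absurd (Finset.HasAntidiagonal.mem_antidiagonal.mpr (add_zero m)) h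

theorem natDegree_hasseCoeff_legendreAt_X (h2 : q ≠ 2) :
    (q - 1) / 2 ≤ (hasseCoeff (legendreAt (X : k[X])) q).natDegree :=
  le_natDegree_of_ne_zero (coeff_hasseCoeff_legendreAt_X h2)

end Values

section Points

variable {k : Type*} [Field k] [DecidableEq k]

omit [DecidableEq k] in
theorem nonsingular_twoTorsion {t e : k} [(legendreAt t).IsElliptic]
    (he : e = 0 ∨ e = 1 ∨ e = t) : (legendreAt t).toAffine.Nonsingular e 0 := by
  refine Affine.equation_iff_nonsingular.mp ?_
  rw [Affine.equation_iff]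
  rcases he with rfl | rfl | rfl <;> simp [legendreAt]
  all_goals ring

theorem two_nsmul_twoTorsion {t e : k} [(legendreAt t).IsElliptic]
    (he : e = 0 ∨ e = 1 ∨ e = t) :
    2 • (Affine.Point.some e 0 (nonsingular_twoTorsion he) : (legendreAt t).toAffine.Point)
      = 0 := by
  rw [two_nsmul_eq_zero_iff, legendreAt_Ψ₂Sq]
  rcases he with rfl | rfl | rfl <;> simp

variable {q : ℕ} [Fact q.Prime] [CharP k q] (h2 : q ≠ 2)

include h2

theorem eval_redN_twoTorsion {t e : k} [(legendreAt t).IsElliptic]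
    (he : e = 0 ∨ e = 1 ∨ e = t) :
    (redN (legendreAt t) q).eval (e ^ q) = e * (redH (legendreAt t) q).eval (e ^ q) ^ 2 := by
  obtain ⟨m, hm⟩ := odd_of_ne_two (q := q) h2
  refine eval_redN h2 (nonsingular_twoTorsion he) (nonsingular_twoTorsion he) ?_
  rw [hm, succ_nsmul, mul_nsmul, two_nsmul_twoTorsion he, smul_zero, zero_add]

/-- The `q`th root of the parameter attached to a point of order `q`. -/
noncomputable def xiOf {F : Type*} [Field F] [DecidableEq F] (q : ℕ) (t : F)
    {W : WeierstrassCurve F} (T P : W.toAffine.Point) : F :=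
  t * ∏ i ∈ Finset.Icc 1 ((q - 1) / 2),
    ((t - xOf (T + i • P)) * (1 - xOf (i • P)) / ((t - xOf (i • P)) * (1 - xOf (T + i • P)))) ^ 2

omit [Fact (Nat.Prime q)] [CharP k q] h2 in
theorem xOf_ne_of_order {t e : k} [(legendreAt t).IsElliptic] (he : e = 0 ∨ e = 1 ∨ e = t)
    {Q : (legendreAt t).toAffine.Point} (hQ0 : Q ≠ 0) (hQ : 2 • Q ≠ 0) : xOf Q ≠ e := by
  intro h
  rcases Q with _ | ⟨x, y, hxy⟩
  · exact hQ0 rfl
  rw [xOf_some] at h
  subst h
  refine hQ ((two_nsmul_eq_zero_iff hxy).mpr ?_)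
  rw [legendreAt_Ψ₂Sq]
  rcases he with rfl | rfl | rfl <;> simp

/-- **The parameter is a `q`th power.** -/
theorem xiOf_pow {t : k} [(legendreAt t).IsElliptic] {P : (legendreAt t).toAffine.Point}
    (hP : P ≠ 0) (hq : q • P = 0) :
    xiOf q t (Affine.Point.some 0 0 (nonsingular_twoTorsion (Or.inl rfl))) P ^ q = t := by
  set T : (legendreAt t).toAffine.Point :=
    Affine.Point.some 0 0 (nonsingular_twoTorsion (Or.inl rfl)) with hT
  set s := Finset.Icc 1 ((q - 1) / 2) with hs
  have hT2 : 2 • T = 0 := two_nsmul_twoTorsion (Or.inl rfl)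
  have hh := redH_eq_prod h2 hP hq
  have hN := redN_sub_eq_prod h2 hP hq (nonsingular_twoTorsion (Or.inl rfl)) hT2
  rw [map_zero, zero_mul, sub_zero, zero_pow (Fact.out : q.Prime).ne_zero, map_zero, sub_zero,
    ← hT, ← hs] at hN
  rw [← hs] at hh
  set L := topCoeff (legendreAt t) q
  have hL : L ≠ 0 := topCoeff_ne_zero_of_torsion h2 hP hq
  have h1 := eval_redN_twoTorsion h2 (t := t) (e := 1) (Or.inr (Or.inl rfl))
  have ht := eval_redN_twoTorsion h2 (t := t) (e := t) (Or.inr (Or.inr rfl))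
  rw [hh, hN] at h1 ht
  simp only [eval_mul, eval_prod, eval_pow, eval_sub, eval_X, eval_C, one_pow, one_mul] at h1 ht
  have hne : ∀ e : k, (e = 0 ∨ e = 1 ∨ e = t) → ∀ i ∈ s,
      e - xOf (i • P) ≠ 0 ∧ e - xOf (T + i • P) ≠ 0 := by
    intro e he i hi
    rw [hs, Finset.mem_Icc] at hi
    have hi0 : i • P ≠ 0 := fun h => by
      have := Nat.le_of_dvd (by omega) ((smul_eq_zero_iff_dvd hP hq i).mp h); omega
    have hi2 : 2 • i • P ≠ 0 := fun h => by
      rw [smul_smul, smul_eq_zero_iff_dvd hP hq] at h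
      rcases (Fact.out : q.Prime).dvd_mul.mp h with h | h
      · exact h2 ((Nat.prime_dvd_prime_iff_eq Fact.out Nat.prime_two).mp h)
      · exact hi0 ((smul_eq_zero_iff_dvd hP hq i).mpr h)
    have hTi : 2 • (T + i • P) ≠ 0 := by rwa [smul_add, hT2, zero_add]
    exact ⟨sub_ne_zero.mpr (xOf_ne_of_order he hi0 hi2).symm,
      sub_ne_zero.mpr (xOf_ne_of_order he (fun h => hTi (by rw [h, smul_zero])) hTi).symm⟩
  have hfr : ∀ a b : k, a ^ q - b ^ q = (a - b) ^ q := fun a b => (sub_pow_char a b).symm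
  have hfr1 : ∀ b : k, 1 - b ^ q = (1 - b) ^ q := fun b => by rw [← hfr, one_pow]
  simp only [hfr, hfr1, Finset.prod_pow] at h1 ht
  rw [xiOf, ← hs, mul_pow, ← Finset.prod_pow]
  simp only [div_pow, mul_pow, Finset.prod_div_distrib, Finset.prod_mul_distrib, Finset.prod_pow]
  set A := ∏ i ∈ s, (t - xOf (T + i • P))
  set B := ∏ i ∈ s, (t - xOf (i • P))
  set A₁ := ∏ i ∈ s, (1 - xOf (T + i • P))
  set B₁ := ∏ i ∈ s, (1 - xOf (i • P))
  have hB : B ≠ 0 := Finset.prod_ne_zero_iff.mpr fun i hi => (hne t (by tauto) i hi).1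
  have hA₁ : A₁ ≠ 0 := Finset.prod_ne_zero_iff.mpr fun i hi => (hne 1 (by tauto) i hi).2
  rw [mul_div_assoc', div_eq_iff (mul_ne_zero (pow_ne_zero _ (pow_ne_zero _ hB))
    (pow_ne_zero _ (pow_ne_zero _ hA₁)))]
  linear_combination ((B₁ ^ 2) ^ q) * ht - (t * (B ^ 2) ^ q) * h1

end Points

section SimpleZero

variable {k : Type*} [Field k] [IsAlgClosed k] {q : ℕ} [Fact q.Prime] [CharP k q]

omit [IsAlgClosed k] [CharP k q] in
theorem redV_dvd_of_prime {R : Type*} [CommRing R] [IsDomain R] [CharP R q] (U : WeierstrassCurve R)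
    (h2 : q ≠ 2) {p : R} (hp₀ : Prime p) (hsq : p ^ 2 ∣ topCoeff U q) (h4 : IsUnit (4 : R)) :
    C p ^ 2 ∣ redV U q := by
  have hp : Prime (C p : R[X]) := prime_C_iff.mpr hp₀
  have hf : ¬C p ∣ U.Ψ₂Sq.map (frobenius R q) := fun hd => by
    have := (C_dvd_iff_dvd_coeff _ _).mp hd 3
    rw [coeff_map, U.coeff_Ψ₂Sq, map_ofNat] at this
    exact hp₀.not_isUnit (isUnit_of_dvd_unit this h4)
  obtain ⟨c, hc⟩ := hsq
  have hH : C (hasseCoeff U q) ^ 2 = C p ^ 4 * C (c ^ 2) := by
    rw [← C_pow, ← topCoeff_sq U h2, hc, ← C_pow, ← C_mul]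
    congr 1
    ring
  have h4' : C p ^ 4 ∣ redV U q ^ 2 :=
    hp.pow_dvd_of_dvd_mul_right 4 hf ⟨C (c ^ 2) * redG U q, by
      rw [redV_sq_mul U h2, hH, mul_assoc]⟩
  obtain ⟨V₁, hV₁⟩ := hp.dvd_of_dvd_pow ((dvd_pow_self _ (by norm_num)).trans h4')
  rw [hV₁, mul_pow, show (4 : ℕ) = 2 + 2 by norm_num, pow_add] at h4'
  obtain ⟨V₂, hV₂⟩ := hp.dvd_of_dvd_pow ((dvd_pow_self _ (by norm_num)).trans
    ((mul_dvd_mul_iff_left (pow_ne_zero 2 hp.ne_zero)).mp h4'))
  exact ⟨V₂, by rw [hV₁, hV₂]; ring⟩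

omit [IsAlgClosed k] in
/-- First order deformations of a supersingular fibre with `V = 0` are trivial. -/
theorem eq_C_of_redV_eq_zero {m : ℕ} (hm : q = 2 * m + 1) {N H : (DualNumber k)[X]}
    (hNle : N.natDegree ≤ q) (hHle : H.natDegree ≤ m) (hNq : N.coeff q = 1)
    (hHsmall : ∀ j, 0 < j → (H.coeff j).fst = 0) (hH0 : (H.coeff 0).fst ≠ 0)
    (hN'small : ∀ j, ((derivative N).coeff j).fst = 0)
    (hVD : derivative N * H - 2 * N * derivative H = 0) :
    H = C (H.coeff 0) ∧ N = X ^ q + C (N.coeff 0) := by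
  have hq : q ≠ 0 := (Fact.out : q.Prime).ne_zero
  have hcastu : ∀ j : ℕ, 0 < j → j < q → IsUnit (j : DualNumber k) := fun j h1 h2 => by
    rw [TrivSqZeroExt.isUnit_iff_isUnit_fst, TrivSqZeroExt.fst_natCast, isUnit_iff_ne_zero, Ne,
      CharP.cast_eq_zero_iff k q]
    exact fun h => absurd (Nat.le_of_dvd h1 h) (by omega)
  have heps : ∀ x y : DualNumber k, x.fst = 0 → y.fst = 0 → x * y = 0 := fun x y hx hy => by
    ext <;> simp [hx, hy]
  have hN'le : ∀ j, q - 1 ≤ j → (derivative N).coeff j = 0 := fun j hj => by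
    rw [coeff_derivative]
    rcases eq_or_ne (j + 1) q with e | e
    · rw [show (j : DualNumber k) + 1 = ((j + 1 : ℕ) : DualNumber k) by push_cast; ring, e]
      have : ((q : ℕ) : DualNumber k) = 0 := by ext <;> simp
      rw [this, mul_zero]
    · rw [coeff_eq_zero_of_natDegree_lt (by omega), zero_mul]
  have hHC : ∀ j, 0 < j → H.coeff j = 0 := by
    intro j hj
    rcases lt_or_ge m j with hjm | hjm
    · exact coeff_eq_zero_of_natDegree_lt (by omega)
    have hc := congrArg (coeff · (q + (j - 1))) hVD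
    simp only [coeff_sub, coeff_zero] at hc
    have e1 : (derivative N * H).coeff (q + (j - 1)) = 0 := by
      rw [coeff_mul]
      refine Finset.sum_eq_zero fun x hx => ?_
      rw [Finset.HasAntidiagonal.mem_antidiagonal] at hx
      rcases lt_or_ge x.1 (q - 1) with h | h
      · exact heps _ _ (hN'small _) (hHsmall _ (by omega))
      · rw [hN'le _ h, zero_mul]
    have e2 : (2 * N * derivative H).coeff (q + (j - 1)) = 2 * (derivative H).coeff (j - 1) := by
      rw [mul_assoc, show (2 : (DualNumber k)[X]) = C 2 by rw [map_ofNat], coeff_C_mul, coeff_mul,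
        Finset.sum_eq_single (q, j - 1)]
      · rw [hNq, one_mul]
      · rintro ⟨x, y⟩ hx hne
        rw [Finset.HasAntidiagonal.mem_antidiagonal] at hx
        rcases lt_trichotomy x q with h | h | h
        · rw [coeff_derivative]
          rcases Nat.eq_zero_or_pos x with rfl | hx0
          · rw [coeff_eq_zero_of_natDegree_lt (p := H)
              (show H.natDegree < y + 1 by simp at hx; omega), zero_mul, mul_zero]
          · refine heps _ _ ?_ (by rw [TrivSqZeroExt.fst_mul, hHsmall _ y.succ_pos, zero_mul])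
            have hN := hN'small (x - 1)
            rw [coeff_derivative, show x - 1 + 1 = x by omega, TrivSqZeroExt.fst_mul,
              mul_eq_zero] at hN
            refine hN.resolve_right fun h0 => ?_
            rw [show ((x - 1 : ℕ) : DualNumber k) + 1 = ((x : ℕ) : DualNumber k) by
              rw [Nat.cast_sub hx0, Nat.cast_one, sub_add_cancel], TrivSqZeroExt.fst_natCast,
              CharP.cast_eq_zero_iff k q] at h0
            exact absurd (Nat.le_of_dvd hx0 h0) (by omega)
        · exact absurd (Prod.ext h (show y = j - 1 by simp at hx; omega)) hne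
        · rw [coeff_eq_zero_of_natDegree_lt (p := N) (show N.natDegree < x by omega), zero_mul]
      · intro h; exact absurd
          (Finset.HasAntidiagonal.mem_antidiagonal.mpr (rfl : q + (j - 1) = _)) h
    rw [e1, e2, zero_sub, neg_eq_zero, coeff_derivative, show j - 1 + 1 = j by omega] at hc
    have h2u : IsUnit (2 : DualNumber k) := by
      simpa using hcastu 2 two_pos (by have := (Fact.out : q.Prime).two_le; omega)
    have hju : IsUnit ((↑(j - 1) : DualNumber k) + 1) := by
      rw [show (↑(j - 1) : DualNumber k) + 1 = ((j : ℕ) : DualNumber k) by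
        rw [Nat.cast_sub hj, Nat.cast_one, sub_add_cancel]]
      exact hcastu j hj (by omega)
    exact hju.mul_left_eq_zero.mp (h2u.mul_right_eq_zero.mp hc)
  have hHeq : H = C (H.coeff 0) := by
    ext j : 1
    rcases Nat.eq_zero_or_pos j with rfl | h
    · simp
    · rw [hHC j h, coeff_C, if_neg h.ne']
  set α := H.coeff 0
  have hαu : IsUnit α := by
    rw [TrivSqZeroExt.isUnit_iff_isUnit_fst, isUnit_iff_ne_zero]
    exact hH0
  rw [hHeq, derivative_C, mul_zero, sub_zero] at hVD
  have hNC : ∀ j, 0 < j → j < q → N.coeff j = 0 := fun j hj hjq => by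
    have := congrArg (coeff · (j - 1)) hVD
    simp only [coeff_mul_C, coeff_zero, coeff_derivative, show j - 1 + 1 = j by omega] at this
    have hju : IsUnit ((↑(j - 1) : DualNumber k) + 1) := by
      rw [show (↑(j - 1) : DualNumber k) + 1 = ((j : ℕ) : DualNumber k) by
        rw [Nat.cast_sub hj, Nat.cast_one, sub_add_cancel]]
      exact hcastu j hj hjq
    exact hju.mul_left_eq_zero.mp (hαu.mul_left_eq_zero.mp this)
  have hNeq : N = X ^ q + C (N.coeff 0) := by
    ext j : 1
    rcases Nat.eq_zero_or_pos j with rfl | h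
    · simp [Ne.symm hq]
    · rw [coeff_add, coeff_X_pow, coeff_C, if_neg h.ne', add_zero]
      rcases lt_trichotomy j q with hlt | rfl | hgt
      · rw [if_neg hlt.ne, hNC j h hlt]
      · rw [if_pos rfl, hNq]
      · rw [if_neg hgt.ne', coeff_eq_zero_of_natDegree_lt (by omega)]
  exact ⟨hHeq, hNeq⟩

/-- **The zeros of the top coefficient are simple.** -/
theorem not_sq_dvd_topCoeff (h2 : q ≠ 2) {t₀ : k} (h0 : t₀ ≠ 0) (h1 : t₀ ≠ 1) :
    ¬(X - C t₀) ^ 2 ∣ topCoeff (legendreAt (X : k[X])) q := by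
  classical
  intro hsq
  obtain ⟨m, hm⟩ := odd_of_ne_two (q := q) h2
  have hq : q ≠ 0 := (Fact.out : q.Prime).ne_zero
  set U := legendreAt (X : k[X])
  set p : k[X] := X - C t₀
  have hV : C p ^ 2 ∣ redV U q := redV_dvd_of_prime U h2 (prime_X_sub_C t₀) hsq (by
    rw [show (4 : k[X]) = C 4 by rw [map_ofNat]]
    exact isUnit_C.mpr (four_ne_zero' (q := q) h2).isUnit)
  let δ : k[X] →+* DualNumber k :=
    eval₂RingHom (TrivSqZeroExt.inlHom k k) (TrivSqZeroExt.inl t₀ + TrivSqZeroExt.inr 1)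
  have hδp : δ p ^ 2 = 0 := by
    have : δ p = TrivSqZeroExt.inr 1 := by simp [δ, p]
    rw [this, pow_two, TrivSqZeroExt.inr_mul_inr]
  set W₀ := legendreAt t₀
  have : W₀.IsElliptic := isElliptic_legendreAt h2 h0 h1
  have hfst : (TrivSqZeroExt.fstHom k k k).toRingHom.comp δ = evalRingHom t₀ :=
    Polynomial.ringHom_ext (fun c => by simp [δ]) (by simp [δ])
  have hW₀ : U.map (evalRingHom t₀) = W₀ := by simp [U, map_legendreAt, W₀]
  set N := (redN U q).map δ with hNdef
  set H := (redH U q).map δ with hHdef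
  have hVD : derivative N * H - 2 * N * derivative H = 0 := by
    have := (Polynomial.map_dvd δ hV)
    rw [Polynomial.map_pow, Polynomial.map_C, ← C_pow, hδp, map_zero, zero_dvd_iff] at this
    simpa [redV, derivative_map, N, H, Polynomial.map_ofNat] using this
  have hfstN : ∀ j, (N.coeff j).fst = (redN W₀ q).coeff j := fun j => by
    rw [hNdef, coeff_map, ← hW₀, map_redN _ hq, coeff_map, ← hfst]; rfl
  have hfstH : ∀ j, (H.coeff j).fst = (redH W₀ q).coeff j := fun j => by
    rw [hHdef, coeff_map, ← hW₀, map_redH _ hq, coeff_map, ← hfst]; rfl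
  -- the supersingular fibre
  have hL0 : topCoeff W₀ q = 0 := by
    rw [← hW₀, map_topCoeff _ hq]
    obtain ⟨c, hc⟩ := hsq
    simp [p, hc]
  obtain ⟨a, ha0, ha⟩ : ∃ a, a ≠ 0 ∧ redH W₀ q = C a := by
    have hd : (redH W₀ q).degree = 0 := by
      by_contra hd
      obtain ⟨c, hc⟩ := IsAlgClosed.exists_root _ hd
      obtain ⟨x, rfl⟩ := IsAlgClosed.exists_pow_nat_eq c (Fact.out : q.Prime).pos
      obtain ⟨y, hy⟩ := EC.Torsion.exists_nonsingular W₀.toAffine x
      exact Affine.Point.some_ne_zero hy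
        (eq_zero_of_topCoeff_eq_zero h2 hL0 ((nsmul_eq_zero_iff_isRoot h2 hy).mpr hc))
    refine ⟨(redH W₀ q).coeff 0, ?_, eq_C_of_degree_le_zero hd.le⟩
    exact fun h => redH_ne_zero (W := W₀) h2 (by rw [eq_C_of_degree_le_zero hd.le, h, map_zero])
  have hN'0 : derivative (redN W₀ q) = 0 := by
    have := congrArg (Polynomial.map (TrivSqZeroExt.fstHom k k k).toRingHom) hVD
    rw [Polynomial.map_sub, Polynomial.map_mul, Polynomial.map_mul, Polynomial.map_mul,
      ← derivative_map, ← derivative_map, Polynomial.map_ofNat, hNdef, hHdef, Polynomial.map_map,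
      Polynomial.map_map, hfst, ← map_redN _ hq, ← map_redH _ hq, hW₀, ha, derivative_C, mul_zero,
      sub_zero, Polynomial.map_zero, mul_eq_zero, C_eq_zero] at this
    exact this.resolve_right ha0
  have hHle : H.natDegree ≤ m := natDegree_map_le.trans
    ((natDegree_redH_le U h2).trans_eq (by omega))
  have hNle : N.natDegree ≤ q := natDegree_map_le.trans (natDegree_redN_le hq)
  have hNq : N.coeff q = 1 := by rw [hNdef, coeff_map, coeff_redN_top hq, map_one]
  obtain ⟨hHeq, hNeq⟩ := eq_C_of_redV_eq_zero hm hNle hHle hNq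
    (fun j hj => by rw [hfstH, ha, coeff_C, if_neg hj.ne'])
    (by rw [hfstH, ha, coeff_C_zero]; exact ha0)
    (fun j => by
      have := congrArg (coeff · j) hN'0
      simp only [coeff_derivative, coeff_zero] at this
      simp [coeff_derivative, hfstN, this]) hVD
  set α := H.coeff 0
  -- the three points of order two
  let K := FractionRing k[X]
  have hinj : Function.Injective (algebraMap k[X] K) := IsFractionRing.injective _ _
  have : CharP K q := charP_of_injective_ringHom hinj q
  have : (legendreAt (algebraMap k[X] K X)).IsElliptic := by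
    refine isElliptic_legendreAt h2 ((map_ne_zero_iff _ hinj).mpr X_ne_zero) fun h => ?_
    rw [← map_one (algebraMap k[X] K)] at h
    have := congrArg natDegree (hinj h)
    simp at this
  have key : ∀ e : k[X], (e = 0 ∨ e = 1 ∨ e = X) →
      (redN U q).eval (e ^ q) = e * (redH U q).eval (e ^ q) ^ 2 := by
    intro e he
    refine hinj ?_
    have := eval_redN_twoTorsion h2 (t := algebraMap k[X] K X) (e := algebraMap k[X] K e) (by
      rcases he with rfl | rfl | rfl <;> simp)
    rw [← map_legendreAt, map_redN _ hq, map_redH _ hq, ← map_pow, eval_map_apply,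
      eval_map_apply, ← map_pow, ← map_mul] at this
    exact this
  have key' : ∀ e : k[X], (e = 0 ∨ e = 1 ∨ e = X) → δ e ^ q ^ 2 + N.coeff 0 = δ e * α ^ 2 := by
    intro e he
    have h := congrArg δ (key e he)
    rw [map_mul, map_pow, ← eval_map_apply, ← eval_map_apply, map_pow, ← hNdef, ← hHdef,
      hHeq, hNeq] at h
    simp only [eval_add, eval_pow, eval_X, eval_C, ← pow_mul] at h
    rw [sq]
    exact h
  have hc0 : N.coeff 0 = 0 := by
    have := key' 0 (Or.inl rfl)
    rwa [map_zero, zero_mul, zero_pow (pow_ne_zero 2 hq), zero_add] at this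
  have hα : α ^ 2 = 1 := by simpa [hc0] using (key' 1 (Or.inr (Or.inl rfl))).symm
  have hX := key' X (Or.inr (Or.inr rfl))
  rw [hc0, add_zero, hα, mul_one] at hX
  have := congrArg TrivSqZeroExt.snd hX
  simp [δ, TrivSqZeroExt.snd_pow] at this

end SimpleZero

end Fermat.Agent.Carayol
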