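import Fermat.Agent.Carayol.DivMod
import Mathlib.FieldTheory.IsAlgClosed.Basic
import Mathlib.Algebra.Polynomial.RingDivision
import Mathlib.RingTheory.Coprime.Lemmas

/-!
# Division polynomials modulo `q` over a field

Division polynomials modulo `q` over an algebraically closed field of characteristic `q`: the
`q`-torsion is cyclic or trivial according to the top coefficient of `h`, and then `h` is
`L ∏ (X - x(iP) ^ q)`; a point `T` of order two gives `N = (X - e) ∏ (X - x(T + iP) ^ q) ^ 2`.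

Main result: `redN_sub_eq_prod`.
-/

set_option autoImplicit false

open Polynomial WeierstrassCurve

namespace Fermat.Agent.Carayol

variable {k : Type*} [Field k]

/-- The affine abscissa, zero at the origin. -/
def xOf {W : WeierstrassCurve k} : W.toAffine.Point → k
  | .zero => 0
  | .some x _ _ => x

theorem xOf_some {W : WeierstrassCurve k} {x y : k} (h : W.toAffine.Nonsingular x y) :
    xOf (.some x y h : W.toAffine.Point) = x := rfl

variable [DecidableEq k] {W : WeierstrassCurve k}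

omit [DecidableEq k] in
theorem eq_or_eq_neg_of_xOf_eq {P Q : W.toAffine.Point} (hP : P ≠ 0) (hQ : Q ≠ 0)
    (h : xOf P = xOf Q) : P = Q ∨ P = -Q := by
  rcases P with _ | ⟨x, y, hx⟩
  · exact absurd rfl hP
  rcases Q with _ | ⟨x', y', hx'⟩
  · exact absurd rfl hQ
  rw [xOf_some, xOf_some] at h
  subst h
  rcases Affine.Y_eq_of_X_eq hx.1 hx'.1 rfl with rfl | hy
  · exact Or.inl rfl
  · right; subst hy; rfl

omit [DecidableEq k] in
theorem xOf_neg (P : W.toAffine.Point) : xOf (-P) = xOf P := by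
  rcases P with _ | ⟨x, y, h⟩ <;> rfl

variable {q : ℕ} [Fact q.Prime]

theorem smul_eq_zero_iff_dvd {G : Type*} [AddCommGroup G] {P : G} (hP : P ≠ 0)
    (hq : q • P = 0) (i : ℕ) : i • P = 0 ↔ q ∣ i := by
  rw [← addOrderOf_dvd_iff_nsmul_eq_zero, addOrderOf_eq_prime hq hP]

theorem xOf_smul_injOn {P : W.toAffine.Point} (hP : P ≠ 0) (hq : q • P = 0) :
    Set.InjOn (fun i : ℕ => xOf (i • P)) (Finset.Icc 1 ((q - 1) / 2) : Finset ℕ) := by
  intro i hi j hj h
  rw [Finset.coe_Icc, Set.mem_Icc] at hi hj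
  have hne : ∀ l, 1 ≤ l → l < q → l • P ≠ 0 := fun l h1 h2 h0 =>
    absurd (Nat.le_of_dvd (by omega) ((smul_eq_zero_iff_dvd hP hq l).mp h0)) (by omega)
  rcases eq_or_eq_neg_of_xOf_eq (hne i hi.1 (by omega)) (hne j hj.1 (by omega)) h with e | e
  · rcases le_total i j with hij | hij
    · have : (j - i) • P = 0 := by rw [sub_nsmul _ hij, e, add_neg_cancel]
      have := (smul_eq_zero_iff_dvd hP hq _).mp this
      have := Nat.eq_zero_of_dvd_of_lt this (by omega)
      omega
    · have : (i - j) • P = 0 := by rw [sub_nsmul _ hij, e, add_neg_cancel]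
      have := (smul_eq_zero_iff_dvd hP hq _).mp this
      have := Nat.eq_zero_of_dvd_of_lt this (by omega)
      omega
  · have : (i + j) • P = 0 := by rw [add_nsmul, e, neg_add_cancel]
    exact absurd (hne (i + j) (by omega) (by omega) this) (fun h => h.elim)

omit [DecidableEq k] in
theorem exists_multiset_factor {p : k[X]} {d : ℕ} (hd : p.natDegree ≤ d) {ι : Type*}
    (s : Finset ι) {c : ι → k} (hc : Set.InjOn c s) (hs : s.card = d)
    (hroot : ∀ i ∈ s, p.IsRoot (c i)) : p = C (p.coeff d) * ∏ i ∈ s, (X - C (c i)) := by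
  classical
  have hdvd : ∏ i ∈ s, (X - C (c i)) ∣ p := by
    refine Finset.prod_dvd_of_coprime (fun i hi j hj hij => ?_) fun i hi =>
      dvd_iff_isRoot.mpr (hroot i hi)
    exact isCoprime_X_sub_C_of_isUnit_sub
      (sub_ne_zero.mpr fun h => hij (hc hi hj h)).isUnit
  obtain ⟨r, hr⟩ := hdvd
  have hm : (∏ i ∈ s, (X - C (c i))).Monic := monic_prod_of_monic _ _ fun i _ => monic_X_sub_C _
  have hdeg : (∏ i ∈ s, (X - C (c i))).natDegree = d := by
    rw [natDegree_prod _ _ fun i _ => X_sub_C_ne_zero _]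
    simp [hs]
  rcases eq_or_ne r 0 with rfl | hr0
  · simp [hr]
  obtain ⟨a, rfl⟩ : ∃ a, r = C a := by
    refine ⟨r.coeff 0, eq_C_of_natDegree_eq_zero ?_⟩
    rw [hr, hm.natDegree_mul' hr0] at hd
    omega
  have h1 : (∏ i ∈ s, (X - C (c i))).coeff d = 1 := by rw [← hdeg]; exact hm.coeff_natDegree
  rw [hr, coeff_mul_C, h1, one_mul, mul_comm]

variable [CharP k q] [W.IsElliptic] (h2 : q ≠ 2)

include h2

omit [DecidableEq k] in
theorem redH_ne_zero : redH W q ≠ 0 := by
  classical
  intro h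
  have hS := expand_redH_sq W h2
  have hcop := EC.Torsion.isCoprime_Φ_ΨSq (W := W.toAffine) (q : ℤ)
  rw [← hS, h, zero_pow two_ne_zero, map_zero, isCoprime_zero_right] at hcop
  have := natDegree_eq_zero_of_isUnit hcop
  rw [W.natDegree_Φ, Int.natAbs_natCast] at this
  exact pow_ne_zero 2 (Fact.out : q.Prime).ne_zero this

theorem nsmul_eq_zero_iff_isRoot {x y : k} (h : W.toAffine.Nonsingular x y) :
    q • (Affine.Point.some x y h : W.toAffine.Point) = 0 ↔ (redH W q).IsRoot (x ^ q) := by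
  rw [EC.Torsion.nsmul_some_eq_zero_iff q h, ← expand_redH_sq W h2, expand_eval, eval_pow,
    pow_eq_zero_iff two_ne_zero]
  rfl

theorem isRoot_of_nsmul_eq_zero {Q : W.toAffine.Point} (hQ : Q ≠ 0) (hq : q • Q = 0) :
    (redH W q).IsRoot (xOf Q ^ q) := by
  rcases Q with _ | ⟨x, y, h⟩
  · exact absurd rfl hQ
  · exact (nsmul_eq_zero_iff_isRoot h2 h).mp hq

/-- **`h` splits over the multiples of a point of order `q`.** -/
theorem redH_eq_prod {P : W.toAffine.Point} (hP : P ≠ 0) (hq : q • P = 0) :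
    redH W q = C (topCoeff W q) *
      ∏ i ∈ Finset.Icc 1 ((q - 1) / 2), (X - C (xOf (i • P) ^ q)) := by
  refine exists_multiset_factor (natDegree_redH_le W h2) _ (fun i hi j hj h =>
    xOf_smul_injOn hP hq hi hj (frobenius_inj k q h)) (by simp) fun i hi => ?_
  rw [Finset.mem_Icc] at hi
  refine isRoot_of_nsmul_eq_zero h2 (fun h => ?_) (by rw [smul_comm, hq, smul_zero])
  have := Nat.le_of_dvd (by omega) ((smul_eq_zero_iff_dvd hP hq i).mp h)
  omega

theorem topCoeff_ne_zero_of_torsion {P : W.toAffine.Point} (hP : P ≠ 0) (hq : q • P = 0) :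
    topCoeff W q ≠ 0 := fun h => redH_ne_zero (W := W) h2 (by
  rw [redH_eq_prod h2 hP hq, h, map_zero, zero_mul])

theorem eq_zero_of_topCoeff_eq_zero (h : topCoeff W q = 0) {P : W.toAffine.Point}
    (hq : q • P = 0) : P = 0 :=
  by_contra fun hP => topCoeff_ne_zero_of_torsion h2 hP hq h

/-- `N(x(Q)^q) = x(qQ) h(x(Q)^q)²`. -/
theorem eval_redN {x y x' y' : k} (h : W.toAffine.Nonsingular x y)
    (h' : W.toAffine.Nonsingular x' y')
    (he : q • (Affine.Point.some x y h : W.toAffine.Point) = .some x' y' h') :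
    (redN W q).eval (x ^ q) = x' * (redH W q).eval (x ^ q) ^ 2 := by
  have := EC.Torsion.mul_eval_ΨSq_eq_eval_Φ (W := W.toAffine) (q : ℤ) h h'
    (by rw [natCast_zsmul]; exact he)
  rw [← expand_redN W h2, ← expand_redH_sq W h2, expand_eval, expand_eval, eval_pow] at this
  exact this.symm

omit [DecidableEq k] in
/-- A zero of `N - e h²` that is not a zero of `f^(q)` has multiplicity at least two. -/
theorem sq_dvd_sub (hL : topCoeff W q ≠ 0) {e c : k}
    (he : 4 * e ^ 3 + W.b₂ * e ^ 2 + 2 * W.b₄ * e + W.b₆ = 0)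
    (hc : (redN W q - C e * redH W q ^ 2).IsRoot c)
    (hf : (W.Ψ₂Sq.map (frobenius k q)).eval c ≠ 0) :
    (X - C c) ^ 2 ∣ redN W q - C e * redH W q ^ 2 := by
  classical
  set A := redN W q - C e * redH W q ^ 2 with hA
  set f₁ := W.Ψ₂Sq.map (frobenius k q)
  set Q := C 4 * redN W q ^ 2 + C (4 * e + W.b₂) * redN W q * redH W q ^ 2 +
    C (4 * e ^ 2 + W.b₂ * e + 2 * W.b₄) * redH W q ^ 4 with hQ
  have hg : redG W q = A * Q := by
    rw [hA, hQ, redG]
    have : C W.b₆ = C (-(4 * e ^ 3 + W.b₂ * e ^ 2 + 2 * W.b₄ * e)) := congrArg C (by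
      linear_combination he)
    rw [this]
    simp only [map_add, map_mul, map_pow, map_neg, map_ofNat]
    ring
  have hid := redV_sq_mul W h2
  have hH : hasseCoeff W q ≠ 0 := fun h => hL (pow_eq_zero_iff two_ne_zero |>.mp (by
    rw [topCoeff_sq W h2, h, zero_pow two_ne_zero]))
  rw [hg] at hid
  have hVc : (redV W q).IsRoot c := by
    have := congrArg (eval c) hid
    rw [eval_mul, eval_mul, eval_mul, show A.eval c = 0 from hc, zero_mul, mul_zero, mul_eq_zero,
      or_iff_left hf, eval_pow, pow_eq_zero_iff two_ne_zero] at this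
    exact this
  have h2dvd : (X - C c) ^ 2 ∣ A * Q := by
    rw [← ((isUnit_C.mpr hH.isUnit).pow 2).dvd_mul_left, ← hid]
    exact dvd_mul_of_dvd_left (pow_dvd_pow_of_dvd (dvd_iff_isRoot.mpr hVc) 2) _
  refine (IsCoprime.dvd_of_dvd_mul_right ?_ h2dvd)
  refine IsCoprime.pow_left ((irreducible_X_sub_C c).coprime_iff_not_dvd.mpr fun hd => ?_)
  have hQc : Q.eval c = 0 := dvd_iff_isRoot.mp hd
  have hh : (redH W q).eval c ≠ 0 := fun h0 => by
    have hN0 : (redN W q).eval c = 0 := by
      have := hc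
      rw [IsRoot, hA, eval_sub, eval_mul, eval_pow, h0, zero_pow two_ne_zero, mul_zero,
        sub_zero] at this
      exact this
    have hcop := EC.Torsion.isCoprime_Φ_ΨSq (W := W.toAffine) (q : ℤ)
    rw [← expand_redN W h2, ← expand_redH_sq W h2, isCoprime_expand (Fact.out : q.Prime).ne_zero]
      at hcop
    obtain ⟨a, b, hab⟩ := hcop
    have := congrArg (eval c) hab
    simp [hN0, h0] at this
  have hNe : (redN W q).eval c = e * (redH W q).eval c ^ 2 := by
    have := hc
    rw [IsRoot, hA, eval_sub, eval_mul, eval_C, eval_pow, sub_eq_zero] at this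
    exact this
  rw [hQ] at hQc
  simp only [eval_add, eval_mul, eval_pow, eval_C, hNe] at hQc
  have hd' : 12 * e ^ 2 + 2 * W.b₂ * e + 2 * W.b₄ = 0 := by
    refine mul_right_cancel₀ (pow_ne_zero 4 hh) ?_
    linear_combination hQc
  -- the cubic has distinct roots
  have hdisc : W.twoTorsionPolynomial.discr = 0 := by
    rw [Cubic.discr, twoTorsionPolynomial]
    have h4' : 2 * W.b₄ = -(12 * e ^ 2 + 2 * W.b₂ * e) := by linear_combination hd'
    have h6 : W.b₆ = 8 * e ^ 3 + W.b₂ * e ^ 2 := by linear_combination he - e * hd'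
    simp only [h4', h6]
    ring
  rw [twoTorsionPolynomial_discr] at hdisc
  have h2k : (2 : k) ≠ 0 := two_ne_zero_of_charP (q := q) h2
  exact (mul_ne_zero (by rw [show (16 : k) = 2 ^ 4 by norm_num]; exact pow_ne_zero 4 h2k)
    W.isUnit_Δ.ne_zero) hdisc

omit [DecidableEq k] in
omit [CharP k q] h2 [Fact q.Prime] [W.IsElliptic] in
theorem eval_Ψ₂Sq_eq_sq {x y : k} (h : W.toAffine.Equation x y) :
    W.Ψ₂Sq.eval x = (2 * y + W.a₁ * x + W.a₃) ^ 2 := by
  rw [Affine.equation_iff] at h
  simp only [Ψ₂Sq, eval_add, eval_mul, eval_pow, eval_C, eval_X, WeierstrassCurve.b₂,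
    WeierstrassCurve.b₄, WeierstrassCurve.b₆]
  linear_combination -4 * h

omit [CharP k q] h2 [Fact q.Prime] [W.IsElliptic] in
theorem two_nsmul_eq_zero_iff {x y : k} (h : W.toAffine.Nonsingular x y) :
    2 • (Affine.Point.some x y h : W.toAffine.Point) = 0 ↔ W.Ψ₂Sq.eval x = 0 := by
  have hu : W.Ψ₂Sq.eval x = 0 ↔ y = W.toAffine.negY x y := by
    rw [eval_Ψ₂Sq_eq_sq h.1, pow_eq_zero_iff two_ne_zero, Affine.negY]
    constructor <;> intro e <;> linear_combination e
  rw [hu, two_nsmul]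
  constructor
  · intro h0
    have := eq_neg_of_add_eq_zero_left h0
    rw [Affine.Point.neg_some, Affine.Point.some.injEq] at this
    exact this.2
  · exact fun hy => Affine.Point.add_self_of_Y_eq hy

omit [DecidableEq k] in
omit [W.IsElliptic] h2 in
theorem eval_map_frobenius (p : k[X]) (x : k) :
    (p.map (frobenius k q)).eval (x ^ q) = p.eval x ^ q := by
  rw [← frobenius_def, eval_map_apply, frobenius_def]

/-- **`N - e h² = (X - e^q) ∏ (X - x(T + iP)^q)²` for a point `T = (e, _)` of order two.** -/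
theorem redN_sub_eq_prod {P : W.toAffine.Point} (hP : P ≠ 0) (hq : q • P = 0) {e y₀ : k}
    (hT : W.toAffine.Nonsingular e y₀)
    (hT2 : 2 • (Affine.Point.some e y₀ hT : W.toAffine.Point) = 0) :
    redN W q - C e * redH W q ^ 2 = (X - C (e ^ q)) *
      ∏ i ∈ Finset.Icc 1 ((q - 1) / 2),
        (X - C (xOf ((Affine.Point.some e y₀ hT : W.toAffine.Point) + i • P) ^ q)) ^ 2 := by
  set T : W.toAffine.Point := Affine.Point.some e y₀ hT with hTdef
  set m := (q - 1) / 2 with hm
  obtain ⟨m', hm'⟩ := odd_of_ne_two (q := q) h2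
  set A := redN W q - C e * redH W q ^ 2
  have hfe : W.Ψ₂Sq.eval e = 0 := (two_nsmul_eq_zero_iff hT).mp hT2
  have he : 4 * e ^ 3 + W.b₂ * e ^ 2 + 2 * W.b₄ * e + W.b₆ = 0 := by
    simpa [Ψ₂Sq, map_ofNat] using hfe
  have hqT : q • T = T := by rw [hm', succ_nsmul, mul_nsmul, hT2, smul_zero, zero_add]
  have hT0 : T ≠ 0 := Affine.Point.some_ne_zero hT
  have hne : ∀ i : ℕ, 2 • (T + i • P) = 0 → i • P = 0 := fun i h => by
    rw [smul_add, hT2, zero_add, smul_smul, smul_eq_zero_iff_dvd hP hq] at h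
    rw [smul_eq_zero_iff_dvd hP hq]
    exact ((Fact.out : q.Prime).dvd_mul.mp h).resolve_left fun h' =>
      h2 ((Nat.prime_dvd_prime_iff_eq Fact.out Nat.prime_two).mp h')
  have hQ0 : ∀ i : ℕ, T + i • P ≠ 0 := fun i h => hT0 <| by
    have := hne i (by rw [h, smul_zero])
    rwa [this, add_zero] at h
  have hroot : ∀ i : ℕ, A.IsRoot (xOf (T + i • P) ^ q) := by
    intro i
    obtain ⟨x, y, hxy, hQ⟩ : ∃ x y hxy, T + i • P = Affine.Point.some x y hxy := by
      rcases hQ : T + i • P with _ | ⟨x, y, hxy⟩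
      · exact absurd hQ (hQ0 i)
      · exact ⟨x, y, hxy, rfl⟩
    have hqQ : q • (Affine.Point.some x y hxy : W.toAffine.Point) = T := by
      rw [← hQ, smul_add, hqT, smul_comm, hq, smul_zero, add_zero]
    rw [hQ, xOf_some]
    simp only [A, IsRoot, eval_sub, eval_mul, eval_C, eval_pow]
    rw [eval_redN h2 hxy hT hqQ, sub_self]
  have hf : ∀ i ∈ Finset.Icc 1 m,
      (W.Ψ₂Sq.map (frobenius k q)).eval (xOf (T + i • P) ^ q) ≠ 0 := by
    intro i hi h0
    rw [eval_map_frobenius, pow_eq_zero_iff (Fact.out : q.Prime).ne_zero] at h0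
    rw [Finset.mem_Icc] at hi
    rcases hQ : T + i • P with _ | ⟨x, y, hxy⟩
    · exact hQ0 i hQ
    · rw [hQ, xOf_some] at h0
      have := hne i (by rw [hQ]; exact (two_nsmul_eq_zero_iff hxy).mpr h0)
      have := Nat.le_of_dvd (by omega) ((smul_eq_zero_iff_dvd hP hq i).mp this)
      omega
  have hinj : Set.InjOn (fun i : ℕ => xOf (T + i • P) ^ q) (Finset.Icc 1 m : Finset ℕ) := by
    intro i hi j hj h
    have h' := frobenius_inj k q h
    rcases eq_or_eq_neg_of_xOf_eq (hQ0 i) (hQ0 j) h' with e' | e'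
    · exact xOf_smul_injOn hP hq hi hj (congrArg xOf (add_left_cancel e'))
    · have : (i + j) • P = 0 := by
        have h4 : 2 • T + (i + j) • P = 0 := by
          rw [two_nsmul, add_nsmul, add_add_add_comm, e', neg_add_cancel]
        rwa [hT2, zero_add] at h4
      rw [Finset.coe_Icc, Set.mem_Icc] at hi hj
      have := Nat.le_of_dvd (by omega) ((smul_eq_zero_iff_dvd hP hq _).mp this)
      omega
  have hhd : (redH W q).natDegree ≤ m := natDegree_redH_le W h2
  have hdeg : A.natDegree ≤ q := (natDegree_sub_le _ _).trans (max_le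
    (natDegree_redN_le (Fact.out : q.Prime).ne_zero) (natDegree_mul_le.trans (by
      rw [natDegree_C]
      have := natDegree_pow_le (p := redH W q) (n := 2)
      omega)))
  have hcoeff : A.coeff q = 1 := by
    rw [coeff_sub, coeff_redN_top (Fact.out : q.Prime).ne_zero, coeff_C_mul,
      coeff_eq_zero_of_natDegree_lt (p := redH W q ^ 2)
        (lt_of_le_of_lt natDegree_pow_le (by omega)), mul_zero, sub_zero]
  have hL := topCoeff_ne_zero_of_torsion h2 hP hq
  set p₂ := ∏ i ∈ Finset.Icc 1 m, (X - C (xOf (T + i • P) ^ q)) ^ 2 with hp₂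
  have hdvd : (X - C (e ^ q)) * p₂ ∣ A := by
    refine IsCoprime.mul_dvd ?_ (dvd_iff_isRoot.mpr ?_) ?_
    · refine IsCoprime.prod_right fun i hi => IsCoprime.pow_right ?_
      refine isCoprime_X_sub_C_of_isUnit_sub (sub_ne_zero.mpr fun h => hf i hi ?_).isUnit
      rw [← h, eval_map_frobenius, hfe, zero_pow (Fact.out : q.Prime).ne_zero]
    · simpa [hTdef, xOf_some] using hroot 0
    · refine Finset.prod_dvd_of_coprime (fun i hi j hj hij => ?_) fun i hi =>
        sq_dvd_sub h2 hL he (hroot i) (hf i hi)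
      exact (isCoprime_X_sub_C_of_isUnit_sub
        (sub_ne_zero.mpr fun h => hij (hinj hi hj h)).isUnit).pow
  obtain ⟨r, hr⟩ := hdvd
  have hpm : ((X - C (e ^ q)) * p₂).Monic := (monic_X_sub_C _).mul
    (monic_prod_of_monic _ _ fun i _ => (monic_X_sub_C _).pow 2)
  have hpd : ((X - C (e ^ q)) * p₂).natDegree = q := by
    rw [natDegree_mul (X_sub_C_ne_zero _)
      (monic_prod_of_monic _ _ fun i _ => (monic_X_sub_C _).pow 2).ne_zero, natDegree_X_sub_C,
      natDegree_prod _ _ fun i _ => pow_ne_zero 2 (X_sub_C_ne_zero _)]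
    simp only [natDegree_pow, natDegree_X_sub_C, Finset.sum_const, Nat.card_Icc, smul_eq_mul]
    omega
  have hr0 : r ≠ 0 := fun h => by
    rw [hr, h, mul_zero, coeff_zero] at hcoeff; exact zero_ne_one hcoeff
  obtain ⟨a, rfl⟩ : ∃ a, r = C a := by
    refine ⟨r.coeff 0, eq_C_of_natDegree_eq_zero ?_⟩
    rw [hr, hpm.natDegree_mul' hr0, hpd] at hdeg
    omega
  rw [hr] at hcoeff ⊢
  have h1 : ((X - C (e ^ q)) * p₂).coeff q = 1 :=
    (congrArg _ hpd.symm).trans hpm.coeff_natDegree
  rw [coeff_mul_C, h1, one_mul] at hcoeff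
  rw [hcoeff, map_one, mul_one]

end Fermat.Agent.Carayol
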