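import Fermat.Agent.Carayol.PointMap
import Mathlib.AlgebraicGeometry.EllipticCurve.Affine.Point
import Mathlib.FieldTheory.IntermediateField.Adjoin.Basic
import Mathlib.RingTheory.Algebraic.Basic
import Mathlib.Data.ZMod.Basic
import Mathlib.RingTheory.Valuation.ValuationSubring

/-!
# Level structures

Setup for the level structures used in Carayol's theorem: a one-parameter family of elliptic
curves over `ℤ[X]`, a field generated by a parameter and the coordinates of the `q * r`-torsion,
its automorphisms over the parameter, the diagonal torus and the two Borel subgroups at `q`.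

Main definitions: `LevelData`, `KillsTorusClasses`.
-/

set_option autoImplicit false

open Polynomial

namespace Fermat.Agent.Carayol

/-- The Legendre family `y² = x (x - 1) (x - X)`, used when `q` is odd. -/
noncomputable def legendreFam : WeierstrassCurve ℤ[X] := ⟨0, -(1 + X), 0, X, 0⟩

/-- The family `y² + X x y + y = x³`, used when `q = 2`. -/
noncomputable def deuringFam : WeierstrassCurve ℤ[X] := ⟨X, 0, 1, 0, 0⟩

section Coords

variable {F : Type*} [Field F] {W : WeierstrassCurve F}

/-- The set of affine coordinates of a point. -/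
def pointCoords : W.toAffine.Point → Set F
  | .zero => ∅
  | .some x y _ => {x, y}

end Coords

/-- A field generated over `K` by a parameter and the coordinates of a full level-`q * r`
structure on a family of curves. -/
structure LevelData (K F : Type*) [Field K] [Field F] [DecidableEq F] [Algebra K F]
    (fam : WeierstrassCurve ℤ[X]) (q r : ℕ) where
  /-- The parameter of the family. -/
  par : F
  transcendental : Transcendental K par
  /-- The level structure. -/
  basis : ZMod (q * r) × ZMod (q * r) →+
    (fam.map (eval₂RingHom (Int.castRingHom F) par)).toAffine.Point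
  injective_basis : Function.Injective basis
  adjoin_eq_top :
    IntermediateField.adjoin K (insert par (⋃ v, pointCoords (basis v))) = ⊤

namespace LevelData

variable {K F : Type*} [Field K] [Field F] [DecidableEq F] [Algebra K F]
  {fam : WeierstrassCurve ℤ[X]} {q r : ℕ} (L : LevelData K F fam q r)

/-- The curve of the family at the parameter. -/
noncomputable abbrev curve : WeierstrassCurve F :=
  fam.map (eval₂RingHom (Int.castRingHom F) L.par)

theorem map_curve {σ : F ≃ₐ[K] F} (hσ : σ L.par = L.par) :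
    L.curve.map (σ.toAlgHom.toRingHom) = L.curve := by
  rw [curve, WeierstrassCurve.map_map]
  congr 1
  exact Polynomial.ringHom_ext (fun n => by simp) (by simpa using hσ)

/-- Automorphisms over the parameter. -/
def autGroup : Subgroup (F ≃ₐ[K] F) where
  carrier := {σ | σ L.par = L.par}
  one_mem' := rfl
  mul_mem' := fun {σ τ} hσ hτ => by
    simp only [Set.mem_ofPred_eq, AlgEquiv.mul_apply] at *
    rw [hτ, hσ]
  inv_mem' := fun {σ} hσ => by
    simp only [Set.mem_ofPred_eq] at *
    conv_lhs => rw [← hσ]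
    exact σ.symm_apply_apply _

theorem mem_autGroup {σ : F ≃ₐ[K] F} : σ ∈ L.autGroup ↔ σ L.par = L.par := Iff.rfl

/-- The action of automorphisms over the parameter on points. -/
noncomputable def act {σ : F ≃ₐ[K] F} (hσ : σ ∈ L.autGroup) :
    L.curve.toAffine.Point →+ L.curve.toAffine.Point :=
  pointAct σ.toAlgHom.toRingHom L.curve (L.map_curve hσ)

theorem act_mul {σ τ : F ≃ₐ[K] F} (hσ : σ ∈ L.autGroup) (hτ : τ ∈ L.autGroup)
    (hστ : σ * τ ∈ L.autGroup) (P : L.curve.toAffine.Point) :
    L.act hστ P = L.act hσ (L.act hτ P) :=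
  pointAct_comp _ _ L.curve (L.map_curve hσ) (L.map_curve hτ) (L.map_curve hστ) P

theorem act_one (h : (1 : F ≃ₐ[K] F) ∈ L.autGroup) (P : L.curve.toAffine.Point) :
    L.act h P = P := by
  rcases P with _ | ⟨x, y, hn⟩
  · exact _root_.map_zero _
  · obtain ⟨_, e⟩ := pointAct_some _ L.curve (L.map_curve h) hn
    exact e

theorem act_eq_self {σ : F ≃ₐ[K] F} (hσ : σ ∈ L.autGroup) {P : L.curve.toAffine.Point}
    (h : ∀ z ∈ pointCoords P, σ z = z) : L.act hσ P = P := by
  rcases P with _ | ⟨x, y, hn⟩
  · exact _root_.map_zero _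
  · obtain ⟨_, e⟩ := pointAct_some σ.toAlgHom.toRingHom L.curve (L.map_curve hσ) hn
    refine e.trans ?_
    simp [h x (by simp [pointCoords]), h y (by simp [pointCoords])]

theorem act_inv_apply {σ : F ≃ₐ[K] F} (hσ : σ ∈ L.autGroup) (P : L.curve.toAffine.Point) :
    L.act hσ (L.act (L.autGroup.inv_mem hσ) P) = P := by
  rw [← L.act_mul hσ (L.autGroup.inv_mem hσ) (L.autGroup.mul_mem hσ (L.autGroup.inv_mem hσ))]
  simp only [mul_inv_cancel]
  exact L.act_one _ P

/-- The generators of the two coordinate lines of the `q`-torsion. -/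
noncomputable def lineGen (i : Fin 2) : L.curve.toAffine.Point :=
  L.basis (if i = 0 then ((r : ZMod (q * r)), 0) else (0, (r : ZMod (q * r))))

/-- Automorphisms fixing the level-`r` structure. -/
def levelFix : Subgroup (F ≃ₐ[K] F) where
  carrier := {σ | ∃ hσ : σ ∈ L.autGroup, ∀ v, L.act hσ (L.basis (q • v)) = L.basis (q • v)}
  one_mem' := ⟨L.autGroup.one_mem, fun v => L.act_one _ _⟩
  mul_mem' := fun {σ τ} ⟨hσ, h⟩ ⟨hτ, h'⟩ =>
    ⟨L.autGroup.mul_mem hσ hτ, fun v => by rw [L.act_mul hσ hτ, h' v, h v]⟩
  inv_mem' := fun {σ} ⟨hσ, h⟩ => ⟨L.autGroup.inv_mem hσ, fun v => by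
    refine pointAct_injective σ.toAlgHom.toRingHom L.curve (L.map_curve hσ) ?_
    exact (L.act_inv_apply hσ _).trans (h v).symm⟩

/-- Automorphisms fixing the level-`r` structure and stabilising the line `i`. -/
def borel (i : Fin 2) : Subgroup (F ≃ₐ[K] F) where
  carrier := {σ | σ ∈ L.levelFix ∧ ∃ hσ : σ ∈ L.autGroup,
    AddSubgroup.map (L.act hσ) (AddSubgroup.zmultiples (L.lineGen i)) =
      AddSubgroup.zmultiples (L.lineGen i)}
  one_mem' := ⟨L.levelFix.one_mem, L.autGroup.one_mem, by
    rw [show L.act L.autGroup.one_mem = AddMonoidHom.id _ from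
      AddMonoidHom.ext (L.act_one _), AddSubgroup.map_id]⟩
  mul_mem' := fun {σ τ} ⟨hl, hσ, h⟩ ⟨hl', hτ, h'⟩ =>
    ⟨L.levelFix.mul_mem hl hl', L.autGroup.mul_mem hσ hτ, by
      rw [show L.act (L.autGroup.mul_mem hσ hτ) = (L.act hσ).comp (L.act hτ) from
        AddMonoidHom.ext (L.act_mul hσ hτ _), ← AddSubgroup.map_map, h', h]⟩
  inv_mem' := fun {σ} ⟨hl, hσ, h⟩ => ⟨L.levelFix.inv_mem hl, L.autGroup.inv_mem hσ, by
    refine (AddSubgroup.map_injective (f := L.act hσ) (pointAct_injective _ _ _)) ?_
    rw [h, AddSubgroup.map_map, show (L.act hσ).comp (L.act (L.autGroup.inv_mem hσ)) =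
      AddMonoidHom.id _ from AddMonoidHom.ext (L.act_inv_apply hσ), AddSubgroup.map_id]⟩

/-- The diagonal torus. -/
def torus : Subgroup (F ≃ₐ[K] F) := L.borel 0 ⊓ L.borel 1

end LevelData

/-- An element is, at every valuation ring over `K`, an `n`th power up to a unit. -/
def IsNthPowerLocally (K : Type*) {F : Type*} [Field K] [Field F] [Algebra K F] (n : ℕ)
    (f : F) : Prop :=
  ∀ V : ValuationSubring F, (∀ c : K, algebraMap K F c ∈ V) →
    ∃ g : F, g ≠ 0 ∧ f / g ^ n ∈ V ∧ g ^ n / f ∈ V

/-- An element is a constant times an `n`th power. -/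
def IsConstMulPow (K : Type*) {F : Type*} [Field K] [Field F] [Algebra K F] (n : ℕ)
    (f : F) : Prop :=
  ∃ c g : F, IsAlgebraic K c ∧ f = c * g ^ n

/-- The geometric input of Carayol's theorem for a level structure: a function fixed by the
torus, locally an `n`th power and whose products over both Borel subgroups are constants times
`n`th powers, becomes one after a power independent of `n`. -/
def KillsTorusClasses {K F : Type*} [Field K] [Field F] [DecidableEq F] [Algebra K F]
    {fam : WeierstrassCurve ℤ[X]} {q r : ℕ} (L : LevelData K F fam q r) : Prop :=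
  ∃ D : ℕ, 0 < D ∧ ∀ n : ℕ, 0 < n → n.Coprime q → ∀ f : F, f ≠ 0 →
    (∀ σ ∈ L.torus, σ f = f) → IsNthPowerLocally K n f →
    (∀ i : Fin 2, IsConstMulPow K n (∏ᶠ σ ∈ (L.borel i : Set (F ≃ₐ[K] F)), σ f)) →
    IsConstMulPow K n (f ^ D)

end Fermat.Agent.Carayol
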