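import Fermat.Agent.Carayol.Point

/-!
# Vertical valuation rings through a point

Vertical valuation rings through a point: finiteness, the radical of `(q)`, existence, separation,
and constants.

Main result: `exists_point_through`.
-/

set_option autoImplicit false

open Polynomial IntermediateField
open scoped IntermediateField

namespace Fermat.Agent.Carayol

variable {K F : Type*} [Field K] [Field F] [Algebra K F]
variable {W : ValuationSubring K} {q : ℕ} {t : F}
variable (hb : BaseData W q) (hc : Cover K t)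

include hb hc in
theorem finite_vert : {V : ValuationSubring F | IsVert W q t V}.Finite := by
  obtain ⟨V₀, hV₀⟩ := exists_isVert hb hc
  have := hc.finite_fixPar
  refine (Set.finite_range fun σ : fixPar K t => V₀.comap ((σ : F ≃ₐ[K] F) : F →+* F)).subset ?_
  intro V hV
  obtain ⟨σ, hσ, e⟩ := exists_comap_eq hb hc hV₀ hV
  exact ⟨⟨σ, hσ⟩, e.symm⟩

include hb hc in
theorem exists_pow_div_mem {V : ValuationSubring F} (hV : IsVert W q t V) :
    ∃ N : ℕ, ∀ x ∈ V.nonunits, ∀ i, N ≤ i → x ^ i / (q : F) ∈ V := by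
  obtain ⟨A, hA⟩ := exists_gauss hb hc.transcendental
  have := hc.finite
  have := hc.galois
  have := gauss_dvr hb hc.transcendental hA
  have := IsIntegralClosure.isDedekindDomain A K⟮t⟯ F (integralClosure A F)
  have := IsIntegralClosure.isFractionRing_of_finite_extension A K⟮t⟯ F (integralClosure A F)
  obtain ⟨v, -, rfl⟩ := (vert_iff hb hc hA V).mp hV
  have hq0 := q_ne_zero (F := F) hb
  have hvq : v.valuation F (q : F) ≠ 0 := (Valuation.ne_zero_iff _).mpr hq0
  refine ⟨(-WithZero.log (v.valuation F (q : F))).toNat + 1, fun x hx i hi => ?_⟩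
  rw [mem_nonunits_valuation_iff] at hx
  rw [mem_valuationSubring_valuation_iff, map_div₀, map_pow]
  rcases eq_or_ne (v.valuation F x) 0 with h0 | h0
  · rw [h0, zero_pow (by omega), zero_div]; exact zero_le_one
  rw [← WithZero.exp_log hvq, ← WithZero.exp_log h0, ← WithZero.exp_nsmul, ← WithZero.exp_sub,
    ← WithZero.exp_zero, WithZero.exp_le_exp]
  rw [← WithZero.exp_log h0, ← WithZero.exp_zero, WithZero.exp_lt_exp] at hx
  have h1 : WithZero.log (v.valuation F x) ≤ -1 := by omega
  have h2 : (i : ℤ) * WithZero.log (v.valuation F x) ≤ (i : ℤ) * (-1) :=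
    mul_le_mul_of_nonneg_left h1 (by positivity)
  rw [nsmul_eq_mul]
  omega

include hb hc in
/-- The radical of `(q)` in the chart is the intersection of the vertical primes. -/
theorem exists_pow_eq_q_mul {x : F} (hx : x ∈ chart W t)
    (h : ∀ V, IsVert W q t V → x ∈ V.nonunits) :
    ∃ N : ℕ, 0 < N ∧ ∃ y ∈ chart W t, x ^ N = (q : F) * y := by
  classical
  choose! N hN using fun V (hV : IsVert W q t V) => exists_pow_div_mem hb hc hV
  set m := (finite_vert hb hc).toFinset.sup N + 1
  refine ⟨m, Nat.succ_pos _, x ^ m / q, ?_, (mul_div_cancel₀ _ (q_ne_zero hb)).symm⟩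
  refine mem_chart_of_forall hb hc (exists_isVert hb hc) (fun V hV => ?_) fun V hV => ?_
  · have hK : ∀ c : K, algebraMap K F c ∈ V := fun c => by simpa using hV (C c)
    have hp : ∀ p : W[X], evW W t p ∈ V := fun p => by rw [evW_eq_aeval]; exact hV _
    rw [div_eq_mul_inv, ← map_natCast (algebraMap K F), ← map_inv₀]
    exact V.mul_mem _ _ (pow_mem (mem_valuationSubring_of_mem_chart hx hp) _) (hK _)
  · exact hN V hV x (h V hV) m (le_trans (Finset.le_sup ((finite_vert hb hc).mem_toFinset.mpr hV))
      (Nat.le_succ _))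

variable {M : ValuationSubring F}

include hb hc in
/-- An element outside the centre killing every vertical valuation away from the point. -/
theorem exists_sep :
    ∃ d ∈ chart W t, d ∉ M.nonunits ∧
      ∀ V, IsVert W q t V → ¬Through W t M V → d ∈ V.nonunits := by
  classical
  suffices h : ∀ s : Finset (ValuationSubring F),
      (∀ V ∈ s, ∀ p : W[X], evW W t p ∈ V) → ∃ d ∈ chart W t, d ∉ M.nonunits ∧
      ∀ V ∈ s, ¬Through W t M V → d ∈ V.nonunits by
    obtain ⟨d, hd, hdn, hdv⟩ := h (finite_vert hb hc).toFinset fun V hV =>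
      ((finite_vert hb hc).mem_toFinset.mp hV).evW_mem
    exact ⟨d, hd, hdn, fun V hV => hdv V ((finite_vert hb hc).mem_toFinset.mpr hV)⟩
  intro s hs
  induction s using Finset.induction_on with
  | empty => exact ⟨1, one_mem _, fun h => by
      rw [ValuationSubring.mem_nonunits_iff, map_one] at h; exact lt_irrefl _ h, by simp⟩
  | @insert V s _ ih =>
    obtain ⟨d, hd, hdn, hdv⟩ := ih fun U hU => hs U (Finset.mem_insert_of_mem hU)
    by_cases hT : Through W t M V
    · refine ⟨d, hd, hdn, fun U hU hnT => ?_⟩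
      rcases Finset.mem_insert.mp hU with rfl | hU
      · exact absurd hT hnT
      · exact hdv U hU hnT
    · simp only [Through, not_forall, exists_prop] at hT
      obtain ⟨x, hx, hxV, hxn⟩ := hT
      refine ⟨x * d, mul_mem hx hd, mul_notMem_nonunits hxn hdn, fun U hU hnT => ?_⟩
      rcases Finset.mem_insert.mp hU with rfl | hU
      · exact nonunits_mul_right
          (mem_valuationSubring_of_mem_chart hd (hs _ (Finset.mem_insert_self _ _))) hxV
      · exact nonunits_mul_left
          (mem_valuationSubring_of_mem_chart hx (hs _ (Finset.mem_insert_of_mem hU))) (hdv U hU hnT)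

theorem one_notMem_nonunits (V : ValuationSubring F) : (1 : F) ∉ V.nonunits := fun h => by
  rw [ValuationSubring.mem_nonunits_iff, map_one] at h; exact lt_irrefl _ h

theorem pow_notMem_nonunits {V : ValuationSubring F} {x : F} (hx : x ∉ V.nonunits) :
    ∀ n : ℕ, x ^ n ∉ V.nonunits
  | 0 => by rw [pow_zero]; exact one_notMem_nonunits V
  | n + 1 => by rw [pow_succ]; exact mul_notMem_nonunits (pow_notMem_nonunits hx n) hx

include hb hc in
theorem exists_through (hM : IsPoint W q t M) :
    ∃ V, IsVert W q t V ∧ Through W t M V := by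
  by_contra h
  push Not at h
  obtain ⟨d, hd, hdn, hdv⟩ := exists_sep (M := M) hb hc
  obtain ⟨N, _, y, hy, e⟩ := exists_pow_eq_q_mul hb hc hd fun V hV => hdv V hV (h V hV)
  refine pow_notMem_nonunits hdn N ?_
  rw [e]
  exact nonunits_mul_right (mem_valuationSubring_of_mem_chart hy hM.evW_mem) hM.q_mem

theorem IsVert.par_sub_notMem {V : ValuationSubring F} (hV : IsVert W q t V)
    (ht : Transcendental K t) (w : W) : t - algebraMap K F w ∉ V.nonunits := by
  have hX : (X - C w : W[X]).map (IsLocalRing.residue W) ≠ 0 := by simp [X_sub_C_ne_zero]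
  have e : evW W t (X - C w) = t - algebraMap K F w := by simp [evW_X, evW_C]
  intro h
  rcases (ValuationSubring.mem_nonunits_iff_or V).mp h with h0 | h1
  · exact evW_ne_zero ht hX (e.trans h0)
  · exact h1 (e ▸ hV.unit _ hX)

/-- Valuation rings of an algebraic closure restricting to `W` are equal. -/
def UniqueExt (W : ValuationSubring K) : Prop :=
  ∀ V V' : ValuationSubring (AlgebraicClosure K),
    V.comap (algebraMap K (AlgebraicClosure K)) = W →
    V'.comap (algebraMap K (AlgebraicClosure K)) = W → V = V'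

/-- Valuation rings over `W` agree on algebraic elements. -/
theorem mem_iff_of_isAlgebraic (hu : UniqueExt W) {V V' : ValuationSubring F}
    (hV : V.comap (algebraMap K F) = W) (hV' : V'.comap (algebraMap K F) = W) {c : F}
    (hc : IsAlgebraic K c) : c ∈ V ↔ c ∈ V' := by
  let L : IntermediateField K F := algebraicClosure K F
  let ι : L →ₐ[K] AlgebraicClosure K := IsAlgClosed.lift
  have hext : ∀ U : ValuationSubring F, ∃ B : ValuationSubring (AlgebraicClosure K),
      B.comap (ι : L →+* AlgebraicClosure K) = U.comap (algebraMap L F) := by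
    intro U
    obtain ⟨B, hB⟩ := LocalSubring.exists_le_valuationSubring
      ((U.comap (algebraMap L F)).toLocalSubring.map (ι : L →+* AlgebraicClosure K))
    refine ⟨B, ?_⟩
    refine le_antisymm (fun x hx => ?_) fun x hx => hB.1 ⟨x, hx, rfl⟩
    by_contra hxU
    obtain ⟨hi, hn⟩ : x⁻¹ ∈ (U.comap (algebraMap L F)) ∧
      x⁻¹ ∈ (U.comap (algebraMap L F)).nonunits :=
      ⟨((U.comap _).mem_or_inv_mem x).resolve_left hxU,
        (ValuationSubring.mem_nonunits_iff_or _).mpr (Or.inr (by rwa [inv_inv]))⟩
    obtain ⟨_, hmax⟩ := (ValuationSubring.mem_nonunits_iff_exists_mem_maximalIdeal).mp hn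
    have hx0 : x ≠ 0 := fun e => hxU (e ▸ zero_mem _)
    have hu : IsUnit (⟨ι x⁻¹, hB.1 ⟨x⁻¹, hi, rfl⟩⟩ : B.toSubring) :=
      isUnit_iff_exists_inv.mpr ⟨⟨ι x, hx⟩, Subtype.ext (by
        show ι x⁻¹ * ι x = 1
        rw [← map_mul, inv_mul_cancel₀ hx0, map_one])⟩
    have hu' := hB.2.map_nonunit (⟨ι x⁻¹, ⟨x⁻¹, hi, rfl⟩⟩ :
      ((U.comap (algebraMap L F)).toLocalSubring.map (ι : L →+* AlgebraicClosure K)).toSubring) hu
    obtain ⟨⟨_, y, hy, rfl⟩, hyu⟩ := hu'.exists_right_inv
    refine (IsLocalRing.mem_maximalIdeal _).mp hmax (isUnit_iff_exists_inv.mpr ⟨⟨y, hy⟩, ?_⟩)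
    refine Subtype.ext (ι.toRingHom.injective ?_)
    have := congrArg Subtype.val hyu
    simpa using this
  obtain ⟨B, hB⟩ := hext V
  obtain ⟨B', hB'⟩ := hext V'
  have hres : ∀ {U : ValuationSubring F} {B : ValuationSubring (AlgebraicClosure K)},
      U.comap (algebraMap K F) = W → B.comap (ι : L →+* AlgebraicClosure K) =
        U.comap (algebraMap L F) → B.comap (algebraMap K (AlgebraicClosure K)) = W := by
    intro U B hU hB
    rw [← ι.comp_algebraMap, ← ValuationSubring.comap_comap]
    rw [hB, ValuationSubring.comap_comap, ← IsScalarTower.algebraMap_eq, hU]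
  have hBB := hu B B' (hres hV hB) (hres hV' hB')
  subst hBB
  have hcL : c ∈ L := hc.isIntegral
  constructor
  · intro h
    exact (show (⟨c, hcL⟩ : L) ∈ V'.comap (algebraMap L F) from
      hB' ▸ hB.symm ▸ (show (⟨c, hcL⟩ : L) ∈ V.comap (algebraMap L F) from h))
  · intro h
    exact (show (⟨c, hcL⟩ : L) ∈ V.comap (algebraMap L F) from
      hB ▸ hB'.symm ▸ (show (⟨c, hcL⟩ : L) ∈ V'.comap (algebraMap L F) from h))

include hb in
/-- A valuation ring containing `W` in which `q` is not a unit restricts to `W`. -/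
theorem comap_algebraMap_eq {V : ValuationSubring F} (h : ∀ w : W, algebraMap K F w ∈ V)
    (hq : (q : F) ∈ V.nonunits) : V.comap (algebraMap K F) = W := by
  refine le_antisymm (fun x hx => ?_) fun x hx => h ⟨x, hx⟩
  by_contra hxW
  have := hb.dvr
  have hxi : x⁻¹ ∈ W := (W.mem_or_inv_mem x).resolve_left hxW
  have hm : (⟨x⁻¹, hxi⟩ : W) ∈ IsLocalRing.maximalIdeal W := by
    rw [IsLocalRing.mem_maximalIdeal]
    intro hu
    obtain ⟨y, hy⟩ := hu.exists_right_inv
    refine hxW ?_
    have hx0 : x ≠ 0 := fun e => hxW (e ▸ W.zero_mem)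
    rw [(inv_mul_eq_one₀ hx0).mp (congrArg Subtype.val hy)]
    exact y.2
  rw [hb.uniformizer, Ideal.mem_span_singleton'] at hm
  obtain ⟨c, hc'⟩ := hm
  have e : algebraMap K F (x⁻¹) = algebraMap K F c * (q : F) := by
    rw [← map_natCast (algebraMap K F), ← map_mul]
    exact congrArg (algebraMap K F) (by simpa using (congrArg Subtype.val hc').symm)
  rcases (ValuationSubring.mem_nonunits_iff_or V).mp hq with h0 | h1
  · exact q_ne_zero hb h0
  refine h1 ?_
  have hx0 : algebraMap K F x ≠ 0 :=
    (_root_.map_ne_zero _).mpr fun e => hxW (e ▸ W.zero_mem)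
  have : ((q : F))⁻¹ = algebraMap K F x * algebraMap K F c := by
    refine inv_eq_of_mul_eq_one_right ?_
    rw [mul_comm (algebraMap K F x), ← mul_assoc, mul_comm (q : F), ← e, map_inv₀,
      inv_mul_cancel₀ hx0]
  rw [this]
  exact V.mul_mem _ _ hx (h c)

include hb in
theorem IsVert.comap_algebraMap {V : ValuationSubring F} (hV : IsVert W q t V) :
    V.comap (algebraMap K F) = W :=
  comap_algebraMap_eq hb (fun w => by simpa [evW_C] using hV.evW_mem (C w)) hV.q_mem

include hb in
theorem IsPoint.comap_algebraMap (hM : IsPoint W q t M) : M.comap (algebraMap K F) = W :=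
  comap_algebraMap_eq hb (fun w => by simpa [evW_C] using hM.evW_mem (C w)) hM.q_mem

end Fermat.Agent.Carayol

namespace Fermat.Agent.Carayol

variable {K F : Type*} [Field K] [Field F] [Algebra K F]
variable {W : ValuationSubring K} {q : ℕ} {t : F}

/-- Every vertical valuation passes through a point with any given residue of the parameter. -/
theorem exists_point_through [IsAlgClosed (IsLocalRing.ResidueField W)] (hb : BaseData W q)
    (hc : Cover K t) {V : ValuationSubring F} (hV : IsVert W q t V) (w : W) :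
    ∃ M, IsPoint W q t M ∧ Through W t M V ∧ t - algebraMap K F w ∈ M.nonunits := by
  let : Algebra W[X] F := (evW W t).toAlgebra
  have hle : ∀ x ∈ chart W t, x ∈ V := fun x hx => mem_valuationSubring_of_mem_chart hx hV.evW_mem
  let P : Ideal (integralClosure W[X] F) :=
    (IsLocalRing.maximalIdeal V).comap ((integralClosure W[X] F).val.toRingHom.codRestrict V
      fun x => hle x x.2)
  have hP : ∀ x : integralClosure W[X] F, x ∈ P ↔ (x : F) ∈ V.nonunits := fun x => by
    rw [Ideal.mem_comap, ValuationSubring.mem_nonunits_iff_exists_mem_maximalIdeal]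
    exact ⟨fun h => ⟨hle x x.2, h⟩, fun ⟨_, h⟩ => h⟩
  let J : Ideal W[X] := Ideal.span {C (q : W), X - C w}
  have hJm : J.IsPrime := by
    have := hb.dvr
    have e : J = RingHom.ker ((IsLocalRing.residue W).comp (Polynomial.evalRingHom w)) := by
      ext p
      rw [RingHom.mem_ker, RingHom.comp_apply, IsLocalRing.residue_eq_zero_iff, hb.uniformizer,
        coe_evalRingHom, Ideal.mem_span_singleton', Ideal.mem_span_pair]
      constructor
      · rintro ⟨a, b, rfl⟩
        exact ⟨a.eval w, by simp⟩
      · rintro ⟨c, hc'⟩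
        obtain ⟨g, hg⟩ := X_sub_C_dvd_sub_C_eval (a := w) (p := p)
        exact ⟨C c, g, by rw [← map_mul, hc', mul_comm, ← hg]; ring⟩
    rw [e]
    exact RingHom.ker_isPrime _
  have hPJ : P.comap (algebraMap W[X] (integralClosure W[X] F)) ≤ J := by
    intro p hp
    rw [Ideal.mem_comap, hP] at hp
    by_cases h0 : p.map (IsLocalRing.residue W) = 0
    · have := hb.dvr
      have hC : C (q : W) ∣ p := by
        rw [C_dvd_iff_dvd_coeff]
        intro i
        have := congrArg (fun r => r.coeff i) h0
        simp only [coeff_map, coeff_zero, IsLocalRing.residue_eq_zero_iff, hb.uniformizer] at this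
        exact Ideal.mem_span_singleton.mp this
      obtain ⟨p', rfl⟩ := hC
      exact Ideal.mul_mem_right _ _ (Ideal.subset_span (by simp))
    · exfalso
      rcases (ValuationSubring.mem_nonunits_iff_or V).mp hp with e | e
      · exact evW_ne_zero hc.transcendental h0 e
      · exact e (hV.unit p h0)
  obtain ⟨Q, hPQ, hQp, hQ⟩ := @Ideal.exists_ideal_over_prime_of_isIntegral W[X] _
    (integralClosure W[X] F) (integralClosure W[X] F).toCommRing _ _ J hJm P hPJ
  have hmem : ∀ p : W[X], p ∈ J → algebraMap W[X] (integralClosure W[X] F) p ∈ Q := fun p hp => by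
    rwa [← hQ, Ideal.mem_comap] at hp
  obtain ⟨M, hM, hQM⟩ := exists_point hb (show Ideal (chart W t) from Q) hQp.ne_top (by
    have := hmem _ (Ideal.subset_span (Set.mem_insert (C (q : W)) {X - C w}))
    rw [map_natCast, map_natCast] at this
    show (⟨(q : F), natCast_mem_chart q⟩ : integralClosure W[X] F) ∈ Q
    convert this using 1
    exact Subtype.ext (by simp))
  refine ⟨M, hM, fun x hx hxV => hQM ⟨x, hx⟩ (hPQ ((hP ⟨x, hx⟩).mpr hxV)), ?_⟩
  have h : evW W t (X - C w) ∈ M.nonunits := hQM _ (hmem _ (Ideal.subset_span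
    (Set.mem_insert_of_mem _ rfl : X - C w ∈ ({C (q : W), X - C w} : Set W[X]))))
  simpa [evW_X, evW_C] using h

end Fermat.Agent.Carayol
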