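import Fermat.Agent.Carayol.LocalGen

/-!
# Components through a point

Vertical valuation rings through a point with two generators `z, w`: at most one of them has `z`
as a nonunit, and there is one if `z` divides `q` and the others contain a complementary generator.

Main results: `eq_of_through_gen`, `exists_through_mem`.
-/

set_option autoImplicit false

open Polynomial

namespace Fermat.Agent.Carayol

variable {K F : Type*} [Field K] [Field F] [Algebra K F]
variable {W : ValuationSubring K} {q : ℕ} {t : F} {M : ValuationSubring F}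

theorem chart_le_valuation (hM : IsPoint W q t M) : chart W t ≤ M.toSubring :=
  fun _ hy => mem_valuationSubring_of_mem_chart hy hM.evW_mem

theorem notMem_nonunits_pow_mul {V : ValuationSubring F} {x : F} (hx : x ∈ V) {z : F}
    (hz : z ∈ V.nonunits) {n : ℕ} (hn : 0 < n) : z ^ n * x ∈ V.nonunits := by
  obtain ⟨k, rfl⟩ := Nat.exists_eq_succ_of_ne_zero hn.ne'
  rw [pow_succ', mul_assoc]
  exact nonunits_mul_right (mul_mem (pow_mem (ValuationSubring.nonunits_subset hz) k) hx) hz

variable (hb : BaseData W q) (hc : Cover K t) (hM : IsPoint W q t M)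

include hb hc hM in
theorem isNoetherianRing_locRing : IsNoetherianRing (locRing W t M) :=
  haveI := isNoetherianRing_chart hb hc
  isNoetherianRing_locAt (chart_le_valuation hM)

include hb hc hM in
/-- The prime of a vertical valuation ring containing one of two generators is generated by it. -/
theorem exists_mul_of_mem_nonunits {z w : F} (hg : Gen2 W t M z w) {V : ValuationSubring F}
    (hV : IsVert W q t V) (hT : Through W t M V) (hzV : z ∈ V.nonunits) {x : F}
    (hx : x ∈ locRing W t M) (hxV : x ∈ V.nonunits) :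
    ∃ a ∈ locRing W t M, x = a * z := by
  have := isNoetherianRing_locRing hb hc hM
  have : IsLocalRing (locRing W t M) := isLocalRing_locAt (chart_le_valuation hM)
  have hle := hT.locRing_le hV.evW_mem
  let P : Ideal (locRing W t M) := (IsLocalRing.maximalIdeal V).comap (Subring.inclusion hle)
  have hmemP : ∀ a : locRing W t M, a ∈ P ↔ (a : F) ∈ V.nonunits := fun a => by
    rw [Ideal.mem_comap, ValuationSubring.mem_nonunits_iff_exists_mem_maximalIdeal]
    exact ⟨fun h => ⟨hle a.2, h⟩, fun ⟨_, h⟩ => h⟩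
  let z' : locRing W t M := ⟨z, hg.1⟩
  let w' : locRing W t M := ⟨w, hg.2.2.1⟩
  obtain ⟨w₀, hw₀⟩ := hM.exists_par
  have hmem : ∀ a : locRing W t M, (a : F) ∈ M.nonunits → ∃ b c, a = b * z' + c * w' := by
    intro a ha
    obtain ⟨b, hb', c, hc', e⟩ := hg.2.2.2.2 a a.2 ha
    exact ⟨⟨b, hb'⟩, ⟨c, hc'⟩, Subtype.ext e⟩
  have hwP : w' ∉ P := by
    intro h
    have htR : t - algebraMap K F w₀ ∈ locRing W t M :=
      chart_le_locRing (sub_mem par_mem_chart (algebraMap_mem_chart w₀))
    obtain ⟨b, c, e⟩ := hmem ⟨_, htR⟩ hw₀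
    refine hV.par_sub_notMem hc.transcendental w₀ ((hmemP ⟨_, htR⟩).mp ?_)
    rw [e]
    exact add_mem (P.mul_mem_left _ ((hmemP z').mpr hzV)) (P.mul_mem_left _ h)
  have hP : P ≤ Ideal.span {z'} := by
    refine Submodule.le_of_le_smul_of_le_jacobson_bot (IsNoetherian.noetherian P)
      (IsLocalRing.jacobson_eq_maximalIdeal ⊥ bot_ne_top).ge fun a ha => ?_
    have haM : (a : F) ∈ M.nonunits := hT.nonunits hM.evW_mem a.2 ((hmemP a).mp ha) hV.evW_mem
    obtain ⟨b, c, rfl⟩ := hmem a haM
    refine Submodule.add_mem_sup (Ideal.mul_mem_left _ _ (Ideal.mem_span_singleton_self z')) ?_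
    rw [mul_comm, Ideal.smul_eq_mul]
    refine Ideal.mul_mem_mul ((mem_maximalIdeal_locAt (chart_le_valuation hM) w').mpr hg.2.2.2.1)
      (((Ideal.IsPrime.mem_or_mem (inferInstance : P.IsPrime))
        (?_ : c * w' ∈ P)).resolve_right hwP)
    have := sub_mem ha (P.mul_mem_left b ((hmemP z').mpr hzV))
    rwa [add_sub_cancel_left] at this
  obtain ⟨a, ha⟩ := Ideal.mem_span_singleton'.mp (hP ((hmemP ⟨x, hx⟩).mpr hxV))
  exact ⟨a, a.2, (congrArg Subtype.val ha).symm⟩

include hb hc hM in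
/-- **A generator determines the component.** -/
theorem eq_of_through_gen {z w : F} (hz0 : z ≠ 0) (hg : Gen2 W t M z w)
    {V V' : ValuationSubring F} (hV : IsVert W q t V) (hT : Through W t M V)
    (hV' : IsVert W q t V') (hT' : Through W t M V') (hzV : z ∈ V.nonunits)
    (hzV' : z ∈ V'.nonunits) : V = V' := by
  suffices key : ∀ {U U' : ValuationSubring F}, IsVert W q t U → Through W t M U → z ∈ U.nonunits →
      IsVert W q t U' → Through W t M U' → z ∈ U'.nonunits → ∀ x ∈ U, x ∈ U' from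
    le_antisymm (key hV hT hzV hV' hT' hzV') (key hV' hT' hzV' hV hT hzV)
  intro U U' hU hTU hzU hU' hTU' hzU' x hx
  have := isNoetherianRing_locRing hb hc hM
  let z' : locRing W t M := ⟨z, hg.1⟩
  have hnu : ¬IsUnit z' := fun hu =>
    (isUnit_locAt_iff (chart_le_valuation hM) z').mp hu hg.2.1
  have hfac : ∀ a : F, a ∈ locRing W t M → a ≠ 0 → ∃ (n : ℕ) (b : F), b ∈ locRing W t M ∧
      a = z ^ n * b ∧ ∀ U'' : ValuationSubring F, IsVert W q t U'' → Through W t M U'' →
        z ∈ U''.nonunits → b ∉ U''.nonunits := by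
    intro a ha ha0
    obtain ⟨n, b, hnd, e⟩ := WfDvdMonoid.max_power_factor' (a₀ := (⟨a, ha⟩ : locRing W t M))
      (x := z') (fun h => ha0 (congrArg Subtype.val h)) hnu
    refine ⟨n, b, b.2, congrArg Subtype.val e, fun U'' hU'' hT'' hz'' hb' => hnd ?_⟩
    obtain ⟨c, hcR, he⟩ := exists_mul_of_mem_nonunits hb hc hM hg hU'' hT'' hz'' b.2 hb'
    exact ⟨⟨c, hcR⟩, Subtype.ext (he.trans (mul_comm _ _))⟩
  rcases eq_or_ne x 0 with rfl | hx0
  · exact zero_mem U'
  obtain ⟨a, ha, b, hb0, e⟩ := exists_chart_div hb hc x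
  have ha0 : a ≠ 0 := e ▸ mul_ne_zero hx0 hb0
  obtain ⟨i, a', ha', hai, hau⟩ := hfac a (chart_le_locRing ha) ha0
  obtain ⟨j, b', hb', hbj, hbu⟩ := hfac _ (chart_le_locRing (evW_mem_chart b)) hb0
  have hb'0 : b' ≠ 0 := ne_zero_of_notMem_nonunits (hbu U hU hTU hzU)
  have ha'0 : a' ≠ 0 := ne_zero_of_notMem_nonunits (hau U hU hTU hzU)
  rcases le_or_gt j i with hle | hlt
  · obtain ⟨k, rfl⟩ := Nat.exists_eq_add_of_le hle
    have hxe : x = z ^ k * a' * b'⁻¹ := by
      rw [hbj, hai, pow_add] at e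
      field_simp
      refine mul_left_cancel₀ (pow_ne_zero j hz0) ?_
      linear_combination e
    rw [hxe]
    exact mul_mem (mul_mem (pow_mem (ValuationSubring.nonunits_subset hzU') k)
      (hTU'.locRing_le hU'.evW_mem ha')) (inv_mem_of_notMem_nonunits' (hbu U' hU' hTU' hzU'))
  · exfalso
    obtain ⟨k, rfl⟩ := Nat.exists_eq_add_of_le hlt
    have hxe : x * (z ^ (k + 1) * (b' * a'⁻¹)) = 1 := by
      rw [hbj, hai, show i.succ + k = i + (k + 1) by omega, pow_add] at e
      field_simp
      refine mul_left_cancel₀ (pow_ne_zero i hz0) ?_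
      linear_combination e
    refine one_notMem_nonunits U (hxe ▸ nonunits_mul_left hx (notMem_nonunits_pow_mul ?_ hzU
      (Nat.succ_pos k)))
    exact mul_mem (hTU.locRing_le hU.evW_mem hb')
      (inv_mem_of_notMem_nonunits' (hau U hU hTU hzU))

include hb hc hM in
/-- **Every generator occurs on a component.** -/
theorem exists_through_mem [UniqueFactorizationMonoid (locRing W t M)] {z : F} (hz0 : z ≠ 0)
    (hzR : z ∈ locRing W t M) (hzM : z ∈ M.nonunits) (hq : ∃ a ∈ locRing W t M, (q : F) = a * z)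
    (hgen : ∀ V, IsVert W q t V → Through W t M V → z ∉ V.nonunits →
      ∃ g, g ∈ V.nonunits ∧ Gen2 W t M z g) :
    ∃ V, IsVert W q t V ∧ Through W t M V ∧ z ∈ V.nonunits := by
  classical
  have := isNoetherianRing_locRing hb hc hM
  have : IsLocalRing (locRing W t M) := isLocalRing_locAt (chart_le_valuation hM)
  have hmax := mem_maximalIdeal_locAt (chart_le_valuation hM)
  obtain ⟨V₀, hV₀, hT₀⟩ := exists_through hb hc hM
  let P : Ideal (locRing W t M) :=
    (IsLocalRing.maximalIdeal V₀).comap (Subring.inclusion (hT₀.locRing_le hV₀.evW_mem))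
  have hmemP : ∀ a : locRing W t M, a ∈ P ↔ (a : F) ∈ V₀.nonunits := fun a => by
    rw [Ideal.mem_comap, ValuationSubring.mem_nonunits_iff_exists_mem_maximalIdeal]
    exact ⟨fun h => ⟨hT₀.locRing_le hV₀.evW_mem a.2, h⟩, fun ⟨_, h⟩ => h⟩
  obtain ⟨w₀, hw₀⟩ := hM.exists_par
  obtain ⟨Q, hQp, hzQ, hQm⟩ := exists_prime_of_mem (R := locRing W t M) (z := ⟨z, hzR⟩)
    (fun h => hz0 (congrArg Subtype.val h)) ((hmax _).mpr hzM) (P := P) inferInstance
    (fun h => q_ne_zero (F := F) hb (by
      have : (⟨(q : F), natCast_mem _ q⟩ : locRing W t M) ∈ P := (hmemP _).mpr hV₀.q_mem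
      rw [h] at this
      exact congrArg Subtype.val this))
    (fun h => hV₀.par_sub_notMem hc.transcendental w₀ ((hmemP ⟨_, chart_le_locRing
      (sub_mem par_mem_chart (algebraMap_mem_chart w₀))⟩).mp (h ▸ (hmax _).mpr hw₀)))
  by_contra hno
  push Not at hno
  -- each component through the point has an element outside `Q`
  have hex : ∀ V, IsVert W q t V → Through W t M V →
      ∃ g : locRing W t M, (g : F) ∈ V.nonunits ∧ g ∉ Q := by
    intro V hV hT
    obtain ⟨g, hgV, hg⟩ := hgen V hV hT (hno V hV hT)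
    refine ⟨⟨g, hg.2.2.1⟩, hgV, fun hgQ => hQm (le_antisymm
      (IsLocalRing.le_maximalIdeal hQp.ne_top) fun x hx => ?_)⟩
    obtain ⟨a, ha, b, hb', e⟩ := hg.2.2.2.2 x x.2 ((hmax x).mp hx)
    rw [show x = ⟨a, ha⟩ * ⟨z, hzR⟩ + ⟨b, hb'⟩ * ⟨g, hg.2.2.1⟩ from Subtype.ext e]
    exact add_mem (Q.mul_mem_left _ hzQ) (Q.mul_mem_left _ hgQ)
  let g : ValuationSubring F → locRing W t M := fun V =>
    if h : IsVert W q t V ∧ Through W t M V then (hex V h.1 h.2).choose else 1
  set π := ∏ V ∈ (finite_vert hb hc).toFinset, g V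
  have hπQ : π ∉ Q := by
    refine Finset.prod_induction _ (· ∉ Q) (fun _ _ ha hb' h => (hQp.mem_or_mem h).elim ha hb')
      hQp.one_notMem fun V _ => ?_
    simp only [g]
    split_ifs with h
    exacts [(hex V h.1 h.2).choose_spec.2, hQp.one_notMem]
  obtain ⟨d, hd, hdn, hdv⟩ := exists_sep (M := M) hb hc
  obtain ⟨a, ha, b, hb', hbn, hab⟩ := π.2
  obtain ⟨N, hN, y, hy, e⟩ := exists_pow_eq_q_mul hb hc (mul_mem ha hd) fun V hV => by
    by_cases hT : Through W t M V
    · refine nonunits_mul_right (mem_valuationSubring_of_mem_chart hd hV.evW_mem) ?_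
      rw [← hab]
      refine nonunits_mul_right (mem_valuationSubring_of_mem_chart hb' hV.evW_mem) ?_
      simp only [π]
      rw [← Finset.mul_prod_erase _ _ ((finite_vert hb hc).mem_toFinset.mpr hV), Subring.coe_mul]
      refine nonunits_mul_right (hT.locRing_le hV.evW_mem (Subtype.mem _)) ?_
      simp only [g, dif_pos (And.intro hV hT)]
      exact (hex V hV hT).choose_spec.1
    · exact nonunits_mul_left (mem_valuationSubring_of_mem_chart ha hV.evW_mem) (hdv V hV hT)
  have hQq : (⟨a * d, chart_le_locRing (mul_mem ha hd)⟩ : locRing W t M) ^ N ∈ Q := by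
    obtain ⟨c, hcR, hq'⟩ := hq
    rw [show (⟨a * d, chart_le_locRing (mul_mem ha hd)⟩ : locRing W t M) ^ N =
      (⟨c, hcR⟩ * ⟨y, chart_le_locRing hy⟩) * ⟨z, hzR⟩ from Subtype.ext (by
        simp only [SubmonoidClass.coe_pow, Subring.coe_mul, e, hq']; ring)]
    exact Q.mul_mem_left _ hzQ
  rcases hQp.mem_or_mem (show (⟨a, chart_le_locRing ha⟩ * ⟨d, chart_le_locRing hd⟩ :
      locRing W t M) ∈ Q from hQp.mem_of_pow_mem N hQq) with h | h
  · rw [show (⟨a, chart_le_locRing ha⟩ : locRing W t M) = π * ⟨b, chart_le_locRing hb'⟩ from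
      Subtype.ext hab.symm] at h
    rcases hQp.mem_or_mem h with h | h
    · exact hπQ h
    · exact hbn ((hmax _).mp (IsLocalRing.le_maximalIdeal hQp.ne_top h))
  · exact hdn ((hmax _).mp (IsLocalRing.le_maximalIdeal hQp.ne_top h))

end Fermat.Agent.Carayol
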