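import Fermat.Agent.Carayol.DeuringBasic
import Fermat.Agent.Carayol.PointGen

/-!
# Points of good reduction of the Deuring family

Closed points of good reduction of the family `y² + a x y + y = x³` at `q = 2`: the values `s` at
two points of order two give the two generators.

Main results: `deuring_good`, `deuring_supersingular`.
-/

set_option autoImplicit false

open Polynomial IsLocalRing Fermat.Agent.EC.Reduction

namespace Fermat.Agent.Carayol

variable {K F : Type*} [Field K] [CharZero K] [Field F] [DecidableEq F] [Algebra K F]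
  {r : ℕ} [NeZero (2 * r)] [Fact (Nat.Prime 2)] (L : LevelData K F deuringFam 2 r)
  {W : ValuationSubring K} [IsAlgClosed (IsLocalRing.ResidueField W)]
  {M : ValuationSubring F} (hb : BaseData W 2) (hM : IsPoint W 2 L.par M)
  (hΔres : (L.resCurve hM.par_mem).Δ ≠ 0) (hqr : r.Coprime 2)

namespace LevelData

include hb hM hΔres hqr in
/-- **Generators at a point of good reduction.** -/
theorem deuring_gen {V₀ : ValuationSubring F} (hV₀ : IsVert W 2 L.par V₀)
    (hT₀ : Through W L.par M V₀) {P Q : L.curve.toAffine.Point} (hP0 : P ≠ 0) (hP : 2 • P = 0)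
    (hQ : 2 • Q = 0) (hQP : Q ∉ AddSubgroup.zmultiples P) (hPk : InKer V₀ P) {c : W}
    (hc : zOf Q - algebraMap K F c ∈ M.nonunits) :
    UniqueFactorizationMonoid (locRing W L.par M) ∧
      Gen2 W L.par M (zOf P) (zOf Q - algebraMap K F c) := by
  classical
  have hΔ := deuring_Δ_ne_zero
  have hcov := L.cover hΔ
  have hQ0 : Q ≠ 0 := fun e => hQP (by rw [e]; exact zero_mem _)
  obtain ⟨-, hpar, htwo⟩ := L.deuring_basis_rel hP0 hP hQ hQP
  have hzR : ∀ {A : L.curve.toAffine.Point}, 2 • A = 0 → zOf A ∈ locRing W L.par M :=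
    fun hA => chart_le_locRing (L.deuring_zOf_mem_chart hA)
  set S : Set F := {L.par, zOf P, zOf Q} ∪
    ⋃ R ∈ {R : L.curve.toAffine.Point | r • R = 0}, pointCoords R
  have hsmall : ∀ a ∈ ({L.par, zOf P, zOf Q} : Set F), a ∈ S := fun a ha => Or.inl ha
  have hrS : ∀ R : L.curve.toAffine.Point, r • R = 0 → pointCoords R ⊆ S := fun R hR a ha =>
    Or.inr (Set.mem_iUnion₂.mpr ⟨R, hR, ha⟩)
  have hSfin : S.Finite := by
    refine Set.Finite.union (Set.toFinite _) ((L.finite_rTorsion hΔ).biUnion fun R _ => ?_)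
    rcases R with _ | ⟨a, b, n⟩
    exacts [Set.finite_empty, (Set.finite_singleton b).insert a]
  have hSR : S ⊆ locRing W L.par M := by
    rintro a (ha | ha)
    · simp only [Set.mem_insert_iff, Set.mem_singleton_iff] at ha
      rcases ha with rfl | rfl | rfl
      exacts [chart_le_locRing par_mem_chart, hzR hP, hzR hQ]
    · obtain ⟨R, hR, ha⟩ := Set.mem_iUnion₂.mp ha
      rcases R with _ | ⟨a', b', n⟩
      · exact ha.elim
      obtain ⟨hac, hbc⟩ := L.rTorsion_mem_chart hΔ hqr hb hR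
      rcases ha with rfl | rfl
      exacts [chart_le_locRing hac, chart_le_locRing hbc]
  have hgenF : IntermediateField.adjoin K S = ⊤ := by
    have hsub := IntermediateField.subset_adjoin K S
    have hcoord : ∀ A : L.curve.toAffine.Point, 2 • A = 0 → zOf A ∈ S →
        pointCoords A ⊆ (IntermediateField.adjoin K S : Set F) := by
      intro A hA hAS
      rcases A with _ | ⟨a, b, n⟩
      · exact Set.empty_subset _
      obtain ⟨ha0, hb0, -, hxs, hys⟩ := L.deuring_two_torsion hA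
      have hs : a / b ∈ IntermediateField.adjoin K S := hsub hAS
      have hs0 : a / b ≠ 0 := div_ne_zero ha0 hb0
      rintro z (hz | hz)
      · rw [show z = a from hz, show a = -1 * ((a / b) ^ 2)⁻¹ by
          rw [eq_mul_inv_iff_mul_eq₀ (pow_ne_zero 2 hs0), hxs]]
        exact mul_mem (neg_mem (one_mem _)) (inv_mem (pow_mem hs 2))
      · rw [show z = b from hz, show b = -1 * ((a / b) ^ 3)⁻¹ by
          rw [eq_mul_inv_iff_mul_eq₀ (pow_ne_zero 3 hs0), hys]]
        exact mul_mem (neg_mem (one_mem _)) (inv_mem (pow_mem hs 3))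
    exact L.adjoin_eq_top_of_torsion hΔ hqr (hsmall _ (by simp)) hP0 hP hQ hQP
      (hcoord P hP (hsmall _ (by simp))) (hcoord Q hQ (hsmall _ (by simp)))
      fun R hR => (hrS R hR).trans hsub
  set C := genRing W S
  have hSC : S ⊆ C := subset_genRing S
  have hzC : zOf P ∈ C := hSC (hsmall _ (by simp))
  have hzQC : zOf Q ∈ C := hSC (hsmall _ (by simp))
  have hwC : zOf Q - algebraMap K F c ∈ C := sub_mem hzQC (algebraMap_mem_genRing S c)
  have hC : C ≤ M.toSubring := genRing_le hM.evW_mem hSR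
  have := isLocalRing_locAt (M := M) hC
  have hzV : zOf P ∈ V₀.nonunits := (L.deuring_inKer_iff hP).mp hPk
  have hzM : zOf P ∈ M.nonunits := hT₀.nonunits hM.evW_mem (hzR hP) hzV hV₀.evW_mem
  set z' : locAt C M := ⟨zOf P, le_locAt hzC⟩
  set w' : locAt C M := ⟨zOf Q - algebraMap K F c, le_locAt hwC⟩
  set I := Ideal.span {z', w'} ⊔ maximalIdeal (locAt C M) ^ 2
  have hzI : z' ∈ I := Submodule.mem_sup_left (Ideal.subset_span (by simp))
  have hwI : w' ∈ I := Submodule.mem_sup_left (Ideal.subset_span (by simp))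
  have hqI : ((2 : ℕ) : locAt C M) ∈ I := by
    rw [show ((2 : ℕ) : locAt C M) =
      (-(⟨zOf Q, le_locAt hzQC⟩ * (z' + ⟨zOf Q, le_locAt hzQC⟩))) * z' from Subtype.ext (by
        push_cast
        simp only [z']
        rw [show ((2 : locAt C M) : F) = 2 from rfl]
        linear_combination htwo)]
    exact Ideal.mul_mem_left _ _ hzI
  have hF : NearFrame W 2 L.par M I := by
    refine ⟨genRing_le_locRing hSR, algebraMap_mem_genRing S, fun a ha => ?_, fun a b ha hb' => ?_,
      hqI⟩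
    · refine (mem_maximalIdeal_locAt hC a).mp ((show I ≤ maximalIdeal (locAt C M) from
        sup_le (Ideal.span_le.mpr ?_) (Ideal.pow_le_self two_ne_zero)) ha)
      rintro _ (rfl | rfl)
      exacts [(mem_maximalIdeal_locAt hC _).mpr hzM, (mem_maximalIdeal_locAt hC _).mpr hc]
    · refine Submodule.mem_sup_right ?_
      rw [pow_two]
      exact Ideal.mul_mem_mul ((mem_maximalIdeal_locAt hC a).mpr ha)
        ((mem_maximalIdeal_locAt hC b).mpr hb')
  have hzn : NearConst W M I (zOf P) := nearConst_of_mem hF (le_locAt hzC) hzI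
  have hQn : NearConst W M I (zOf Q) := ⟨c, le_locAt hwC, hwI⟩
  have htn : NearConst W M I L.par := by
    rw [hpar, pow_two, pow_two]
    exact nearConst_add hF (nearConst_add hF (nearConst_mul hF hzn hzn)
      (nearConst_mul hF hzn hQn)) (nearConst_mul hF hQn hQn)
  have hall : ∀ g ∈ S, NearConst W M I g := by
    rintro a (ha | ha)
    · simp only [Set.mem_insert_iff, Set.mem_singleton_iff] at ha
      rcases ha with rfl | rfl | rfl
      exacts [htn, hzn, hQn]
    · obtain ⟨R, hR, ha'⟩ := Set.mem_iUnion₂.mp ha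
      rcases R with _ | ⟨a', b', n⟩
      · exact ha'.elim
      have := L.rTorsion_near hΔ hqr hb hM hM.par_mem hΔres hF htn hR
        (le_locAt (hSC (hrS _ hR (Or.inl rfl)))) (le_locAt (hSC (hrS _ hR (Or.inr rfl))))
      rcases ha' with rfl | rfl
      exacts [this.1, this.2]
  obtain ⟨-, h1, h2⟩ := locRing_eq_of_generators hb hcov hM hV₀ hT₀ hSfin hSR (hsmall _ (by simp))
    hgenF hzC hwC (L.deuring_zOf_root hP0 hP).1 hzV hc hall hqI
  exact ⟨h1, h2⟩

include hb hM hΔres hqr in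
theorem deuring_gen_of_mem {V : ValuationSubring F} (hV : IsVert W 2 L.par V)
    (hT : Through W L.par M V) {P Q : L.curve.toAffine.Point} (hP0 : P ≠ 0) (hP : 2 • P = 0)
    (hQ : 2 • Q = 0) (hQP : Q ∉ AddSubgroup.zmultiples P) (hPk : InKer V P)
    (hQM : zOf Q ∈ M.nonunits) : Gen2 W L.par M (zOf P) (zOf Q) := by
  have h := (L.deuring_gen hb hM hΔres hqr hV hT hP0 hP hQ hQP hPk (c := 0)
    (by simpa using hQM)).2
  simpa using h

include hb hM hΔres hqr in
/-- **A point of good reduction is good; its components are told apart by their lines.** -/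
theorem deuring_good :
    GoodPoint W 2 L.par M ∧
    ∀ V V', IsVert W 2 L.par V → Through W L.par M V → IsVert W 2 L.par V' →
      Through W L.par M V' →
      (∀ Q : L.curve.toAffine.Point, 2 • Q = 0 → (InKer V Q ↔ InKer V' Q)) → V = V' := by
  have hcov := L.cover deuring_Δ_ne_zero
  have hsame : ∀ V V', IsVert W 2 L.par V → Through W L.par M V → IsVert W 2 L.par V' →
      Through W L.par M V' → ∀ P : L.curve.toAffine.Point, P ≠ 0 → 2 • P = 0 →
      InKer V P → InKer V' P → V = V' := by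
    intro V V' hV hT hV' hT' P hP0 hP hk hk'
    obtain ⟨Q, hQ, hQP⟩ := L.exists_qTorsion_notMem deuring_Δ_ne_zero hP
    obtain ⟨c, hc⟩ := exists_residue_const hb hM
      (chart_le_locRing (M := M) (L.deuring_zOf_mem_chart (W := W) hQ))
    exact eq_of_through_gen hb hcov hM (L.deuring_zOf_root hP0 hP).1
      (L.deuring_gen hb hM hΔres hqr hV hT hP0 hP hQ hQP hk hc).2 hV hT hV' hT'
      ((L.deuring_inKer_iff hP).mp hk) ((L.deuring_inKer_iff hP).mp hk')
  refine ⟨⟨fun V hV hT => ?_, fun V V' hV hT hV' hT' hne x hx hxn => ?_⟩,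
    fun V V' hV hT hV' hT' hiff => ?_⟩
  · obtain ⟨P, Q, hP0, hP, hQ, hQP, hPk, -⟩ := L.deuring_line hV
    obtain ⟨c, hc⟩ := exists_residue_const hb hM
      (chart_le_locRing (M := M) (L.deuring_zOf_mem_chart (W := W) hQ))
    exact ⟨_, _, (L.deuring_inKer_iff hP).mp hPk,
      (L.deuring_gen hb hM hΔres hqr hV hT hP0 hP hQ hQP hPk hc).2⟩
  · obtain ⟨P, -, hP0, hP, -, -, hPk, -⟩ := L.deuring_line hV
    obtain ⟨P', -, hP'0, hP', -, -, hP'k, -⟩ := L.deuring_line hV'
    have hzP := L.deuring_zOf_mem_chart (W := W) hP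
    have hzP' := L.deuring_zOf_mem_chart (W := W) hP'
    have hP'P : P' ∉ AddSubgroup.zmultiples P := fun h => by
      obtain ⟨n, hn⟩ := exists_nsmul_of_mem_zmultiples hP hP'0 h
      exact hne (hsame V V' hV hT hV' hT' P hP0 hP hPk
        (hn ▸ L.inKer_nsmul hV'.par_mem hP'k n))
    have hP'M : zOf P' ∈ M.nonunits := hT'.nonunits hM.evW_mem (chart_le_locRing hzP')
      ((L.deuring_inKer_iff hP').mp hP'k) hV'.evW_mem
    obtain ⟨a, ha, b, hb', e⟩ :=
      (L.deuring_gen_of_mem hb hM hΔres hqr hV hT hP0 hP hP' hP'P hPk hP'M).2.2.2.2 x hx hxn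
    exact ⟨a * zOf P, mul_mem ha (chart_le_locRing hzP), b * zOf P',
      mul_mem hb' (chart_le_locRing hzP'),
      nonunits_mul_left (hT.locRing_le hV.evW_mem ha) ((L.deuring_inKer_iff hP).mp hPk),
      nonunits_mul_left (hT'.locRing_le hV'.evW_mem hb') ((L.deuring_inKer_iff hP').mp hP'k), e⟩
  · obtain ⟨P, -, hP0, hP, -, -, hPk, -⟩ := L.deuring_line hV
    exact hsame V V' hV hT hV' hT' P hP0 hP hPk ((hiff P hP).mp hPk)

include hb hM hΔres hqr in
/-- **At a supersingular point every line occurs.** -/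
theorem deuring_supersingular (hss : L.par ∈ M.nonunits) {P : L.curve.toAffine.Point}
    (hP0 : P ≠ 0) (hP : 2 • P = 0) :
    ∃ V, IsVert W 2 L.par V ∧ Through W L.par M V ∧ InKer V P := by
  have hcov := L.cover deuring_Δ_ne_zero
  have hzM : ∀ {A : L.curve.toAffine.Point}, 2 • A = 0 → zOf A ∈ M.nonunits := by
    intro A hA
    rcases eq_or_ne A 0 with rfl | hA0
    · exact (ValuationSubring.mem_nonunits_iff_or M).mpr (Or.inl rfl)
    have hzA : zOf A ∈ M :=
      mem_valuationSubring_of_mem_chart (L.deuring_zOf_mem_chart hA) hM.evW_mem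
    refine mem_nonunits_of_pow (n := 3) ?_
    rw [show zOf A ^ 3 = zOf A * L.par + 2 by
      linear_combination (L.deuring_zOf_root hA0 hA).2]
    exact add_mem (nonunits_mul_left hzA hss) (by exact_mod_cast hM.q_mem)
  obtain ⟨V₀, hV₀, hT₀⟩ := exists_through hb hcov hM
  obtain ⟨P₀, Q₀, hP₀0, hP₀, hQ₀, hQP₀, hP₀k, -⟩ := L.deuring_line hV₀
  have := (L.deuring_gen hb hM hΔres hqr hV₀ hT₀ hP₀0 hP₀ hQ₀ hQP₀ hP₀k (c := 0)
    (by simpa using hzM hQ₀)).1
  have hzR : ∀ {A : L.curve.toAffine.Point}, 2 • A = 0 → zOf A ∈ locRing W L.par M :=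
    fun hA => chart_le_locRing (L.deuring_zOf_mem_chart hA)
  obtain ⟨Q, hQ, hQP⟩ := L.exists_qTorsion_notMem deuring_Δ_ne_zero hP
  obtain ⟨-, -, htwo⟩ := L.deuring_basis_rel hP0 hP hQ hQP
  have hqz : ∃ a ∈ locRing W L.par M, ((2 : ℕ) : F) = a * zOf P :=
    ⟨-(zOf Q * (zOf P + zOf Q)), neg_mem (mul_mem (hzR hQ) (add_mem (hzR hP) (hzR hQ))), by
      rw [Nat.cast_ofNat]; linear_combination htwo⟩
  have hgen' : ∀ V, IsVert W 2 L.par V → Through W L.par M V → zOf P ∉ V.nonunits →
      ∃ g, g ∈ V.nonunits ∧ Gen2 W L.par M (zOf P) g := by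
    intro V hV hT hnot
    obtain ⟨P', -, hP'0, hP', -, -, hP'k, -⟩ := L.deuring_line hV
    have hPP' : P ∉ AddSubgroup.zmultiples P' := fun h => by
      obtain ⟨n, rfl⟩ := (isOfFinAddOrder_iff_nsmul_eq_zero.mpr
        ⟨2, two_pos, hP'⟩).mem_multiples_iff_mem_zmultiples.mpr h
      exact hnot ((L.deuring_inKer_iff hP).mp (L.inKer_nsmul hV.par_mem hP'k n))
    obtain ⟨h1, h2, h3, h4, h5⟩ :=
      L.deuring_gen_of_mem hb hM hΔres hqr hV hT hP'0 hP' hP hPP' hP'k (hzM hP)
    refine ⟨zOf P', (L.deuring_inKer_iff hP').mp hP'k, h3, h4, h1, h2, fun x hx hxn => ?_⟩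
    obtain ⟨a, ha, b, hb', e⟩ := h5 x hx hxn
    exact ⟨b, hb', a, ha, by rw [e]; ring⟩
  obtain ⟨V, hV, hT, hzPV⟩ := exists_through_mem hb hcov hM (L.deuring_zOf_root hP0 hP).1
    (hzR hP) (hzM hP) hqz hgen'
  exact ⟨V, hV, hT, (L.deuring_inKer_iff hP).mpr hzPV⟩

end LevelData

end Fermat.Agent.Carayol
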