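import Fermat.Agent.Carayol.GoodRed

/-!
# The inertia group of a component

The inertia group of a component with good reduction: it consists of all automorphisms of the
`q`-torsion which stabilise the line reducing to the origin and are trivial on the quotient, as
soon as it is large enough.

Main result: `exists_inertia`.
-/

set_option autoImplicit false

open Polynomial IsLocalRing Fermat.Agent.EC.Reduction

namespace Fermat.Agent.Carayol

variable {K F : Type*} [Field K] [CharZero K] [Field F] [DecidableEq F] [Algebra K F]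
  {fam : WeierstrassCurve ℤ[X]} {q r : ℕ} [NeZero (q * r)] (L : LevelData K F fam q r)
  {V : ValuationSubring F} (hpar : L.par ∈ V)

namespace LevelData

omit [CharZero K] [NeZero (q * r)] in
theorem mem_autGroup_of_inertia {σ : F ≃ₐ[K] F} (hσ : σ ∈ inertiaV K L.par V) :
    σ ∈ L.autGroup :=
  (mem_stabV.mp (mem_inertiaV.mp hσ).1).1

omit [CharZero K] [NeZero (q * r)] in
theorem res_apply_of_inertia {σ : F ≃ₐ[K] F} (hσ : σ ∈ inertiaV K L.par V) {a : F}
    {b : ResidueField V} (h : Res (residue V) a b) : Res (residue V) (σ a) b := by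
  obtain ⟨hstab, hin⟩ := mem_inertiaV.mp hσ
  have hmem : σ a ∈ V := ((mem_stabV.mp hstab).2 a).mpr h.mem
  refine ⟨hmem, ?_⟩
  rw [← h.2, ← sub_eq_zero, ← map_sub]
  exact (mem_nonunits_iff_residue (sub_mem hmem h.mem)).mp (hin a h.mem)

omit [CharZero K] [NeZero (q * r)] in
theorem redTo_act {σ : F ≃ₐ[K] F} (hσ : σ ∈ inertiaV K L.par V)
    (hσ' : σ ∈ L.autGroup) {R : L.curve.toAffine.Point}
    {Q : (L.resCurve hpar).toAffine.Point}
    (h : RedTo (residue V) (L.resCurve hpar) R Q) :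
    RedTo (residue V) (L.resCurve hpar) (L.act hσ' R) Q := by
  rcases R with _ | ⟨x, y, hn⟩
  · rw [← WeierstrassCurve.Affine.Point.zero_def, _root_.map_zero]
    exact h
  obtain ⟨hn', e⟩ := pointAct_some σ.toAlgHom.toRingHom L.curve (L.map_curve hσ') hn
  rw [show L.act hσ' (.some x y hn) = _ from e]
  rcases h with ⟨hx, rfl⟩ | ⟨x₀, y₀, h₀, hx, hy, rfl⟩
  · exact RedTo.of_notMem fun hm => hx (((mem_stabV.mp (mem_inertiaV.mp hσ).1).2 x).mp hm)
  · exact RedTo.of_res (L.res_apply_of_inertia hσ hx) (L.res_apply_of_inertia hσ hy)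

variable (hΔres : (L.resCurve hpar).Δ ≠ 0) [Fact q.Prime] (hqr : r.Coprime q)
  (hqV : (q : F) ∈ V.nonunits)

omit [CharZero K] [NeZero (q * r)] in
include hΔres hqr hqV in
theorem mem_levelFix_of_inertia {σ : F ≃ₐ[K] F} (hσ : σ ∈ inertiaV K L.par V) :
    σ ∈ L.levelFix := by
  classical
  have hσ' := L.mem_autGroup_of_inertia hσ
  have : CharP (ResidueField V) q := (CharP.charP_iff_prime_eq_zero Fact.out).mpr (by
    rw [← map_natCast (residue V)]
    exact (mem_nonunits_iff_residue (natCast_mem V q)).mp hqV)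
  have hr : (r : ResidueField V) ≠ 0 := by
    rw [Ne, CharP.cast_eq_zero_iff (ResidueField V) q]
    exact ((Fact.out : q.Prime).coprime_iff_not_dvd).mp hqr.symm
  refine ⟨hσ', fun v => ?_⟩
  obtain ⟨Q, hQ⟩ := exists_redTo_of_Δ_ne_zero (L.reduces hpar) hΔres (L.basis (q • v))
  have h0 : r • L.basis (q • v) = 0 := by
    rw [map_nsmul, ← mul_nsmul, L.nsmul_basis]
  exact eq_of_redTo_of_nsmul_eq_zero (L.reduces hpar) (L.redTo_act hpar hσ hσ' hQ) hQ hr
    (by rw [← map_nsmul, h0, _root_.map_zero]) h0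

omit [Fact q.Prime] in
include hqr in
omit [CharZero K] [NeZero (q * r)] in
/-- Two automorphisms over the parameter agreeing on the `q`- and `r`-torsion are equal. -/
theorem eq_of_act_eq {σ τ : F ≃ₐ[K] F} (hσ : σ ∈ L.levelFix) (hτ : τ ∈ L.levelFix)
    (hσ' : σ ∈ L.autGroup) (hτ' : τ ∈ L.autGroup)
    (h : ∀ R : L.curve.toAffine.Point, q • R = 0 → L.act hσ' R = L.act hτ' R) : σ = τ := by
  have hb : ∀ v, L.act hσ' (L.basis v) = L.act hτ' (L.basis v) := by
    intro v
    have h1 : L.act hσ' (r • L.basis v) = L.act hτ' (r • L.basis v) :=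
      h _ (by rw [← mul_nsmul', L.nsmul_basis])
    have h2 : L.act hσ' (q • L.basis v) = L.act hτ' (q • L.basis v) := by
      obtain ⟨_, e⟩ := hσ
      obtain ⟨_, e'⟩ := hτ
      rw [← map_nsmul L.basis q v]
      exact (e v).trans (e' v).symm
    obtain ⟨a, b, hab⟩ := Nat.isCoprime_iff_coprime.mpr hqr
    have e : L.basis v = a • (r • L.basis v) + b • (q • L.basis v) := by
      rw [← natCast_zsmul _ r, ← natCast_zsmul _ q, ← mul_zsmul, ← mul_zsmul, ← add_zsmul, hab,
        one_zsmul]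
    rw [e, map_add, map_zsmul, map_zsmul, h1, h2, map_add, map_zsmul, map_zsmul]
  refine AlgEquiv.ext fun x => ?_
  have hx : x ∈ IntermediateField.adjoin K (insert L.par (⋃ v, pointCoords (L.basis v))) := by
    rw [L.adjoin_eq_top]; exact IntermediateField.mem_top
  induction hx using IntermediateField.adjoin_induction with
  | mem x hx =>
    rcases hx with rfl | hx
    · rw [hσ', hτ']
    obtain ⟨v, hv⟩ := Set.mem_iUnion.mp hx
    have := hb v
    rcases hbv : L.basis v with _ | ⟨a, b, hn⟩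
    · rw [hbv] at hv; exact hv.elim
    rw [hbv] at hv this
    obtain ⟨_, e⟩ := pointAct_some σ.toAlgHom.toRingHom L.curve (L.map_curve hσ') hn
    obtain ⟨_, e'⟩ := pointAct_some τ.toAlgHom.toRingHom L.curve (L.map_curve hτ') hn
    rw [LevelData.act, LevelData.act, e, e', WeierstrassCurve.Affine.Point.some.injEq] at this
    rcases hv with rfl | rfl
    exacts [this.1, this.2]
  | algebraMap x => rw [σ.commutes, τ.commutes]
  | add x y _ _ hx hy => rw [map_add, map_add, hx, hy]
  | inv x _ hx => rw [map_inv₀, map_inv₀, hx]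
  | mul x y _ _ hx hy => rw [map_mul, map_mul, hx, hy]

include hΔres hqr hqV in
/-- **The inertia group of a component is everything it can be.** -/
theorem exists_inertia (hΔ : fam.Δ ≠ 0)
    (hcard : q * (q - 1) ≤ Nat.card (inertiaV K L.par V))
    {P Q : L.curve.toAffine.Point} (hP0 : P ≠ 0) (hP : q • P = 0) (hQ : q • Q = 0)
    (hPk : InKer V P) (hQk : ¬InKer V Q) {a b : ℕ} (ha : ¬q ∣ a) :
    ∃ σ, σ ∈ L.levelFix ∧ σ ∈ inertiaV K L.par V ∧ ∃ hσ : σ ∈ L.autGroup,
      L.act hσ P = a • P ∧ L.act hσ Q = Q + b • P := by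
  classical
  set I := inertiaV K L.par V
  have hqp := (Fact.out : q.Prime)
  have : NeZero q := ⟨hqp.ne_zero⟩
  have hline := L.exists_line hpar hΔ hP0 hP hPk hQ hQk
  have hQP : Q ∉ AddSubgroup.zmultiples P := fun h => hQk ((hline Q hQ).mpr h)
  have hfinP : IsOfFinAddOrder P := isOfFinAddOrder_iff_nsmul_eq_zero.mpr ⟨q, hqp.pos, hP⟩
  have hmul : ∀ R ∈ AddSubgroup.zmultiples P, ∃ n : ZMod q, R = n.val • P := by
    intro R hR
    obtain ⟨n, rfl⟩ := hfinP.mem_multiples_iff_mem_zmultiples.mpr hR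
    refine ⟨n, ?_⟩
    rw [ZMod.val_natCast]
    conv_lhs => rw [show n = n % q + q * (n / q) from (Nat.mod_add_div n q).symm]
    simp only [add_nsmul, mul_nsmul, hP, nsmul_zero, add_zero]
  have hval_inj : ∀ m n : ZMod q, m.val • P = n.val • P → m = n := by
    intro m n h
    refine ZMod.val_injective q ?_
    have hord : addOrderOf P = q := addOrderOf_eq_prime hP hP0
    have := (nsmul_inj_mod (x := P)).mp h
    rwa [hord, Nat.mod_eq_of_lt (ZMod.val_lt m), Nat.mod_eq_of_lt (ZMod.val_lt n)] at this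
  -- the action of inertia
  have hdata : ∀ σ : I, ∃ (u : (ZMod q)ˣ) (c : ZMod q),
      L.act (L.mem_autGroup_of_inertia σ.2) P = (u : ZMod q).val • P ∧
        L.act (L.mem_autGroup_of_inertia σ.2) Q = Q + c.val • P := by
    intro σ
    have hσ' := L.mem_autGroup_of_inertia σ.2
    have hred : ∀ R : L.curve.toAffine.Point, InKer V (L.act hσ' R - R) := by
      intro R
      obtain ⟨R₀, hR₀⟩ := exists_redTo_of_Δ_ne_zero (L.reduces hpar) hΔres R
      refine (LevelData.inKer_iff_redTo_zero (π := residue V) (W₀ := L.resCurve hpar)).mpr ?_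
      rw [sub_eq_add_neg, ← add_neg_cancel R₀]
      exact (L.redTo_act hpar σ.2 hσ' hR₀).add (L.reduces hpar) (hR₀.neg (L.reduces hpar))
    have htor : ∀ R : L.curve.toAffine.Point, q • R = 0 → q • (L.act hσ' R - R) = 0 := by
      intro R hR
      rw [nsmul_sub, ← map_nsmul, hR, _root_.map_zero, sub_zero]
    obtain ⟨n₁, h₁⟩ := hmul _ ((hline _ (htor P hP)).mp (hred P))
    obtain ⟨n₂, h₂⟩ := hmul _ ((hline _ (htor Q hQ)).mp (hred Q))
    rw [sub_eq_iff_eq_add'] at h₁ h₂
    have hne : n₁ + 1 ≠ 0 := by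
      intro h0
      refine hP0 (pointAct_injective σ.1.toAlgHom.toRingHom L.curve (L.map_curve hσ') ?_)
      rw [_root_.map_zero]
      show L.act hσ' P = 0
      rw [h₁, ← succ_nsmul', ← Nat.div_add_mod (n₁.val + 1) q, ← ZMod.val_natCast]
      push_cast
      rw [ZMod.natCast_zmod_val, h0, ZMod.val_zero, add_zero, mul_nsmul, hP, nsmul_zero]
    refine ⟨(isUnit_iff_ne_zero.mpr hne).unit, n₂, ?_, h₂⟩
    rw [IsUnit.unit_spec, h₁, ← succ_nsmul', ← Nat.div_add_mod (n₁.val + 1) q, ← ZMod.val_natCast]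
    push_cast
    rw [ZMod.natCast_zmod_val, add_nsmul, mul_nsmul, hP, nsmul_zero, zero_add]
  choose u c hu hc using hdata
  let ψ : I → (ZMod q)ˣ × ZMod q := fun σ => (u σ, c σ)
  have hψ : Function.Injective ψ := by
    intro σ τ h
    simp only [ψ, Prod.mk.injEq] at h
    refine Subtype.ext (L.eq_of_act_eq hqr (L.mem_levelFix_of_inertia hpar hΔres hqr hqV σ.2)
      (L.mem_levelFix_of_inertia hpar hΔres hqr hqV τ.2) (L.mem_autGroup_of_inertia σ.2)
      (L.mem_autGroup_of_inertia τ.2) fun R hR => ?_)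
    obtain ⟨i, j, rfl⟩ := L.exists_combo hΔ hP0 hP hQ hQP hR
    simp only [map_add, map_nsmul, hu, hc, h.1, h.2]
  have hcard' : Nat.card ((ZMod q)ˣ × ZMod q) ≤ Nat.card I := by
    rw [Nat.card_prod, Nat.card_zmod, Nat.card_eq_fintype_card, ZMod.card_units_eq_totient,
      Nat.totient_prime hqp, mul_comm]
    exact hcard
  obtain ⟨σ, hσ⟩ := (Function.Injective.bijective_of_nat_card_le hψ hcard').2
    (ZMod.unitOfCoprime a ((hqp.coprime_iff_not_dvd.mpr ha).symm), (b : ZMod q))
  simp only [ψ, Prod.mk.injEq] at hσ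
  refine ⟨σ.1, L.mem_levelFix_of_inertia hpar hΔres hqr hqV σ.2, σ.2,
    L.mem_autGroup_of_inertia σ.2, ?_, ?_⟩
  · rw [hu, hσ.1, ZMod.coe_unitOfCoprime, ZMod.val_natCast]
    conv_rhs => rw [show a = a % q + q * (a / q) from (Nat.mod_add_div a q).symm]
    simp only [add_nsmul, mul_nsmul, hP, nsmul_zero, add_zero]
  · rw [hc, hσ.2, ZMod.val_natCast]
    conv_rhs => rw [show b = b % q + q * (b / q) from (Nat.mod_add_div b q).symm]
    simp only [add_nsmul, mul_nsmul, hP, nsmul_zero, add_zero]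

end LevelData

end Fermat.Agent.Carayol
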