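import Fermat.Agent.Carayol.DeuringInfty
import Fermat.Agent.Carayol.DeuringPoint
import Fermat.Agent.Carayol.Inertia
import Fermat.Agent.Carayol.ChartsInv

/-!
# The special fibre for the Deuring family

The special fibre of the two-chart model of the level curve of `y² + a x y + y = x³` at `q = 2`.

Main result: `deuring_specialFibre`.
-/

set_option autoImplicit false

open Polynomial IsLocalRing

namespace Fermat.Agent.Carayol

variable {K F : Type*} [Field K] [CharZero K] [Field F] [DecidableEq F] [Algebra K F]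
  {r : ℕ} [NeZero (2 * r)] (L : LevelData K F deuringFam 2 r) {W : ValuationSubring K}

namespace LevelData

omit [CharZero K] [NeZero (2 * r)] in
/-- Good reduction away from the cube roots of unity. -/
theorem deuring_resCurve_Δ_ne_zero {V : ValuationSubring F} (hpar : L.par ∈ V)
    (hq : ((2 : ℕ) : F) ∈ V.nonunits) (h : L.par ^ 3 - 1 ∉ V.nonunits) :
    (L.resCurve hpar).Δ ≠ 0 := by
  have h2 : (2 : ResidueField V) = 0 := by
    have := (mem_nonunits_iff_residue (natCast_mem V 2)).mp hq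
    rwa [show (⟨((2 : ℕ) : F), natCast_mem V 2⟩ : V) = ((2 : ℕ) : V)
        from Subtype.ext (map_natCast V.subtype 2).symm,
      map_natCast, Nat.cast_ofNat] at this
  intro h0
  refine h ((mem_nonunits_iff_residue (sub_mem (pow_mem hpar 3) (one_mem _))).mpr ?_)
  rw [show (⟨L.par ^ 3 - 1, sub_mem (pow_mem hpar 3) (one_mem _)⟩ : V) = ⟨L.par, hpar⟩ ^ 3 - 1 from
    Subtype.ext rfl, map_sub, map_pow, map_one]
  simp [LevelData.resCurve, deuringFam, WeierstrassCurve.Δ, WeierstrassCurve.b₂,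
    WeierstrassCurve.b₄, WeierstrassCurve.b₆, WeierstrassCurve.b₈] at h0
  unfold LevelData.parRes at h0
  linear_combination h0 + 13 * h2

variable [IsAlgClosed (ResidueField W)] (hb : BaseData W 2)

include hb in
omit [CharZero K] [NeZero (2 * r)] in
theorem deuring_vert_notMem {V : ValuationSubring F} (hV : IsVert W 2 L.par V) :
    L.par ^ 3 - 1 ∉ V.nonunits := by
  intro h
  have hW : ∀ w : W, algebraMap K F (w : K) ∈ V := fun w => by
    simpa [evW_C] using hV.evW_mem (C w)
  obtain ⟨w, hw⟩ := exists_const_of_root hb hW hV.q_mem hV.par_mem (p := X ^ 3 - C (1 : W))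
    (((monic_X_pow_sub_C (1 : W) three_ne_zero).map _).ne_zero)
    (by rw [map_sub, map_pow, evW_X, map_one, map_one]; exact h)
  exact hV.par_sub_notMem L.transcendental w hw

include hb in
/-- **The special fibre of the level curve at `q = 2`.** -/
theorem deuring_specialFibre [HenselianLocalRing W] (hu : UniqueExt W) (hqr : r.Coprime 2)
    (h9 : 9 ∣ r) : SpecialFibre W L (L.par - 3) := by
  have : Fact (Nat.Prime 2) := ⟨Nat.prime_two⟩
  have hΔ := deuring_Δ_ne_zero
  have haff : IsAffineChange W L.par (L.par - 3) := by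
    have := isAffineChange_sub (t := L.par) (3 : W)
    rwa [show algebraMap K F ((3 : W) : K) = 3 by
      rw [show ((3 : W) : K) = 3 from rfl, map_ofNat]] at this
  have hT : Transcendental K (L.par - 3) := (haff.cover (L.cover hΔ)).transcendental
  have hchart₀ : ∀ M, IsPoint W 2 (L.par - 3) M → GoodPoint W 2 (L.par - 3) M ∧
      ∀ V V', IsVert W 2 (L.par - 3) V → Through W (L.par - 3) M V →
        IsVert W 2 (L.par - 3) V' → Through W (L.par - 3) M V' →
        (∀ Q : L.curve.toAffine.Point, 2 • Q = 0 → (InKer V Q ↔ InKer V' Q)) → V = V' := by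
    intro M hM
    have hM' := haff.isPoint_iff.mp hM
    have key : GoodPoint W 2 L.par M ∧ ∀ V V', IsVert W 2 L.par V → Through W L.par M V →
        IsVert W 2 L.par V' → Through W L.par M V' →
        (∀ Q : L.curve.toAffine.Point, 2 • Q = 0 → (InKer V Q ↔ InKer V' Q)) → V = V' := by
      by_cases h1 : L.par ^ 3 - 1 ∈ M.nonunits
      · obtain ⟨hg, hs⟩ := L.deuring_cusp hb hu hqr h9 hM' h1
        exact ⟨hg, fun V V' hV hT hV' hT' _ => hs V V' hV hT hV' hT'⟩
      · exact L.deuring_good hb hM'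
          (L.deuring_resCurve_Δ_ne_zero hM'.par_mem hM'.q_mem h1) hqr
    exact ⟨haff.goodPoint key.1, fun V V' hV hTh hV' hTh' hiff => key.2 V V'
      (haff.isVert_iff.mp hV) (haff.through_iff.mp hTh) (haff.isVert_iff.mp hV')
      (haff.through_iff.mp hTh') hiff⟩
  have hchart₁ : ∀ M, IsPoint W 2 (L.par - 3)⁻¹ M → GoodPoint W 2 (L.par - 3)⁻¹ M ∧
      ∀ V V', IsVert W 2 (L.par - 3)⁻¹ V → Through W (L.par - 3)⁻¹ M V →
        IsVert W 2 (L.par - 3)⁻¹ V' → Through W (L.par - 3)⁻¹ M V' →
        (∀ Q : L.curve.toAffine.Point, 2 • Q = 0 → (InKer V Q ↔ InKer V' Q)) → V = V' := by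
    intro M hM
    by_cases h0 : (L.par - 3)⁻¹ ∈ M.nonunits
    · obtain ⟨hg, hs⟩ := L.deuring_infty hb hu hqr h9 hM h0
      exact ⟨hg, fun V V' hV hTh hV' hTh' _ => hs V V' hV hTh hV' hTh'⟩
    have hM' : IsPoint W 2 (L.par - 3) M := by simpa using hM.inv hb h0
    have h0' : L.par - 3 ∉ M.nonunits := by simpa using inv_notMem_nonunits hM h0
    obtain ⟨hg, hs⟩ := hchart₀ M hM'
    refine ⟨hg.inv hb hM' h0' hT, fun V V' hV hTh hV' hTh' hiff => ?_⟩
    have hV₁ := (isVert_inv_iff hT).mp hV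
    have hV₂ := (isVert_inv_iff hT).mp hV'
    exact hs V V' hV₁ ((through_inv hb hM' h0' hT hV₁).mp hTh) hV₂
      ((through_inv hb hM' h0' hT hV₂).mp hTh') hiff
  refine
    { base := hb
      unique_ext := hu
      cover := haff.cover (L.cover hΔ)
      mem_fixPar_iff := fun σ => ?_
      isVert_inv := fun V => isVert_inv_iff hT
      good₀ := fun M hM => (hchart₀ M hM).1
      good₁ := fun M hM => (hchart₁ M hM).1
      kernel := fun V hV => ?_
      separated₀ := fun M V V' hM hV hTh hV' hTh' => (hchart₀ M hM).2 V V' hV hTh hV' hTh'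
      separated₁ := fun M V V' hM hV hTh hV' hTh' => (hchart₁ M hM).2 V V' hV hTh hV' hTh'
      inertia := fun V hV P Q hP0 hP hQ hPk hQk a b ha => ?_
      supersingular := ?_ }
  · rw [haff.fixPar_eq, mem_fixPar, L.mem_autGroup]
  · have hV' := haff.isVert_iff.mp hV
    obtain ⟨P, Q, hP0, hP, hQ, -, hPk, hQk⟩ := L.deuring_line hV'
    exact ⟨P, hP0, hP, L.exists_line hV'.par_mem hΔ hP0 hP hPk hQ hQk⟩
  · have hV' := haff.isVert_iff.mp hV
    obtain ⟨σ, h1, h2, h3⟩ := L.exists_inertia hV'.par_mem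
      (L.deuring_resCurve_Δ_ne_zero hV'.par_mem hV'.q_mem (L.deuring_vert_notMem hb hV')) hqr
      hV'.q_mem hΔ (L.deuring_inertia_card hb hV') hP0 hP hQ hPk hQk ha
    refine ⟨σ, h1, ?_, h3⟩
    rw [mem_inertiaV, mem_stabV] at h2 ⊢
    exact ⟨⟨by rw [← mem_fixPar, haff.fixPar_eq, mem_fixPar]; exact h2.1.1, h2.1.2⟩, h2.2⟩
  · refine ⟨-3, fun M hM hwM => ?_⟩
    have hM' := haff.isPoint_iff.mp hM
    have hss : L.par ∈ M.nonunits := by
      rw [show ((-3 : W) : K) = -3 from rfl, map_neg, map_ofNat] at hwM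
      simpa using hwM
    have h1 : L.par ^ 3 - 1 ∉ M.nonunits := fun h => one_notMem_nonunits M (by
      have h3 : L.par ^ 3 ∈ M.nonunits := by
        rw [pow_succ]; exact nonunits_mul_left (pow_mem hM'.par_mem 2) hss
      simpa using sub_mem h3 h)
    have hΔres := L.deuring_resCurve_Δ_ne_zero hM'.par_mem hM'.q_mem h1
    refine ⟨(hchart₀ M hM).2, fun P hP0 hP => ?_⟩
    obtain ⟨V, hV, hTh, hk⟩ := L.deuring_supersingular hb hM' hΔres hqr hss hP0 hP
    exact ⟨V, haff.isVert hV, haff.through_iff.mpr hTh, hk⟩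

end LevelData

end Fermat.Agent.Carayol
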