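import Fermat.Agent.Carayol.LegendreFibre
import Fermat.Agent.Carayol.DeuringFibre
import Fermat.Agent.Carayol.Kill.Main
import Mathlib.RingTheory.Henselian
import Mathlib.RingTheory.DiscreteValuationRing.Basic
import Mathlib.FieldTheory.IsAlgClosed.Basic

/-!
# The geometric input

The geometric input of Carayol's theorem: the special fibre of the two-chart model and the
averaging argument.

Main result: `killsTorusClasses`.
-/

set_option autoImplicit false

namespace Fermat.Agent.Carayol

/-- **The geometric input of Carayol's theorem**: the torus classes of the level structure of the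
family at `q` are killed. -/
theorem killsTorusClasses {K F : Type*} [Field K] [CharZero K] [Field F] [DecidableEq F]
    [Algebra K F] (W : ValuationSubring K) [IsDiscreteValuationRing W] [HenselianLocalRing W]
    [IsAlgClosed (IsLocalRing.ResidueField W)] {q M' : ℕ} (hq : q.Prime) (hqM : M'.Coprime q)
    (hM : 0 < M') (hunif : IsLocalRing.maximalIdeal W = Ideal.span {(q : W)}) (hu : UniqueExt W)
    (L : LevelData K F (famOf q) q (auxLevel q M')) : KillsTorusClasses L := by
  have : Fact q.Prime := ⟨hq⟩
  have hb : BaseData W q := ⟨hq, inferInstance, inferInstance, hunif⟩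
  have key : ∀ fam : WeierstrassCurve (Polynomial ℤ), fam = famOf q →
      ∀ L : LevelData K F fam q (auxLevel q M'), KillsTorusClasses L := by
    have : NeZero (q * auxLevel q M') :=
      ⟨mul_ne_zero hq.ne_zero (auxLevel_pos hM).ne'⟩
    have hqr := coprime_auxLevel hq hqM
    intro fam hfam L
    rcases eq_or_ne q 2 with rfl | h2
    · rw [famOf_two] at hfam
      subst hfam
      exact killsTorusClasses_of_specialFibre W hqr deuring_Δ_ne_zero L
        (L.deuring_specialFibre hb hu hqr (by simp [auxLevel]))
    · rw [famOf_of_ne_two h2] at hfam
      subst hfam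
      have h4 : 4 ∣ auxLevel q M' := by simp [auxLevel, h2]
      exact killsTorusClasses_of_specialFibre W hqr legendre_Δ_ne_zero L
        (L.legendre_specialFibre hb h2 hqr hu h4 fun L' M hM hc =>
          cusp_legendre W hb hu h2 hqr h4 L' hM hc)
  exact key _ rfl L

end Fermat.Agent.Carayol
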