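import Mathlib.Algebra.Polynomial.Identities
import Mathlib.RingTheory.Ideal.Operations
import Mathlib.RingTheory.LocalRing.MaximalIdeal.Basic
import Mathlib.Algebra.Polynomial.Derivative
import Mathlib.Tactic

/-!
# Near constants

Elements of a local ring which are constants modulo an ideal containing the square of the maximal
ideal: they form a subring closed under inverses, and simple roots stay in it.

Main result: `mem_nearRing_of_root`.
-/

set_option autoImplicit false

open Polynomial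

namespace Fermat.Agent.Carayol

variable {R₀ R : Type*} [CommRing R₀] [CommRing R] (ι : R₀ →+* R) (I : Ideal R)

/-- The elements congruent to a constant. -/
def nearRing : Subring R where
  carrier := {x | ∃ c, x - ι c ∈ I}
  mul_mem' := by
    rintro x y ⟨c, hc⟩ ⟨d, hd⟩
    refine ⟨c * d, ?_⟩
    rw [map_mul, show x * y - ι c * ι d = (x - ι c) * y + ι c * (y - ι d) by ring]
    exact I.add_mem (I.mul_mem_right _ hc) (I.mul_mem_left _ hd)
  one_mem' := ⟨1, by simp⟩
  add_mem' := by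
    rintro x y ⟨c, hc⟩ ⟨d, hd⟩
    refine ⟨c + d, ?_⟩
    rw [map_add, show x + y - (ι c + ι d) = (x - ι c) + (y - ι d) by ring]
    exact I.add_mem hc hd
  zero_mem' := ⟨0, by simp⟩
  neg_mem' := by
    rintro x ⟨c, hc⟩
    refine ⟨-c, ?_⟩
    rw [map_neg, show -x - -ι c = -(x - ι c) by ring]
    exact I.neg_mem hc

variable {ι I}

theorem map_mem_nearRing (c : R₀) : ι c ∈ nearRing ι I := ⟨c, by simp⟩

theorem mem_nearRing_of_mem {x : R} (hx : x ∈ I) : x ∈ nearRing ι I := ⟨0, by simpa using hx⟩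

theorem eval_mem_nearRing {G : R[X]} (hG : ∀ i, G.coeff i ∈ nearRing ι I) {x : R}
    (hx : x ∈ nearRing ι I) : G.eval x ∈ nearRing ι I := by
  rw [eval_eq_sum, Polynomial.sum]
  exact sum_mem fun i _ => mul_mem (hG i) (pow_mem hx i)

variable [IsLocalRing R] [IsLocalRing R₀] (hI : I ≤ IsLocalRing.maximalIdeal R)
  (h2 : IsLocalRing.maximalIdeal R ^ 2 ≤ I)
  (hι : ∀ c ∈ IsLocalRing.maximalIdeal R₀, ι c ∈ I)

include hI hι in
/-- A near constant in the maximal ideal lies in the ideal. -/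
theorem mem_of_mem_nearRing {x : R} (hx : x ∈ IsLocalRing.maximalIdeal R)
    (hn : x ∈ nearRing ι I) : x ∈ I := by
  obtain ⟨c, hc⟩ := hn
  have hcm : ι c ∈ IsLocalRing.maximalIdeal R := by
    rw [show ι c = x - (x - ι c) by ring]
    exact sub_mem hx (hI hc)
  have := hι c (by
    rw [IsLocalRing.mem_maximalIdeal] at hcm ⊢
    exact fun hu => hcm (hu.map ι))
  rw [show x = (x - ι c) + ι c by ring]
  exact I.add_mem hc this

include hI hι in
theorem inv_mem_nearRing {x : R} (hn : x ∈ nearRing ι I) (hu : IsUnit x) :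
    ((hu.unit⁻¹ : Rˣ) : R) ∈ nearRing ι I := by
  obtain ⟨c, hc⟩ := hn
  have hcu : IsUnit c := by
    by_contra hcu
    refine (IsLocalRing.mem_maximalIdeal x).mp ?_ hu
    rw [show x = (x - ι c) + ι c by ring]
    exact add_mem (hI hc) (hI (hι c ((IsLocalRing.mem_maximalIdeal c).mpr hcu)))
  obtain ⟨d, rfl⟩ := hcu
  refine ⟨((d⁻¹ : R₀ˣ) : R₀), ?_⟩
  have e : ι (d : R₀) * ι ((d⁻¹ : R₀ˣ) : R₀) = 1 := by rw [← map_mul, Units.mul_inv, map_one]
  rw [show ((hu.unit⁻¹ : Rˣ) : R) - ι ((d⁻¹ : R₀ˣ) : R₀) =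
    -((x - ι (d : R₀)) * (((hu.unit⁻¹ : Rˣ) : R) * ι ((d⁻¹ : R₀ˣ) : R₀))) by
      linear_combination (-((hu.unit⁻¹ : Rˣ) : R)) * e + ι ((d⁻¹ : R₀ˣ) : R₀) * hu.mul_val_inv]
  exact I.neg_mem (I.mul_mem_right _ hc)

include hI h2 hι in
/-- **Simple roots of polynomials with near constant coefficients are near constants.** -/
theorem mem_nearRing_of_root {G : R[X]} (hG : ∀ i, G.coeff i ∈ nearRing ι I) {x : R} {c : R₀}
    (hc : x - ι c ∈ IsLocalRing.maximalIdeal R) (hx : G.eval x ∈ I)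
    (hd : IsUnit (G.derivative.eval x)) : x ∈ nearRing ι I := by
  set y := ι c - x
  have hy : y ∈ IsLocalRing.maximalIdeal R := by
    rw [show y = -(x - ι c) by ring]; exact neg_mem hc
  have hy2 : y ^ 2 ∈ I := h2 (Ideal.pow_mem_pow hy 2)
  obtain ⟨k, hk⟩ := G.binomExpansion x y
  rw [show x + y = ι c by ring] at hk
  have hm : G.eval (ι c) ∈ IsLocalRing.maximalIdeal R := by
    rw [hk]
    exact add_mem (add_mem (hI hx) (Ideal.mul_mem_left _ _ hy)) (Ideal.mul_mem_left _ _ (hI hy2))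
  have hIc := mem_of_mem_nearRing hI hι hm (eval_mem_nearRing hG (map_mem_nearRing c))
  refine ⟨c, ?_⟩
  rw [show x - ι c = -y by ring, I.neg_mem_iff, ← I.unit_mul_mem_iff_mem hd]
  rw [show G.derivative.eval x * y = G.eval (ι c) - G.eval x - k * y ^ 2 by rw [hk]; ring]
  exact sub_mem (sub_mem hIc hx) (I.mul_mem_left _ hy2)

end Fermat.Agent.Carayol
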