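import Fermat.Agent.Carayol.LegendreVert
import Fermat.Agent.Carayol.Near

/-!
# Torsion prime to `q` at a point

The torsion of the family prime to `q` in the chart and at a point of good reduction, and
generators of the function field from the torsion.

Main result: `rTorsion_near`.
-/

set_option autoImplicit false

open Polynomial IsLocalRing IntermediateField Fermat.Agent.EC.Reduction
open scoped IntermediateField

namespace Fermat.Agent.Carayol

section Frame

variable {K F : Type*} [Field K] [Field F] [Algebra K F]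
variable {W : ValuationSubring K} {q : ℕ} {t : F} {M : ValuationSubring F} {C : Subring F}

/-- The constants in the localisation. -/
noncomputable def cstAt (hWC : ∀ c : W, algebraMap K F c ∈ C) : W →+* locAt C M :=
  ((algebraMap K F).comp W.subtype).codRestrict (locAt C M) fun c => le_locAt (hWC c)

/-- The ideal modulo which generators are to be constants. -/
structure NearFrame (W : ValuationSubring K) (q : ℕ) (t : F) (M : ValuationSubring F)
    {C : Subring F} (I : Ideal (locAt C M)) : Prop where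
  le : C ≤ locRing W t M
  const : ∀ c : W, algebraMap K F c ∈ C
  mem_max : ∀ x ∈ I, (x : F) ∈ M.nonunits
  sq_mem : ∀ a b : locAt C M, (a : F) ∈ M.nonunits → (b : F) ∈ M.nonunits → a * b ∈ I
  q_mem : (q : locAt C M) ∈ I

variable {I : Ideal (locAt C M)} (hF : NearFrame W q t M I) (hb : BaseData W q)
  (hM : IsPoint W q t M)

include hF hM in
theorem NearFrame.le_valuation : C ≤ M.toSubring := hF.le.trans (locRing_le hM.evW_mem)

include hF in
theorem nearConst_iff {x : F} : NearConst W M I x ↔
    ∃ hx : x ∈ locAt C M, (⟨x, hx⟩ : locAt C M) ∈ nearRing (cstAt hF.const) I := by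
  constructor
  · rintro ⟨c, h, hI⟩
    refine ⟨by simpa using add_mem h (le_locAt (hF.const c)), c, ?_⟩
    convert hI
    rfl
  · rintro ⟨hx, c, hI⟩
    exact ⟨c, sub_mem hx (le_locAt (hF.const c)), by convert hI; rfl⟩

include hF in
theorem NearFrame.mem_locAt {x : F} (h : NearConst W M I x) : x ∈ locAt C M :=
  ((nearConst_iff hF).mp h).1

include hF in
theorem nearConst_of_mem {x : F} (hx : x ∈ locAt C M) (hI : (⟨x, hx⟩ : locAt C M) ∈ I) :
    NearConst W M I x :=
  (nearConst_iff hF).mpr ⟨hx, mem_nearRing_of_mem hI⟩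

include hF in
/-- The near constants form a subring of `F`. -/
theorem exists_nearSubring : ∃ N : Subring F, ∀ x, x ∈ N ↔ NearConst W M I x :=
  ⟨(nearRing (cstAt (M := M) hF.const) I).map (locAt C M).subtype, fun x => by
    rw [nearConst_iff hF, Subring.mem_map]
    exact ⟨fun ⟨y, hy, e⟩ => e ▸ ⟨y.2, hy⟩, fun ⟨hx, h⟩ => ⟨_, h, rfl⟩⟩⟩

include hF in
theorem nearConst_algebraMap (c : W) : NearConst W M I (algebraMap K F c) :=
  (nearConst_iff hF).mpr ⟨le_locAt (hF.const c), map_mem_nearRing c⟩

include hF in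
theorem nearConst_add {x y : F} (hx : NearConst W M I x) (hy : NearConst W M I y) :
    NearConst W M I (x + y) := by
  obtain ⟨N, hN⟩ := exists_nearSubring hF
  exact (hN _).mp (add_mem ((hN x).mpr hx) ((hN y).mpr hy))

include hF in
theorem nearConst_mul {x y : F} (hx : NearConst W M I x) (hy : NearConst W M I y) :
    NearConst W M I (x * y) := by
  obtain ⟨N, hN⟩ := exists_nearSubring hF
  exact (hN _).mp (mul_mem ((hN x).mpr hx) ((hN y).mpr hy))

include hF in
theorem nearConst_evW (ht : NearConst W M I t) (p : W[X]) : NearConst W M I (evW W t p) := by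
  induction p using Polynomial.induction_on with
  | C c => rw [evW_C]; exact nearConst_algebraMap hF c
  | add p r hp hr => rw [map_add]; exact nearConst_add hF hp hr
  | monomial n c h =>
    rw [pow_succ, ← mul_assoc, map_mul, evW_X]; exact nearConst_mul hF h ht

include hF in
theorem nearConst_eval₂_int (ht : NearConst W M I t) (p : ℤ[X]) :
    NearConst W M I (eval₂ (Int.castRingHom F) t p) := by
  obtain ⟨N, hN⟩ := exists_nearSubring hF
  refine (hN _).mp ?_
  induction p using Polynomial.induction_on with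
  | C c => rw [eval₂_C]; exact intCast_mem N c
  | add p r hp hr => rw [eval₂_add]; exact add_mem hp hr
  | monomial n c h =>
    rw [pow_succ, ← mul_assoc, eval₂_mul, eval₂_X]; exact mul_mem h ((hN t).mpr ht)

variable (hb' : BaseData W q)

include hF hb in
theorem NearFrame.cst_mem (c : W) (hc : c ∈ maximalIdeal W) :
    cstAt (M := M) hF.const c ∈ I := by
  rw [hb.uniformizer, Ideal.mem_span_singleton'] at hc
  obtain ⟨d, rfl⟩ := hc
  rw [map_mul, map_natCast]
  exact I.mul_mem_left _ hF.q_mem

include hF hb hM in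
theorem nearConst_inv {x : F} (hx : NearConst W M I x) (hn : x ∉ M.nonunits) :
    NearConst W M I x⁻¹ := by
  have hC := hF.le_valuation hM
  have := isLocalRing_locAt hC
  obtain ⟨hxL, hx'⟩ := (nearConst_iff hF).mp hx
  have hu : IsUnit (⟨x, hxL⟩ : locAt C M) := (isUnit_locAt_iff hC _).mpr hn
  have hmem := inv_mem_nearRing (R₀ := W) (hI := fun a ha =>
    (mem_maximalIdeal_locAt hC a).mpr (hF.mem_max a ha)) (hι := hF.cst_mem hb) hx' hu
  have e : ((↑hu.unit⁻¹ : locAt C M) : F) = x⁻¹ :=
    eq_inv_of_mul_eq_one_right (congrArg Subtype.val hu.mul_val_inv)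
  exact (nearConst_iff hF).mpr ⟨e ▸ Subtype.mem _, by convert hmem; exact e.symm⟩

variable [IsAlgClosed (IsLocalRing.ResidueField W)]

include hF hb hM in
/-- Simple roots of polynomials with near constant coefficients are near constants. -/
theorem nearConst_of_root {G : F[X]} (hG : ∀ i, NearConst W M I (G.coeff i)) {x : F}
    (hx : x ∈ locAt C M) (h0 : ∀ h : G.eval x ∈ locAt C M, (⟨_, h⟩ : locAt C M) ∈ I)
    (hd : G.derivative.eval x ∉ M.nonunits) : NearConst W M I x := by
  have hC := hF.le_valuation hM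
  have := isLocalRing_locAt hC
  obtain ⟨c, hc⟩ := exists_residue_const hb hM (((locAt_mono hF.le).trans locAt_locAt) hx)
  have hlift : G ∈ lifts (locAt C M).subtype :=
    (lifts_iff_coeff_lifts G).mpr fun i => ⟨⟨_, hF.mem_locAt (hG i)⟩, rfl⟩
  obtain ⟨G', hG'⟩ := (mem_lifts G).mp hlift
  set x' : locAt C M := ⟨x, hx⟩
  have hev : ∀ P : (locAt C M)[X], ((P.eval x' : locAt C M) : F) =
      (P.map (locAt C M).subtype).eval x := fun P =>
    (eval_map_apply (f := (locAt C M).subtype) (p := P) x').symm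
  refine (nearConst_iff hF).mpr ⟨hx, mem_nearRing_of_root (G := G') (c := c)
    (fun a ha => (mem_maximalIdeal_locAt hC a).mpr (hF.mem_max a ha)) ?_ (hF.cst_mem hb)
    (fun i => ?_) ((mem_maximalIdeal_locAt hC _).mpr hc) ?_ ?_⟩
  · rw [pow_two, Ideal.mul_le]
    exact fun a ha b hb' => hF.sq_mem a b ((mem_maximalIdeal_locAt hC a).mp ha)
      ((mem_maximalIdeal_locAt hC b).mp hb')
  · obtain ⟨h, hn⟩ := (nearConst_iff hF).mp (hG i)
    convert hn
    show (locAt C M).subtype (G'.coeff i) = G.coeff i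
    rw [← coeff_map, hG']
  · have := hev G'
    rw [hG'] at this
    convert h0 (this ▸ Subtype.mem _)
  · rw [isUnit_locAt_iff hC, hev, ← derivative_map, hG']
    exact hd

end Frame

section Fixed

variable {K F : Type*} [Field K] [Field F] [Algebra K F]
variable {W : ValuationSubring K} {q : ℕ} {t : F}

/-- Elements of the chart fixed by the automorphisms over the parameter are polynomials. -/
theorem mem_range_evW_of_fixed (hb : BaseData W q) (hc : Cover K t) {x : F} (hx : x ∈ chart W t)
    (hfix : ∀ σ ∈ fixPar K t, σ x = x) : x ∈ (evW W t).range := by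
  have := hb.dvr
  have := hc.finite
  have := hc.galois
  have hxK : x ∈ K⟮t⟯ := by
    have hbot : x ∈ (⊥ : IntermediateField K⟮t⟯ F) := by
      rw [IsGalois.mem_bot_iff_fixed]
      exact fun g => hfix (g.restrictScalars K) (g.commutes ⟨t, mem_adjoin_simple_self K t⟩)
    obtain ⟨y, rfl⟩ := IntermediateField.mem_bot.mp hbot
    exact y.2
  have hinj := evW_injective (W := W) hc.transcendental
  obtain ⟨a, b, hb0, e⟩ : ∃ a b : W[X], b ≠ 0 ∧ x * evW W t b = evW W t a := by
    rcases eq_or_ne x 0 with rfl | hx0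
    · exact ⟨0, 1, one_ne_zero, by simp⟩
    obtain ⟨j, a, b, -, hb0, e⟩ := exists_rep hb hxK hx0
    have hbF := evW_ne_zero hc.transcendental hb0
    have hq := q_ne_zero (F := F) hb
    have hb0' : b ≠ 0 := fun h => hb0 (by simp [h])
    have hq' : (q : W[X]) ≠ 0 := fun h => hq (by
      rw [← map_natCast (evW W t), h, map_zero])
    obtain ⟨n, rfl | rfl⟩ := Int.eq_nat_or_neg j
    · refine ⟨(q : W[X]) ^ n * a, b, hb0', ?_⟩
      rw [e, map_mul, map_pow, map_natCast, zpow_natCast]
      field_simp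
    · refine ⟨a, (q : W[X]) ^ n * b, mul_ne_zero (pow_ne_zero _ hq') hb0', ?_⟩
      rw [e, map_mul, map_pow, map_natCast, zpow_neg, zpow_natCast]
      field_simp
  let φ : FractionRing W[X] →+* F := IsFractionRing.lift hinj
  have hφ : ∀ p : W[X], φ (algebraMap W[X] _ p) = evW W t p := fun p =>
    IsFractionRing.lift_algebraMap hinj p
  set y : FractionRing W[X] := algebraMap W[X] _ a / algebraMap W[X] _ b
  have hy : φ y = x := by
    rw [map_div₀, hφ, hφ, ← e, mul_div_cancel_right₀ _ ((map_ne_zero_iff _ hinj).mpr hb0)]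
  have hint : IsIntegral W[X] y := by
    obtain ⟨P, hP, hPx⟩ := mem_chart.mp hx
    refine ⟨P, hP, φ.injective ?_⟩
    rw [hom_eval₂, hy, map_zero, show φ.comp (algebraMap W[X] (FractionRing W[X])) = evW W t from
      RingHom.ext hφ]
    exact hPx
  obtain ⟨u, hu⟩ := IsIntegrallyClosed.isIntegral_iff.mp hint
  exact ⟨u, by rw [← hφ, hu, hy]⟩

theorem mem_chart_of_isIntegral {x : F} (hx : IsIntegral (chart W t) x) : x ∈ chart W t := by
  let : Algebra W[X] F := (evW W t).toAlgebra
  exact isIntegral_trans (R := W[X]) (A := integralClosure W[X] F) x hx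

theorem isIntegral_of_quadratic {R : Subring F} {y b c : F} (hb : b ∈ R) (hc : c ∈ R)
    (h : y ^ 2 + b * y + c = 0) : IsIntegral R y :=
  ⟨X ^ 2 + (Polynomial.C ⟨b, hb⟩ * X + Polynomial.C ⟨c, hc⟩),
    monic_X_pow_add (degree_linear_le.trans_lt (by norm_num)),
    by simpa [Subring.smul_def, Algebra.algebraMap_eq_smul_one, ← add_assoc] using h⟩

end Fixed

variable {K F : Type*} [Field K] [Field F] [DecidableEq F] [Algebra K F]
  {fam : WeierstrassCurve ℤ[X]} {q r : ℕ} (L : LevelData K F fam q r)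

namespace LevelData

theorem coeffs_mem {S : Subring F} (hpar : L.par ∈ S) :
    L.curve.a₁ ∈ S ∧ L.curve.a₂ ∈ S ∧ L.curve.a₃ ∈ S ∧ L.curve.a₄ ∈ S ∧ L.curve.a₆ ∈ S := by
  have : ∀ p : ℤ[X], eval₂ (Int.castRingHom F) L.par p ∈ S := fun p => by
    induction p using Polynomial.induction_on with
    | C c => rw [eval₂_C]; exact intCast_mem S c
    | add p r hp hr => rw [eval₂_add]; exact add_mem hp hr
    | monomial n c h => rw [pow_succ, ← mul_assoc, eval₂_mul, eval₂_X]; exact mul_mem h hpar
  exact ⟨this _, this _, this _, this _, this _⟩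

/-- The points with coordinates in an intermediate field. -/
def coordSubgroup (Z : IntermediateField K F) (hpar : L.par ∈ Z) :
    AddSubgroup L.curve.toAffine.Point where
  carrier := {P | pointCoords P ⊆ (Z : Set F)}
  zero_mem' := Set.empty_subset _
  add_mem' := by
    obtain ⟨h1, h2, h3, h4, -⟩ := L.coeffs_mem (S := Z.toSubfield.toSubring) hpar
    intro P Q hP hQ
    rcases P with _ | ⟨x₁, y₁, n₁⟩
    · rw [← WeierstrassCurve.Affine.Point.zero_def, zero_add]; exact hQ
    rcases Q with _ | ⟨x₂, y₂, n₂⟩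
    · rw [← WeierstrassCurve.Affine.Point.zero_def, add_zero]; exact hP
    replace h1 : L.curve.toAffine.a₁ ∈ Z := h1
    replace h2 : L.curve.toAffine.a₂ ∈ Z := h2
    replace h3 : L.curve.toAffine.a₃ ∈ Z := h3
    replace h4 : L.curve.toAffine.a₄ ∈ Z := h4
    simp only [Set.mem_ofPred_eq, pointCoords, Set.insert_subset_iff, Set.singleton_subset_iff,
      SetLike.mem_coe] at hP hQ ⊢
    obtain ⟨hx₁, hy₁⟩ := hP
    obtain ⟨hx₂, hy₂⟩ := hQ
    by_cases hxy : x₁ = x₂ ∧ y₁ = L.curve.toAffine.negY x₂ y₂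
    · rw [WeierstrassCurve.Affine.Point.add_of_Y_eq hxy.1 hxy.2]; exact Set.empty_subset _
    have h2' : (2 : F) ∈ Z := _root_.natCast_mem Z 2
    have h3' : (3 : F) ∈ Z := _root_.natCast_mem Z 3
    have hsl : L.curve.toAffine.slope x₁ x₂ y₁ y₂ ∈ Z := by
      unfold WeierstrassCurve.Affine.slope
      split_ifs
      · exact zero_mem Z
      · refine div_mem (sub_mem (add_mem (add_mem (mul_mem h3' (pow_mem hx₁ 2))
          (mul_mem (mul_mem h2' h2) hx₁)) h4) (mul_mem h1 hy₁)) (sub_mem hy₁ ?_)
        exact sub_mem (sub_mem (neg_mem hy₁) (mul_mem h1 hx₁)) h3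
      · exact div_mem (sub_mem hy₁ hy₂) (sub_mem hx₁ hx₂)
    rw [WeierstrassCurve.Affine.Point.add_some hxy]
    have hX : L.curve.toAffine.addX x₁ x₂ (L.curve.toAffine.slope x₁ x₂ y₁ y₂) ∈ Z :=
      sub_mem (sub_mem (sub_mem (add_mem (pow_mem hsl 2) (mul_mem h1 hsl)) h2) hx₁) hx₂
    rintro z (rfl | rfl)
    · exact hX
    · exact sub_mem (sub_mem (neg_mem (add_mem (mul_mem hsl (sub_mem hX hx₁)) hy₁))
        (mul_mem h1 hX)) h3
  neg_mem' := by
    obtain ⟨h1, -, h3, -, -⟩ := L.coeffs_mem (S := Z.toSubfield.toSubring) hpar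
    intro P hP
    rcases P with _ | ⟨x, y, n⟩
    · exact hP
    replace h1 : L.curve.toAffine.a₁ ∈ Z := h1
    replace h3 : L.curve.toAffine.a₃ ∈ Z := h3
    simp only [Set.mem_ofPred_eq, pointCoords, Set.insert_subset_iff, Set.singleton_subset_iff,
      SetLike.mem_coe, WeierstrassCurve.Affine.Point.neg_some] at hP ⊢
    exact ⟨hP.1, sub_mem (sub_mem (neg_mem hP.2) (mul_mem h1 hP.1)) h3⟩

variable [CharZero K] [NeZero (q * r)] [Fact q.Prime] (hΔ : fam.Δ ≠ 0) (hqr : r.Coprime q)

include hΔ hqr in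
/-- Generators of the function field from a basis of the `q`-torsion and the `r`-torsion. -/
theorem adjoin_eq_top_of_torsion {S : Set F} (ht : L.par ∈ S) {P Q : L.curve.toAffine.Point}
    (hP0 : P ≠ 0) (hP : q • P = 0) (hQ : q • Q = 0) (hQP : Q ∉ AddSubgroup.zmultiples P)
    (hPS : pointCoords P ⊆ (adjoin K S : Set F)) (hQS : pointCoords Q ⊆ (adjoin K S : Set F))
    (hr : ∀ R : L.curve.toAffine.Point, r • R = 0 → pointCoords R ⊆ (adjoin K S : Set F)) :
    adjoin K S = ⊤ := by
  set Z := adjoin K S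
  have hpar : L.par ∈ Z := subset_adjoin K S ht
  set G := L.coordSubgroup Z hpar
  refine top_le_iff.mp (L.adjoin_eq_top ▸ adjoin_le_iff.mpr ?_)
  rintro z (rfl | hz)
  · exact hpar
  obtain ⟨v, hv⟩ := Set.mem_iUnion.mp hz
  have h1 : r • L.basis v ∈ G := by
    obtain ⟨i, j, e⟩ := L.exists_combo hΔ hP0 hP hQ hQP
      (R := r • L.basis v) (by rw [← mul_nsmul', L.nsmul_basis])
    rw [e]
    exact add_mem (nsmul_mem (show P ∈ G from hPS) i) (nsmul_mem (show Q ∈ G from hQS) j)
  have h2 : q • L.basis v ∈ G := hr _ (by rw [← mul_nsmul', mul_comm, L.nsmul_basis])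
  obtain ⟨a, b, hab⟩ := Nat.isCoprime_iff_coprime.mpr hqr
  have e : L.basis v = a • (r • L.basis v) + b • (q • L.basis v) := by
    rw [← natCast_zsmul _ r, ← natCast_zsmul _ q, ← mul_zsmul, ← mul_zsmul, ← add_zsmul, hab,
      one_zsmul]
  have : L.basis v ∈ G := e ▸ add_mem (zsmul_mem h1 a) (zsmul_mem h2 b)
  exact this hv

variable {W : ValuationSubring K} (hb : BaseData W q)

omit [Fact q.Prime] in
include hΔ hqr hb in
/-- The coordinates of torsion prime to `q` are integral over the parameter. -/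
theorem rTorsion_mem_chart {x y : F} {h : L.curve.toAffine.Nonsingular x y}
    (hR : r • (WeierstrassCurve.Affine.Point.some x y h : L.curve.toAffine.Point) = 0) :
    x ∈ chart W L.par ∧ y ∈ chart W L.par := by
  classical
  have : L.curve.toAffine.IsElliptic := isElliptic_curve L hΔ
  have hr1 : 1 ≤ r := Nat.one_le_iff_ne_zero.mpr fun h => by
    have := NeZero.ne (q * r); simp [h] at this
  let E : WeierstrassCurve W[X] := fam.map (mapRingHom (Int.castRingHom W))
  have hE : E.map (evW W L.par) = L.curve := by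
    rw [WeierstrassCurve.map_map, LevelData.curve]
    congr 1
    exact Polynomial.ringHom_ext (fun n => by simp) (by simp [evW_X])
  have hroot : (L.curve.ΨSq (r : ℤ)).eval x = 0 :=
    (EC.Torsion.zsmul_some_eq_zero_iff (W := L.curve.toAffine) (r : ℤ) h).mp
      (by rw [natCast_zsmul]; exact hR)
  have hru : IsUnit ((r : W) ^ 2) := by
    refine IsUnit.pow 2 (by_contra fun hu => ?_)
    have h0 : residue W (r : W) = 0 :=
      (residue_eq_zero_iff _).mpr ((IsLocalRing.mem_maximalIdeal _).mpr hu)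
    rw [map_natCast] at h0
    have := charP_residue_base hb
    rw [CharP.cast_eq_zero_iff (ResidueField W) q] at h0
    exact (Fact.mk hb.prime).out.coprime_iff_not_dvd.mp hqr.symm h0
  let P : W[X][X] := Polynomial.C (Polynomial.C (↑hru.unit⁻¹ : W)) * E.ΨSq (r : ℤ)
  have hdeg : P.natDegree ≤ r ^ 2 - 1 :=
    (natDegree_C_mul_le _ _).trans (by simpa using E.natDegree_ΨSq_le (r : ℤ))
  have hmon : P.Monic := by
    refine monic_of_natDegree_le_of_coeff_eq_one _ hdeg ?_
    rw [coeff_C_mul, show r ^ 2 - 1 = (r : ℤ).natAbs ^ 2 - 1 by simp, E.coeff_ΨSq]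
    rw [show (((r : ℤ) : W[X])) ^ 2 = Polynomial.C ((r : W) ^ 2) by simp, ← map_mul,
      hru.val_inv_mul, map_one]
  have hx : x ∈ chart W L.par := mem_chart.mpr ⟨P, hmon, by
    rw [eval₂_mul, eval₂_eq_eval_map (evW W L.par) (p := E.ΨSq (r : ℤ)),
      ← WeierstrassCurve.map_ΨSq, hE, hroot, mul_zero]⟩
  refine ⟨hx, mem_chart_of_isIntegral ?_⟩
  obtain ⟨h1, h2, h3, h4, h6⟩ := L.coeffs_mem (S := chart W L.par) par_mem_chart
  refine isIntegral_of_quadratic (b := L.curve.toAffine.a₁ * x + L.curve.toAffine.a₃)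
    (c := -(x ^ 3 + L.curve.toAffine.a₂ * x ^ 2 + L.curve.toAffine.a₄ * x + L.curve.toAffine.a₆))
    (add_mem (mul_mem h1 hx) h3)
    (neg_mem (add_mem (add_mem (add_mem (pow_mem hx 3) (mul_mem h2 (pow_mem hx 2)))
      (mul_mem h4 hx)) h6)) ?_
  linear_combination (WeierstrassCurve.Affine.equation_iff x y).mp h.1

/-- The abscissae of the nonzero `r`-torsion. -/
def rAbscissae : Set F :=
  {c | ∃ R : L.curve.toAffine.Point, R ≠ 0 ∧ r • R = 0 ∧ xOf R = c}

omit [Fact q.Prime] in
include hΔ in
theorem finite_rTorsion : {R : L.curve.toAffine.Point | r • R = 0}.Finite := by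
  refine (Set.finite_range L.basis).subset fun R hR => ?_
  obtain ⟨v, hv⟩ := L.exists_basis_eq hΔ R (by
    rw [mul_nsmul', show r • R = 0 from hR, nsmul_zero])
  exact ⟨v, hv⟩

variable [IsAlgClosed (IsLocalRing.ResidueField W)] {M : ValuationSubring F}
  (hM : IsPoint W q L.par M) (hpar : L.par ∈ M) (hΔres : (L.resCurve hpar).Δ ≠ 0)
  {C : Subring F} {I : Ideal (locAt C M)} (hF : NearFrame W q L.par M I)
  (ht : NearConst W M I L.par)

include hΔ hqr hb hM hΔres hF ht in
/-- The coordinates of torsion prime to `q` are near constants at a point of good reduction. -/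
theorem rTorsion_near {x y : F} {h : L.curve.toAffine.Nonsingular x y}
    (hR : r • (WeierstrassCurve.Affine.Point.some x y h : L.curve.toAffine.Point) = 0)
    (hx : x ∈ locAt C M) (hy : y ∈ locAt C M) :
    NearConst W M I x ∧ NearConst W M I y := by
  classical
  have := charP_residueField hM.q_mem
  have hrk : (r : ResidueField M) ≠ 0 := by
    rw [Ne, CharP.cast_eq_zero_iff (ResidueField M) q]
    exact ((Fact.out : q.Prime).coprime_iff_not_dvd).mp hqr.symm
  have hmemM : ∀ {R : L.curve.toAffine.Point}, r • R = 0 → R ≠ 0 → xOf R ∈ M := by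
    intro R hR hR0
    obtain ⟨a, b, n, rfl⟩ := LevelData.exists_some_of_ne_zero hR0
    rw [xOf_some]
    exact mem_valuationSubring_of_mem_chart (L.rTorsion_mem_chart hΔ hqr hb hR).1 hM.evW_mem
  have hsep : ∀ {R R' : L.curve.toAffine.Point}, r • R = 0 → r • R' = 0 → R ≠ 0 → R' ≠ 0 →
      xOf R - xOf R' ∈ M.nonunits → xOf R = xOf R' := by
    intro R R' hR hR' hR0 hR'0 hd
    obtain ⟨Q, hQ⟩ := exists_redTo_of_Δ_ne_zero (L.reduces hpar) hΔres R
    obtain ⟨Q', hQ'⟩ := exists_redTo_of_Δ_ne_zero (L.reduces hpar) hΔres R'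
    have hm := hmemM hR hR0
    have hm' := hmemM hR' hR'0
    obtain ⟨a, b, n, rfl⟩ := LevelData.exists_some_of_ne_zero hR0
    obtain ⟨a', b', n', rfl⟩ := LevelData.exists_some_of_ne_zero hR'0
    rw [xOf_some] at hm hm' hd ⊢
    rw [xOf_some] at hd ⊢
    rcases hQ with ⟨hn, -⟩ | ⟨a₀, b₀, n₀, ha, hb₀, rfl⟩
    · exact absurd hm hn
    rcases hQ' with ⟨hn, -⟩ | ⟨a₀', b₀', n₀', ha', hb₀', rfl⟩
    · exact absurd hm' hn
    have e : a₀ = a₀' := by
      rw [← ha.2, ← ha'.2, ← sub_eq_zero, ← map_sub]
      exact (mem_nonunits_iff_residue (sub_mem hm hm')).mp hd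
    have key : ∀ S : L.curve.toAffine.Point, r • S = 0 →
        RedTo (residue M) (L.resCurve hpar) S (.some a₀ b₀ n₀) → S = .some a b n := fun S hS hred =>
      eq_of_redTo_of_nsmul_eq_zero (L.reduces hpar) hred (RedTo.of_res ha hb₀) hrk hS hR
    rcases eq_or_eq_neg_of_xOf_eq (P := WeierstrassCurve.Affine.Point.some a₀ b₀ n₀)
      (Q := .some a₀' b₀' n₀') (WeierstrassCurve.Affine.Point.some_ne_zero _)
      (WeierstrassCurve.Affine.Point.some_ne_zero _) (by rw [xOf_some, xOf_some, e]) with h | h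
    · have := key _ hR' (h ▸ RedTo.of_res ha' hb₀')
      exact ((WeierstrassCurve.Affine.Point.some.injEq ..).mp this).1.symm
    · have h2 : RedTo (residue M) (L.resCurve hpar)
          (-(.some a' b' n' : L.curve.toAffine.Point)) (.some a₀ b₀ n₀) := by
        rw [h]
        exact (RedTo.of_res ha' hb₀').neg (L.reduces hpar)
      have := congrArg xOf (key _ (by rw [smul_neg, hR', neg_zero]) h2)
      rw [xOf_neg, xOf_some, xOf_some] at this
      exact this.symm
  have hfin : L.rAbscissae.Finite :=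
    ((L.finite_rTorsion hΔ).image xOf).subset fun c ⟨R, _, h2, h3⟩ => ⟨R, h2, h3⟩
  set A := hfin.toFinset
  have hA : ∀ c, c ∈ A ↔ c ∈ L.rAbscissae := fun c => hfin.mem_toFinset
  have hAc : ∀ c ∈ A, c ∈ chart W L.par := by
    intro c hc
    obtain ⟨R, hR0, hRr, rfl⟩ := (hA c).mp hc
    obtain ⟨a, b, n, rfl⟩ := LevelData.exists_some_of_ne_zero hR0
    rw [xOf_some]
    exact (L.rTorsion_mem_chart hΔ hqr hb hRr).1
  set G : F[X] := ∏ c ∈ A, (Polynomial.X - Polynomial.C c) with hG
  have hGcoeff : ∀ i, NearConst W M I (G.coeff i) := by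
    intro i
    have hlift : G ∈ lifts (chart W L.par).subtype := by
      refine Subsemiring.prod_mem _ fun c hc => ?_
      exact ⟨Polynomial.X - Polynomial.C ⟨c, hAc c hc⟩, by simp⟩
    obtain ⟨c, hc⟩ := (lifts_iff_coeff_lifts G).mp hlift i
    have hfix : ∀ σ ∈ fixPar K L.par, σ (G.coeff i) = G.coeff i := by
      intro σ hσ
      have hσ' : σ ∈ L.autGroup := hσ
      have himg : A.image σ = A := by
        refine Finset.eq_of_subset_of_card_le (fun z hz => ?_)
          (Finset.card_image_of_injective A σ.injective).ge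
        obtain ⟨c, hc, rfl⟩ := Finset.mem_image.mp hz
        obtain ⟨R, hR0, hRr, rfl⟩ := (hA c).mp hc
        refine (hA _).mpr ⟨L.act hσ' R, fun h0 => hR0 (pointAct_injective _ L.curve _
          (h0.trans (_root_.map_zero _).symm)), by rw [← map_nsmul, hRr, _root_.map_zero], ?_⟩
        obtain ⟨a, b, n, rfl⟩ := LevelData.exists_some_of_ne_zero hR0
        obtain ⟨_, e⟩ := pointAct_some σ.toAlgHom.toRingHom L.curve (L.map_curve hσ') n
        rw [show L.act hσ' (.some a b n) = _ from e, xOf_some, xOf_some]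
        rfl
      have hmap : G.map (σ : F →+* F) = G := by
        conv_rhs => rw [hG, ← himg, Finset.prod_image σ.injective.injOn]
        rw [hG, Polynomial.map_prod]
        simp
      conv_rhs => rw [← hmap]
      rw [coeff_map]
      rfl
    obtain ⟨p, hp⟩ := mem_range_evW_of_fixed hb (L.cover hΔ)
      (show G.coeff i ∈ chart W L.par by rw [← hc]; exact c.2) hfix
    rw [← hp]
    exact nearConst_evW hF ht p
  have hxA : x ∈ A := (hA x).mpr ⟨_, WeierstrassCurve.Affine.Point.some_ne_zero h, hR, xOf_some h⟩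
  have hnx : NearConst W M I x := by
    refine nearConst_of_root hF hb hM hGcoeff hx (fun h0 => ?_) ?_
    · convert I.zero_mem
      show G.eval x = 0
      rw [hG, eval_prod]
      exact Finset.prod_eq_zero hxA (by simp)
    · rw [hG, ← Finset.mul_prod_erase _ _ hxA, derivative_mul]
      simp only [derivative_X_sub_C, one_mul, eval_add, eval_mul, eval_sub, eval_X, eval_C,
        sub_self, zero_mul, add_zero, eval_prod]
      refine Finset.prod_induction _ (· ∉ M.nonunits) (fun _ _ => mul_notMem_nonunits)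
        (one_notMem_nonunits M) fun c hc hd => ?_
      obtain ⟨hne, hc⟩ := Finset.mem_erase.mp hc
      obtain ⟨R, hR0, hRr, rfl⟩ := (hA c).mp hc
      refine hne (Eq.symm ?_)
      have := hsep hR hRr (WeierstrassCurve.Affine.Point.some_ne_zero h) hR0 (by rwa [xOf_some])
      rwa [xOf_some] at this
  refine ⟨hnx, ?_⟩
  have ha1 : NearConst W M I L.curve.toAffine.a₁ := nearConst_eval₂_int hF ht fam.a₁
  have ha2 : NearConst W M I L.curve.toAffine.a₂ := nearConst_eval₂_int hF ht fam.a₂
  have ha3 : NearConst W M I L.curve.toAffine.a₃ := nearConst_eval₂_int hF ht fam.a₃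
  have ha4 : NearConst W M I L.curve.toAffine.a₄ := nearConst_eval₂_int hF ht fam.a₄
  have ha6 : NearConst W M I L.curve.toAffine.a₆ := nearConst_eval₂_int hF ht fam.a₆
  obtain ⟨N, hN⟩ := exists_nearSubring hF
  simp only [← hN] at ha1 ha2 ha3 ha4 ha6 hnx ⊢
  set b := L.curve.toAffine.a₁ * x + L.curve.toAffine.a₃
  set f := x ^ 3 + L.curve.toAffine.a₂ * x ^ 2 + L.curve.toAffine.a₄ * x + L.curve.toAffine.a₆
  have hbN : b ∈ N := add_mem (mul_mem ha1 hnx) ha3
  have hfN : f ∈ N :=
    add_mem (add_mem (add_mem (pow_mem hnx 3) (mul_mem ha2 (pow_mem hnx 2))) (mul_mem ha4 hnx)) ha6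
  have he := (WeierstrassCurve.Affine.equation_iff x y).mp h.1
  by_cases h2y : 2 * y + b = 0
  · -- a point of order two: then `2` is invertible
    have h2R : 2 • (WeierstrassCurve.Affine.Point.some x y h : L.curve.toAffine.Point) = 0 := by
      rw [two_nsmul, WeierstrassCurve.Affine.Point.add_of_Y_eq rfl]
      simp only [WeierstrassCurve.Affine.negY, b] at h2y ⊢
      linear_combination h2y
    have hq2 : q ≠ 2 := by
      rintro rfl
      have h1 : Nat.gcd r 2 • (WeierstrassCurve.Affine.Point.some x y h :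
          L.curve.toAffine.Point) = 0 := gcd_nsmul_eq_zero.mpr ⟨hR, h2R⟩
      rw [hqr, one_smul] at h1
      exact WeierstrassCurve.Affine.Point.some_ne_zero h h1
    have h2u : (2 : F) ∉ M.nonunits := fun hn => by
      have := (mem_nonunits_iff_residue (natCast_mem M 2)).mp (by exact_mod_cast hn)
      rw [show (⟨((2 : ℕ) : F), _⟩ : M) = ((2 : ℕ) : M)
          from Subtype.ext (map_natCast M.subtype 2).symm, map_natCast,
        CharP.cast_eq_zero_iff (ResidueField M) q] at this
      exact hq2 ((Nat.prime_dvd_prime_iff_eq Fact.out Nat.prime_two).mp this)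
    have h2N : NearConst W M I (2 : F)⁻¹ :=
      nearConst_inv hF hb hM ((hN _).mp (natCast_mem N 2)) h2u
    rw [show y = -b * (2 : F)⁻¹ by
      have : (2 : F) ≠ 0 := ne_zero_of_notMem_nonunits h2u
      field_simp; linear_combination h2y]
    exact mul_mem (neg_mem hbN) ((hN _).mpr h2N)
  · have hz : Polynomial.C (1 : F) = 1 := map_one _
    refine (hN y).mpr (nearConst_of_root hF hb hM
      (G := Polynomial.X ^ 2 + (Polynomial.C b * Polynomial.X + Polynomial.C (-f)))
      (fun i => ?_) hy (fun h0 => ?_) ?_)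
    · refine (hN _).mp ?_
      simp only [coeff_add, coeff_X_pow, coeff_C_mul, coeff_X, coeff_C]
      refine add_mem ?_ (add_mem (mul_mem hbN ?_) ?_) <;> split_ifs <;>
        first | exact one_mem N | exact zero_mem N | exact neg_mem hfN
    · convert I.zero_mem
      simp only [eval_add, eval_pow, eval_X, eval_mul, eval_C, ZeroMemClass.coe_zero, b, f]
      linear_combination he
    · rw [derivative_add, derivative_add, derivative_X_pow, derivative_C_mul, derivative_X,
        derivative_C]
      simp only [Nat.cast_ofNat, Nat.add_one_sub_one, pow_one, map_ofNat, mul_one, add_zero,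
        eval_add, eval_mul, eval_ofNat, eval_X, eval_C]
      intro hn
      -- the reduction would have order two
      set R : L.curve.toAffine.Point := .some x y h
      obtain ⟨Q, hQ⟩ := exists_redTo_of_Δ_ne_zero (L.reduces hpar) hΔres R
      rcases hQ with ⟨hxn, -⟩ | ⟨x₀, y₀, n₀, hx₀, hy₀, rfl⟩
      · exact hxn (hF.mem_locAt ((hN x).mp hnx) |> locAt_le_valuation (hF.le_valuation hM))
      have hb₀ : Res (residue M) b
          ((L.resCurve hpar).toAffine.a₁ * x₀ + (L.resCurve hpar).toAffine.a₃) :=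
        ((L.reduces hpar).a₁.mul hx₀).add (L.reduces hpar).a₃
      have hr2 := ((Res.ofNat (π := residue M) 2).mul hy₀).add hb₀
      have h00 : 2 * y₀ + ((L.resCurve hpar).toAffine.a₁ * x₀ +
          (L.resCurve hpar).toAffine.a₃) = 0 := by
        rw [← hr2.2]; exact (mem_nonunits_iff_residue hr2.mem).mp hn
      have h2Q : 2 • (WeierstrassCurve.Affine.Point.some x₀ y₀ n₀ :
          (L.resCurve hpar).toAffine.Point) = 0 := by
        rw [two_nsmul, WeierstrassCurve.Affine.Point.add_of_Y_eq rfl]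
        simp only [WeierstrassCurve.Affine.negY]
        linear_combination h00
      have hred := (RedTo.of_res (h := h) (h₀ := n₀) hx₀ hy₀).nsmul (L.reduces hpar) 2
      rw [h2Q] at hred
      have h2R := eq_zero_of_redTo_zero_of_nsmul_eq_zero (L.reduces hpar) hred hrk
        (by rw [smul_comm, hR, nsmul_zero])
      refine h2y ?_
      have := eq_neg_of_add_eq_zero_left (by rwa [two_nsmul] at h2R)
      rw [WeierstrassCurve.Affine.Point.neg_some, WeierstrassCurve.Affine.Point.some.injEq] at this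
      simp only [WeierstrassCurve.Affine.negY] at this
      simp only [b]
      linear_combination this.2

end LevelData

end Fermat.Agent.Carayol
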