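import Fermat.Agent.Carayol.LegendrePoint
import Fermat.Agent.Carayol.PointTorsion

/-!
# The Deuring family at `q = 2`

The family `y² + a x y + y = x³` at `q = 2`: the three values `s = x / y` at the points of order two
are the roots of `s³ - a s - 2`, and along a component exactly one of them vanishes.

Main results: `deuring_line`, `deuring_inertia_card`.
-/

set_option autoImplicit false

open Polynomial IsLocalRing Fermat.Agent.EC.Reduction

namespace Fermat.Agent.Carayol

theorem deuring_Δ_ne_zero : deuringFam.Δ ≠ 0 := by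
  intro h
  have h2 := congrArg (Polynomial.eval (0 : ℤ)) h
  simp [deuringFam, WeierstrassCurve.Δ, WeierstrassCurve.b₂, WeierstrassCurve.b₄,
    WeierstrassCurve.b₆, WeierstrassCurve.b₈] at h2

variable {K F : Type*} [Field K] [CharZero K] [Field F] [DecidableEq F] [Algebra K F]
  {r : ℕ} [NeZero (2 * r)] (L : LevelData K F deuringFam 2 r)
  {W : ValuationSubring K}

namespace LevelData

omit [CharZero K] [NeZero (2 * r)] in
theorem deuring_curve : L.curve = ⟨L.par, 0, 1, 0, 0⟩ := by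
  ext <;> simp [LevelData.curve, deuringFam]

omit [CharZero K] [NeZero (2 * r)] in
theorem deuring_equation {x y : F} (h : L.curve.toAffine.Equation x y) :
    y ^ 2 + L.par * x * y + y = x ^ 3 := by
  have he := (WeierstrassCurve.Affine.equation_iff x y).mp h
  rw [show L.curve.toAffine.a₁ = L.par by simp [LevelData.curve, deuringFam],
    show L.curve.toAffine.a₂ = 0 by simp [LevelData.curve, deuringFam],
    show L.curve.toAffine.a₃ = 1 by simp [LevelData.curve, deuringFam],
    show L.curve.toAffine.a₄ = 0 by simp [LevelData.curve, deuringFam],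
    show L.curve.toAffine.a₆ = 0 by simp [LevelData.curve, deuringFam]] at he
  linear_combination he

omit [NeZero (2 * r)] in
/-- The relations at a point of order two. -/
theorem deuring_two_torsion {x y : F} {h : L.curve.toAffine.Nonsingular x y}
    (hA : 2 • (WeierstrassCurve.Affine.Point.some x y h : L.curve.toAffine.Point) = 0) :
    x ≠ 0 ∧ y ≠ 0 ∧ (x / y) ^ 3 - L.par * (x / y) - 2 = 0 ∧ x * (x / y) ^ 2 = -1 ∧
      y * (x / y) ^ 3 = -1 := by
  have : CharZero F := charZero_of_injective_algebraMap (algebraMap K F).injective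
  have he := L.deuring_equation h.1
  have hn : 2 * y + L.par * x + 1 = 0 := by
    rw [two_nsmul] at hA
    have := eq_neg_of_add_eq_zero_left hA
    rw [WeierstrassCurve.Affine.Point.neg_some, WeierstrassCurve.Affine.Point.some.injEq] at this
    have h2 := this.2
    simp [WeierstrassCurve.Affine.negY, LevelData.curve, deuringFam] at h2
    linear_combination h2
  have hx3 : x ^ 3 = -y ^ 2 := by linear_combination -he + y * hn
  have hy : y ≠ 0 := by
    rintro rfl
    have : x = 0 := pow_eq_zero_iff three_ne_zero |>.mp (by rw [hx3]; ring)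
    rw [this] at hn
    simp at hn
  have hx : x ≠ 0 := fun e => hy (pow_eq_zero_iff two_ne_zero |>.mp (by
    rw [e] at hx3; linear_combination hx3))
  refine ⟨hx, hy, ?_, ?_, ?_⟩ <;> field_simp
  · linear_combination hx3 - y ^ 2 * hn
  · linear_combination hx3
  · linear_combination hx3

omit [NeZero (2 * r)] in
theorem deuring_zOf_root {A : L.curve.toAffine.Point} (hA0 : A ≠ 0) (hA : 2 • A = 0) :
    zOf A ≠ 0 ∧ zOf A ^ 3 - L.par * zOf A - 2 = 0 := by
  obtain ⟨x, y, h, rfl⟩ := LevelData.exists_some_of_ne_zero hA0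
  obtain ⟨hx, hy, he, -, -⟩ := L.deuring_two_torsion hA
  exact ⟨div_ne_zero hx hy, he⟩

omit [NeZero (2 * r)] in
theorem deuring_zOf_injOn {A B : L.curve.toAffine.Point} (hA0 : A ≠ 0) (hA : 2 • A = 0)
    (hB0 : B ≠ 0) (hB : 2 • B = 0) (h : zOf A = zOf B) : A = B := by
  obtain ⟨x, y, n, rfl⟩ := LevelData.exists_some_of_ne_zero hA0
  obtain ⟨x', y', n', rfl⟩ := LevelData.exists_some_of_ne_zero hB0
  obtain ⟨hx, hy, -, h1, h2⟩ := L.deuring_two_torsion hA
  obtain ⟨hx', hy', -, h1', h2'⟩ := L.deuring_two_torsion hB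
  rw [zOf_some, zOf_some] at h
  rw [WeierstrassCurve.Affine.Point.some.injEq]
  have hs : x / y ≠ 0 := div_ne_zero hx hy
  rw [← h] at h1' h2'
  exact ⟨mul_right_cancel₀ (pow_ne_zero 2 hs) (h1.trans h1'.symm),
    mul_right_cancel₀ (pow_ne_zero 3 hs) (h2.trans h2'.symm)⟩

omit [NeZero (2 * r)] in
/-- The three values: sum zero, the parameter and `2` in terms of two of them. -/
theorem deuring_basis_rel {P Q : L.curve.toAffine.Point} (hP0 : P ≠ 0) (hP : 2 • P = 0)
    (hQ : 2 • Q = 0) (hQP : Q ∉ AddSubgroup.zmultiples P) :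
    zOf (P + Q) = -(zOf P + zOf Q) ∧
    L.par = zOf P ^ 2 + zOf P * zOf Q + zOf Q ^ 2 ∧
    (2 : F) = -(zOf P * zOf Q * (zOf P + zOf Q)) := by
  have hQ0 : Q ≠ 0 := fun e => hQP (e ▸ zero_mem _)
  have hS : 2 • (P + Q) = 0 := by rw [nsmul_add, hP, hQ, add_zero]
  have hS0 : P + Q ≠ 0 := fun e => hQP (by
    rw [eq_neg_of_add_eq_zero_right e]; exact neg_mem (AddSubgroup.mem_zmultiples P))
  have hPQ : zOf P - zOf Q ≠ 0 := sub_ne_zero.mpr fun e => hQP (by
    rw [← L.deuring_zOf_injOn hP0 hP hQ0 hQ e]; exact AddSubgroup.mem_zmultiples P)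
  have hPS : zOf P - zOf (P + Q) ≠ 0 := sub_ne_zero.mpr fun e => hQ0 (by
    have := L.deuring_zOf_injOn hP0 hP hS0 hS e
    exact add_left_cancel (a := P) (by rw [add_zero, ← this]))
  have hQS : zOf Q - zOf (P + Q) ≠ 0 := sub_ne_zero.mpr fun e => hP0 (by
    have := L.deuring_zOf_injOn hQ0 hQ hS0 hS e
    exact add_right_cancel (b := Q) (by rw [zero_add, ← this]))
  obtain ⟨-, eP⟩ := L.deuring_zOf_root hP0 hP
  obtain ⟨-, eQ⟩ := L.deuring_zOf_root hQ0 hQ
  obtain ⟨-, eS⟩ := L.deuring_zOf_root hS0 hS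
  have h1 : zOf P ^ 2 + zOf P * zOf Q + zOf Q ^ 2 - L.par = 0 :=
    mul_left_cancel₀ hPQ (by linear_combination eP - eQ)
  have h2 : zOf P ^ 2 + zOf P * zOf (P + Q) + zOf (P + Q) ^ 2 - L.par = 0 :=
    mul_left_cancel₀ hPS (by linear_combination eP - eS)
  have h3 : zOf P + zOf Q + zOf (P + Q) = 0 :=
    mul_left_cancel₀ hQS (by linear_combination h1 - h2)
  refine ⟨by linear_combination h3, by linear_combination -h1, ?_⟩
  linear_combination -eP + zOf P * h1

omit [NeZero (2 * r)] in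
theorem deuring_zOf_mem_chart {A : L.curve.toAffine.Point} (hA : 2 • A = 0) :
    zOf A ∈ chart W L.par := by
  rcases eq_or_ne A 0 with rfl | hA0
  · exact zero_mem _
  obtain ⟨-, e⟩ := L.deuring_zOf_root hA0 hA
  refine mem_chart_of_isIntegral ⟨X ^ 3 - (C (⟨L.par, par_mem_chart⟩ : chart W L.par) * X + C 2),
    monic_X_pow_sub (degree_linear_le.trans_lt (by norm_num)), ?_⟩
  simp only [eval₂_sub, eval₂_add, eval₂_X_pow, eval₂_mul, eval₂_C, eval₂_X, eval₂_ofNat,
    map_ofNat]
  show zOf A ^ 3 - (L.par * zOf A + 2) = 0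
  linear_combination e

omit [NeZero (2 * r)] in
theorem deuring_inKer_iff {V : ValuationSubring F} {A : L.curve.toAffine.Point} (hA : 2 • A = 0) :
    InKer V A ↔ zOf A ∈ V.nonunits := by
  rcases eq_or_ne A 0 with rfl | hA0
  · exact ⟨fun _ => (ValuationSubring.mem_nonunits_iff_or V).mpr (Or.inl rfl), fun _ => trivial⟩
  obtain ⟨x, y, h, rfl⟩ := LevelData.exists_some_of_ne_zero hA0
  obtain ⟨hx, hy, -, hxs, -⟩ := L.deuring_two_torsion hA
  rw [zOf_some]
  constructor
  · intro hk
    by_contra hn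
    have hi := inv_mem_of_notMem_nonunits' hn
    refine hk ?_
    rw [show x = -((x / y)⁻¹ * (x / y)⁻¹) by
      field_simp at hxs ⊢
      linear_combination hxs]
    exact neg_mem (mul_mem hi hi)
  · intro hn hxV
    refine one_notMem_nonunits V ?_
    rw [show (1 : F) = -(x * (x / y) ^ 2) by rw [hxs]; ring]
    exact neg_mem (nonunits_mul_left hxV (pow_two (x / y) ▸
      nonunits_mul_left (ValuationSubring.nonunits_subset hn) hn))

omit [CharZero K] [NeZero (2 * r)] in
theorem deuring_vert_par_notMem {V : ValuationSubring F} (hV : IsVert W 2 L.par V) :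
    L.par ∉ V.nonunits := by
  have := hV.par_sub_notMem L.transcendental 0
  simpa using this

/-- Along a component exactly one line of two-torsion reduces to the origin. -/
theorem deuring_line {V : ValuationSubring F} (hV : IsVert W 2 L.par V) :
    ∃ P Q : L.curve.toAffine.Point, P ≠ 0 ∧ 2 • P = 0 ∧ 2 • Q = 0 ∧
      Q ∉ AddSubgroup.zmultiples P ∧ InKer V P ∧ ¬InKer V Q := by
  classical
  have hΔ := deuring_Δ_ne_zero
  obtain ⟨A, hA0, hA⟩ : ∃ A : L.curve.toAffine.Point, A ≠ 0 ∧ 2 • A = 0 := by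
    obtain ⟨A, hA, hAz⟩ := L.exists_qTorsion_notMem hΔ
      (P := (0 : L.curve.toAffine.Point)) (nsmul_zero 2)
    exact ⟨A, fun e => hAz (by rw [e]; exact zero_mem _), hA⟩
  obtain ⟨B, hB, hBA⟩ := L.exists_qTorsion_notMem hΔ hA
  have hB0 : B ≠ 0 := fun e => hBA (e ▸ zero_mem _)
  have hC : 2 • (A + B) = 0 := by rw [nsmul_add, hA, hB, add_zero]
  have hC0 : A + B ≠ 0 := fun e => hBA (by
    rw [eq_neg_of_add_eq_zero_right e]; exact neg_mem (AddSubgroup.mem_zmultiples A))
  obtain ⟨hsum, hpar, htwo⟩ := L.deuring_basis_rel hA0 hA hB hBA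
  have hex : ∃ P : L.curve.toAffine.Point, P ≠ 0 ∧ 2 • P = 0 ∧ InKer V P := by
    by_contra h
    push Not at h
    have h1 : ∀ P : L.curve.toAffine.Point, P ≠ 0 → 2 • P = 0 → zOf P ∉ V.nonunits :=
      fun P hP0 hP hn => h P hP0 hP ((L.deuring_inKer_iff hP).mpr hn)
    refine mul_notMem_nonunits (mul_notMem_nonunits (h1 A hA0 hA) (h1 B hB0 hB)) (h1 _ hC0 hC) ?_
    rw [hsum, show zOf A * zOf B * -(zOf A + zOf B) = (2 : F) by rw [htwo]; ring]
    exact_mod_cast hV.q_mem
  obtain ⟨P, hP0, hP, hPk⟩ := hex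
  obtain ⟨Q, hQ, hQP⟩ := L.exists_qTorsion_notMem hΔ hP
  obtain ⟨-, hpar', -⟩ := L.deuring_basis_rel hP0 hP hQ hQP
  refine ⟨P, Q, hP0, hP, hQ, hQP, hPk, fun hQk => L.deuring_vert_par_notMem hV ?_⟩
  have hp := (L.deuring_inKer_iff hP).mp hPk
  have hq := (L.deuring_inKer_iff hQ).mp hQk
  rw [hpar', pow_two, pow_two]
  exact add_mem (add_mem (nonunits_mul_left (ValuationSubring.nonunits_subset hp) hp)
    (nonunits_mul_left (ValuationSubring.nonunits_subset hp) hq))
    (nonunits_mul_left (ValuationSubring.nonunits_subset hq) hq)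

/-- The inertia group of a component has at least two elements. -/
theorem deuring_inertia_card (hb : BaseData W 2) {V : ValuationSubring F}
    (hV : IsVert W 2 L.par V) : 2 * (2 - 1) ≤ Nat.card (inertiaV K L.par V) := by
  have hΔ := deuring_Δ_ne_zero
  obtain ⟨P, Q, hP0, hP, hQ, hQP, hPk, hQk⟩ := L.deuring_line hV
  have hQ0 : Q ≠ 0 := fun e => hQP (e ▸ zero_mem _)
  obtain ⟨-, hpar, htwo⟩ := L.deuring_basis_rel hP0 hP hQ hQP
  have hp := (L.deuring_inKer_iff hP).mp hPk
  have hq : zOf Q ∉ V.nonunits := fun h => hQk ((L.deuring_inKer_iff hQ).mpr h)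
  have hqV : zOf Q ∈ V :=
    mem_valuationSubring_of_mem_chart (L.deuring_zOf_mem_chart hQ) hV.evW_mem
  have hpV := ValuationSubring.nonunits_subset hp
  have hsum : zOf P + zOf Q ∉ V.nonunits := fun h =>
    hq (by simpa using sub_mem h hp)
  have hu : zOf Q * (zOf P + zOf Q) ∉ V.nonunits := mul_notMem_nonunits hq hsum
  have hz0 := (L.deuring_zOf_root hP0 hP).1
  have hQz := ne_zero_of_notMem_nonunits hq
  have hS := ne_zero_of_notMem_nonunits hsum
  refine (inertia_bound hb (L.cover hΔ) hV hz0 ?_ ?_ hqV ?_).1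
  · rw [show zOf P ^ (2 - 1) / ((2 : ℕ) : F) = -(zOf Q * (zOf P + zOf Q))⁻¹ by
      rw [Nat.cast_ofNat, htwo, show (2 : ℕ) - 1 = 1 from rfl, pow_one]; field_simp]
    exact neg_mem (inv_mem_of_notMem_nonunits' hu)
  · rw [show ((2 : ℕ) : F) / zOf P ^ (2 - 1) = -(zOf Q * (zOf P + zOf Q)) by
      rw [Nat.cast_ofNat, htwo, show (2 : ℕ) - 1 = 1 from rfl, pow_one]; field_simp]
    exact neg_mem (mul_mem hqV (add_mem hpV hqV))
  · rw [hpar, show zOf Q ^ 2 - (zOf P ^ 2 + zOf P * zOf Q + zOf Q ^ 2) =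
      -(zOf P + zOf Q) * zOf P by ring]
    exact nonunits_mul_left (neg_mem (add_mem hpV hqV)) hp

end LevelData

end Fermat.Agent.Carayol
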