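import Fermat.Agent.Carayol.Setup
import Fermat.Agent.EC.Reduction.VariableChange

/-!
# Transport of a level structure

Transport of a level structure along a change of coordinates carrying the member of the family at
one parameter to the member at another parameter.

Main result: `changeHom_some`.
-/

set_option autoImplicit false

open Polynomial WeierstrassCurve Fermat.Agent.EC.Reduction

namespace Fermat.Agent.Carayol

section Point

variable {F : Type*} [Field F] [DecidableEq F] (C : VariableChange F)
  {W W' : WeierstrassCurve F} (h : C • W = W')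

/-- The points of a curve on the changed curve. -/
noncomputable def changeHom : W.toAffine.Point →+ W'.toAffine.Point :=
  (pointCast h).toAddMonoidHom.comp
    ((AddMonoidHom.mk' (variableChangePoint C⁻¹ (C • W))
      (variableChangePoint_add C⁻¹ (C • W))).comp
      (pointCast (inv_smul_smul C W).symm).toAddMonoidHom)

theorem changeHom_injective : Function.Injective (changeHom C h) :=
  (pointCast h).injective.comp ((variableChangePoint_injective C⁻¹ (C • W)).comp
    (pointCast (inv_smul_smul C W).symm).injective)

/-- The transported point in coordinates. -/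
theorem changeHom_some {x y : F} (hn : W.toAffine.Nonsingular x y) :
    ∃ x' y', ∃ hn' : W'.toAffine.Nonsingular x' y', changeHom C h (.some x y hn) = .some x' y' hn' ∧
      x = (C.u : F) ^ 2 * x' + C.r ∧ y = (C.u : F) ^ 3 * y' + (C.u : F) ^ 2 * C.s * x' + C.t := by
  refine ⟨(C⁻¹).u ^ 2 * x + (C⁻¹).r, (C⁻¹).u ^ 3 * y + (C⁻¹).u ^ 2 * (C⁻¹).s * x + (C⁻¹).t,
    h ▸ nonsingular_variableChange C⁻¹ (C • W) ((inv_smul_smul C W).symm ▸ hn), ?_, ?_, ?_⟩
  · simp only [changeHom, AddMonoidHom.coe_comp, Function.comp_apply,
      AddEquiv.coe_toAddMonoidHom, pointCast_some, AddMonoidHom.mk'_apply, variableChangePoint]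
  · obtain ⟨u, r, s, t⟩ := C
    simp only [VariableChange.inv_def, Units.val_inv_eq_inv_val]
    field_simp
    ring
  · obtain ⟨u, r, s, t⟩ := C
    simp only [VariableChange.inv_def, Units.val_inv_eq_inv_val]
    field_simp
    ring

end Point

variable {K F : Type*} [Field K] [Field F] [DecidableEq F] [Algebra K F]
  {fam : WeierstrassCurve ℤ[X]} {q r : ℕ} (L : LevelData K F fam q r)
  (C : VariableChange F) {t' : F} (ht' : Transcendental K t')
  (hC : C • L.curve = fam.map (eval₂RingHom (Int.castRingHom F) t'))

namespace LevelData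

/-- The transported level structure; the data of the change must be generated by the new one. -/
noncomputable def transform
    (hgen : ∀ Z : IntermediateField K F, t' ∈ Z →
      (∀ v, pointCoords (changeHom C hC (L.basis v)) ⊆ (Z : Set F)) →
      L.par ∈ Z ∧ (C.u : F) ∈ Z ∧ C.r ∈ Z ∧ C.s ∈ Z ∧ C.t ∈ Z) :
    LevelData K F fam q r where
  par := t'
  transcendental := ht'
  basis := (changeHom C hC).comp L.basis
  injective_basis := (changeHom_injective C hC).comp L.injective_basis
  adjoin_eq_top := by
    set Z := IntermediateField.adjoin K (insert t'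
      (⋃ v, pointCoords ((changeHom C hC).comp L.basis v)))
    have hsub := IntermediateField.subset_adjoin K (insert t'
      (⋃ v, pointCoords ((changeHom C hC).comp L.basis v)))
    obtain ⟨hp, hu, hr, hs, ht⟩ := hgen Z (hsub (Set.mem_insert _ _)) fun v a ha =>
      hsub (Set.mem_insert_of_mem _ (Set.mem_iUnion.mpr ⟨v, ha⟩))
    refine top_le_iff.mp (L.adjoin_eq_top ▸ IntermediateField.adjoin_le_iff.mpr ?_)
    rintro z (rfl | hz)
    · exact hp
    obtain ⟨v, hv⟩ := Set.mem_iUnion.mp hz
    rcases hb : L.basis v with _ | ⟨x, y, hn⟩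
    · rw [hb] at hv; exact hv.elim
    rw [hb] at hv
    obtain ⟨x', y', hn', e, hx, hy⟩ := changeHom_some C hC hn
    have hmem : ∀ a ∈ pointCoords (changeHom C hC (L.basis v)), a ∈ Z := fun a ha =>
      hsub (Set.mem_insert_of_mem _ (Set.mem_iUnion.mpr ⟨v, ha⟩))
    rw [hb, e] at hmem
    have hx' : x' ∈ Z := hmem x' (Or.inl rfl)
    have hy' : y' ∈ Z := hmem y' (Or.inr rfl)
    rcases hv with hv | hv
    · rw [show z = x from hv, hx]
      exact add_mem (mul_mem (pow_mem hu 2) hx') hr
    · rw [show z = y from hv, hy]
      exact add_mem (add_mem (mul_mem (pow_mem hu 3) hy') (mul_mem (mul_mem (pow_mem hu 2) hs) hx'))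
        ht

end LevelData

end Fermat.Agent.Carayol
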