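import Fermat.Agent.Carayol.DeuringBasic
import Fermat.Agent.Carayol.Transform

/-!
# Another point of order three at the origin

Moving a point of order three to the origin on `y² + a x y + y = x³`: the coefficient to be
normalised is a cube as soon as the point is a multiple of three, which gives a second level
structure of the same family.

Main result: `deuring_change`.
-/

set_option autoImplicit false

open Polynomial WeierstrassCurve

namespace Fermat.Agent.Carayol

/-- An element with the invariant of an algebraic element is algebraic. -/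
theorem isAlgebraic_of_j_relation {K F : Type*} [Field K] [Field F] [Algebra K F] {a e : F}
    (he : IsAlgebraic K e)
    (h : (a * (a ^ 3 - 24)) ^ 3 * (e ^ 3 - 27) = (e * (e ^ 3 - 24)) ^ 3 * (a ^ 3 - 27))
    (hd : e ^ 3 - 27 ≠ 0) : IsAlgebraic K a := by
  let E := algebraicClosure K F
  let e' : E := ⟨e, mem_algebraicClosure_iff.mpr he⟩
  let P : E[X] := C (e' ^ 3 - 27) * (X ^ 12 - 72 * X ^ 9 + 1728 * X ^ 6 - 13824 * X ^ 3) -
    C ((e' * (e' ^ 3 - 24)) ^ 3) * (X ^ 3 - 27)
  refine IsAlgebraic.restrictScalars (R := K) (S := E) ⟨P, fun h0 => ?_, ?_⟩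
  · have := congrArg (fun p => p.coeff 12) h0
    simp only [P, coeff_sub, coeff_C_mul, coeff_zero] at this
    simp [coeff_X_pow, coeff_ofNat_mul] at this
    have h2 := congrArg (algebraMap E F) this
    simp only [map_sub, map_pow, map_ofNat, _root_.map_zero] at h2
    exact hd h2
  · simp only [P, e', map_sub, map_add, map_mul, map_pow, map_ofNat, aeval_C, aeval_X]
    simp only [IntermediateField.algebraMap_apply]
    linear_combination h

/-- Scaled `c₄` and discriminant give the same invariant. -/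
theorem j_relation_of_scaled {F : Type*} [Field F] {X Y D u c : F} (hu : u ≠ 0) (hc : c = u ^ 3)
    (h : Y * u ^ 4 = X) : X ^ 3 * (D / c ^ 4) = Y ^ 3 * D := by
  subst hc h
  field_simp

section Cube


variable {F : Type*} [Field F] [DecidableEq F] {A c : F}

omit [DecidableEq F] in
theorem flexCurve_equation {x y : F} :
    (⟨A, 0, c, 0, 0⟩ : WeierstrassCurve F).toAffine.Equation x y ↔
      y ^ 2 + A * x * y + c * y = x ^ 3 := by
  rw [Affine.equation_iff]
  simp

omit [DecidableEq F] in
/-- The product of the ordinates of three collinear points is the cube of the intercept. -/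
theorem flexCurve_prod {x₁ x₂ l n : F}
    (h₁ : (l * x₁ + n) ^ 2 + A * x₁ * (l * x₁ + n) + c * (l * x₁ + n) = x₁ ^ 3)
    (he₂ : x₁ * x₂ + (x₁ + x₂) * (l ^ 2 + A * l - x₁ - x₂) = -(2 * l * n + A * n + c * l)) :
    (l * x₁ + n) * (l * x₂ + n) * (l * (l ^ 2 + A * l - x₁ - x₂) + n) = n ^ 3 := by
  have he₃ : x₁ * x₂ * (l ^ 2 + A * l - x₁ - x₂) = n ^ 2 + c * n := by
    linear_combination -h₁ + x₁ * he₂
  linear_combination l ^ 3 * he₃ + l ^ 2 * n * he₂

theorem flexCurve_three_origin (hc : c ≠ 0)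
    (h : (⟨A, 0, c, 0, 0⟩ : WeierstrassCurve F).toAffine.Nonsingular 0 0) :
    3 • (Affine.Point.some 0 0 h : (⟨A, 0, c, 0, 0⟩ : WeierstrassCurve F).toAffine.Point) = 0 ∧
      2 • (Affine.Point.some 0 0 h : (⟨A, 0, c, 0, 0⟩ : WeierstrassCurve F).toAffine.Point)
        ≠ 0 := by
  have hy : (0 : F) ≠ (⟨A, 0, c, 0, 0⟩ : WeierstrassCurve F).toAffine.negY 0 0 := by
    simpa [Affine.negY] using hc
  have hsum := Affine.Point.add_self_of_Y_ne (h₁ := h) hy
  refine ⟨?_, ?_⟩
  · rw [succ_nsmul, two_nsmul, hsum]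
    simp [Affine.slope_of_Y_ne rfl hy, Affine.addX, Affine.addY, Affine.negAddY, Affine.negY,
      Affine.Point.add_of_Y_eq]
  · rw [two_nsmul, hsum]
    exact Affine.Point.some_ne_zero _

/-- **A point of order three which is a multiple of three gives a cube.** -/
theorem exists_cube_of_three_nsmul (hc : c ≠ 0) {x₁ y₁ : F}
    {h : (⟨A, 0, c, 0, 0⟩ : WeierstrassCurve F).toAffine.Nonsingular x₁ y₁}
    {h₀ : (⟨A, 0, c, 0, 0⟩ : WeierstrassCurve F).toAffine.Nonsingular 0 0}
    (hS : 3 • (Affine.Point.some x₁ y₁ h : (⟨A, 0, c, 0, 0⟩ : WeierstrassCurve F).toAffine.Point) =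
      .some 0 0 h₀) :
    ∃ u : F, u ^ 3 = c ∧ ∀ Z : Subfield F, A ∈ Z → c ∈ Z → x₁ ∈ Z → y₁ ∈ Z → u ∈ Z := by
  set S : (⟨A, 0, c, 0, 0⟩ : WeierstrassCurve F).toAffine.Point := .some x₁ y₁ h with hSdef
  set T : (⟨A, 0, c, 0, 0⟩ : WeierstrassCurve F).toAffine.Point := .some 0 0 h₀
  obtain ⟨h3T, h2T⟩ := flexCurve_three_origin hc h₀
  have hT0 : T ≠ 0 := Affine.Point.some_ne_zero h₀
  have hS3 : S + S + S = T := by rw [← hS, succ_nsmul, two_nsmul]
  have h3S : 3 • S ≠ 0 := by rw [hS]; exact hT0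
  have he := flexCurve_equation.mp h.1
  have hy : y₁ ≠ (⟨A, 0, c, 0, 0⟩ : WeierstrassCurve F).toAffine.negY x₁ y₁ := fun e => by
    have h2 : S + S = 0 := Affine.Point.add_of_Y_eq rfl e
    rw [h2, zero_add] at hS3
    exact h2T (by rw [two_nsmul,
      show (Affine.Point.some 0 0 h₀ : (⟨A, 0, c, 0, 0⟩ : WeierstrassCurve F).toAffine.Point) = T
        from rfl,
      ← hS3, h2])
  have hx₁ : x₁ ≠ 0 := fun e => by
    have h0 : y₁ * (y₁ + c) = 0 := by subst e; linear_combination he
    have hST : S = T ∨ S = -T := by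
      rcases mul_eq_zero.mp h0 with e' | e'
      · left; simp only [S, T, e, e']
      · right
        simp only [S, T, Affine.Point.neg_some, Affine.Point.some.injEq]
        exact ⟨e, by simp [Affine.negY]; linear_combination e'⟩
    rcases hST with e' | e'
    · exact h3S (by rw [e']; exact h3T)
    · exact h3S (by rw [e', smul_neg, neg_eq_zero]; exact h3T)
  have hy₁ : y₁ ≠ 0 := fun e => hx₁ (pow_eq_zero_iff three_ne_zero |>.mp (by
    rw [← he, e]; ring))
  set l := (⟨A, 0, c, 0, 0⟩ : WeierstrassCurve F).toAffine.slope x₁ x₁ y₁ y₁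
  have hsl : l = (3 * x₁ ^ 2 - A * y₁) / (2 * y₁ + A * x₁ + c) := by
    simp only [l]
    rw [Affine.slope_of_Y_ne rfl hy]
    simp [Affine.negY]
    ring_nf
  have hden : 2 * y₁ + A * x₁ + c ≠ 0 := fun e => hy (by
    simp only [Affine.negY]; linear_combination e)
  have hl : l * (2 * y₁ + A * x₁ + c) = 3 * x₁ ^ 2 - A * y₁ := by
    rw [hsl, div_mul_cancel₀ _ hden]
  set n := y₁ - l * x₁
  set x₂ := l ^ 2 + A * l - x₁ - x₁
  set y₂' := l * x₂ + n
  have hp₁ : y₁ * y₁ * y₂' = n ^ 3 := by
    have := flexCurve_prod (A := A) (c := c) (x₁ := x₁) (x₂ := x₁) (l := l) (n := n)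
      (by simp only [n]; linear_combination he)
      (by simp only [n]; linear_combination hl)
    simp only [y₂', x₂]
    simpa [n] using this
  -- the double
  set y₂ := -y₂' - A * x₂ - c
  have hn₂ : (⟨A, 0, c, 0, 0⟩ : WeierstrassCurve F).toAffine.Nonsingular x₂ y₂ := by
    convert Affine.nonsingular_add h h fun hxy => hy hxy.right using 1 <;>
      simp [Affine.addX, Affine.addY, Affine.negAddY, Affine.negY, x₂, y₂, y₂', n, l] ; ring
  have hD : S + S = Affine.Point.some x₂ y₂ hn₂ := by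
    simp only [S]
    rw [Affine.Point.add_self_of_Y_ne hy, Affine.Point.some.injEq]
    constructor <;>
      simp [Affine.addX, Affine.addY, Affine.negAddY, Affine.negY, x₂, y₂, y₂', n, l]
    ring
  have hD0 : S + S ≠ 0 := by rw [hD]; exact Affine.Point.some_ne_zero _
  have hy₂ : y₂ * y₂' = -x₂ ^ 3 := by
    simp only [y₂]
    linear_combination -(flexCurve_equation.mp hn₂.1)
  have hne : x₁ ≠ x₂ := fun e => by
    rcases Affine.Y_eq_of_X_eq h.1 hn₂.1 e with e' | e'
    · have : S + S = S :=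
        hD.trans (by simp only [S, Affine.Point.some.injEq]; exact ⟨e.symm, e'.symm⟩)
      rw [add_eq_left] at this
      exact Affine.Point.some_ne_zero h this
    · have : S + S = -S := hD.trans (by
        simp only [S, Affine.Point.neg_some, Affine.Point.some.injEq]
        refine ⟨e.symm, ?_⟩
        rw [e']; simp [Affine.negY, e]; ring)
      exact h3S (by rw [succ_nsmul, two_nsmul, this, neg_add_cancel])
  have hx₂ : x₂ ≠ 0 := fun e => by
    have h0 : y₂ * (y₂ + c) = 0 := by
      have := flexCurve_equation.mp hn₂.1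
      linear_combination this + (x₂ ^ 2 - A * y₂) * e
    have h6 : 3 • (S + S) = 0 := by
      rcases mul_eq_zero.mp h0 with e' | e'
      · rw [show S + S = T from hD.trans (by simp only [T, Affine.Point.some.injEq]; exact ⟨e, e'⟩)]
        exact h3T
      · rw [show S + S = -T from hD.trans (by
          simp only [T, Affine.Point.neg_some, Affine.Point.some.injEq]
          exact ⟨e, by simp [Affine.negY]; linear_combination e'⟩), smul_neg, neg_eq_zero]
        exact h3T
    rw [nsmul_add, hS, ← two_nsmul] at h6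
    exact h2T h6
  -- the line through the point and its double
  have hxy : ¬(x₂ = x₁ ∧ y₂ = (⟨A, 0, c, 0, 0⟩ : WeierstrassCurve F).toAffine.negY x₁ y₁) :=
    fun e => hne e.1.symm
  have hsum : (Affine.Point.some x₂ y₂ hn₂ :
      (⟨A, 0, c, 0, 0⟩ : WeierstrassCurve F).toAffine.Point) + S = T := by rw [← hD, hS3]
  simp only [S, T] at hsum
  rw [Affine.Point.add_some hxy, Affine.Point.some.injEq] at hsum
  set m := (⟨A, 0, c, 0, 0⟩ : WeierstrassCurve F).toAffine.slope x₂ x₁ y₂ y₁
  have hm : m = (y₂ - y₁) / (x₂ - x₁) := Affine.slope_of_X_ne (Ne.symm hne)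
  have hm' : m * (x₂ - x₁) = y₂ - y₁ := by
    rw [hm, div_mul_cancel₀ _ (sub_ne_zero.mpr (Ne.symm hne))]
  obtain ⟨hs1, hs2⟩ := hsum
  simp [Affine.addX] at hs1
  simp [Affine.addY, Affine.negAddY, Affine.negY] at hs2
  set k := y₁ - m * x₁
  have hp₂ : y₁ * y₂ * (-c) = k ^ 3 := by
    have h2 := flexCurve_equation.mp hn₂.1
    have key := flexCurve_prod (A := A) (c := c) (x₁ := x₁) (x₂ := x₂) (l := m) (n := k)
      (by simp only [k]; linear_combination he)
      (mul_left_cancel₀ (sub_ne_zero.mpr (Ne.symm hne)) (by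
        have h2' : (m * x₂ + k) ^ 2 + A * x₂ * (m * x₂ + k) + c * (m * x₂ + k) = x₂ ^ 3 := by
          rw [show m * x₂ + k = y₂ by simp only [k]; linear_combination hm']
          exact h2
        have h1' : (m * x₁ + k) ^ 2 + A * x₁ * (m * x₁ + k) + c * (m * x₁ + k) = x₁ ^ 3 := by
          simp only [k]; linear_combination he
        linear_combination h2' - h1'))
    rw [show m * x₁ + k = y₁ by simp only [k]; ring,
      show m * x₂ + k = y₂ by simp only [k]; linear_combination hm'] at key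
    rw [← key]
    have : m * (m ^ 2 + A * m - x₁ - x₂) + k = -c := by
      have e0 : m ^ 2 + A * m - x₂ - x₁ = 0 := hs1
      simp only [k]
      linear_combination hm' - hs2 - A * e0
    rw [this]
  refine ⟨n * k / (x₂ * y₁), ?_, fun Z hA hcZ hxZ hyZ => ?_⟩
  · rw [div_pow, div_eq_iff (pow_ne_zero 3 (mul_ne_zero hx₂ hy₁)), mul_pow, ← hp₁, ← hp₂]
    linear_combination -c * y₁ ^ 3 * hy₂
  · have h2 : (2 : F) ∈ Z := ofNat_mem Z 2
    have h3 : (3 : F) ∈ Z := ofNat_mem Z 3
    have hlZ : l ∈ Z := hsl ▸ div_mem (sub_mem (mul_mem h3 (pow_mem hxZ 2)) (mul_mem hA hyZ))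
      (add_mem (add_mem (mul_mem h2 hyZ) (mul_mem hA hxZ)) hcZ)
    have hx₂Z : x₂ ∈ Z := sub_mem (sub_mem (add_mem (pow_mem hlZ 2) (mul_mem hA hlZ)) hxZ) hxZ
    have hnZ : n ∈ Z := sub_mem hyZ (mul_mem hlZ hxZ)
    have hy₂Z : y₂ ∈ Z :=
      sub_mem (sub_mem (neg_mem (add_mem (mul_mem hlZ hx₂Z) hnZ)) (mul_mem hA hx₂Z)) hcZ
    have hmZ : m ∈ Z := hm ▸ div_mem (sub_mem hy₂Z hyZ) (sub_mem hx₂Z hxZ)
    exact div_mem (mul_mem hnZ (sub_mem hyZ (mul_mem hmZ hxZ))) (mul_mem hx₂Z hyZ)

end Cube

variable {K F : Type*} [Field K] [CharZero K] [Field F] [DecidableEq F] [Algebra K F]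
  {r : ℕ} [NeZero (2 * r)] (L : LevelData K F deuringFam 2 r) (h9 : 9 ∣ r)

namespace LevelData

include h9 in
/-- Points of order three of the level structure are multiples of three. -/
theorem deuring_three_divisible {R : L.curve.toAffine.Point} (hR : 3 • R = 0) :
    ∃ b, 3 • L.basis b = R := by
  obtain ⟨k, hk⟩ : 9 ∣ 2 * r := h9.mul_left 2
  obtain ⟨v, rfl⟩ := L.exists_basis_eq deuring_Δ_ne_zero R (by
    rw [hk, show 9 * k = (3 * k) * 3 by ring, mul_nsmul', hR, nsmul_zero])
  have hdiv : ∀ a : ZMod (2 * r), 3 • a = 0 → ∃ b : ZMod (2 * r), 3 • b = a := by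
    intro a ha
    have hd : 2 * r ∣ 3 * a.val := by
      rw [← ZMod.natCast_eq_zero_iff]
      push_cast
      rw [ZMod.natCast_zmod_val, ← ha, nsmul_eq_mul, Nat.cast_ofNat]
    have hd3 : 3 * k ∣ a.val := by
      refine Nat.dvd_of_mul_dvd_mul_left three_pos ?_
      have e : 2 * r = 3 * (3 * k) := by rw [hk]; ring
      exact e ▸ hd
    obtain ⟨j, hj⟩ := hd3
    refine ⟨((k * j : ℕ) : ZMod (2 * r)), ?_⟩
    rw [nsmul_eq_mul, ← Nat.cast_mul, ← mul_assoc, ← hj, ZMod.natCast_zmod_val]
  have hv : 3 • v = 0 := L.injective_basis (by rw [map_nsmul, hR, _root_.map_zero])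
  obtain ⟨b₁, hb₁⟩ := hdiv v.1 (by have := congrArg Prod.fst hv; simpa using this)
  obtain ⟨b₂, hb₂⟩ := hdiv v.2 (by have := congrArg Prod.snd hv; simpa using this)
  refine ⟨(b₁, b₂), ?_⟩
  rw [← map_nsmul]
  exact congrArg _ (Prod.ext hb₁ hb₂)

omit [CharZero K] [NeZero (2 * r)] in
theorem deuring_origin_nonsingular : L.curve.toAffine.Nonsingular 0 0 := by
  rw [Affine.nonsingular_iff, Affine.equation_iff]
  simp [L.deuring_curve]

include h9 in
/-- The old parameter and the change of coordinates are generated by the new level structure. -/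
theorem deuring_change_mem {omega : K} (hω : omega ^ 2 + omega + 1 = 0) {x y s u c a' : F}
    (hu0 : u ≠ 0) (hu : u ^ 3 = c) (hcdef : c = 2 * y + L.par * x + 1)
    (hsc : s * c = 3 * x ^ 2 - L.par * y) (hflex : s ^ 2 + L.par * s = 3 * x)
    (hua : u * a' = L.par + 2 * s)
    (hC : (⟨Units.mk0 u hu0, x, s, y⟩ : VariableChange F) • L.curve =
      deuringFam.map (eval₂RingHom (Int.castRingHom F) a'))
    (Z : IntermediateField K F) (hZ : a' ∈ Z)
    (hpts : ∀ v, pointCoords (changeHom _ hC (L.basis v)) ⊆ (Z : Set F)) :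
    L.par ∈ Z ∧ u ∈ Z ∧ x ∈ Z ∧ s ∈ Z ∧ y ∈ Z := by
  -- the origin of the original curve
  have hns := L.deuring_origin_nonsingular
  set T : L.curve.toAffine.Point := .some 0 0 hns
  have h3T : 3 • T = 0 := by
    have hns' : (⟨L.par, 0, 1, 0, 0⟩ : WeierstrassCurve F).toAffine.Nonsingular 0 0 := by
      rw [← L.deuring_curve]; exact hns
    refine (pointCast L.deuring_curve).injective ?_
    rw [map_nsmul, _root_.map_zero, pointCast_some]
    exact (flexCurve_three_origin one_ne_zero hns').1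
  obtain ⟨bT, hbT⟩ := L.deuring_three_divisible h9 h3T
  obtain ⟨xT, yT, hnT, eT, hxT, hyT⟩ := changeHom_some _ hC hns
  simp only [Units.val_mk0] at hxT hyT
  obtain ⟨vT, hvT⟩ := L.exists_basis_eq deuring_Δ_ne_zero T (by
    obtain ⟨k, hk⟩ : 9 ∣ 2 * r := h9.mul_left 2
    rw [hk, show 9 * k = (3 * k) * 3 by ring, mul_nsmul', h3T, nsmul_zero])
  have hxTZ : xT ∈ Z ∧ yT ∈ Z := by
    have := hpts vT
    rw [hvT, show changeHom _ hC T = _ from eT] at this
    exact ⟨this (Or.inl rfl), this (Or.inr rfl)⟩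
  set c' := 2 * yT + a' * xT + 1 with hc'def
  have huc : u ^ 3 * c' = 1 := by
    rw [hc'def]
    linear_combination u ^ 2 * xT * hua + hu + hcdef - 2 * hyT - L.par * hxT
  have hc' : c' ≠ 0 := right_ne_zero_of_mul_eq_one huc
  set s' := -s / u with hs'def
  have hus : u * s' = -s := by rw [hs'def]; field_simp
  have hs'c : s' * c' = 3 * xT ^ 2 - a' * yT := by
    refine mul_left_cancel₀ (pow_ne_zero 4 hu0) ?_
    linear_combination u * s' * huc + hus + u ^ 3 * yT * hua - (L.par + 2 * s) * hyT +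
      (3 * (u ^ 2 * xT - x) + (L.par + 2 * s) * s) * hxT - hsc + s * hcdef + 2 * x * hflex
  let C₁ : VariableChange F := ⟨1, xT, s', yT⟩
  have hC₁ : C₁ • deuringFam.map (eval₂RingHom (Int.castRingHom F) a') =
      ⟨a' + 2 * s', 0, c', 0, 0⟩ := by
    have hflex' : s' ^ 2 + a' * s' = 3 * xT := by
      refine mul_left_cancel₀ (pow_ne_zero 2 hu0) ?_
      linear_combination (u * s' - s + u * a') * hus - s * hua - hflex + 3 * hxT
    have he' : yT ^ 2 + a' * xT * yT + yT = xT ^ 3 := by
      have := (Affine.equation_iff xT yT).mp hnT.1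
      simp [deuringFam] at this
      linear_combination this
    ext <;> simp [C₁, deuringFam, variableChange_a₁, variableChange_a₂, variableChange_a₃,
      variableChange_a₄, variableChange_a₆, hc'def]
    · linear_combination -hflex'
    · ring
    · linear_combination -hs'c + s' * hc'def
    · linear_combination -he'
  rcases hbb : L.basis bT with _ | ⟨xS, yS, hnS⟩
  · rw [hbb, ← Affine.Point.zero_def, nsmul_zero] at hbT
    exact absurd hbT.symm (Affine.Point.some_ne_zero hns)
  obtain ⟨x', y', hn', e', -, -⟩ := changeHom_some _ hC hnS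
  have hSZ : x' ∈ Z ∧ y' ∈ Z := by
    have := hpts bT
    rw [hbb, e'] at this
    exact ⟨this (Or.inl rfl), this (Or.inr rfl)⟩
  rw [hbb] at hbT
  have hbT' := congrArg (changeHom _ hC) hbT
  rw [map_nsmul, e', eT] at hbT'
  have hb₁ := congrArg (changeHom C₁ hC₁) hbT'
  rw [map_nsmul] at hb₁
  obtain ⟨x₁, y₁, hn₁, e₁, hx₁, hy₁⟩ := changeHom_some C₁ hC₁ hn'
  obtain ⟨x₀, y₀, hn₀, e₀, hx₀, hy₀⟩ := changeHom_some C₁ hC₁ hnT
  simp only [C₁, Units.val_one, one_pow, one_mul] at hx₁ hy₁ hx₀ hy₀
  obtain rfl : x₀ = 0 := by linear_combination -hx₀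
  obtain rfl : y₀ = 0 := by linear_combination -hy₀
  rw [e₁, e₀] at hb₁
  obtain ⟨u', hu', hZu⟩ := exists_cube_of_three_nsmul hc' hb₁
  have h2Z : (2 : F) ∈ Z := ofNat_mem Z 2
  have h3Z : (3 : F) ∈ Z := ofNat_mem Z 3
  have hc'Z : c' ∈ Z := add_mem (add_mem (mul_mem h2Z hxTZ.2) (mul_mem hZ hxTZ.1)) (one_mem Z)
  have hs'Z : s' ∈ Z := by
    rw [show s' = (3 * xT ^ 2 - a' * yT) / c' by rw [eq_div_iff hc', hs'c]]
    exact div_mem (sub_mem (mul_mem h3Z (pow_mem hxTZ.1 2)) (mul_mem hZ hxTZ.2)) hc'Z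
  have hu'Z : u' ∈ Z := by
    refine hZu Z.toSubfield (add_mem hZ (mul_mem h2Z hs'Z)) hc'Z ?_ ?_
    · rw [show x₁ = x' - xT by linear_combination -hx₁]
      exact sub_mem hSZ.1 hxTZ.1
    · rw [show y₁ = y' - s' * (x' - xT) - yT by linear_combination -hy₁ + s' * hx₁]
      exact sub_mem (sub_mem hSZ.2 (mul_mem hs'Z (sub_mem hSZ.1 hxTZ.1))) hxTZ.2
  have huZ : u ∈ Z := by
    have h1 : (u * u') ^ 3 = 1 := by rw [mul_pow, hu', huc]
    have hu'0 : u' ≠ 0 := fun e => hc' (by rw [← hu', e, zero_pow three_ne_zero])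
    have hω' : algebraMap K F omega ^ 2 + algebraMap K F omega + 1 = 0 := by
      simpa using congrArg (algebraMap K F) hω
    have h2 : (u * u' - 1) * (u * u' - algebraMap K F omega) *
        (u * u' + 1 + algebraMap K F omega) = 0 := by
      linear_combination h1 - (u * u' - 1) * hω'
    have hmem : u * u' ∈ Z := by
      rcases mul_eq_zero.mp h2 with h | h
      · rcases mul_eq_zero.mp h with h | h
        · rw [sub_eq_zero.mp h]; exact one_mem Z
        · rw [sub_eq_zero.mp h]; exact Z.algebraMap_mem _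
      · rw [show u * u' = -(1 + algebraMap K F omega) by linear_combination h]
        exact neg_mem (add_mem (one_mem Z) (Z.algebraMap_mem _))
    rw [show u = u * u' * u'⁻¹ by rw [mul_inv_cancel_right₀ hu'0]]
    exact mul_mem hmem (inv_mem hu'Z)
  have hxZ : x ∈ Z := by
    rw [show x = -(u ^ 2 * xT) by linear_combination -hxT]
    exact neg_mem (mul_mem (pow_mem huZ 2) hxTZ.1)
  have hsZ : s ∈ Z := by
    rw [show s = -(u * s') by rw [hs'def]; field_simp]
    exact neg_mem (mul_mem huZ hs'Z)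
  refine ⟨?_, huZ, hxZ, hsZ, ?_⟩
  · rw [show L.par = u * a' - 2 * s by linear_combination -hua]
    exact sub_mem (mul_mem huZ hZ) (mul_mem h2Z hsZ)
  · rw [show y = -(u ^ 3 * yT + u ^ 2 * s * xT) by linear_combination -hyT]
    exact neg_mem (add_mem (mul_mem (pow_mem huZ 3) hxTZ.2)
      (mul_mem (mul_mem (pow_mem huZ 2) hsZ) hxTZ.1))

include h9 in
/-- **The level structure with another point of order three at the origin.** -/
theorem deuring_change {omega : K} (hω : omega ^ 2 + omega + 1 = 0) {x y : F}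
    {h : L.curve.toAffine.Nonsingular x y}
    (hR : 3 • (Affine.Point.some x y h : L.curve.toAffine.Point) = 0) :
    ∃ (L' : LevelData K F deuringFam 2 r) (c : F), c ≠ 0 ∧ c = 2 * y + L.par * x + 1 ∧
      L'.par ^ 3 - 27 = (L.par ^ 3 - 27) / c ^ 4 := by
  have he := L.deuring_equation h.1
  have hy : y ≠ L.curve.toAffine.negY x y := fun e => by
    have h2 : (Affine.Point.some x y h : L.curve.toAffine.Point) + .some x y h = 0 :=
      Affine.Point.add_of_Y_eq rfl e
    rw [succ_nsmul, two_nsmul, h2, zero_add] at hR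
    exact Affine.Point.some_ne_zero h hR
  set c := 2 * y + L.par * x + 1 with hcdef
  have hc : c ≠ 0 := fun e => hy (by
    simp only [Affine.negY, L.deuring_curve]; linear_combination e)
  set s := (3 * x ^ 2 - L.par * y) / c with hsdef
  have hsc : s * c = 3 * x ^ 2 - L.par * y := by rw [hsdef, div_mul_cancel₀ _ hc]
  have hflex : s ^ 2 + L.par * s = 3 * x := by
    have h2 : (Affine.Point.some x y h : L.curve.toAffine.Point) + .some x y h = -.some x y h := by
      rw [← two_nsmul]
      refine eq_neg_of_add_eq_zero_left ?_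
      rw [← succ_nsmul]; exact hR
    rw [Affine.Point.add_self_of_Y_ne hy, Affine.Point.neg_some, Affine.Point.some.injEq] at h2
    have hsl : L.curve.toAffine.slope x x y y = s := by
      rw [Affine.slope_of_Y_ne rfl hy, hsdef, hcdef]
      simp [Affine.negY, L.deuring_curve]
      ring_nf
    have h3 := h2.1
    rw [hsl] at h3
    simp [Affine.addX, L.deuring_curve] at h3
    linear_combination h3
  -- the coefficient is a cube
  let C₀ : VariableChange F := ⟨1, x, s, y⟩
  have hC₀ : C₀ • L.curve = ⟨L.par + 2 * s, 0, c, 0, 0⟩ := by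
    rw [L.deuring_curve]
    ext <;> simp [C₀, variableChange_a₁, variableChange_a₂, variableChange_a₃, variableChange_a₄,
      variableChange_a₆, hcdef]
    · linear_combination -hflex
    · ring
    · linear_combination -hsc
    · linear_combination -he
  obtain ⟨b, hb⟩ := L.deuring_three_divisible h9 hR
  obtain ⟨u, hu, -⟩ : ∃ u : F, u ^ 3 = c ∧ True := by
    rcases hbb : L.basis b with _ | ⟨xS, yS, hS⟩
    · rw [hbb, ← Affine.Point.zero_def, nsmul_zero] at hb
      exact absurd hb.symm (Affine.Point.some_ne_zero h)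
    rw [hbb] at hb
    have hb' := congrArg (changeHom C₀ hC₀) hb
    rw [map_nsmul] at hb'
    obtain ⟨x', y', hn', e, hx', hy'⟩ := changeHom_some C₀ hC₀ hS
    obtain ⟨x0, y0, hn0, e0, hx0, hy0⟩ := changeHom_some C₀ hC₀ h
    simp only [C₀, Units.val_one, one_pow, one_mul] at hx0 hy0
    obtain rfl : x0 = 0 := by linear_combination -hx0
    obtain rfl : y0 = 0 := by linear_combination -hy0
    rw [e, e0] at hb'
    obtain ⟨u, hu, -⟩ := exists_cube_of_three_nsmul hc hb'
    exact ⟨u, hu, trivial⟩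
  have hu0 : u ≠ 0 := fun e => hc (by rw [← hu, e, zero_pow three_ne_zero])
  set a' := (L.par + 2 * s) / u with ha'
  let C : VariableChange F := ⟨Units.mk0 u hu0, x, s, y⟩
  have hC : C • L.curve = deuringFam.map (eval₂RingHom (Int.castRingHom F) a') := by
    rw [L.deuring_curve]
    ext <;> simp [C, deuringFam, ha', variableChange_a₁, variableChange_a₂, variableChange_a₃,
      variableChange_a₄, variableChange_a₆] <;> field_simp
    · right; linear_combination -hflex
    · rw [hu, hcdef]; ring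
    · right; linear_combination -hsc + s * hcdef
    · right; linear_combination -he
  have hΔ : a' ^ 3 - 27 = (L.par ^ 3 - 27) / c ^ 4 := by
    have h1 := variableChange_Δ L.curve C
    rw [hC] at h1
    simp [deuringFam, WeierstrassCurve.Δ, WeierstrassCurve.b₂,
      WeierstrassCurve.b₄, WeierstrassCurve.b₆, WeierstrassCurve.b₈, C] at h1
    rw [← hu]
    field_simp
    field_simp at h1
    linear_combination h1
  have ht : Transcendental K a' := by
    intro halg
    refine L.transcendental (isAlgebraic_of_j_relation halg ?_ (sub_ne_zero.mpr ?_))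
    · have h4 := variableChange_c₄ L.curve C
      rw [hC] at h4
      simp [deuringFam, WeierstrassCurve.c₄, WeierstrassCurve.b₂,
        WeierstrassCurve.b₄, C] at h4
      rw [hΔ]
      refine j_relation_of_scaled (u := u) hu0 hu.symm ?_
      field_simp at h4
      linear_combination h4
    · intro e
      rw [e, sub_self, eq_comm, div_eq_zero_iff, sub_eq_zero] at hΔ
      rcases hΔ with hΔ | hΔ
      · exact L.transcendental (IsAlgebraic.of_pow three_pos
          (hΔ ▸ map_ofNat (algebraMap K F) 27 ▸ isAlgebraic_algebraMap _))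
      · exact pow_ne_zero 4 hc hΔ
  refine ⟨L.transform C ht hC ?_, c, hc, hcdef, hΔ⟩
  exact L.deuring_change_mem h9 hω hu0 hu hcdef hsc hflex (by rw [ha']; field_simp) hC

end LevelData

end Fermat.Agent.Carayol
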