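import Fermat.Agent.Carayol.Cusp.Main
import Fermat.Agent.Carayol.Transform
import Fermat.Agent.Carayol.DeuringBasic
import Fermat.Agent.Carayol.Charts
import Mathlib.RingTheory.Henselian

/-!
# Nodal parameters of the Deuring family

All nodal parameters of `y² + a x y + y = x³` at `q = 2`: a cube root of unity carries each of
them to the parameter `3`.

Main result: `deuring_cusp`.
-/

set_option autoImplicit false

open Polynomial IsLocalRing

namespace Fermat.Agent.Carayol

variable {K F : Type*} [Field K] [CharZero K] [Field F] [DecidableEq F] [Algebra K F]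
  {W : ValuationSubring K} [IsAlgClosed (IsLocalRing.ResidueField W)]

omit [CharZero K] [Field F] [DecidableEq F] [Algebra K F]
  [IsAlgClosed (IsLocalRing.ResidueField W)] in
theorem residue_two (hb : BaseData W 2) : (2 : ResidueField W) = 0 := by
  have h : residue W ((2 : ℕ) : W) = 0 := by
    rw [residue_eq_zero_iff, hb.uniformizer]; exact Ideal.subset_span rfl
  rwa [map_natCast, Nat.cast_ofNat] at h

omit [CharZero K] [Field F] [DecidableEq F] [Algebra K F]
  [IsAlgClosed (IsLocalRing.ResidueField W)] in
/-- Cube roots of unity in the residue field lift. -/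
theorem exists_cube_root [HenselianLocalRing W] (hb : BaseData W 2) {c : ResidueField W}
    (hc : c ^ 3 = 1) : ∃ z : W, z ^ 3 = 1 ∧ residue W z = c := by
  have h2 : (2 : ResidueField W) = 0 := by
    exact residue_two hb
  obtain ⟨a, rfl⟩ := residue_surjective c
  have ha : residue W a ≠ 0 := fun h => by
    rw [h, zero_pow three_ne_zero] at hc; exact zero_ne_one hc
  obtain ⟨z, hz, hza⟩ := HenselianLocalRing.is_henselian (Polynomial.X ^ 3 - Polynomial.C (1 : W))
    (monic_X_pow_sub_C _ three_ne_zero) a
    (by rw [← residue_eq_zero_iff, eval_sub, eval_pow, eval_X, eval_C, map_sub, map_pow, hc,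
      map_one, sub_self])
    (by
      rw [derivative_sub, derivative_X_pow, derivative_C, sub_zero]
      simp only [Nat.cast_ofNat, Nat.add_one_sub_one, eval_mul, eval_pow, eval_C, eval_X]
      refine IsLocalRing.notMem_maximalIdeal.mp fun h => ?_
      rw [← residue_eq_zero_iff, map_mul, map_pow, map_ofNat,
        show (3 : ResidueField W) = 1 by linear_combination h2, one_mul,
        pow_eq_zero_iff two_ne_zero] at h
      exact ha h)
  refine ⟨z, by rwa [IsRoot, eval_sub, eval_pow, eval_X, eval_C, sub_eq_zero] at hz, ?_⟩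
  rw [← sub_eq_zero, ← map_sub, residue_eq_zero_iff]
  exact hza

omit [CharZero K] [Field F] [DecidableEq F] [Algebra K F] in
/-- A primitive cube root of unity. -/
theorem exists_omega [HenselianLocalRing W] (hb : BaseData W 2) :
    ∃ omega : K, omega ^ 2 + omega + 1 = 0 := by
  obtain ⟨c, hc⟩ := IsAlgClosed.exists_root
    (Polynomial.X ^ 2 + Polynomial.X + 1 : (ResidueField W)[X]) (fun h => by
      have : (Polynomial.X ^ 2 + Polynomial.X + 1 : (ResidueField W)[X]).degree = 2 := by
        compute_degree!
      rw [this] at h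
      exact two_ne_zero (α := ℕ) (by exact_mod_cast h))
  rw [IsRoot, eval_add, eval_add, eval_pow, eval_X, eval_one] at hc
  have hc3 : c ^ 3 = 1 := by linear_combination (c - 1) * hc
  obtain ⟨z, hz, rfl⟩ := exists_cube_root hb hc3
  refine ⟨(z : K), ?_⟩
  have hz' : (z : K) ^ 3 = 1 := by simpa using congrArg Subtype.val hz
  have hne : (z : K) - 1 ≠ 0 := by
    intro h
    have h1 : z = 1 := Subtype.ext (sub_eq_zero.mp h)
    rw [h1, map_one] at hc
    have h2 : (2 : ResidueField W) = 0 := by
      exact residue_two hb
    exact one_ne_zero (α := ResidueField W) (by linear_combination hc - h2)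
  exact mul_left_cancel₀ hne (by linear_combination hz')

variable {r : ℕ} [NeZero (2 * r)] (L : LevelData K F deuringFam 2 r)

namespace LevelData

omit [IsAlgClosed (IsLocalRing.ResidueField W)] in
omit [CharZero K] [NeZero (2 * r)] in
/-- Rotation of the parameter by a cube root of unity. -/
theorem exists_rotate (z : W) (hz : z ^ 3 = 1) :
    ∃ L' : LevelData K F deuringFam 2 r, L'.par = L.par * algebraMap K F (z : K) ∧
      IsAffineChange W L.par L'.par := by
  set g := algebraMap K F (z : K)
  have hg : g ^ 3 = 1 := by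
    rw [← map_pow, ← SubmonoidClass.coe_pow, hz]; simp
  have hg0 : g ≠ 0 := fun h => by simp [h] at hg
  let C : WeierstrassCurve.VariableChange F := ⟨Units.mk0 (g ^ 2) (pow_ne_zero 2 hg0), 0, 0, 0⟩
  have hC : C • L.curve = deuringFam.map (eval₂RingHom (Int.castRingHom F) (L.par * g)) := by
    rw [L.deuring_curve]
    ext <;> simp [C, deuringFam, WeierstrassCurve.variableChange_a₁,
      WeierstrassCurve.variableChange_a₂, WeierstrassCurve.variableChange_a₃,
      WeierstrassCurve.variableChange_a₄, WeierstrassCurve.variableChange_a₆] <;> field_simp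
    · linear_combination -L.par * hg
    · linear_combination (g ^ 3 + 1) * hg
  have halg : IsAlgebraic K g := isAlgebraic_algebraMap _
  have ht : Transcendental K (L.par * g) := fun h => L.transcendental (by
    have := h.mul halg.inv
    rwa [mul_inv_cancel_right₀ hg0] at this)
  refine ⟨L.transform C ht hC fun Z hZ _ => ?_, rfl, ?_⟩
  · have hgZ : g ∈ Z := Z.algebraMap_mem _
    refine ⟨?_, pow_mem hgZ 2, zero_mem Z, zero_mem Z, zero_mem Z⟩
    rw [← mul_inv_cancel_right₀ hg0 L.par]
    exact mul_mem hZ (inv_mem hgZ)
  · refine ⟨(IsUnit.of_pow_eq_one hz three_ne_zero).unit, 0, ?_⟩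
    simp [LevelData.transform, mul_comm]
    exact Or.inl rfl

variable [HenselianLocalRing W] (hb : BaseData W 2) (hu : UniqueExt W)
  (hqr : r.Coprime 2) (h9 : 9 ∣ r)

include hb hu hqr h9 in
/-- **Every nodal parameter is good, with a single component.** -/
theorem deuring_cusp {M : ValuationSubring F} (hM : IsPoint W 2 L.par M)
    (h1 : L.par ^ 3 - 1 ∈ M.nonunits) :
    GoodPoint W 2 L.par M ∧ ∀ V V', IsVert W 2 L.par V → Through W L.par M V →
      IsVert W 2 L.par V' → Through W L.par M V' → V = V' := by
  obtain ⟨w, hw⟩ := hM.exists_par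
  have hW : ∀ d : W, algebraMap K F (d : K) ∈ M := fun d => by
    simpa [evW_C] using hM.evW_mem (C d)
  have hpar : L.par ∈ M := by simpa [evW_X] using hM.evW_mem X
  have hres : residue W w ^ 3 = 1 := by
    by_contra h
    have hu : IsUnit (w ^ 3 - 1) := IsLocalRing.notMem_maximalIdeal.mp fun hm => h (by
      rw [← residue_eq_zero_iff, map_sub, map_pow, map_one, sub_eq_zero] at hm; exact hm)
    obtain ⟨v, hv⟩ := hu.exists_right_inv
    refine one_notMem_nonunits M ?_
    have e : (algebraMap K F (w : K) ^ 3 - 1) * algebraMap K F (v : K) = 1 := by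
      have := congrArg (fun z : W => algebraMap K F (z : K)) hv
      simpa using this
    rw [← e]
    refine nonunits_mul_right (hW v) ?_
    rw [show algebraMap K F (w : K) ^ 3 - 1 = (L.par ^ 3 - 1) -
      (L.par ^ 2 + L.par * algebraMap K F (w : K) + algebraMap K F (w : K) ^ 2) *
        (L.par - algebraMap K F (w : K)) by ring]
    exact sub_mem h1 (nonunits_mul_left (add_mem (add_mem (pow_mem hpar 2)
      (mul_mem hpar (hW w))) (pow_mem (hW w) 2)) hw)
  obtain ⟨z, hz, hzw⟩ := exists_cube_root (W := W) hb
    (show (residue W w ^ 2) ^ 3 = 1 by rw [← pow_mul, mul_comm, pow_mul, hres, one_pow])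
  obtain ⟨L', hL', haff⟩ := L.exists_rotate z hz
  have hM' := haff.isPoint hM
  have hwz : w * z - 3 ∈ maximalIdeal W := by
    rw [← residue_eq_zero_iff, map_sub, map_mul, hzw, map_ofNat]
    have h2 : (2 : ResidueField W) = 0 := by
      exact residue_two hb
    linear_combination hres - h2
  obtain ⟨d, hd⟩ := Ideal.mem_span_singleton'.mp (hb.uniformizer ▸ hwz)
  have hdF : algebraMap K F (d : K) * 2 = algebraMap K F (w : K) * algebraMap K F (z : K) - 3 := by
    have := congrArg (fun z : W => algebraMap K F (z : K)) hd
    simpa [map_ofNat, show ((2 : W) : K) = 2 from rfl, show ((3 : W) : K) = 3 from rfl] using this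
  have h3 : L'.par - 3 ∈ M.nonunits := by
    rw [hL', show L.par * algebraMap K F (z : K) - 3 =
      (L.par - algebraMap K F (w : K)) * algebraMap K F (z : K) + algebraMap K F (d : K) * 2 by
        linear_combination -hdF]
    exact add_mem (nonunits_mul_right (hW z) hw)
      (nonunits_mul_left (hW d) (by exact_mod_cast hM.q_mem))
  obtain ⟨hg, huq⟩ := cusp_deuring W hb hu hqr h9 L' hM' h3
  exact ⟨haff.symm.goodPoint hg, fun V V' hV hT hV' hT' => huq V V' (haff.isVert hV)
    (haff.through_iff.mpr hT) (haff.isVert hV') (haff.through_iff.mpr hT')⟩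

end LevelData

end Fermat.Agent.Carayol
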