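import Fermat.Agent.Carayol.DeuringCusp
import Fermat.Agent.Carayol.DeuringCube

/-!
# The Deuring family at infinity

The parameter at infinity of `y² + a x y + y = x³` at `q = 2`: a point of order three other than
`± (0, 0)` moves it to a nodal parameter, with the same local ring and the same components.

Main result: `deuring_infty`.
-/

set_option autoImplicit false

open Polynomial IsLocalRing WeierstrassCurve

namespace Fermat.Agent.Carayol

section Generic

variable {K F : Type*} [Field K] [Field F] [Algebra K F]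
  {W : ValuationSubring K} {q : ℕ} {t s : F} {M : ValuationSubring F}

theorem evW_mem_of_mem {S : Subring F} (hW : ∀ w : W, algebraMap K F (w : K) ∈ S) (hs : s ∈ S)
    (p : W[X]) : evW W s p ∈ S := by
  induction p using Polynomial.induction_on with
  | C c => rw [evW_C]; exact hW c
  | add p r hp hr => rw [map_add]; exact add_mem hp hr
  | monomial n c h => rw [pow_succ, ← mul_assoc, map_mul, evW_X]; exact mul_mem h hs

theorem chart_le_locRing_of_mem (hM : ∀ p : W[X], evW W t p ∈ M) (hs : s ∈ locRing W t M) :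
    chart W s ≤ locRing W t M := fun _ hx =>
  mem_of_root_evW hx (evW_mem_of_mem (fun w => chart_le_locRing (algebraMap_mem_chart w)) hs)
    fun _ hy => (Subring.isIntegrallyClosedIn_iff.mp (isIntegrallyClosedIn_locRing hM)) hy

/-- Two parameters in each other's local ring give the same local ring. -/
theorem locRing_eq_of_mem (hMt : ∀ p : W[X], evW W t p ∈ M) (hMs : ∀ p : W[X], evW W s p ∈ M)
    (hs : s ∈ locRing W t M) (ht : t ∈ locRing W s M) : locRing W s M = locRing W t M :=
  le_antisymm ((locAt_mono (chart_le_locRing_of_mem hMt hs)).trans locAt_locAt)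
    ((locAt_mono (chart_le_locRing_of_mem hMs ht)).trans locAt_locAt)

/-- Roots of monic cubics over the local ring belong to it. -/
theorem mem_locRing_of_cubic (hM : ∀ p : W[X], evW W t p ∈ M) {z a b c : F}
    (ha : a ∈ locRing W t M) (hb : b ∈ locRing W t M) (hc : c ∈ locRing W t M)
    (e : z ^ 3 + a * z ^ 2 + b * z + c = 0) : z ∈ locRing W t M := by
  refine (Subring.isIntegrallyClosedIn_iff.mp (isIntegrallyClosedIn_locRing hM))
    ⟨X ^ 3 + (C (⟨a, ha⟩ : locRing W t M) * X ^ 2 + C ⟨b, hb⟩ * X + C ⟨c, hc⟩),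
      monic_X_pow_add (degree_quadratic_le.trans_lt (by norm_num)), ?_⟩
  simp only [eval₂_add, eval₂_mul, eval₂_X_pow, eval₂_C, eval₂_X]
  show z ^ 3 + (a * z ^ 2 + b * z + c) = 0
  linear_combination e

/-- A polynomial with vanishing reduction takes non-unit values. -/
theorem evW_mem_nonunits_of_map (hb : BaseData W q) {V : ValuationSubring F}
    (hW : ∀ w : W, algebraMap K F (w : K) ∈ V) (hq : (q : F) ∈ V.nonunits) {z : F} (hz : z ∈ V)
    {p : W[X]} (hp : p.map (residue W) = 0) : evW W z p ∈ V.nonunits := by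
  obtain ⟨d, rfl⟩ : C (q : W) ∣ p := C_dvd_iff_dvd_coeff _ _ |>.mpr fun i => by
    have h := congrArg (fun u => u.coeff i) hp
    rw [coeff_map, coeff_zero, residue_eq_zero_iff, hb.uniformizer,
      Ideal.mem_span_singleton] at h
    exact h
  rw [map_mul, evW_C, SubringClass.coe_natCast, map_natCast]
  exact nonunits_mul_right (evW_mem_of_mem (S := V.toSubring) hW hz d) hq

/-- An element of a valuation ring killed by a polynomial with nonzero reduction is a constant. -/
theorem exists_const_of_root [IsAlgClosed (ResidueField W)] (hb : BaseData W q)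
    {V : ValuationSubring F} (hW : ∀ w : W, algebraMap K F (w : K) ∈ V)
    (hq : (q : F) ∈ V.nonunits) {z : F} (hz : z ∈ V) :
    ∀ {p : W[X]}, p.map (residue W) ≠ 0 → evW W z p ∈ V.nonunits →
      ∃ w : W, z - algebraMap K F (w : K) ∈ V.nonunits := by
  intro p
  induction h : (p.map (residue W)).natDegree using Nat.strong_induction_on generalizing p with
  | _ n ih =>
    intro hp he
    rcases Nat.eq_zero_or_pos n with rfl | hn
    · exfalso
      obtain ⟨c, hc⟩ := natDegree_eq_zero.mp h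
      obtain ⟨u, rfl⟩ := residue_surjective c
      have hu : IsUnit u := IsLocalRing.notMem_maximalIdeal.mp fun hm => hp (by
        rw [← hc, (residue_eq_zero_iff u).mpr hm, map_zero])
      have h1 : evW W z (p - C u) ∈ V.nonunits :=
        evW_mem_nonunits_of_map hb hW hq hz (by rw [Polynomial.map_sub, map_C, hc, sub_self])
      have h2 : algebraMap K F (u : K) ∈ V.nonunits := by
        have := sub_mem he h1
        rwa [← map_sub, sub_sub_cancel, evW_C] at this
      obtain ⟨v, hv⟩ := hu.exists_right_inv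
      refine one_notMem_nonunits V ?_
      have e : algebraMap K F (u : K) * algebraMap K F (v : K) = 1 := by
        have := congrArg (fun x : W => algebraMap K F (x : K)) hv
        simpa using this
      exact e ▸ nonunits_mul_right (hW v) h2
    · obtain ⟨c, hc⟩ := IsAlgClosed.exists_root (p.map (residue W)) (by
        rw [degree_eq_natDegree hp, h]; exact_mod_cast hn.ne')
      obtain ⟨g, hg⟩ := dvd_iff_isRoot.mpr hc
      obtain ⟨w, rfl⟩ := residue_surjective c
      obtain ⟨p₁, rfl⟩ := map_surjective _ residue_surjective g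
      have hg0 : p₁.map (residue W) ≠ 0 := right_ne_zero_of_mul (hg ▸ hp)
      have h1 : evW W z (p - (X - C w) * p₁) ∈ V.nonunits :=
        evW_mem_nonunits_of_map hb hW hq hz (by
          rw [Polynomial.map_sub, Polynomial.map_mul, Polynomial.map_sub, map_X, map_C, ← hg,
            sub_self])
      have h2 : (z - algebraMap K F (w : K)) * evW W z p₁ ∈ V.nonunits := by
        have := sub_mem he h1
        rwa [← map_sub, sub_sub_cancel, map_mul, map_sub, evW_X, evW_C] at this
      by_cases hw : z - algebraMap K F (w : K) ∈ V.nonunits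
      · exact ⟨w, hw⟩
      have h3 : evW W z p₁ ∈ V.nonunits := by
        by_contra h3
        exact mul_notMem_nonunits hw h3 h2
      refine ih _ ?_ rfl hg0 h3
      rw [← h, hg, natDegree_mul (X_sub_C_ne_zero _) hg0, natDegree_X_sub_C]
      omega

/-- Transport of goodness between parameters with the same local ring. -/
theorem goodPoint_of_locRing_eq (hMt : ∀ p : W[X], evW W t p ∈ M)
    (heq : locRing W s M = locRing W t M)
    (hvert : ∀ V, IsVert W q t V → Through W t M V → IsVert W q s V)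
    (h : GoodPoint W q s M ∧ ∀ V V', IsVert W q s V → Through W s M V → IsVert W q s V' →
      Through W s M V' → V = V') :
    GoodPoint W q t M ∧ ∀ V V', IsVert W q t V → Through W t M V → IsVert W q t V' →
      Through W t M V' → V = V' := by
  have hth : ∀ V, IsVert W q t V → Through W t M V → Through W s M V := by
    intro V hV hT x hx hxV
    exact hT.nonunits hMt (heq ▸ chart_le_locRing hx) hxV hV.evW_mem
  refine ⟨⟨fun V hV hT => ?_, fun V V' hV hT hV' hT' hne => ?_⟩, fun V V' hV hT hV' hT' =>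
    h.2 V V' (hvert V hV hT) (hth V hV hT) (hvert V' hV' hT') (hth V' hV' hT')⟩
  · obtain ⟨z, w, hz, hg⟩ := h.1.exists_gen V (hvert V hV hT) (hth V hV hT)
    exact ⟨z, w, hz, by unfold Gen2 at hg ⊢; rwa [heq] at hg⟩
  · exact absurd (h.2 V V' (hvert V hV hT) (hth V hV hT) (hvert V' hV' hT') (hth V' hV' hT')) hne

end Generic

variable {K F : Type*} [Field K] [CharZero K] [Field F] [DecidableEq F] [Algebra K F]
  {r : ℕ} [NeZero (2 * r)] (L : LevelData K F deuringFam 2 r)

namespace LevelData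

omit [CharZero K] [NeZero (2 * r)] in
/-- The relation at a point of order three away from `± (0, 0)`. -/
theorem deuring_three_rel {x y : F} {h : L.curve.toAffine.Nonsingular x y}
    (hR : 3 • (Affine.Point.some x y h : L.curve.toAffine.Point) = 0) (hx : x ≠ 0) :
    3 * x ^ 3 + L.par ^ 2 * x ^ 2 + 3 * L.par * x + 3 = 0 := by
  have he := L.deuring_equation h.1
  have hy : y ≠ L.curve.toAffine.negY x y := fun e => by
    have h2 : (Affine.Point.some x y h : L.curve.toAffine.Point) + .some x y h = 0 :=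
      Affine.Point.add_of_Y_eq rfl e
    rw [succ_nsmul, two_nsmul, h2, zero_add] at hR
    exact Affine.Point.some_ne_zero h hR
  have hc : 2 * y + L.par * x + 1 ≠ 0 := fun e => hy (by
    simp only [Affine.negY, L.deuring_curve]; linear_combination e)
  set c := 2 * y + L.par * x + 1 with hcdef
  set s := (3 * x ^ 2 - L.par * y) / c with hsdef
  have hsc : s * c = 3 * x ^ 2 - L.par * y := by rw [hsdef, div_mul_cancel₀ _ hc]
  have h2 : (Affine.Point.some x y h : L.curve.toAffine.Point) + .some x y h = -.some x y h := by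
    rw [← two_nsmul]
    refine eq_neg_of_add_eq_zero_left ?_
    rw [← succ_nsmul]; exact hR
  rw [Affine.Point.add_self_of_Y_ne hy, Affine.Point.neg_some, Affine.Point.some.injEq] at h2
  have hsl : L.curve.toAffine.slope x x y y = s := by
    rw [Affine.slope_of_Y_ne rfl hy, hsdef, hcdef]
    simp [Affine.negY, L.deuring_curve]
    ring_nf
  have h3 := h2.1
  rw [hsl] at h3
  simp [Affine.addX, L.deuring_curve] at h3
  refine (mul_eq_zero.mp (?_ : x * (3 * x ^ 3 + L.par ^ 2 * x ^ 2 + 3 * L.par * x + 3) = 0)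
    ).resolve_left hx
  linear_combination (-c ^ 2) * h3 + (s * c + 3 * x ^ 2 - L.par * y + L.par * c) * hsc
    - (L.par ^ 2 + 12 * x) * he

omit [CharZero K] [NeZero (2 * r)] in
/-- The two translates by `± (0, 0)` of a point of order three. -/
theorem deuring_three_translates {x y : F} {h : L.curve.toAffine.Nonsingular x y}
    (hR : 3 • (Affine.Point.some x y h : L.curve.toAffine.Point) = 0) (hx : x ≠ 0)
    (h3T : 3 • (Affine.Point.some 0 0 L.deuring_origin_nonsingular : L.curve.toAffine.Point) = 0) :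
    (∃ y₁, ∃ h₁ : L.curve.toAffine.Nonsingular (-y / x ^ 2) y₁,
      3 • (Affine.Point.some _ _ h₁ : L.curve.toAffine.Point) = 0) ∧
    (∃ y₁, ∃ h₁ : L.curve.toAffine.Nonsingular ((y + 1 + L.par * x) / x ^ 2) y₁,
      3 • (Affine.Point.some _ _ h₁ : L.curve.toAffine.Point) = 0) := by
  have he := L.deuring_equation h.1
  set T : L.curve.toAffine.Point := .some 0 0 L.deuring_origin_nonsingular with hTdef
  have hsum : ∀ {y₀ : F} (h₀ : L.curve.toAffine.Nonsingular 0 y₀) (X₁ : F),
      3 • (Affine.Point.some 0 y₀ h₀ : L.curve.toAffine.Point) = 0 →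
      L.curve.toAffine.addX x 0 (L.curve.toAffine.slope x 0 y y₀) = X₁ →
      ∃ y₁, ∃ h₁ : L.curve.toAffine.Nonsingular X₁ y₁,
        3 • (Affine.Point.some _ _ h₁ : L.curve.toAffine.Point) = 0 := by
    rintro y₀ h₀ X₁ h30 rfl
    have hxy : ¬(x = 0 ∧ y = L.curve.toAffine.negY 0 y₀) := fun e => hx e.1
    refine ⟨_, Affine.nonsingular_add h h₀ hxy, ?_⟩
    rw [← Affine.Point.add_some (h₁ := h) (h₂ := h₀) hxy, nsmul_add, hR, h30, add_zero]
  constructor
  · refine hsum L.deuring_origin_nonsingular _ h3T ?_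
    rw [Affine.slope_of_X_ne hx]
    simp [Affine.addX, L.deuring_curve]
    field_simp
    linear_combination he
  · have hneg : -T = .some 0 (L.curve.toAffine.negY 0 0)
        ((Affine.nonsingular_neg ..).mpr L.deuring_origin_nonsingular) := by
      rw [hTdef, Affine.Point.neg_some]
    refine hsum _ _ (by rw [← hneg, smul_neg, h3T, neg_zero]) ?_
    rw [Affine.slope_of_X_ne hx]
    simp [Affine.addX, Affine.negY, L.deuring_curve]
    field_simp
    linear_combination he

variable {W : ValuationSubring K} [IsAlgClosed (ResidueField W)] [HenselianLocalRing W]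
  (hb : BaseData W 2) (hu : UniqueExt W) (hqr : r.Coprime 2) (h9 : 9 ∣ r)

include h9 in
omit [IsAlgClosed (ResidueField W)] [HenselianLocalRing W] in
omit [CharZero K] in
/-- A point of order three at which `1 / (a x)` is small. -/
theorem exists_three_near {M : ValuationSubring F} (hbM : L.par⁻¹ ∈ M.nonunits) :
    ∃ x y, ∃ h : L.curve.toAffine.Nonsingular x y,
      3 • (Affine.Point.some x y h : L.curve.toAffine.Point) = 0 ∧ x ≠ 0 ∧
      (x * L.par)⁻¹ ∈ M.nonunits := by
  classical
  have ha : L.par ≠ 0 := fun e => L.transcendental (e ▸ isAlgebraic_zero)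
  set T : L.curve.toAffine.Point := .some 0 0 L.deuring_origin_nonsingular with hTdef
  have h3T : 3 • T = 0 := by
    have hns' : (⟨L.par, 0, 1, 0, 0⟩ : WeierstrassCurve F).toAffine.Nonsingular 0 0 := by
      rw [← L.deuring_curve]; exact L.deuring_origin_nonsingular
    refine (pointCast L.deuring_curve).injective ?_
    rw [map_nsmul, _root_.map_zero, hTdef, pointCast_some]
    exact (flexCurve_three_origin one_ne_zero hns').1
  obtain ⟨x, y, h, hR, hx⟩ : ∃ x y, ∃ h : L.curve.toAffine.Nonsingular x y,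
      3 • (Affine.Point.some x y h : L.curve.toAffine.Point) = 0 ∧ x ≠ 0 := by
    obtain ⟨k, hk⟩ : 3 ∣ 2 * r := (dvd_trans ⟨3, rfl⟩ h9).mul_left 2
    have hk0 : k ≠ 0 := fun e => NeZero.ne (2 * r) (by rw [hk, e, mul_zero])
    have hkz : (k : ZMod (2 * r)) ≠ 0 := fun e => by
      rw [ZMod.natCast_eq_zero_iff, hk] at e
      have := Nat.le_of_dvd (Nat.pos_of_ne_zero hk0) e
      omega
    have h3k : (3 : ℕ) • (k : ZMod (2 * r)) = 0 := by
      rw [nsmul_eq_mul, ← Nat.cast_mul, ← hk, ZMod.natCast_self]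
    have hcase : ∀ v : ZMod (2 * r) × ZMod (2 * r), 3 • v = 0 → v ≠ 0 →
        (∃ x y, ∃ h : L.curve.toAffine.Nonsingular x y,
          3 • (Affine.Point.some x y h : L.curve.toAffine.Point) = 0 ∧ x ≠ 0) ∨
        L.basis v = T ∨ L.basis v = -T := by
      intro v hv hv0
      have h3 : 3 • L.basis v = 0 := by rw [← map_nsmul, hv, _root_.map_zero]
      rcases hbv : L.basis v with _ | ⟨x, y, h⟩
      · exact absurd (L.injective_basis (hbv.trans (_root_.map_zero L.basis).symm)) hv0
      rw [hbv] at h3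
      by_cases hx : x = 0
      · subst hx
        have he := L.deuring_equation h.1
        right
        rcases mul_eq_zero.mp (show y * (y + 1) = 0 by linear_combination he) with e | e
        · left; subst e; rfl
        · right
          simp only [hTdef, Affine.Point.neg_some, Affine.Point.some.injEq]
          exact ⟨trivial, by simp [Affine.negY, L.deuring_curve]; linear_combination e⟩
      · exact Or.inl ⟨x, y, h, h3, hx⟩
    rcases hcase ((k : ZMod (2 * r)), 0) (Prod.ext (by simpa using h3k) (by simp))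
      (fun e => hkz (congrArg Prod.fst e)) with h1 | h1
    · exact h1
    rcases hcase (0, (k : ZMod (2 * r))) (Prod.ext (by simp) (by simpa using h3k))
      (fun e => hkz (congrArg Prod.snd e)) with h2 | h2
    · exact h2
    exfalso
    have hd : L.basis ((k : ZMod (2 * r)), (0 : ZMod (2 * r))) =
          L.basis (0, (k : ZMod (2 * r))) ∨
        L.basis ((k : ZMod (2 * r)), (0 : ZMod (2 * r))) = -L.basis (0, (k : ZMod (2 * r))) := by
      rcases h1 with h1 | h1 <;> rcases h2 with h2 | h2 <;> rw [h1, h2] <;> simp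
    rcases hd with hd | hd
    · exact hkz (congrArg Prod.fst (L.injective_basis hd))
    · rw [← _root_.map_neg] at hd
      exact hkz (by simpa using congrArg Prod.fst (L.injective_basis hd))
  have he := L.deuring_equation h.1
  obtain ⟨⟨y₁, h₁, hR₁⟩, ⟨y₂, h₂, hR₂⟩⟩ := L.deuring_three_translates hR hx h3T
  by_contra hnone
  push Not at hnone
  have hy : y ≠ 0 := fun e => hx ((pow_eq_zero_iff three_ne_zero).mp (by rw [← he, e]; ring))
  have hy1 : y + 1 + L.par * x ≠ 0 := fun e => hx ((pow_eq_zero_iff three_ne_zero).mp (by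
    linear_combination y * e - he))
  refine mul_notMem_nonunits (mul_notMem_nonunits (hnone x y h hR hx)
    (hnone _ _ h₁ hR₁ (div_ne_zero (neg_ne_zero.mpr hy) (pow_ne_zero 2 hx))))
    (hnone _ _ h₂ hR₂ (div_ne_zero hy1 (pow_ne_zero 2 hx))) ?_
  have e : x * (-y / x ^ 2) * ((y + 1 + L.par * x) / x ^ 2) = -1 := by
    field_simp
    linear_combination -he
  rw [show (x * L.par)⁻¹ * (-y / x ^ 2 * L.par)⁻¹ * ((y + 1 + L.par * x) / x ^ 2 * L.par)⁻¹ =
    -((L.par⁻¹) ^ 2 * L.par⁻¹) by
    calc _ = (x * (-y / x ^ 2) * ((y + 1 + L.par * x) / x ^ 2))⁻¹ * L.par⁻¹ ^ 3 := by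
            simp only [mul_inv]; ring
      _ = _ := by rw [e, inv_neg, inv_one]; ring]
  exact neg_mem (nonunits_mul_left (pow_mem (ValuationSubring.nonunits_subset hbM) 2) hbM)

include hb hu hqr h9 in
/-- **The parameter at infinity is good, with a single component.** -/
theorem deuring_infty {M : ValuationSubring F} (hM : IsPoint W 2 (L.par - 3)⁻¹ M)
    (h0 : (L.par - 3)⁻¹ ∈ M.nonunits) :
    GoodPoint W 2 (L.par - 3)⁻¹ M ∧
      ∀ V V', IsVert W 2 (L.par - 3)⁻¹ V → Through W (L.par - 3)⁻¹ M V →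
        IsVert W 2 (L.par - 3)⁻¹ V' → Through W (L.par - 3)⁻¹ M V' → V = V' := by
  classical
  have : CharZero F := charZero_of_injective_algebraMap (algebraMap K F).injective
  obtain ⟨omega, hω⟩ := exists_omega (K := K) hb
  obtain ⟨τ, hτ⟩ : ∃ τ, τ = (L.par - 3)⁻¹ := ⟨_, rfl⟩
  rw [← hτ] at hM h0 ⊢
  have ha : L.par ≠ 0 := fun e => L.transcendental (e ▸ isAlgebraic_zero)
  have ha3 : L.par - 3 ≠ 0 := fun e => L.transcendental (by
    rw [sub_eq_zero.mp e]
    exact map_ofNat (algebraMap K F) 3 ▸ isAlgebraic_algebraMap _)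
  have h1n : ∀ {z : F}, z ∈ M.nonunits → 1 + z ∉ M.nonunits := fun {z} hz h => by
    exact one_notMem_nonunits M (by simpa using sub_mem h hz)
  have hWR : ∀ w : W, algebraMap K F (w : K) ∈ locRing W τ M := fun w =>
    chart_le_locRing (algebraMap_mem_chart w)
  have hτR : τ ∈ locRing W τ M := chart_le_locRing par_mem_chart
  set R := locRing W τ M
  have hRM : R ≤ M.toSubring := locRing_le hM.evW_mem
  have hinv : ∀ {z : F}, z ∈ R → z ∉ M.nonunits → z⁻¹ ∈ R := fun h h' =>
    inv_mem_locRing hM.evW_mem h h'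
  have h2M : (2 : F) ∈ M.nonunits := by exact_mod_cast hM.q_mem
  have h3n : (3 : F) ∉ M.nonunits := by
    rw [show (3 : F) = 1 + 2 by norm_num]; exact h1n h2M
  have h3R : (3 : F)⁻¹ ∈ R := hinv (ofNat_mem _ 3) h3n
  -- the reciprocal of the parameter
  obtain ⟨b, hbdef⟩ : ∃ b, b = L.par⁻¹ := ⟨_, rfl⟩
  have hab : L.par * b = 1 := by rw [hbdef, mul_inv_cancel₀ ha]
  have hτa : (L.par - 3) * τ = 1 := by rw [hτ, mul_inv_cancel₀ ha3]
  have h3τ : 3 * τ ∈ M.nonunits := nonunits_mul_left (hRM (ofNat_mem _ 3)) h0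
  have hden : (1 + 3 * τ)⁻¹ ∈ R :=
    hinv (add_mem (one_mem _) (mul_mem (ofNat_mem _ 3) hτR)) (h1n h3τ)
  have hbτ : b = τ * (1 + 3 * τ)⁻¹ := by
    rw [eq_mul_inv_iff_mul_eq₀ (ne_zero_of_notMem_nonunits (h1n h3τ))]
    linear_combination -b * hτa + τ * hab
  have hbR : b ∈ R := hbτ ▸ mul_mem hτR hden
  have hbM : b ∈ M.nonunits := hbτ ▸ nonunits_mul_right (hRM hden) h0
  obtain ⟨x, y, h, hR, hx, hn⟩ := L.exists_three_near h9 (hbdef ▸ hbM)
  obtain ⟨n, hndef⟩ : ∃ n, n = (x * L.par)⁻¹ := ⟨_, rfl⟩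
  rw [← hndef] at hn
  have hrel := L.deuring_three_rel hR hx
  have hn0 : n ≠ 0 := hndef ▸ inv_ne_zero (mul_ne_zero hx ha)
  have hxn : n * (x * L.par) = 1 := by rw [hndef, inv_mul_cancel₀ (mul_ne_zero hx ha)]
  have hne : n * (1 + 3 * n + 3 * n ^ 2) * L.par ^ 3 + 3 = 0 := by
    linear_combination n ^ 3 * L.par ^ 3 * hrel - (3 * ((n * (x * L.par)) ^ 2 + n * (x * L.par) + 1)
      + L.par ^ 3 * n * (n * (x * L.par) + 1) + 3 * L.par ^ 3 * n ^ 2) * hxn
  have hne' : n * (1 + 3 * n + 3 * n ^ 2) + 3 * b ^ 3 = 0 := by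
    linear_combination b ^ 3 * hne -
      n * (1 + 3 * n + 3 * n ^ 2) * ((L.par * b) ^ 2 + L.par * b + 1) * hab
  have hnR : n ∈ R := by
    refine mem_locRing_of_cubic hM.evW_mem (one_mem _) h3R (pow_mem hbR 3) ?_
    field_simp
    linear_combination hne'
  -- the new parameter
  obtain ⟨L', c, hc, hcdef, hΔ⟩ := L.deuring_change h9 hω hR
  have he := L.deuring_equation h.1
  have hc2 : 3 * n ^ 2 * c ^ 2 + (1 + 3 * n) ^ 2 = 0 := by
    have e1 : c ^ 2 = 4 * x ^ 3 + (L.par * x + 1) ^ 2 := by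
      rw [hcdef]; linear_combination 4 * he
    rw [e1]
    refine mul_left_cancel₀ (mul_ne_zero hn0 (pow_ne_zero 3 ha)) ?_
    linear_combination 4 * hne + (12 * ((n * (x * L.par)) ^ 2 + n * (x * L.par) + 1) +
      3 * n * L.par ^ 3 * (n * (x * L.par) + 1 + 2 * n)) * hxn
  set a' := L'.par with ha'def
  set D := (1 + 3 * n) * (1 + 3 * n + 3 * n ^ 2) with hD
  have hβ : (27 - a' ^ 3) * D = 27 * n ^ 3 := by
    refine mul_left_cancel₀ hn0 ?_
    have e : (a' ^ 3 - 27) * c ^ 4 = L.par ^ 3 - 27 := by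
      rw [hΔ, div_mul_cancel₀ _ (pow_ne_zero 4 hc)]
    refine mul_left_cancel₀ (pow_ne_zero 4 hc) ?_
    rw [hD]
    linear_combination (-n * (1 + 3 * n) * (1 + 3 * n + 3 * n ^ 2)) * e - (1 + 3 * n) * hne +
      3 * ((1 + 3 * n) ^ 2 - 3 * n ^ 2 * c ^ 2) * hc2
  have hDn : D ∉ M.nonunits := by
    rw [show D = 1 + (6 + 12 * n + 9 * n ^ 2) * n by rw [hD]; ring]
    exact h1n (nonunits_mul_left (hRM (add_mem (add_mem (ofNat_mem _ 6)
      (mul_mem (ofNat_mem _ 12) hnR)) (mul_mem (ofNat_mem _ 9) (pow_mem hnR 2)))) hn)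
  have hDR : D ∈ R := mul_mem (add_mem (one_mem _) (mul_mem (ofNat_mem _ 3) hnR))
    (add_mem (add_mem (one_mem _) (mul_mem (ofNat_mem _ 3) hnR))
      (mul_mem (ofNat_mem _ 3) (pow_mem hnR 2)))
  have hD0 : D ≠ 0 := ne_zero_of_notMem_nonunits hDn
  obtain ⟨β, hβdef⟩ : ∃ β, β = n ^ 3 * D⁻¹ := ⟨_, rfl⟩
  have hβR : β ∈ R := hβdef ▸ mul_mem (pow_mem hnR 3) (hinv hDR hDn)
  have hβM : β ∈ M.nonunits := by
    rw [hβdef, pow_succ, mul_assoc]
    exact nonunits_mul_left (hRM (pow_mem hnR 2)) (nonunits_mul_right (hRM (hinv hDR hDn)) hn)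
  have ha'3 : a' ^ 3 = 27 * (1 - β) := by
    rw [hβdef]; field_simp
    linear_combination -hβ
  have hββ : β = 1 - a' ^ 3 * (3 : F)⁻¹ ^ 3 := by
    rw [ha'3, show (27 : F) = 3 ^ 3 by norm_num]; field_simp; ring
  have hβD : β * D = n ^ 3 := by rw [hβdef, inv_mul_cancel_right₀ hD0]
  have ha'R : a' ∈ R := mem_locRing_of_cubic hM.evW_mem (zero_mem _) (zero_mem _)
    (neg_mem (mul_mem (ofNat_mem _ 27) (sub_mem (one_mem _) hβR)))
    (by linear_combination ha'3)
  have hM' : IsPoint W 2 a' M :=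
    ⟨evW_mem_of_mem (S := M.toSubring) (fun w => hRM (hWR w)) (hRM ha'R), hM.q_mem,
      exists_residue_const hb hM ha'R⟩
  have hcusp : a' ^ 3 - 1 ∈ M.nonunits := by
    rw [ha'3, show (27 : F) * (1 - β) - 1 = 13 * 2 + -27 * β by ring]
    exact add_mem (nonunits_mul_left (hRM (ofNat_mem _ 13)) h2M)
      (nonunits_mul_left (hRM (neg_mem (ofNat_mem _ 27))) hβM)
  -- the local rings agree
  have hcub : (1 - 9 * β) * n ^ 3 - 12 * β * n ^ 2 - 6 * β * n - β = 0 := by
    rw [hD] at hβD
    linear_combination -hβD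
  have hτR' : τ ∈ locRing W a' M := by
    set R' := locRing W a' M
    have ha'R' : a' ∈ R' := chart_le_locRing par_mem_chart
    have hR'M : R' ≤ M.toSubring := locRing_le hM'.evW_mem
    have hinv' : ∀ {z : F}, z ∈ R' → z ∉ M.nonunits → z⁻¹ ∈ R' := fun h h' =>
      inv_mem_locRing hM'.evW_mem h h'
    have h3R' : (3 : F)⁻¹ ∈ R' := hinv' (ofNat_mem _ 3) h3n
    have hβR' : β ∈ R' := by
      rw [hββ]
      exact sub_mem (one_mem _) (mul_mem (pow_mem ha'R' 3) (pow_mem h3R' 3))
    have h9n : 1 - 9 * β ∉ M.nonunits := by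
      rw [show (1 : F) - 9 * β = 1 + -9 * β by ring]
      exact h1n (nonunits_mul_left (hRM (neg_mem (ofNat_mem _ 9))) hβM)
    have huR' := hinv' (sub_mem (one_mem _) (mul_mem (ofNat_mem _ 9) hβR')) h9n
    have hnR' : n ∈ R' := by
      refine mem_locRing_of_cubic hM'.evW_mem
        (mul_mem (neg_mem (mul_mem (ofNat_mem _ 12) hβR')) huR')
        (mul_mem (neg_mem (mul_mem (ofNat_mem _ 6) hβR')) huR')
        (mul_mem (neg_mem hβR') huR') ?_
      linear_combination (1 - 9 * β)⁻¹ * hcub -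
        n ^ 3 * mul_inv_cancel₀ (ne_zero_of_notMem_nonunits h9n)
    have hbR' : b ∈ R' := by
      refine mem_locRing_of_cubic hM'.evW_mem (zero_mem _) (zero_mem _)
        (mul_mem (mul_mem hnR' (add_mem (add_mem (one_mem _) (mul_mem (ofNat_mem _ 3) hnR'))
          (mul_mem (ofNat_mem _ 3) (pow_mem hnR' 2)))) h3R') ?_
      field_simp
      linear_combination hne'
    have hd := h1n (nonunits_mul_left (hRM (neg_mem (ofNat_mem _ 3))) hbM)
    rw [show τ = b * (1 + -3 * b)⁻¹ by
      rw [eq_mul_inv_iff_mul_eq₀ (ne_zero_of_notMem_nonunits hd)]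
      linear_combination -τ * hab + b * hτa]
    exact mul_mem hbR' (hinv' (add_mem (one_mem _) (mul_mem (neg_mem (ofNat_mem _ 3)) hbR'))
      (h1n (nonunits_mul_left (hRM (neg_mem (ofNat_mem _ 3))) hbM)))
  refine goodPoint_of_locRing_eq hM.evW_mem
    (locRing_eq_of_mem hM.evW_mem hM'.evW_mem ha'R hτR') (fun V hV hT => ?_)
    (L'.deuring_cusp hb hu hqr h9 hM' hcusp)
  -- a component at infinity is a component of the new parameter
  have hRV : R ≤ V.toSubring := hT.locRing_le hV.evW_mem
  have hWV : ∀ w : W, algebraMap K F (w : K) ∈ V := fun w => hRV (hWR w)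
  have h2V : ((2 : ℕ) : F) ∈ V.nonunits := hV.q_mem
  refine ⟨evW_mem_of_mem (S := V.toSubring) hWV (hRV ha'R), hV.q_mem, fun p hp => ?_⟩
  refine inv_mem_of_notMem_nonunits' fun hpn => ?_
  obtain ⟨w, hw⟩ := exists_const_of_root hb hWV h2V (hRV ha'R) hp hpn
  obtain ⟨i3, hi3⟩ : ∃ i : W, i * 3 = 1 := by
    have h2 := residue_two hb
    refine (IsLocalRing.notMem_maximalIdeal.mp fun hm => ?_ : IsUnit (3 : W)).exists_left_inv
    rw [← residue_eq_zero_iff, map_ofNat] at hm
    exact one_ne_zero (α := ResidueField W) (by linear_combination hm - h2)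
  set ι : W →+* F := (algebraMap K F).comp W.subtype
  have hιV : ∀ d : W, ι d ∈ V := hWV
  have hi : ι i3 = (3 : F)⁻¹ := by
    refine eq_inv_of_mul_eq_one_left ?_
    have := congrArg ι hi3
    rwa [map_mul, map_ofNat, map_one] at this
  set wβ : W := 1 - w ^ 3 * i3 ^ 3
  have hwβ : β - ι wβ ∈ V.nonunits := by
    rw [show β - ι wβ = -((a' ^ 2 + a' * ι w + ι w ^ 2) * (3 : F)⁻¹ ^ 3) * (a' - ι w) by
      simp only [wβ, map_sub, map_one, map_mul, map_pow, hi]
      rw [hββ]
      ring]
    exact nonunits_mul_left (neg_mem (mul_mem (add_mem (add_mem (pow_mem (hRV ha'R) 2)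
      (mul_mem (hRV ha'R) (hιV w))) (pow_mem (hιV w) 2)) (pow_mem (hRV h3R) 3))) hw
  have hnV : n ∈ V := hRV hnR
  obtain ⟨wn, hwn⟩ := exists_const_of_root hb hWV h2V hnV
    (p := C (1 - 9 * wβ) * X ^ 3 - C (12 * wβ) * X ^ 2 - C (6 * wβ) * X - C wβ)
    (fun h0 => by
      have c0 := congrArg (fun u => u.coeff 0) h0
      have c3 := congrArg (fun u => u.coeff 3) h0
      simp only [coeff_map, coeff_sub, coeff_C_mul, coeff_X_pow, coeff_X, coeff_C,
        coeff_zero] at c0 c3
      norm_num [map_sub, map_mul, map_one, map_ofNat] at c0 c3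
      have c0' := (residue_eq_zero_iff wβ).mpr ((IsLocalRing.mem_maximalIdeal wβ).mpr c0)
      exact one_ne_zero (α := ResidueField W) (by linear_combination c3 + 9 * c0'))
    (by
      have e : ∀ d : W, evW W n (C d) = ι d := fun d => evW_C d
      simp only [map_sub, map_mul, map_pow, e, evW_X, map_one, map_ofNat]
      rw [show (1 - 9 * ι wβ) * n ^ 3 - 12 * ι wβ * n ^ 2 - 6 * ι wβ * n - ι wβ =
        (9 * n ^ 3 + 12 * n ^ 2 + 6 * n + 1) * (β - ι wβ) by linear_combination hcub]
      exact nonunits_mul_left (add_mem (add_mem (add_mem (mul_mem (ofNat_mem _ 9) (pow_mem hnV 3))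
        (mul_mem (ofNat_mem _ 12) (pow_mem hnV 2))) (mul_mem (ofNat_mem _ 6) hnV)) (one_mem _))
          hwβ)
  set w3 : W := -(wn * (1 + 3 * wn + 3 * wn ^ 2) * i3)
  have hb3 : b ^ 3 - ι w3 ∈ V.nonunits := by
    rw [show b ^ 3 - ι w3 =
      -((1 + 3 * (n + ι wn) + 3 * (n ^ 2 + n * ι wn + ι wn ^ 2)) * (3 : F)⁻¹) * (n - ι wn) by
      simp only [w3, map_neg, map_add, map_one, map_mul, map_pow, map_ofNat, hi]
      field_simp
      linear_combination hne']
    exact nonunits_mul_left (neg_mem (mul_mem (add_mem (add_mem (one_mem _)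
      (mul_mem (ofNat_mem _ 3) (add_mem hnV (hιV wn)))) (mul_mem (ofNat_mem _ 3)
      (add_mem (add_mem (pow_mem hnV 2) (mul_mem hnV (hιV wn))) (pow_mem (hιV wn) 2))))
        (hRV h3R))) hwn
  obtain ⟨wb, hwb⟩ := exists_const_of_root hb hWV h2V (hRV hbR) (p := X ^ 3 - C w3)
    (((monic_X_pow_sub_C w3 three_ne_zero).map _).ne_zero)
    (by simp only [map_sub, map_pow, evW_C, evW_X]; exact hb3)
  obtain ⟨wt, hwt⟩ := exists_const_of_root hb hWV h2V (hRV hτR)
    (p := C (1 - 3 * wb) * X - C wb)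
    (fun h0 => by
      have c0 := congrArg (fun u => u.coeff 0) h0
      have c1 := congrArg (fun u => u.coeff 1) h0
      simp only [coeff_map, coeff_sub, coeff_C_mul, coeff_X, coeff_C, coeff_zero] at c0 c1
      norm_num [map_sub, map_mul, map_one, map_ofNat] at c0 c1
      have c0' := (residue_eq_zero_iff wb).mpr ((IsLocalRing.mem_maximalIdeal wb).mpr c0)
      exact one_ne_zero (α := ResidueField W) (by linear_combination c1 + 3 * c0'))
    (by
      have e : ∀ d : W, evW W τ (C d) = ι d := fun d => evW_C d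
      simp only [map_sub, map_mul, e, evW_X, map_one, map_ofNat]
      rw [show (1 - 3 * ι wb) * τ - ι wb = (1 + 3 * τ) * (b - ι wb) by
        linear_combination b * hτa - τ * hab]
      exact nonunits_mul_left (add_mem (one_mem _) (mul_mem (ofNat_mem _ 3) (hRV hτR))) hwb)
  exact hV.par_sub_notMem (fun halg => L.transcendental (by
    have h1 := halg.inv
    rw [hτ, inv_inv] at h1
    have h3 : IsAlgebraic K (3 : F) := by
      rw [← map_ofNat (algebraMap K F) 3]; exact isAlgebraic_algebraMap _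
    simpa using h1.add h3)) wt hwt

end LevelData

end Fermat.Agent.Carayol
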