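import Fermat.Agent.Carayol.Invariant
import Mathlib.Algebra.Polynomial.Expand
import Mathlib.Algebra.MvPolynomial.Eval
import Mathlib.Data.ZMod.Basic
import Mathlib.Algebra.CharP.Algebra

/-!
# Division polynomials modulo `q`

The division polynomials of an odd prime `q` modulo `q`: `Φ = N(x^q)`, `preΨ = h(x^q)` with
`deg h ≤ (q - 1)/2`, and, with `V = N′h − 2Nh′`, `f = Ψ₂Sq` and `H` the Hasse coefficient,
`V² f^(q) = H² (4N³ + b₂N²h² + 2b₄Nh⁴ + b₆h⁶)`; hence the top coefficient of `h` is `± H`.

Main results: `redV_sq_mul`, `topCoeff_sq`.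
-/

set_option autoImplicit false

open Polynomial WeierstrassCurve

namespace Fermat.Agent.Carayol

/-- The coefficients at `x ^ (q j + q - 1)`. -/
noncomputable def cartier {R : Type*} [CommRing R] (q : ℕ) (p : R[X]) : R[X] :=
  (contract q (X * p)).divX

section Cartier

variable {R : Type*} [CommRing R] {q : ℕ} (hq : q ≠ 0)

include hq in
theorem coeff_cartier (p : R[X]) (j : ℕ) : (cartier q p).coeff j = p.coeff (j * q + (q - 1)) := by
  rw [cartier, coeff_divX, coeff_contract hq,
    show (j + 1) * q = j * q + (q - 1) + 1 by rw [add_mul, one_mul]; omega, coeff_X_mul]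

include hq in
theorem cartier_expand_mul (r p : R[X]) : cartier q (expand R q r * p) = r * cartier q p := by
  have h0 : (contract q (X * p)).coeff 0 = 0 := by rw [coeff_contract hq]; simp
  have hc : contract q (X * p) = X * cartier q p := by
    conv_lhs => rw [← divX_mul_X_add (contract q (X * p))]
    rw [h0, cartier]; simp [mul_comm]
  rw [cartier, show X * (expand R q r * p) = (X * p) * expand R q r by ring,
    contract_mul_expand hq, hc, show X * cartier q p * r = X * (r * cartier q p) by ring,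
    mul_comm X]
  ext j
  rw [coeff_divX, coeff_mul_X]

include hq in
theorem cartier_add (p p' : R[X]) : cartier q (p + p') = cartier q p + cartier q p' := by
  ext j; simp [coeff_cartier hq]

include hq in
theorem cartier_sub (p p' : R[X]) : cartier q (p - p') = cartier q p - cartier q p' := by
  ext j; simp [coeff_cartier hq]

include hq in
theorem cartier_derivative [CharP R q] (p : R[X]) : cartier q (derivative p) = 0 := by
  ext j
  rw [coeff_cartier hq, coeff_derivative, coeff_zero]
  have : ((j * q + (q - 1) : ℕ) : R) + 1 = 0 := by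
    rw [← Nat.cast_add_one,
      show j * q + (q - 1) + 1 = (j + 1) * q by rw [add_mul, one_mul]; omega,
      Nat.cast_mul, CharP.cast_eq_zero R q, mul_zero]
  rw [this, mul_zero]

include hq in
theorem cartier_pow_sub_one : cartier q ((X : R[X]) ^ (q - 1)) = 1 := by
  ext j
  rw [coeff_cartier hq, coeff_X_pow, coeff_one]
  refine if_congr ?_ rfl rfl
  constructor
  · intro h
    exact (mul_eq_zero.mp (show j * q = 0 by omega)).resolve_right hq
  · rintro rfl; simp

end Cartier

section Data

variable {R : Type*} [CommRing R] (W : WeierstrassCurve R) (q : ℕ)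

/-- `N`, with `Φ = N(x ^ q)` in characteristic `q`. -/
noncomputable def redN : R[X] := contract q (W.Φ q)

/-- `h`, with `preΨ = h(x ^ q)` in characteristic `q`. -/
noncomputable def redH : R[X] := contract q (W.preΨ' q)

/-- The Hasse coefficient: the coefficient of `x ^ (q - 1)` in `Ψ₂Sq ^ ((q - 1) / 2)`. -/
noncomputable def hasseCoeff : R := (W.Ψ₂Sq ^ ((q - 1) / 2)).coeff (q - 1)

/-- The top coefficient of `h`. -/
noncomputable def topCoeff : R := (redH W q).coeff ((q - 1) / 2)

/-- `V = N′ h − 2 N h′`. -/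
noncomputable def redV : R[X] :=
  derivative (redN W q) * redH W q - 2 * redN W q * derivative (redH W q)

/-- `4N³ + b₂N²h² + 2b₄Nh⁴ + b₆h⁶`. -/
noncomputable def redG : R[X] :=
  C 4 * redN W q ^ 3 + C W.b₂ * redN W q ^ 2 * redH W q ^ 2 +
    C (2 * W.b₄) * redN W q * redH W q ^ 4 + C W.b₆ * redH W q ^ 6

variable {W q}

theorem map_redN {S : Type*} [CommRing S] (f : R →+* S) (hq : q ≠ 0) :
    redN (W.map f) q = (redN W q).map f := by
  rw [redN, redN, map_Φ, map_contract hq]

theorem map_redH {S : Type*} [CommRing S] (f : R →+* S) (hq : q ≠ 0) :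
    redH (W.map f) q = (redH W q).map f := by
  rw [redH, redH, map_preΨ', map_contract hq]

theorem map_redV {S : Type*} [CommRing S] (f : R →+* S) (hq : q ≠ 0) :
    redV (W.map f) q = (redV W q).map f := by
  simp [redV, map_redN f hq, map_redH f hq, derivative_map]

theorem map_redG {S : Type*} [CommRing S] (f : R →+* S) (hq : q ≠ 0) :
    redG (W.map f) q = (redG W q).map f := by
  simp [redG, map_redN f hq, map_redH f hq, map_ofNat, Polynomial.map_ofNat]

theorem map_hasseCoeff {S : Type*} [CommRing S] (f : R →+* S) :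
    hasseCoeff (W.map f) q = f (hasseCoeff W q) := by
  rw [hasseCoeff, hasseCoeff, map_Ψ₂Sq, ← Polynomial.map_pow, coeff_map]

theorem map_topCoeff {S : Type*} [CommRing S] (f : R →+* S) (hq : q ≠ 0) :
    topCoeff (W.map f) q = f (topCoeff W q) := by
  rw [topCoeff, topCoeff, map_redH f hq, coeff_map]

theorem coeff_redN_top (hq : q ≠ 0) : (redN W q).coeff q = 1 := by
  rw [redN, coeff_contract hq]
  simpa [sq] using W.coeff_Φ q

theorem natDegree_redN_le (hq : q ≠ 0) : (redN W q).natDegree ≤ q := by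
  refine natDegree_le_iff_coeff_eq_zero.mpr fun j hj => ?_
  rw [redN, coeff_contract hq]
  refine coeff_eq_zero_of_natDegree_lt (lt_of_le_of_lt (W.natDegree_Φ_le q) ?_)
  rw [Int.natAbs_natCast, sq]
  exact Nat.mul_lt_mul_of_pos_right hj (Nat.pos_of_ne_zero hq)

end Data

section Universal

variable (q : ℕ)

/-- The universal curve in characteristic `q`. -/
noncomputable def univQ : WeierstrassCurve (MvPolynomial (Fin 5) (ZMod q)) :=
  EC.Torsion.universalCurve.map (MvPolynomial.map (Int.castRingHom (ZMod q)))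

variable {q}

theorem exists_map_univQ {k : Type*} [CommRing k] [CharP k q] (W : WeierstrassCurve k) :
    ∃ f : MvPolynomial (Fin 5) (ZMod q) →+* k, (univQ q).map f = W := by
  refine ⟨MvPolynomial.eval₂Hom (ZMod.castHom dvd_rfl k) ![W.a₁, W.a₂, W.a₃, W.a₄, W.a₆], ?_⟩
  conv_rhs => rw [← EC.Torsion.universalCurve_map W]
  rw [univQ, WeierstrassCurve.map_map]
  congr 1
  exact MvPolynomial.ringHom_ext (fun n => by simp) fun i => by simp

variable [Fact q.Prime]

theorem univQ_Δ_ne_zero (h2 : q ≠ 2) : (univQ q).Δ ≠ 0 := by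
  intro h
  obtain ⟨f, hf⟩ := exists_map_univQ (q := q) (⟨0, 0, 0, 1, 0⟩ : WeierstrassCurve (ZMod q))
  have h0 := congrArg WeierstrassCurve.Δ hf
  rw [map_Δ, h, map_zero] at h0
  norm_num [WeierstrassCurve.Δ, WeierstrassCurve.b₂, WeierstrassCurve.b₄, WeierstrassCurve.b₆,
    WeierstrassCurve.b₈] at h0
  have h4 : ((2 ^ 6 : ℕ) : ZMod q) = 0 := by norm_num; linear_combination h0
  rw [ZMod.natCast_eq_zero_iff] at h4
  exact h2 ((Nat.prime_dvd_prime_iff_eq Fact.out Nat.prime_two).mp
    ((Fact.out : q.Prime).dvd_of_dvd_pow h4))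

theorem two_ne_zero_of_charP {k : Type*} [CommRing k] [CharP k q] (h2 : q ≠ 2) :
    (2 : k) ≠ 0 := by
  rw [show (2 : k) = ((2 : ℕ) : k) by norm_num, Ne, CharP.cast_eq_zero_iff k q]
  exact fun h => h2 ((Nat.prime_dvd_prime_iff_eq Fact.out Nat.prime_two).mp h)

theorem odd_of_ne_two (h2 : q ≠ 2) : Odd q :=
  (Fact.out : q.Prime).odd_of_ne_two h2

/-- Over a field of characteristic `q` the derivatives of `Φ_q` and `preΨ_q` vanish. -/
theorem derivative_eq_zero_of_field {k : Type*} [Field k] [DecidableEq k] [CharP k q]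
    (W : WeierstrassCurve k) [W.IsElliptic] (h2 : q ≠ 2) :
    derivative (W.Φ q) = 0 ∧ derivative (W.preΨ' q) = 0 := by
  have hid := invariant_identity W q
  have h4 : (4 : k) ≠ 0 := by
    rw [show (4 : k) = 2 * 2 by norm_num]
    exact mul_ne_zero (two_ne_zero_of_charP (q := q) h2) (two_ne_zero_of_charP (q := q) h2)
  rw [InvariantIdentity, CharP.cast_eq_zero k q, zero_pow two_ne_zero, map_zero, zero_mul, zero_mul,
    mul_eq_zero, or_iff_left (W.Ψ₂Sq_ne_zero h4), pow_eq_zero_iff two_ne_zero, sub_eq_zero] at hid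
  have hcop := EC.Torsion.isCoprime_Φ_ΨSq (W := W.toAffine) (q : ℤ)
  have hΦ0 : W.Φ q ≠ 0 := W.Φ_ne_zero _
  have hS0 : W.ΨSq q ≠ 0 := fun h => by
    rw [h, isCoprime_zero_right] at hcop
    have := natDegree_eq_zero_of_isUnit hcop
    rw [W.natDegree_Φ, Int.natAbs_natCast] at this
    exact pow_ne_zero 2 (Fact.out : q.Prime).ne_zero this
  have hS : derivative (W.ΨSq q) = 0 :=
    eq_zero_of_dvd_of_degree_lt (hcop.symm.dvd_of_dvd_mul_left
      ⟨derivative (W.Φ q), by rw [mul_comm (W.ΨSq q)]; exact hid.symm⟩) (degree_derivative_lt hS0)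
  refine ⟨?_, ?_⟩
  · rw [hS, mul_zero, mul_eq_zero] at hid
    exact hid.resolve_right hS0
  · have ho : ¬Even q := Nat.not_even_iff_odd.mpr (odd_of_ne_two h2)
    rw [ΨSq_ofNat, if_neg ho, mul_one] at hS hS0
    rw [derivative_pow, mul_eq_zero, mul_eq_zero] at hS
    rcases hS with (h | h) | h
    · rw [C_eq_zero] at h
      exact absurd (by simpa using h) (two_ne_zero_of_charP (k := k) (q := q) h2)
    · exact absurd h (by simpa using fun h0 => hS0 (by simp [h0]))
    · exact h

variable {k : Type*} [CommRing k] [CharP k q]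

theorem derivative_Φ_eq_zero (W : WeierstrassCurve k) (h2 : q ≠ 2) :
    derivative (W.Φ q) = 0 ∧ derivative (W.preΨ' q) = 0 := by
  classical
  let f := algebraMap (MvPolynomial (Fin 5) (ZMod q)) (FractionRing (MvPolynomial (Fin 5) (ZMod q)))
  have hf : Function.Injective f := IsFractionRing.injective _ _
  have : CharP (FractionRing (MvPolynomial (Fin 5) (ZMod q))) q :=
    charP_of_injective_ringHom hf q
  have : ((univQ q).map f).IsElliptic := by
    rw [isElliptic_iff, map_Δ, isUnit_iff_ne_zero]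
    exact (map_ne_zero_iff f hf).mpr (univQ_Δ_ne_zero h2)
  obtain ⟨h₁, h₂⟩ := derivative_eq_zero_of_field (q := q) ((univQ q).map f) h2
  rw [map_Φ, derivative_map, Polynomial.map_eq_zero_iff hf] at h₁
  rw [map_preΨ', derivative_map, Polynomial.map_eq_zero_iff hf] at h₂
  obtain ⟨g, rfl⟩ := exists_map_univQ (q := q) W
  rw [map_Φ, map_preΨ', derivative_map, derivative_map, h₁, h₂]
  simp

/-- `Φ_q` is a polynomial in `x ^ q`. -/
theorem expand_redN (W : WeierstrassCurve k) (h2 : q ≠ 2) :
    expand k q (redN W q) = W.Φ q := by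
  have hq : q ≠ 0 := (Fact.out : q.Prime).ne_zero
  obtain ⟨g, rfl⟩ := exists_map_univQ (q := q) W
  rw [map_redN g hq, map_Φ, ← map_expand, redN,
    expand_contract q (derivative_Φ_eq_zero (univQ q) h2).1 hq]

/-- `preΨ_q` is a polynomial in `x ^ q`. -/
theorem expand_redH (W : WeierstrassCurve k) (h2 : q ≠ 2) :
    expand k q (redH W q) = W.preΨ' q := by
  have hq : q ≠ 0 := (Fact.out : q.Prime).ne_zero
  obtain ⟨g, rfl⟩ := exists_map_univQ (q := q) W
  rw [map_redH g hq, map_preΨ', ← map_expand, redH,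
    expand_contract q (derivative_Φ_eq_zero (univQ q) h2).2 hq]

theorem expand_redH_sq (W : WeierstrassCurve k) (h2 : q ≠ 2) :
    expand k q (redH W q ^ 2) = W.ΨSq q := by
  rw [map_pow, expand_redH W h2, ΨSq_ofNat,
    if_neg (Nat.not_even_iff_odd.mpr (odd_of_ne_two h2)), mul_one]

omit [CharP k q] in
theorem natDegree_redH_le (W : WeierstrassCurve k) (h2 : q ≠ 2) :
    (redH W q).natDegree ≤ (q - 1) / 2 := by
  have hq : q ≠ 0 := (Fact.out : q.Prime).ne_zero
  obtain ⟨m, hm⟩ := odd_of_ne_two h2
  refine natDegree_le_iff_coeff_eq_zero.mpr fun j hj => ?_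
  rw [redH, coeff_contract hq]
  refine coeff_eq_zero_of_natDegree_lt ?_
  have h := W.natDegree_preΨ'_le q
  rw [if_neg (Nat.not_even_iff_odd.mpr (odd_of_ne_two h2))] at h
  have e : (q ^ 2 - 1) / 2 = 2 * m * m + 2 * m := by
    rw [hm, show (2 * m + 1) ^ 2 = 2 * (2 * m * m + 2 * m) + 1 by ring]
    simp
  have : (m + 1) * q ≤ j * q := Nat.mul_le_mul_right _ (by omega)
  rw [e] at h
  have : (m + 1) * q = 2 * m * m + 2 * m + (m + 1) := by rw [hm]; ring
  omega

theorem natDegree_redV_le (W : WeierstrassCurve k) (h2 : q ≠ 2) :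
    (redV W q).natDegree ≤ q - 1 + (q - 1) / 2 ∧
      (redV W q).coeff (q - 1 + (q - 1) / 2) = topCoeff W q := by
  have hq : q ≠ 0 := (Fact.out : q.Prime).ne_zero
  obtain ⟨m, hm⟩ := odd_of_ne_two h2
  have hm0 : m ≠ 0 := fun h => (Fact.out : q.Prime).ne_one (by omega)
  have hm' : (q - 1) / 2 = m := by omega
  have hh := natDegree_redH_le W h2
  rw [hm'] at hh ⊢
  have hN := natDegree_redN_le (W := W) hq
  have hN' : (derivative (redN W q)).natDegree ≤ q - 2 := by
    refine natDegree_le_iff_coeff_eq_zero.mpr fun j hj => ?_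
    rw [coeff_derivative]
    rcases eq_or_ne (j + 1) q with e | e
    · rw [show (j : k) + 1 = ((j + 1 : ℕ) : k) by push_cast; ring, e, CharP.cast_eq_zero, mul_zero]
    · rw [coeff_eq_zero_of_natDegree_lt (by omega), zero_mul]
  have hh' : (derivative (redH W q)).natDegree ≤ m - 1 :=
    (natDegree_derivative_le _).trans (Nat.sub_le_sub_right hh 1)
  refine ⟨(natDegree_sub_le _ _).trans (max_le (natDegree_mul_le.trans (by omega))
    (natDegree_mul_le.trans ?_)), ?_⟩
  · have := natDegree_mul_le (p := (2 : k[X])) (q := redN W q)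
    have : (2 : k[X]).natDegree = 0 := natDegree_ofNat 2
    omega
  · rw [redV, coeff_sub, coeff_eq_zero_of_natDegree_lt
      (lt_of_le_of_lt natDegree_mul_le (by omega)), zero_sub,
      show q - 1 + m = q + (m - 1) by omega, mul_assoc, show (2 : k[X]) = C 2 from
      (C_eq_natCast 2).symm.trans rfl |>.symm, coeff_C_mul,
      coeff_mul_add_eq_of_natDegree_le hN hh', coeff_redN_top hq, one_mul, coeff_derivative,
      topCoeff, hm', show m - 1 + 1 = m by omega, Nat.cast_sub (by omega), Nat.cast_one,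
      sub_add_cancel]
    have : (2 : k) * m = -1 := by
      rw [show (2 : k) * m = ((2 * m + 1 : ℕ) : k) - 1 by push_cast; ring, ← hm,
        CharP.cast_eq_zero, zero_sub]
    linear_combination (-(redH W q).coeff m) * this

end Universal

section Hasse

variable {q : ℕ} [Fact q.Prime]

/-- The identity for the universal curve, divided by `q` and reduced. -/
theorem exists_u (h2 : q ≠ 2) :
    ∃ u : (MvPolynomial (Fin 5) (ZMod q))[X],
      cartier q u = redV (univQ q) q ∧
      u ^ 2 * (univQ q).Ψ₂Sq = expand _ q (redG (univQ q) q) := by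
  have hq : q ≠ 0 := (Fact.out : q.Prime).ne_zero
  set S := MvPolynomial (Fin 5) ℤ
  set π : S →+* MvPolynomial (Fin 5) (ZMod q) := MvPolynomial.map (Int.castRingHom (ZMod q))
  set U : WeierstrassCurve S := EC.Torsion.universalCurve
  have hπU : U.map π = univQ q := rfl
  have hdvd : ∀ p : S[X], p.map π = 0 → C (q : S) ∣ p := fun p hp => by
    rw [C_dvd_iff_dvd_coeff]
    intro i
    have hi : π (p.coeff i) = 0 := by rw [← coeff_map, hp, coeff_zero]
    rw [show ((q : ℕ) : S) = MvPolynomial.C (q : ℤ) by simp,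
      MvPolynomial.C_dvd_iff_dvd_coeff]
    intro d
    rw [← ZMod.intCast_zmod_eq_zero_iff_dvd]
    have := congrArg (fun P => MvPolynomial.coeff d P) hi
    simp only [π] at this
    rw [MvPolynomial.coeff_map, MvPolynomial.coeff_zero] at this
    exact this
  have hodd : ¬Even q := Nat.not_even_iff_odd.mpr (odd_of_ne_two h2)
  obtain ⟨A, hA⟩ := hdvd (U.Φ q - expand S q (redN U q)) (by
    rw [Polynomial.map_sub, map_expand, ← map_Φ, ← map_redN π hq, hπU, expand_redN _ h2, sub_self])
  obtain ⟨B, hB⟩ := hdvd (U.preΨ' q - expand S q (redH U q)) (by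
    rw [Polynomial.map_sub, map_expand, ← map_preΨ', ← map_redH π hq, hπU, expand_redH _ h2,
      sub_self])
  set u₀ : S[X] := (expand S q (derivative (redN U q)) * X ^ (q - 1) + derivative A) * U.preΨ' q -
    2 * U.Φ q * (expand S q (derivative (redH U q)) * X ^ (q - 1) + derivative B)
  have hΦ' : derivative (U.Φ q) = C (q : S) *
      (expand S q (derivative (redN U q)) * X ^ (q - 1) + derivative A) := by
    have := congrArg derivative hA
    rw [derivative_sub, derivative_expand, derivative_C_mul, ← C_eq_natCast] at this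
    linear_combination this
  have hP' : derivative (U.preΨ' q) = C (q : S) *
      (expand S q (derivative (redH U q)) * X ^ (q - 1) + derivative B) := by
    have := congrArg derivative hB
    rw [derivative_sub, derivative_expand, derivative_C_mul, ← C_eq_natCast] at this
    linear_combination this
  have hid := invariant_identity U q
  rw [InvariantIdentity, ΨSq_ofNat, if_neg hodd, mul_one, derivative_pow, hΦ', hP'] at hid
  have hP0 : U.preΨ' q ≠ 0 := fun h => by
    have := U.coeff_preΨ' q
    rw [h, coeff_zero, if_neg hodd] at this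
    exact hq (by exact_mod_cast this.symm)
  have key : u₀ ^ 2 * U.Ψ₂Sq = C 4 * U.Φ q ^ 3 + C U.b₂ * U.Φ q ^ 2 * U.preΨ' q ^ 2 +
      C (2 * U.b₄) * U.Φ q * U.preΨ' q ^ 4 + C U.b₆ * U.preΨ' q ^ 6 := by
    refine mul_left_cancel₀ (mul_ne_zero (pow_ne_zero 2 ?_) (pow_ne_zero 2 hP0))
      (a := C (q : S) ^ 2 * U.preΨ' q ^ 2) ?_
    · rw [C_ne_zero]; exact_mod_cast hq
    · simp only [Nat.cast_ofNat, Nat.add_one_sub_one, pow_one, map_ofNat, map_pow] at hid ⊢
      linear_combination hid
  refine ⟨u₀.map π, ?_, ?_⟩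
  · have hu : u₀.map π =
        (expand _ q (derivative (redN (univQ q) q)) * X ^ (q - 1) + derivative (A.map π)) *
            expand _ q (redH (univQ q) q) -
          2 * expand _ q (redN (univQ q) q) *
            (expand _ q (derivative (redH (univQ q) q)) * X ^ (q - 1) + derivative (B.map π)) := by
      simp [u₀, map_expand, ← derivative_map, ← map_redN π hq, ← map_redH π hq, ← map_Φ,
        ← map_preΨ', hπU, expand_redN (univQ q) h2, expand_redH (univQ q) h2,
        Polynomial.map_ofNat]
    rw [hu, cartier_sub hq, add_mul, cartier_add hq, mul_add, cartier_add hq]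
    have c1 : ∀ a b : (MvPolynomial (Fin 5) (ZMod q))[X],
        cartier q (expand _ q a * X ^ (q - 1) * expand _ q b) = a * b := fun a b => by
      rw [show expand _ q a * X ^ (q - 1) * expand _ q b =
        expand _ q (a * b) * X ^ (q - 1) by rw [map_mul]; ring, cartier_expand_mul hq,
        cartier_pow_sub_one hq, mul_one]
    have c2 : ∀ a b : (MvPolynomial (Fin 5) (ZMod q))[X],
        cartier q (derivative a * expand _ q b) = 0 := fun a b => by
      rw [mul_comm, cartier_expand_mul hq, cartier_derivative hq, mul_zero]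
    rw [c1, c2, show ∀ a b : (MvPolynomial (Fin 5) (ZMod q))[X],
        2 * expand _ q a * (expand _ q b * X ^ (q - 1)) =
          expand _ q b * X ^ (q - 1) * expand _ q (2 * a) from fun a b => by
      rw [map_mul, map_ofNat]; ring, c1,
      show 2 * expand _ q (redN (univQ q) q) * derivative (B.map π) =
        derivative (B.map π) * expand _ q (2 * redN (univQ q) q) by rw [map_mul, map_ofNat]; ring,
      c2, redV]
    ring
  · have := congrArg (Polynomial.map π) key
    simp only [Polynomial.map_mul, Polynomial.map_add, Polynomial.map_pow, Polynomial.map_C,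
      ← map_Φ, ← map_preΨ', ← map_Ψ₂Sq, map_ofNat, map_mul,
      hπU, Polynomial.map_ofNat] at this
    rw [this, redG, show (univQ q).b₂ = π U.b₂ from map_b₂ U π,
      show (univQ q).b₄ = π U.b₄ from map_b₄ U π, show (univQ q).b₆ = π U.b₆ from map_b₆ U π]
    simp only [map_add, map_mul, map_pow, expand_C, map_ofNat, expand_redN _ h2, expand_redH _ h2]

variable {R : Type*} [CommRing R] [IsDomain R] [CharP R q] (U : WeierstrassCurve R) (h2 : q ≠ 2)

omit [CharP R q] in
include h2 in
omit [IsDomain R] in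
theorem coeff_redG_top : (redG U q).coeff (3 * q) = 4 := by
  have hq : q ≠ 0 := (Fact.out : q.Prime).ne_zero
  obtain ⟨m, hm⟩ := odd_of_ne_two h2
  have hm0 : m ≠ 0 := fun h => (Fact.out : q.Prime).ne_one (by omega)
  have hN := natDegree_redN_le (W := U) hq
  have hh : (redH U q).natDegree ≤ m := (natDegree_redH_le U h2).trans_eq (by omega)
  have hp : ∀ a b, (redN U q ^ a * redH U q ^ b).natDegree ≤ a * q + b * m := fun a b =>
    natDegree_mul_le.trans (Nat.add_le_add (natDegree_pow_le.trans (Nat.mul_le_mul_left a hN))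
      (natDegree_pow_le.trans (Nat.mul_le_mul_left b hh)))
  rw [redG, show C 4 * redN U q ^ 3 + C U.b₂ * redN U q ^ 2 * redH U q ^ 2 +
      C (2 * U.b₄) * redN U q * redH U q ^ 4 + C U.b₆ * redH U q ^ 6 =
      C 4 * redN U q ^ 3 + C U.b₂ * (redN U q ^ 2 * redH U q ^ 2) +
      C (2 * U.b₄) * (redN U q ^ 1 * redH U q ^ 4) + C U.b₆ * (redN U q ^ 0 * redH U q ^ 6) by ring,
    coeff_add, coeff_add, coeff_add, coeff_C_mul, coeff_C_mul, coeff_C_mul, coeff_C_mul,
    coeff_pow_of_natDegree_le hN, coeff_redN_top hq, one_pow,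
    coeff_eq_zero_of_natDegree_lt (lt_of_le_of_lt (hp 2 2) (by omega)),
    coeff_eq_zero_of_natDegree_lt (lt_of_le_of_lt (hp 1 4) (by omega)),
    coeff_eq_zero_of_natDegree_lt (lt_of_le_of_lt (hp 0 6) (by omega))]
  ring

include h2 in
theorem redV_sq_mul_of_exists {u : R[X]} (hu : cartier q u = redV U q)
    (heq : u ^ 2 * U.Ψ₂Sq = expand R q (redG U q)) :
    redV U q ^ 2 * U.Ψ₂Sq.map (frobenius R q) = C (hasseCoeff U q) ^ 2 * redG U q := by
  have hq : q ≠ 0 := (Fact.out : q.Prime).ne_zero
  obtain ⟨m, hm⟩ := odd_of_ne_two h2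
  have hm' : (q - 1) / 2 = m := by omega
  set G := redG U q
  set uq := u.map (frobenius R q)
  have hfr : ∀ p : R[X], expand R q (p.map (frobenius R q)) = p ^ q := fun p => by
    rw [← map_expand]; exact map_frobenius_expand q p
  have hG : uq ^ 2 * U.Ψ₂Sq.map (frobenius R q) = G ^ q := by
    rw [← Polynomial.map_pow, ← Polynomial.map_mul, heq]
    exact map_frobenius_expand q G
  have hH : cartier q (U.Ψ₂Sq ^ m) = C (hasseCoeff U q) := by
    ext j
    rw [coeff_cartier hq, coeff_C, hasseCoeff, hm']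
    rcases j with _ | j
    · simp
    · rw [if_neg (Nat.succ_ne_zero j)]
      refine coeff_eq_zero_of_natDegree_lt (lt_of_le_of_lt natDegree_pow_le ?_)
      have : m * U.Ψ₂Sq.natDegree ≤ m * 3 := Nat.mul_le_mul_left m U.natDegree_Ψ₂Sq_le
      have : (j + 1) * q ≥ q := Nat.le_mul_of_pos_left q (Nat.succ_pos j)
      omega
  have hlin : u * expand R q (G ^ m) = expand R q uq * U.Ψ₂Sq ^ m := by
    rw [map_pow, ← heq, mul_pow, ← pow_mul, hfr, ← mul_assoc, ← pow_succ', hm]
  have hV : G ^ m * redV U q = uq * C (hasseCoeff U q) := by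
    have := congrArg (cartier q) hlin
    rw [mul_comm u, cartier_expand_mul hq, cartier_expand_mul hq, hu, hH] at this
    exact this
  have hG0 : G ≠ 0 := fun h => by
    have hc := coeff_redG_top U h2
    rw [show redG U q = 0 from h, coeff_zero] at hc
    have h4 := two_ne_zero_of_charP (k := R) (q := q) h2
    exact mul_ne_zero h4 h4 (by linear_combination -hc)
  refine mul_left_cancel₀ (pow_ne_zero (2 * m) hG0) ?_
  rw [show G ^ (2 * m) * (C (hasseCoeff U q) ^ 2 * G) =
    C (hasseCoeff U q) ^ 2 * G ^ q by rw [hm]; ring, ← hG]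
  linear_combination (G ^ m * redV U q + uq * C (hasseCoeff U q)) *
    U.Ψ₂Sq.map (frobenius R q) * hV

include h2 in
theorem topCoeff_sq_of_domain
    (key : redV U q ^ 2 * U.Ψ₂Sq.map (frobenius R q) = C (hasseCoeff U q) ^ 2 * redG U q) :
    topCoeff U q ^ 2 = hasseCoeff U q ^ 2 := by
  have hq : q ≠ 0 := (Fact.out : q.Prime).ne_zero
  obtain ⟨m, hm⟩ := odd_of_ne_two h2
  have hm0 : m ≠ 0 := fun h => (Fact.out : q.Prime).ne_one (by omega)
  have hm' : (q - 1) / 2 = m := by omega
  obtain ⟨hd, hc⟩ := natDegree_redV_le U h2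
  rw [hm'] at hd hc
  have hf : (U.Ψ₂Sq.map (frobenius R q)).natDegree ≤ 3 :=
    natDegree_map_le.trans U.natDegree_Ψ₂Sq_le
  have hl : (redV U q ^ 2 * U.Ψ₂Sq.map (frobenius R q)).coeff (2 * (q - 1 + m) + 3) =
      topCoeff U q ^ 2 * 4 := by
    rw [coeff_mul_add_eq_of_natDegree_le (natDegree_pow_le.trans (Nat.mul_le_mul_left 2 hd)) hf,
      coeff_pow_of_natDegree_le hd, hc, coeff_map, U.coeff_Ψ₂Sq, map_ofNat]
  rw [key, ← C_pow, coeff_C_mul, show 2 * (q - 1 + m) + 3 = 3 * q by omega,
    coeff_redG_top U h2] at hl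
  have h4 := two_ne_zero_of_charP (k := R) (q := q) h2
  refine mul_right_cancel₀ (mul_ne_zero h4 h4) ?_
  linear_combination -hl

/-- **`V² f^(q) = H² g`.** -/
theorem redV_sq_mul {k : Type*} [CommRing k] [CharP k q] (W : WeierstrassCurve k) (h2 : q ≠ 2) :
    redV W q ^ 2 * W.Ψ₂Sq.map (frobenius k q) = C (hasseCoeff W q) ^ 2 * redG W q := by
  have hq : q ≠ 0 := (Fact.out : q.Prime).ne_zero
  obtain ⟨u, hu, heq⟩ := exists_u (q := q) h2
  obtain ⟨g, rfl⟩ := exists_map_univQ (q := q) W
  have h := congrArg (Polynomial.map g) (redV_sq_mul_of_exists _ h2 hu heq)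
  have hfrob : g.comp (frobenius _ q) = (frobenius k q).comp g :=
    RingHom.ext fun x => g.map_frobenius q x
  rw [Polynomial.map_mul, Polynomial.map_mul, Polynomial.map_pow, Polynomial.map_pow,
    Polynomial.map_C, Polynomial.map_map, hfrob, ← Polynomial.map_map, ← map_redV g hq,
    ← map_redG g hq, ← map_hasseCoeff g, ← map_Ψ₂Sq] at h
  exact h

/-- The top coefficient of `h` is the Hasse coefficient up to sign. -/
theorem topCoeff_sq {k : Type*} [CommRing k] [CharP k q] (W : WeierstrassCurve k) (h2 : q ≠ 2) :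
    topCoeff W q ^ 2 = hasseCoeff W q ^ 2 := by
  have hq : q ≠ 0 := (Fact.out : q.Prime).ne_zero
  obtain ⟨u, hu, heq⟩ := exists_u (q := q) h2
  obtain ⟨g, rfl⟩ := exists_map_univQ (q := q) W
  have h := congrArg g (topCoeff_sq_of_domain _ h2 (redV_sq_mul_of_exists _ h2 hu heq))
  rwa [map_pow, map_pow, ← map_topCoeff g hq, ← map_hasseCoeff g] at h

end Hasse

end Fermat.Agent.Carayol
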