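import Fermat.Agent.Carayol.Level
import Fermat.Agent.Carayol.LocalGen

/-!
# The interface to the special fibre

Interface between the local analysis of the special fibre of the two-chart model and the
averaging argument.

`T = par - c` is the parameter of the first chart and `T⁻¹` that of the second.  The local
analysis says that every closed point of the special fibre of both charts is good, describes the
line of `q`-torsion reducing to the origin along each component, the inertia group of each
component and the crossings at the supersingular points.

Main definition: `SpecialFibre`.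
-/

set_option autoImplicit false

open Polynomial

namespace Fermat.Agent.Carayol

variable {K F : Type*} [Field K] [Field F] [DecidableEq F] [Algebra K F]
  {fam : WeierstrassCurve ℤ[X]} {q r : ℕ}

/-- The point reduces to the origin at `V`. -/
def InKer {W : WeierstrassCurve F} (V : ValuationSubring F) : W.toAffine.Point → Prop
  | .zero => True
  | .some x _ _ => x ∉ V

/-- The reduced special fibre of the two-chart model. -/
structure SpecialFibre (W : ValuationSubring K) (L : LevelData K F fam q r) (T : F) : Prop where
  base : BaseData W q
  unique_ext : UniqueExt W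
  cover : Cover K T
  mem_fixPar_iff : ∀ σ : F ≃ₐ[K] F, σ ∈ fixPar K T ↔ σ ∈ L.autGroup
  isVert_inv : ∀ V : ValuationSubring F, IsVert W q T⁻¹ V ↔ IsVert W q T V
  good₀ : ∀ M, IsPoint W q T M → GoodPoint W q T M
  good₁ : ∀ M, IsPoint W q T⁻¹ M → GoodPoint W q T⁻¹ M
  /-- Along each component exactly one line of `q`-torsion reduces to the origin. -/
  kernel : ∀ V, IsVert W q T V → ∃ P : L.curve.toAffine.Point, P ≠ 0 ∧ q • P = 0 ∧
    ∀ Q : L.curve.toAffine.Point, q • Q = 0 → (InKer V Q ↔ Q ∈ AddSubgroup.zmultiples P)
  /-- Components through a point are told apart by their lines (first chart). -/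
  separated₀ : ∀ M V V', IsPoint W q T M → IsVert W q T V → Through W T M V → IsVert W q T V' →
    Through W T M V' →
    (∀ Q : L.curve.toAffine.Point, q • Q = 0 → (InKer V Q ↔ InKer V' Q)) → V = V'
  /-- Components through a point are told apart by their lines (second chart). -/
  separated₁ : ∀ M V V', IsPoint W q T⁻¹ M → IsVert W q T⁻¹ V → Through W T⁻¹ M V →
    IsVert W q T⁻¹ V' → Through W T⁻¹ M V' →
    (∀ Q : L.curve.toAffine.Point, q • Q = 0 → (InKer V Q ↔ InKer V' Q)) → V = V'
  /-- The inertia group of a component: every automorphism of the `q`-torsion which stabilises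
  the line and is trivial on the quotient. -/
  inertia : ∀ V, IsVert W q T V → ∀ P Q : L.curve.toAffine.Point, P ≠ 0 → q • P = 0 →
    q • Q = 0 → InKer V P → ¬InKer V Q → ∀ a b : ℕ, ¬q ∣ a →
    ∃ σ, σ ∈ L.levelFix ∧ σ ∈ inertiaV K T V ∧ ∃ hσ : σ ∈ L.autGroup,
      L.act hσ P = a • P ∧ L.act hσ Q = Q + b • P
  /-- A supersingular parameter: the components through a point over it are told apart by their
  lines, and all lines occur. -/
  supersingular : ∃ w : W, ∀ M, IsPoint W q T M → T - algebraMap K F w ∈ M.nonunits →
    (∀ V V', IsVert W q T V → Through W T M V → IsVert W q T V' → Through W T M V' →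
      (∀ Q : L.curve.toAffine.Point, q • Q = 0 → (InKer V Q ↔ InKer V' Q)) → V = V') ∧
    ∀ P : L.curve.toAffine.Point, P ≠ 0 → q • P = 0 →
      ∃ V, IsVert W q T V ∧ Through W T M V ∧ InKer V P

end Fermat.Agent.Carayol
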