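import Mathlib.Algebra.Ring.Subring.Basic
import Mathlib.RingTheory.Noetherian.Basic
import Mathlib.Algebra.BigOperators.Field
import Mathlib.Algebra.Ring.GeomSum
import Mathlib.Tactic.LinearCombination
import Mathlib.Tactic.FieldSimp
import Mathlib.Tactic.Ring

/-!
# Gluing roots on two charts

Gluing `n`th roots on a two-chart model.

`rootSections R n f` is the module of `h` with `h ^ n / f ∈ R`, for a root-closed subring `R` of a
field.  If each chart has a section that is an `n`th root of `f` modulo the radical of `(π)`, and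
the two agree there, they lift uniquely modulo every power of `π`; a bound on the `π`-torsion
of the Čech cokernel then produces a nonzero global `h` with `h ^ n / f` in both charts.

Main results: `exists_global_rootSection`, `exists_torsion_bound`.
-/

set_option autoImplicit false

namespace Fermat.Agent.Carayol

variable {F : Type*} [Field F]

/-- Membership in a subring passes from a positive power to its base. -/
def RootClosed (R : Subring F) : Prop :=
  ∀ (x : F) (m : ℕ), 0 < m → x ^ m ∈ R → x ∈ R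

/-- The elements whose `n`th power is `f` times an element of `R`. -/
def IsRootSection (R : Subring F) (n : ℕ) (f h : F) : Prop :=
  h ^ n / f ∈ R

namespace IsRootSection

variable {R : Subring F} {n : ℕ} {f h h' : F}

theorem pow_mul_pow (hR : RootClosed R) (hn : 0 < n) (hh : IsRootSection R n f h)
    (hh' : IsRootSection R n f h') {i j : ℕ} (hij : i + j = n) : h ^ i * h' ^ j / f ∈ R := by
  refine hR _ n hn ?_
  have : (h ^ i * h' ^ j / f) ^ n = (h ^ n / f) ^ i * (h' ^ n / f) ^ j := by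
    subst hij
    rw [div_pow, mul_pow, div_pow, div_pow, ← pow_mul, ← pow_mul, ← pow_mul, ← pow_mul,
      div_mul_div_comm, mul_comm i, mul_comm j, ← pow_add]
  rw [this]
  exact R.mul_mem (R.pow_mem hh _) (R.pow_mem hh' _)

theorem add (hR : RootClosed R) (hn : 0 < n) (hh : IsRootSection R n f h)
    (hh' : IsRootSection R n f h') : IsRootSection R n f (h + h') := by
  unfold IsRootSection
  rw [add_pow, Finset.sum_div]
  refine R.sum_mem fun i hi => ?_
  rw [mul_div_right_comm]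
  exact R.mul_mem (pow_mul_pow hR hn hh hh'
    (Nat.add_sub_cancel' (Nat.lt_succ_iff.mp (Finset.mem_range.mp hi)))) (natCast_mem R _)

theorem smul {a : F} (ha : a ∈ R) (hh : IsRootSection R n f h) : IsRootSection R n f (a * h) := by
  unfold IsRootSection
  rw [mul_pow, mul_div_assoc]
  exact R.mul_mem (R.pow_mem ha _) hh

theorem neg (hh : IsRootSection R n f h) : IsRootSection R n f (-h) := by
  simpa using hh.smul (R.neg_mem R.one_mem)

theorem sub (hR : RootClosed R) (hn : 0 < n) (hh : IsRootSection R n f h)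
    (hh' : IsRootSection R n f h') : IsRootSection R n f (h - h') := by
  simpa only [sub_eq_add_neg] using hh.add hR hn hh'.neg

theorem mono {R' : Subring F} (hle : R ≤ R') (hh : IsRootSection R n f h) :
    IsRootSection R' n f h :=
  hle hh

theorem zero (hn : 0 < n) : IsRootSection R n f (0 : F) := by
  simp [IsRootSection, zero_pow hn.ne', R.zero_mem]

end IsRootSection

/-- The module of root sections over a coefficient ring contained in `R`. -/
def rootSections (W R : Subring F) (hWR : W ≤ R) (hR : RootClosed R) {n : ℕ} (hn : 0 < n)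
    (f : F) : Submodule W F where
  carrier := {h | IsRootSection R n f h}
  zero_mem' := IsRootSection.zero hn
  add_mem' := fun hh hh' => hh.add hR hn hh'
  smul_mem' := fun a _ hh => hh.smul (hWR a.2)

theorem mem_rootSections {W R : Subring F} {hWR : W ≤ R} {hR : RootClosed R} {n : ℕ}
    {hn : 0 < n} {f h : F} :
    h ∈ rootSections W R hWR hR hn f ↔ IsRootSection R n f h := Iff.rfl

/-- `x` is a multiple of `π` in `R`. -/
def DvdIn (R : Subring F) (π x : F) : Prop :=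
  ∃ y ∈ R, x = π * y

theorem DvdIn.mul {R : Subring F} {π x a : F} (h : DvdIn R π x) (ha : a ∈ R) :
    DvdIn R π (x * a) := by
  obtain ⟨y, hy, rfl⟩ := h
  exact ⟨y * a, R.mul_mem hy ha, by ring⟩

theorem DvdIn.pow {R : Subring F} {π x : F} (h : DvdIn R π x) (k : ℕ) :
    DvdIn R (π ^ k) (x ^ k) := by
  obtain ⟨y, hy, rfl⟩ := h
  exact ⟨y ^ k, R.pow_mem hy _, mul_pow ..⟩

theorem DvdIn.add {R : Subring F} {π x y : F} (hx : DvdIn R π x) (hy : DvdIn R π y) :
    DvdIn R π (x + y) := by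
  obtain ⟨u, hu, rfl⟩ := hx
  obtain ⟨v, hv, rfl⟩ := hy
  exact ⟨u + v, R.add_mem hu hv, (mul_add ..).symm⟩

theorem DvdIn.mul_left {R : Subring F} {π x a : F} (h : DvdIn R π x) (ha : a ∈ R) :
    DvdIn R π (a * x) := mul_comm x a ▸ h.mul ha

theorem DvdIn.neg {R : Subring F} {π x : F} (h : DvdIn R π x) : DvdIn R π (-x) := by
  simpa using h.mul_left (R.neg_mem R.one_mem)

theorem DvdIn.trans {R : Subring F} {π x y : F} (h : DvdIn R π x) (h' : DvdIn R x y) :
    DvdIn R π y := by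
  obtain ⟨v, hv, rfl⟩ := h'
  exact h.mul hv

theorem DvdIn.mono {R R' : Subring F} (hle : R ≤ R') {π x : F} (h : DvdIn R π x) :
    DvdIn R' π x :=
  let ⟨y, hy, e⟩ := h
  ⟨y, hle hy, e⟩

theorem dvdIn_pow_of_le {R : Subring F} {π : F} (hπ : π ∈ R) {j k : ℕ} (h : j ≤ k) :
    DvdIn R (π ^ j) (π ^ k) :=
  ⟨π ^ (k - j), R.pow_mem hπ _, by rw [← pow_add, Nat.add_sub_cancel' h]⟩

/-- `x` is nilpotent modulo `π` in `R`. -/
def NilMod (R : Subring F) (π x : F) : Prop :=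
  x ∈ R ∧ ∃ e : ℕ, DvdIn R π (x ^ e)

namespace NilMod

variable {R : Subring F} {π x y : F}

theorem mem (h : NilMod R π x) : x ∈ R := h.1

theorem of_dvdIn (h : DvdIn R π x) (hπ : π ∈ R) : NilMod R π x :=
  ⟨by obtain ⟨y, hy, rfl⟩ := h; exact R.mul_mem hπ hy, 1, by simpa using h⟩

theorem mul (h : NilMod R π x) (hy : y ∈ R) : NilMod R π (x * y) :=
  let ⟨hx, e, he⟩ := h
  ⟨R.mul_mem hx hy, e, by rw [mul_pow]; exact he.mul (R.pow_mem hy e)⟩

theorem add (hx : NilMod R π x) (hy : NilMod R π y) : NilMod R π (x + y) := by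
  obtain ⟨hxR, a, ha⟩ := hx
  obtain ⟨hyR, b, hb⟩ := hy
  refine ⟨R.add_mem hxR hyR, a + b, ?_⟩
  rw [add_pow]
  refine Finset.sum_induction _ (DvdIn R π) (fun _ _ h h' => h.add h')
    ⟨0, R.zero_mem, (mul_zero π).symm⟩ fun i _ => ?_
  refine DvdIn.mul ?_ (natCast_mem R _)
  rcases le_or_gt a i with h | h
  · rw [← Nat.add_sub_cancel' h, pow_add, mul_assoc]
    exact ha.mul (R.mul_mem (R.pow_mem hxR _) (R.pow_mem hyR _))
  · rw [show a + b - i = b + (a - i) by omega, pow_add]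
    exact (hb.mul (R.pow_mem hyR _)).mul_left (R.pow_mem hxR _)

theorem of_pow (hR : RootClosed R) {m : ℕ} (hm : 0 < m) (h : NilMod R π (x ^ m)) :
    NilMod R π x :=
  let ⟨hx, e, he⟩ := h
  ⟨hR x m hm hx, m * e, by rwa [pow_mul]⟩

end NilMod

/-- `1 + x` may be cancelled modulo `π ^ k` when `x` is nilpotent modulo `π`. -/
theorem dvdIn_of_dvdIn_mul_one_add {R : Subring F} {π x y : F} (hx : NilMod R π x) (hy : y ∈ R)
    {k : ℕ} (h : DvdIn R (π ^ k) (y * (1 + x))) : DvdIn R (π ^ k) y := by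
  obtain ⟨hxR, e, he⟩ := hx
  have hS : (∑ i ∈ Finset.range (e * k), (-x) ^ i) ∈ R :=
    R.sum_mem fun i _ => R.pow_mem (R.neg_mem hxR) i
  have hgeom : (1 + x) * ∑ i ∈ Finset.range (e * k), (-x) ^ i = 1 - (-x) ^ (e * k) := by
    rw [← mul_neg_geom_sum (-x) (e * k), sub_neg_eq_add]
  have he' : DvdIn R (π ^ k) ((-x) ^ (e * k)) := by
    rw [pow_mul, neg_pow, mul_pow]
    exact (he.pow k).mul_left (R.pow_mem (R.pow_mem (R.neg_mem R.one_mem) _) _)
  have h1 := (h.mul hS).add (he'.mul_left hy)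
  rwa [mul_assoc, hgeom, mul_sub, mul_one, sub_add_cancel] at h1

/-- The binomial expansion to second order. -/
theorem exists_one_add_pow_eq {R : Subring F} {x : F} (hx : x ∈ R) (m : ℕ) :
    ∃ r ∈ R, (1 + x) ^ m = 1 + m * x + x ^ 2 * r := by
  induction m with
  | zero => exact ⟨0, R.zero_mem, by simp⟩
  | succ m ih =>
    obtain ⟨r, hr, e⟩ := ih
    refine ⟨r + m + x * r, R.add_mem (R.add_mem hr (natCast_mem R m)) (R.mul_mem hx hr), ?_⟩
    rw [pow_succ, e]
    push_cast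
    ring

section Lifting

variable {R : Subring F} {π : F} {n : ℕ} {f : F}

/-- One Newton step squares the error. -/
theorem exists_newton_step (hinv : (n : F)⁻¹ ∈ R) (hn0 : (n : F) ≠ 0) {s : F}
    (hs : s ^ n / f - 1 ∈ R) :
    ∃ b ∈ R, DvdIn R ((s ^ n / f - 1) ^ 2) ((b * s) ^ n / f - 1) ∧
      DvdIn R (s ^ n / f - 1) (b - 1) := by
  set a := s ^ n / f - 1 with ha
  set x := -(a * (n : F)⁻¹) with hx
  have hxR : x ∈ R := R.neg_mem (R.mul_mem hs hinv)
  obtain ⟨r, hr, hpow⟩ := exists_one_add_pow_eq hxR n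
  refine ⟨1 + x, R.add_mem R.one_mem hxR,
    ⟨-1 + (1 + a) * (n : F)⁻¹ ^ 2 * r, R.add_mem (R.neg_mem R.one_mem)
      (R.mul_mem (R.mul_mem (R.add_mem R.one_mem hs) (R.pow_mem hinv 2)) hr), ?_⟩,
    ⟨-(n : F)⁻¹, R.neg_mem hinv, by rw [hx]; ring⟩⟩
  have hnx : (n : F) * x = -a := by rw [hx]; field_simp
  rw [mul_pow, mul_div_assoc, show s ^ n / f = 1 + a by rw [ha]; ring, hpow, hnx, hx]
  ring

/-- An `n`th root of `f` modulo the radical of `(π)` improves to one modulo `π ^ k`. -/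
theorem exists_lift (hn0 : (n : F) ≠ 0) (hinv : (n : F)⁻¹ ∈ R) {s : F}
    (hs : NilMod R π (s ^ n / f - 1)) (k : ℕ) :
    ∃ b ∈ R, DvdIn R (π ^ k) ((b * s) ^ n / f - 1) ∧ NilMod R π (b - 1) := by
  obtain ⟨hsR, e, he⟩ := hs
  suffices h : ∀ j : ℕ, ∃ b ∈ R, DvdIn R ((s ^ n / f - 1) ^ (2 ^ j)) ((b * s) ^ n / f - 1) ∧
      DvdIn R (s ^ n / f - 1) (b - 1) by
    obtain ⟨b, hb, h1, h2⟩ := h (e * k)
    refine ⟨b, hb, ((he.pow k).trans ?_).trans h1, ?_⟩
    · rw [← pow_mul]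
      exact dvdIn_pow_of_le hsR (Nat.lt_two_pow_self).le
    · obtain ⟨y, hy, e'⟩ := h2
      rw [e']
      exact NilMod.mul ⟨hsR, e, he⟩ hy
  intro j
  induction j with
  | zero => exact ⟨1, R.one_mem, ⟨1, R.one_mem, by simp⟩, ⟨0, R.zero_mem, by simp⟩⟩
  | succ j ih =>
    obtain ⟨b, hb, h1, h2⟩ := ih
    have hbs : (b * s) ^ n / f - 1 ∈ R := by
      obtain ⟨y, hy, e'⟩ := h1; rw [e']; exact R.mul_mem (R.pow_mem hsR _) hy
    obtain ⟨b', hb', h1', h2'⟩ := exists_newton_step hinv hn0 hbs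
    refine ⟨b' * b, R.mul_mem hb' hb, ?_, ?_⟩
    · rw [mul_assoc, pow_succ, pow_mul]
      exact (h1.pow 2).trans h1'
    · have hdvd : DvdIn R (s ^ n / f - 1) ((b * s) ^ n / f - 1) := by
        refine DvdIn.trans ?_ h1
        simpa using dvdIn_pow_of_le hsR (Nat.one_le_two_pow : 1 ≤ 2 ^ j)
      have h3 := (hdvd.trans h2').mul hb
      rw [sub_mul, one_mul] at h3
      simpa using h3.add h2

/-- Two `n`th roots modulo `π ^ k` that agree modulo the radical agree modulo `π ^ k`. -/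
theorem exists_sub_eq_mul (hR : RootClosed R) (hn : 0 < n) (hn0 : (n : F) ≠ 0)
    (hinv : (n : F)⁻¹ ∈ R) (hπ : π ∈ R) {s t : F} (hs : IsRootSection R n f s)
    (ht : IsRootSection R n f t) {k : ℕ} (hk : 0 < k) (hsk : DvdIn R (π ^ k) (s ^ n / f - 1))
    (htk : DvdIn R (π ^ k) (t ^ n / f - 1)) (hd : NilMod R π ((s - t) ^ n / f)) :
    ∃ d, IsRootSection R n f d ∧ s - t = π ^ k * d := by
  set A := s ^ n / f with hA
  set e := (s - t) * s ^ (n - 1) / f with he
  have hAR : A ∈ R := hs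
  have heR : e ∈ R := by
    simpa [he] using IsRootSection.pow_mul_pow hR hn (hs.sub hR hn ht) hs
      (Nat.add_sub_cancel' hn : 1 + (n - 1) = n)
  have heN : NilMod R π e := by
    refine NilMod.of_pow hR hn ?_
    have : e ^ n = (s - t) ^ n / f * A ^ (n - 1) := by
      rw [he, hA, div_pow, mul_pow, div_pow, ← pow_mul, ← pow_mul, mul_comm (n - 1) n,
        div_mul_div_comm, ← pow_succ', Nat.sub_add_cancel hn]
    rw [this]
    exact hd.mul (R.pow_mem hAR _)
  have hAn : NilMod R π (A - 1) := by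
    refine NilMod.of_dvdIn (DvdIn.trans ?_ hsk) hπ
    simpa using dvdIn_pow_of_le hπ hk
  -- `(A - e) ^ n = t ^ n / f * A ^ (n - 1)`
  have hkey : (A - e) ^ n = t ^ n / f * A ^ (n - 1) := by
    obtain ⟨m, rfl⟩ : ∃ m, n = m + 1 := ⟨n - 1, (Nat.sub_add_cancel hn).symm⟩
    rw [show A - e = t * s ^ m / f by rw [hA, he]; simp [pow_succ]; ring, hA,
      Nat.add_sub_cancel, div_pow, mul_pow, div_pow, ← pow_mul, ← pow_mul, mul_comm m,
      div_mul_div_comm, ← pow_succ']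
  have hsum : (∑ i ∈ Finset.range n, A ^ i * (A - e) ^ (n - 1 - i)) * e =
      (A - t ^ n / f) * A ^ (n - 1) := by
    have := geom_sum₂_mul A (A - e) n
    rw [sub_sub_cancel] at this
    rw [this, hkey, sub_mul, ← pow_succ', Nat.sub_add_cancel hn]
  have hdvd : DvdIn R (π ^ k) ((A - t ^ n / f) * A ^ (n - 1)) := by
    refine DvdIn.mul ?_ (R.pow_mem hAR _)
    simpa [hA] using hsk.add htk.neg
  -- the sum is `n` up to elements nilpotent modulo `π`
  have hone : ∀ m : ℕ, ∀ y : F, NilMod R π (y - 1) → NilMod R π (y ^ m - 1) := fun m y hy => by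
    rw [← geom_sum_mul, mul_comm]
    refine hy.mul (R.sum_mem fun i _ => R.pow_mem ?_ i)
    simpa using R.add_mem hy.mem R.one_mem
  have hAe : NilMod R π (A - e - 1) := by
    rw [show A - e - 1 = (A - 1) + e * (-1) by ring]
    exact hAn.add (heN.mul (R.neg_mem R.one_mem))
  have hz : NilMod R π ((∑ i ∈ Finset.range n, A ^ i * (A - e) ^ (n - 1 - i)) - n) := by
    rw [show (n : F) = ∑ _i ∈ Finset.range n, (1 : F) by simp, ← Finset.sum_sub_distrib]
    refine Finset.sum_induction _ (NilMod R π) (fun _ _ h h' => h.add h')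
      ⟨R.zero_mem, 1, 0, R.zero_mem, by simp⟩ fun i _ => ?_
    rw [show ∀ u v : F, u * v - 1 = (u - 1) * v + (v - 1) from fun u v => by ring]
    exact ((hone i A hAn).mul (R.pow_mem (R.sub_mem hAR heR) _)).add (hone _ _ hAe)
  obtain ⟨e', he', hee⟩ : DvdIn R (π ^ k) e := by
    refine dvdIn_of_dvdIn_mul_one_add (hz.mul hinv) heR ?_
    rw [show e * (1 + ((∑ i ∈ Finset.range n, A ^ i * (A - e) ^ (n - 1 - i)) - n) * (n : F)⁻¹) =
      (∑ i ∈ Finset.range n, A ^ i * (A - e) ^ (n - 1 - i)) * e * (n : F)⁻¹ by field_simp; ring,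
      hsum]
    exact hdvd.mul hinv
  obtain ⟨a', ha', haa⟩ := hsk
  refine ⟨e' * s - a' * (s - t), (hs.smul he').sub hR hn ((hs.sub hR hn ht).smul ha'), ?_⟩
  have h1 : (s - t) * A = s * e := by
    rw [hA, he, ← mul_div_assoc, ← mul_div_assoc]
    congr 1
    rw [mul_comm s, mul_assoc, ← pow_succ, Nat.sub_add_cancel hn]
  linear_combination h1 + s * hee - (s - t) * haa

end Lifting

/-- **Gluing theorem.** -/
theorem exists_global_rootSection {R₀ R₁ R : Subring F} {π : F} {n : ℕ} {f : F}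
    (h₀ : R₀ ≤ R) (h₁ : R₁ ≤ R) (hR₀ : RootClosed R₀) (hR₁ : RootClosed R₁) (hR : RootClosed R)
    (hn : 0 < n) (hn0 : (n : F) ≠ 0) (hinv₀ : (n : F)⁻¹ ∈ R₀) (hinv₁ : (n : F)⁻¹ ∈ R₁)
    (hπ₀ : π ∈ R₀) (hπ₁ : π ∈ R₁) (hπ : π ≠ 0) (hπu : π⁻¹ ∉ R₀)
    {s₀ s₁ : F} (hs₀ : IsRootSection R₀ n f s₀) (hs₁ : IsRootSection R₁ n f s₁)
    (ha₀ : NilMod R₀ π (s₀ ^ n / f - 1)) (ha₁ : NilMod R₁ π (s₁ ^ n / f - 1))
    (hd : NilMod R π ((s₀ - s₁) ^ n / f))
    {c : ℕ} (hfin : ∀ (k : ℕ) (d : F), IsRootSection R n f d →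
      (∃ l₀ l₁, IsRootSection R₀ n f l₀ ∧ IsRootSection R₁ n f l₁ ∧ π ^ k * d = l₀ + l₁) →
      ∃ l₀ l₁, IsRootSection R₀ n f l₀ ∧ IsRootSection R₁ n f l₁ ∧ π ^ c * d = l₀ + l₁) :
    ∃ h, h ≠ 0 ∧ IsRootSection R₀ n f h ∧ IsRootSection R₁ n f h := by
  obtain ⟨k, hk⟩ : ∃ k, k = c * n + 1 := ⟨_, rfl⟩
  obtain ⟨b₀, hb₀, hl₀, hbn₀⟩ := exists_lift hn0 hinv₀ ha₀ k
  obtain ⟨b₁, hb₁, hl₁, hbn₁⟩ := exists_lift hn0 hinv₁ ha₁ k
  have hg₀ := hs₀.smul hb₀
  have hg₁ := hs₁.smul hb₁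
  have hπR : π ∈ R := h₀ hπ₀
  have hnil : NilMod R π ((b₀ * s₀ - b₁ * s₁) ^ n / f) := by
    -- the root sections nilpotent modulo `π` form a group
    have hadd : ∀ u v : F, IsRootSection R n f u → IsRootSection R n f v →
        NilMod R π (u ^ n / f) → NilMod R π (v ^ n / f) → NilMod R π ((u + v) ^ n / f) := by
      intro u v hu hv hun hvn
      rw [add_pow, Finset.sum_div]
      refine Finset.sum_induction _ (NilMod R π) (fun _ _ h h' => h.add h')
        ⟨R.zero_mem, 1, 0, R.zero_mem, by simp⟩ fun i hi => ?_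
      have hi' : i ≤ n := Nat.lt_succ_iff.mp (Finset.mem_range.mp hi)
      rw [mul_div_right_comm]
      refine NilMod.mul ?_ (natCast_mem R _)
      refine NilMod.of_pow hR hn ?_
      have : (u ^ i * v ^ (n - i) / f) ^ n = (u ^ n / f) ^ i * (v ^ n / f) ^ (n - i) := by
        obtain ⟨j, rfl⟩ := Nat.exists_eq_add_of_le hi'
        rw [Nat.add_sub_cancel_left, div_pow, mul_pow, div_pow, div_pow, ← pow_mul, ← pow_mul,
          ← pow_mul, ← pow_mul, div_mul_div_comm, mul_comm i, mul_comm j, ← pow_add]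
      rw [this]
      rcases Nat.eq_zero_or_pos i with rfl | hi0
      · obtain ⟨m, hm⟩ := Nat.exists_eq_add_of_le hn
        rw [pow_zero, one_mul, Nat.sub_zero, show n = m + 1 by omega, pow_succ']
        rw [show m + 1 = n by omega]
        exact hvn.mul (R.pow_mem hv m)
      · obtain ⟨m, rfl⟩ : ∃ m, i = m + 1 := ⟨i - 1, by omega⟩
        rw [pow_succ', mul_assoc]
        exact hun.mul (R.mul_mem (R.pow_mem hu m) (R.pow_mem hv _))
    have hmono : ∀ {R' : Subring F}, R' ≤ R → ∀ {x : F}, NilMod R' π x → NilMod R π x :=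
      fun hle _ h => ⟨hle h.1, h.2.choose, h.2.choose_spec.mono hle⟩
    have hsc : ∀ u b : F, IsRootSection R n f u → NilMod R π (b - 1) →
        NilMod R π (((b - 1) * u) ^ n / f) := by
      intro u b hu hb
      rw [mul_pow, mul_div_assoc]
      refine NilMod.mul ?_ hu
      obtain ⟨m, hm⟩ := Nat.exists_eq_add_of_le hn
      rw [show n = m + 1 by omega, pow_succ']
      exact hb.mul (R.pow_mem hb.mem m)
    have hu₀ := hs₀.mono h₀
    have hu₁ := hs₁.mono h₁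
    have hm1 : b₀ - 1 ∈ R := h₀ (R₀.sub_mem hb₀ R₀.one_mem)
    have hm2 : -(b₁ - 1) ∈ R := h₁ (R₁.neg_mem (R₁.sub_mem hb₁ R₁.one_mem))
    rw [show b₀ * s₀ - b₁ * s₁ = ((s₀ - s₁) + (b₀ - 1) * s₀) + (-(b₁ - 1)) * s₁ by ring]
    refine hadd _ _ ((hu₀.sub hR hn hu₁).add hR hn (hu₀.smul hm1)) (hu₁.smul hm2)
      (hadd _ _ (hu₀.sub hR hn hu₁) (hu₀.smul hm1) hd (hsc _ _ hu₀ (hmono h₀ hbn₀))) ?_
    have h2 : NilMod R π ((-(b₁ - 1) + 1) - 1) := by
      simpa using (hmono h₁ hbn₁).mul (R.neg_mem R.one_mem)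
    simpa using hsc s₁ (-(b₁ - 1) + 1) hu₁ h2
  obtain ⟨d, hdR, hd'⟩ := exists_sub_eq_mul hR hn hn0 (h₀ hinv₀) hπR (hg₀.mono h₀) (hg₁.mono h₁)
    (by omega) (hl₀.mono h₀) (hl₁.mono h₁) hnil
  obtain ⟨l₀, l₁, hl₀', hl₁', hdec⟩ := hfin k d hdR
    ⟨b₀ * s₀, -(b₁ * s₁), hg₀, hg₁.neg, by rw [← hd']; ring⟩
  refine ⟨π ^ c * (b₀ * s₀) - π ^ k * l₀, ?_,
    (hg₀.smul (R₀.pow_mem hπ₀ c)).sub hR₀ hn (hl₀'.smul (R₀.pow_mem hπ₀ k)), ?_⟩
  · intro h
    obtain ⟨a, ha, hA⟩ := hl₀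
    have h1 : π ^ c * (b₀ * s₀) = π ^ k * l₀ := sub_eq_zero.mp h
    have h2 : π ^ (c * n) * (1 + π ^ k * a) = π ^ (k * n) * (l₀ ^ n / f) := by
      have := congrArg (fun u => u ^ n / f) h1
      simp only [mul_pow (π ^ c), mul_pow (π ^ k), mul_div_assoc, ← pow_mul] at this
      rw [← hA, add_sub_cancel]
      exact this
    apply hπu
    have hkn : c * n + 1 ≤ k * n := by
      rw [hk]; calc c * n + 1 = (c * n + 1) * 1 := (mul_one _).symm
        _ ≤ (c * n + 1) * n := Nat.mul_le_mul_left _ hn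
    obtain ⟨j, hj⟩ := Nat.exists_eq_add_of_le hkn
    rw [hj, pow_add, pow_succ, mul_assoc, mul_assoc, mul_right_inj' (pow_ne_zero _ hπ)] at h2
    -- `1 + π ^ k * a = π * y`, so `π` is invertible
    have h3 : π⁻¹ = π ^ j * (l₀ ^ n / f) - π ^ (c * n) * a := by
      refine inv_eq_of_mul_eq_one_right ?_
      rw [hk, pow_succ] at h2
      linear_combination -h2
    rw [h3]
    exact R₀.sub_mem (R₀.mul_mem (R₀.pow_mem hπ₀ _) hl₀') (R₀.mul_mem (R₀.pow_mem hπ₀ _) ha)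
  · have : π ^ c * (b₀ * s₀) - π ^ k * l₀ = π ^ c * (b₁ * s₁) + π ^ k * l₁ := by
      linear_combination π ^ c * hd' + π ^ k * hdec
    rw [this]
    exact (hg₁.smul (R₁.pow_mem hπ₁ c)).add hR₁ hn (hl₁'.smul (R₁.pow_mem hπ₁ k))

/-- The hypothesis `hfin` of the gluing theorem holds as soon as the Čech cokernel is a finite
module over a Noetherian subring containing `π`. -/
theorem exists_torsion_bound {W R₀ R₁ R : Subring F} [IsNoetherianRing W] {π : F} (hπ : π ∈ W)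
    {n : ℕ} (hn : 0 < n) {f : F} (hW₀ : W ≤ R₀) (hW₁ : W ≤ R₁) (hW : W ≤ R)
    (hR₀ : RootClosed R₀) (hR₁ : RootClosed R₁) (hR : RootClosed R)
    (V : Submodule W F) (hV : V.FG)
    (hcover : rootSections W R hW hR hn f ≤
      rootSections W R₀ hW₀ hR₀ hn f ⊔ rootSections W R₁ hW₁ hR₁ hn f ⊔ V) :
    ∃ c : ℕ, ∀ (k : ℕ) (d : F), IsRootSection R n f d →
      (∃ l₀ l₁, IsRootSection R₀ n f l₀ ∧ IsRootSection R₁ n f l₁ ∧ π ^ k * d = l₀ + l₁) →
      ∃ l₀ l₁, IsRootSection R₀ n f l₀ ∧ IsRootSection R₁ n f l₁ ∧ π ^ c * d = l₀ + l₁ := by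
  set B := rootSections W R₀ hW₀ hR₀ hn f ⊔ rootSections W R₁ hW₁ hR₁ hn f with hB
  have hfg : (Submodule.map B.mkQ V).FG := hV.map _
  have : IsNoetherian W ↥(Submodule.map B.mkQ V) := isNoetherian_of_fg_of_noetherian _ hfg
  let g : ℕ →o Submodule W ↥(Submodule.map B.mkQ V) :=
    ⟨fun k => LinearMap.ker ((⟨π, hπ⟩ : W) ^ k • LinearMap.id), fun a b hab x hx => by
      simp only [LinearMap.mem_ker, LinearMap.smul_apply, LinearMap.id_coe, id_eq] at hx ⊢
      rw [← Nat.sub_add_cancel hab, pow_add, mul_smul, hx, smul_zero]⟩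
  obtain ⟨c, hc⟩ := monotone_stabilizes_iff_noetherian.mpr ‹_› g
  have hsmul : ∀ (j : ℕ) (x : F), ((⟨π, hπ⟩ : W) ^ j) • x = π ^ j * x := fun j x => by
    rw [Subring.smul_def]; simp
  refine ⟨c, fun k d hd ⟨l₀, l₁, hl₀, hl₁, e⟩ => ?_⟩
  obtain ⟨b, hb, v, hv, rfl⟩ := Submodule.mem_sup.mp (hcover (mem_rootSections.mpr hd))
  have hkey : ∀ j : ℕ, π ^ j * (b + v) ∈ B ↔
      (⟨B.mkQ v, Submodule.mem_map_of_mem hv⟩ : ↥(Submodule.map B.mkQ V)) ∈ g j := fun j => by
    simp only [g, OrderHom.coe_mk, LinearMap.mem_ker, LinearMap.smul_apply, LinearMap.id_coe, id_eq,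
      Subtype.ext_iff, Submodule.coe_smul, Submodule.mkQ_apply, Submodule.coe_zero,
      ← Submodule.Quotient.mk_smul, Submodule.Quotient.mk_eq_zero]
    rw [← hsmul, smul_add]
    exact B.add_mem_iff_right (B.smul_mem _ hb)
  have hk : π ^ k * (b + v) ∈ B := Submodule.mem_sup.mpr ⟨l₀, hl₀, l₁, hl₁, e.symm⟩
  have hc' : π ^ c * (b + v) ∈ B := by
    rw [hkey] at hk ⊢
    rcases le_total k c with h | h
    · exact g.monotone h hk
    · rwa [hc k h]
  obtain ⟨l₀, hl₀, l₁, hl₁, e⟩ := Submodule.mem_sup.mp hc'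
  exact ⟨l₀, l₁, hl₀, hl₁, e.symm⟩

end Fermat.Agent.Carayol
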