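import Fermat.Agent.Carayol.Level

/-!
# The `q`-torsion

The `q`-torsion of a level structure: it has order `q²` and is spanned by two independent points.

Main result: `exists_combo`.
-/

set_option autoImplicit false

open Polynomial

namespace Fermat.Agent.Carayol

variable {K F : Type*} [Field K] [CharZero K] [Field F] [DecidableEq F] [Algebra K F]
  {fam : WeierstrassCurve ℤ[X]} {q r : ℕ} [NeZero (q * r)] (L : LevelData K F fam q r)

namespace LevelData

theorem natCard_qTorsion (hΔ : fam.Δ ≠ 0) :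
    Nat.card {P : L.curve.toAffine.Point // q • P = 0} = q ^ 2 := by
  classical
  have hE := isElliptic_curve L hΔ
  have : CharZero F := charZero_of_injective_algebraMap (algebraMap K F).injective
  let Ω := AlgebraicClosure F
  have : CharZero Ω := charZero_of_injective_ringHom (algebraMap F Ω).injective
  have : (L.curve.map (algebraMap F Ω)).toAffine.IsElliptic := by
    have : L.curve.IsElliptic := hE
    exact inferInstanceAs (L.curve.map (algebraMap F Ω)).IsElliptic
  have hq : (q : Ω) ≠ 0 := Nat.cast_ne_zero.mpr (Nat.pos_of_ne_zero fun h => by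
    have := NeZero.ne (q * r); simp [h] at this).ne'
  rw [← EC.Torsion.natCard_setOf_nsmul_eq_zero
    (W := (L.curve.map (algebraMap F Ω)).toAffine) hq]
  refine Nat.card_congr (Equiv.ofBijective (fun P => ⟨pointMap (algebraMap F Ω) L.curve P.1, by
    rw [← map_nsmul, P.2, map_zero]⟩) ⟨fun P P' h => Subtype.ext
      (pointMap_injective _ _ (congrArg Subtype.val h)), fun Q => ?_⟩)
  obtain ⟨v, hv⟩ := L.exists_basis_eq_of_nsmul hΔ (algebraMap F Ω) Q.1
    (by rw [mul_comm, mul_nsmul', Q.2, nsmul_zero])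
  exact ⟨⟨L.basis v, pointMap_injective (algebraMap F Ω) L.curve (by
    rw [map_nsmul, hv, Q.2, map_zero])⟩, Subtype.ext hv⟩

theorem finite_qTorsion (hΔ : fam.Δ ≠ 0) (hq : q ≠ 0) :
    {P : L.curve.toAffine.Point | q • P = 0}.Finite := by
  have : Finite {P : L.curve.toAffine.Point // q • P = 0} :=
    Nat.finite_of_card_ne_zero (by rw [L.natCard_qTorsion hΔ]; exact pow_ne_zero _ hq)
  exact Set.finite_coe_iff.mp this

variable [Fact q.Prime]

theorem exists_qTorsion_notMem (hΔ : fam.Δ ≠ 0) {P : L.curve.toAffine.Point} (hP : q • P = 0) :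
    ∃ Q : L.curve.toAffine.Point, q • Q = 0 ∧ Q ∉ AddSubgroup.zmultiples P := by
  classical
  by_contra h
  push Not at h
  have hq := (Fact.out : q.Prime).two_le
  have hle : Nat.card {Q : L.curve.toAffine.Point // q • Q = 0} ≤
      Nat.card (AddSubgroup.zmultiples P) := by
    have : Finite (AddSubgroup.zmultiples P) := by
      refine (IsOfFinAddOrder.finite_zmultiples ?_).to_subtype
      exact isOfFinAddOrder_iff_nsmul_eq_zero.mpr ⟨q, by omega, hP⟩
    exact Nat.card_le_card_of_injective (fun Q => ⟨Q.1, h Q.1 Q.2⟩)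
      fun Q Q' e => Subtype.ext (congrArg (fun z : AddSubgroup.zmultiples P => z.1) e)
  rw [L.natCard_qTorsion hΔ, Nat.card_zmultiples] at hle
  have := Nat.le_of_dvd (by omega) (addOrderOf_dvd_of_nsmul_eq_zero hP)
  nlinarith

/-- Two independent points span the `q`-torsion. -/
theorem exists_combo (hΔ : fam.Δ ≠ 0) {P Q R : L.curve.toAffine.Point} (hP0 : P ≠ 0)
    (hP : q • P = 0) (hQ : q • Q = 0) (hQP : Q ∉ AddSubgroup.zmultiples P) (hR : q • R = 0) :
    ∃ i j : ℕ, R = i • P + j • Q := by
  classical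
  have hq0 : q ≠ 0 := (Fact.out : q.Prime).ne_zero
  have : NeZero q := ⟨hq0⟩
  have : Finite {S : L.curve.toAffine.Point // q • S = 0} :=
    Nat.finite_of_card_ne_zero (by rw [L.natCard_qTorsion hΔ]; exact pow_ne_zero _ hq0)
  let f : ZMod q × ZMod q → {S : L.curve.toAffine.Point // q • S = 0} := fun v =>
    ⟨v.1.val • P + v.2.val • Q, by
      rw [nsmul_add, smul_comm, hP, nsmul_zero, smul_comm, hQ, nsmul_zero, add_zero]⟩
  have hinj : Function.Injective f := by
    intro v w h
    have e := congrArg Subtype.val h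
    simp only [f] at e
    have hmem : ((v.2.val : ℤ) - w.2.val) • Q ∈ AddSubgroup.zmultiples P := by
      refine ⟨(w.1.val : ℤ) - v.1.val, ?_⟩
      simp only [sub_zsmul, natCast_zsmul]
      rw [← sub_eq_zero] at e ⊢
      rw [← neg_eq_zero, ← e]
      abel
    have hdvd : (q : ℤ) ∣ (v.2.val : ℤ) - w.2.val := by
      by_contra hnd
      obtain ⟨x, y, hxy⟩ :=
        (Nat.prime_iff_prime_int.mp (Fact.out : q.Prime)).coprime_iff_not_dvd.mpr hnd
      refine hQP ?_
      have hQ' : Q = y • (((v.2.val : ℤ) - w.2.val) • Q) := by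
        calc Q = (x * (q : ℤ) + y * ((v.2.val : ℤ) - w.2.val)) • Q := by rw [hxy, one_zsmul]
          _ = _ := by rw [add_zsmul, mul_zsmul, natCast_zsmul, hQ, zsmul_zero, zero_add, mul_zsmul]
      rw [hQ']
      exact AddSubgroup.zsmul_mem _ hmem y
    have h2 : v.2 = w.2 := by
      refine ZMod.val_injective q ?_
      have h1 : ((v.2.val : ℤ) : ZMod q) = ((w.2.val : ℤ) : ZMod q) :=
        ((ZMod.intCast_eq_intCast_iff_dvd_sub _ _ q).mpr (by rw [← neg_sub]; exact hdvd.neg_right))
      simpa using congrArg ZMod.val (by simpa using h1 : v.2 = w.2)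
    rw [h2] at e
    have e1 := add_right_cancel e
    refine Prod.ext (ZMod.val_injective q ?_) h2
    have ho : addOrderOf P = q := addOrderOf_eq_prime hP hP0
    have := nsmul_injOn_Iio_addOrderOf (x := P) (by rw [Set.mem_Iio, ho]; exact ZMod.val_lt v.1)
      (by rw [Set.mem_Iio, ho]; exact ZMod.val_lt w.1) e1
    exact this
  have hsurj : Function.Surjective f := by
    refine ((Nat.bijective_iff_injective_and_card f).mpr ⟨hinj, ?_⟩).2
    rw [L.natCard_qTorsion hΔ, Nat.card_prod, Nat.card_zmod, pow_two]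
  obtain ⟨v, hv⟩ := hsurj ⟨R, hR⟩
  exact ⟨v.1.val, v.2.val, (congrArg Subtype.val hv).symm⟩

end LevelData

end Fermat.Agent.Carayol
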