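import Fermat.Agent.Carayol.Fiber
import Fermat.Agent.Carayol.QTorsion
import Fermat.Agent.EC.Reduction.Torsion

/-!
# Reduction at valuation rings containing the parameter

Reduction of the curve of the family at valuation rings containing the parameter, and elementary
lemmas on polynomials over a valuation ring.

Main result: `exists_line`.
-/

set_option autoImplicit false

open Polynomial IsLocalRing Fermat.Agent.EC.Reduction

namespace Fermat.Agent.Carayol

section Poly

variable {F : Type*} [Field F] {V : ValuationSubring F}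

theorem mem_nonunits_iff_residue {b : F} (hb : b ∈ V) :
    b ∈ V.nonunits ↔ residue V ⟨b, hb⟩ = 0 := by
  rw [residue_eq_zero_iff, ValuationSubring.mem_nonunits_iff_exists_mem_maximalIdeal]
  exact ⟨fun ⟨_, h⟩ => h, fun h => ⟨hb, h⟩⟩

theorem inv_mem_nonunits_of_notMem {c : F} (hc : c ∉ V) : c⁻¹ ∈ V.nonunits :=
  (ValuationSubring.mem_nonunits_iff_or V).mpr (Or.inr (by rwa [inv_inv]))

theorem inv_mem_of_notMem {c : F} (hc : c ∉ V) : c⁻¹ ∈ V :=
  (V.mem_or_inv_mem c).resolve_left hc

/-- **Roots outside the valuation ring.** If the reduction of a split polynomial is nonzero, its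
degree is the number of integral roots and the product of the others balances the leading
coefficient. -/
theorem residue_split {p : V[X]} {a : F} {A B : Multiset F} (hA : ∀ c ∈ A, c ∉ V)
    (hB : ∀ c ∈ B, c ∈ V)
    (hp : p.map V.subtype = C a * ((A.map fun c => X - C c).prod * (B.map fun c => X - C c).prod))
    (h0 : p.map (residue V) ≠ 0) :
    (p.map (residue V)).natDegree = Multiset.card B ∧
      a * A.prod ∈ V ∧ a * A.prod ∉ V.nonunits := by
  classical
  set e := a * (A.map fun c => -c).prod with he
  let GA : V[X] := (A.attach.map fun c => 1 - C ⟨c.1⁻¹, inv_mem_of_notMem (hA c.1 c.2)⟩ * X).prod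
  let GB : V[X] := (B.attach.map fun c => X - C ⟨c.1, hB c.1 c.2⟩).prod
  have hGA : GA.map V.subtype = (A.map fun c => 1 - C c⁻¹ * X).prod := by
    simp only [GA, Polynomial.map_multiset_prod, Multiset.map_map, Function.comp_def,
      Polynomial.map_sub, Polynomial.map_one, Polynomial.map_mul, map_C, map_X]
    exact congrArg Multiset.prod (Multiset.attach_map_val' A fun c => 1 - C c⁻¹ * X)
  have hGB : GB.map V.subtype = (B.map fun c => X - C c).prod := by
    simp only [GB, Polynomial.map_multiset_prod, Multiset.map_map, Function.comp_def,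
      Polynomial.map_sub, map_C, map_X]
    exact congrArg Multiset.prod (Multiset.attach_map_val' B fun c => X - C c)
  have hAprod : (A.map fun c => X - C c).prod =
      C (A.map fun c => -c).prod * (A.map fun c => 1 - C c⁻¹ * X).prod := by
    rw [map_multiset_prod, Multiset.map_map, ← Multiset.prod_map_mul]
    refine congrArg Multiset.prod (Multiset.map_congr rfl fun c hc => ?_)
    have hc0 : c ≠ 0 := fun h => hA c hc (h ▸ V.zero_mem)
    simp only [Function.comp_apply, mul_sub, mul_one, ← mul_assoc, ← map_mul, neg_mul,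
      mul_inv_cancel₀ hc0, map_neg, map_one]
    ring
  have hpe : p.map V.subtype = C e * (GA.map V.subtype * GB.map V.subtype) := by
    rw [hp, hGA, hGB, hAprod, he, map_mul]
    ring
  have hGAr : GA.map (residue V) = 1 := by
    simp only [GA, Polynomial.map_multiset_prod, Multiset.map_map, Function.comp_def,
      Polynomial.map_sub, Polynomial.map_one, Polynomial.map_mul, map_C, map_X]
    refine Multiset.prod_eq_one fun x hx => ?_
    obtain ⟨c, -, rfl⟩ := Multiset.mem_map.mp hx
    rw [(mem_nonunits_iff_residue _).mp (inv_mem_nonunits_of_notMem (hA c.1 c.2)), map_zero,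
      zero_mul, sub_zero]
  have hGBm : (GB.map (residue V)).Monic ∧
      (GB.map (residue V)).natDegree = Multiset.card B := by
    simp only [GB, Polynomial.map_multiset_prod, Multiset.map_map, Function.comp_def,
      Polynomial.map_sub, map_C, map_X]
    refine ⟨monic_multiset_prod_of_monic _ _ fun c _ => monic_X_sub_C _, ?_⟩
    rw [natDegree_multiset_prod_of_monic _ fun f hf => by
        obtain ⟨c, -, rfl⟩ := Multiset.mem_map.mp hf
        exact monic_X_sub_C _, Multiset.map_map]
    simp
  have hae : a * A.prod = e ∨ a * A.prod = -e := by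
    have hneg : (A.map fun c => -c).prod = (-1) ^ Multiset.card A * A.prod :=
      Multiset.prod_map_neg A
    rw [he, hneg]
    rcases neg_one_pow_eq_or F (Multiset.card A) with h | h <;> rw [h]
    · exact Or.inl (by ring)
    · exact Or.inr (by ring)
  by_cases heV : e ∈ V
  · have hpV : p = C (⟨e, heV⟩ : V) * (GA * GB) := by
      refine Polynomial.map_injective V.subtype Subtype.val_injective ?_
      rw [hpe, Polynomial.map_mul, Polynomial.map_mul, map_C]
      rfl
    have hr : p.map (residue V) = C (residue V ⟨e, heV⟩) * GB.map (residue V) := by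
      rw [hpV, Polynomial.map_mul, Polynomial.map_mul, map_C, hGAr, one_mul]
    have he0 : residue V ⟨e, heV⟩ ≠ 0 := fun h => h0 (by rw [hr, h, map_zero, zero_mul])
    refine ⟨by rw [hr, natDegree_C_mul he0, hGBm.2], ?_⟩
    have hen : e ∉ V.nonunits := fun h => he0 ((mem_nonunits_iff_residue heV).mp h)
    rcases hae with h | h <;> rw [h]
    · exact ⟨heV, hen⟩
    · refine ⟨neg_mem heV, fun hn => hen ?_⟩
      rw [ValuationSubring.mem_nonunits_iff] at hn ⊢
      rwa [Valuation.map_neg] at hn
  · exfalso
    have hpV : C (⟨e⁻¹, inv_mem_of_notMem heV⟩ : V) * p = GA * GB := by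
      refine Polynomial.map_injective V.subtype Subtype.val_injective ?_
      rw [Polynomial.map_mul, hpe, map_C, Polynomial.map_mul, ← mul_assoc, ← map_mul]
      have he0 : e ≠ 0 := fun h => heV (h ▸ V.zero_mem)
      rw [show V.subtype (⟨e⁻¹, inv_mem_of_notMem heV⟩ : V) * e = 1 from inv_mul_cancel₀ he0,
        map_one, one_mul]
    have h := congrArg (fun f => f.map (residue V)) hpV
    simp only [Polynomial.map_mul, map_C, hGAr, one_mul] at h
    rw [(mem_nonunits_iff_residue _).mp (inv_mem_nonunits_of_notMem heV), map_zero, zero_mul] at h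
    exact hGBm.1.ne_zero h.symm

/-- Values of an integral polynomial at a pole. -/
theorem residue_eval_at_pole {p : V[X]} {d : ℕ} (hd : p.natDegree ≤ d) {x : F} (hx : x ∉ V) :
    Res (residue V) ((p.map V.subtype).eval x / x ^ d) (residue V (p.coeff d)) := by
  have hx0 : x ≠ 0 := fun h => hx (h ▸ V.zero_mem)
  have : Invertible x := invertibleOfNonzero hx0
  have h := eval₂_reflect_mul_pow V.subtype x d p hd
  rw [invOf_eq_inv] at h
  rw [eval_map, ← h, mul_div_cancel_right₀ _ (pow_ne_zero _ hx0)]
  let u : V := ⟨x⁻¹, inv_mem_of_notMem hx⟩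
  have e : eval₂ V.subtype x⁻¹ (reflect d p) = ((reflect d p).eval u : V) := by
    rw [show x⁻¹ = V.subtype u from rfl, eval₂_at_apply]
    rfl
  rw [e]
  refine ⟨Subtype.mem _, ?_⟩
  rw [Subtype.coe_eta, ← eval₂_at_apply (residue V) u,
    show residue V u = 0 from (mem_nonunits_iff_residue _).mp (inv_mem_nonunits_of_notMem hx),
    eval₂_at_zero, coeff_reflect, revAt_le (Nat.zero_le d), Nat.sub_zero]

end Poly

namespace LevelData

variable {K F : Type*} [Field K] [Field F] [DecidableEq F] [Algebra K F]
  {fam : WeierstrassCurve ℤ[X]} {q r : ℕ} (L : LevelData K F fam q r)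
  {V : ValuationSubring F} (hpar : L.par ∈ V)

/-- The parameter in the residue field. -/
noncomputable def parRes : ResidueField V := residue V ⟨L.par, hpar⟩

/-- The reduced curve. -/
noncomputable def resCurve : WeierstrassCurve (ResidueField V) :=
  fam.map (eval₂RingHom (Int.castRingHom (ResidueField V)) (L.parRes hpar))

theorem res_eval (p : ℤ[X]) : Res (residue V) (eval₂ (Int.castRingHom F) L.par p)
    (eval₂ (Int.castRingHom (ResidueField V)) (L.parRes hpar) p) := by
  let g : ℤ[X] →+* V := eval₂RingHom (Int.castRingHom V) ⟨L.par, hpar⟩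
  have h1 : V.subtype.comp g = eval₂RingHom (Int.castRingHom F) L.par :=
    Polynomial.ringHom_ext (fun n => by simp [g]) (by simp [g])
  have h2 : (residue V).comp g =
      eval₂RingHom (Int.castRingHom (ResidueField V)) (L.parRes hpar) :=
    Polynomial.ringHom_ext (fun n => by simp [g]) (by simp [g, parRes])
  refine ⟨?_, ?_⟩
  · rw [← coe_eval₂RingHom, ← h1]; exact (g p).2
  · rw [← coe_eval₂RingHom (Int.castRingHom (ResidueField V)), ← h2]
    exact congrArg (residue V) (Subtype.ext
      (show eval₂RingHom (Int.castRingHom F) L.par p = V.subtype (g p) by rw [← h1]; rfl))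

theorem reduces : Reduces (residue V) L.curve (L.resCurve hpar) :=
  ⟨L.res_eval hpar _, L.res_eval hpar _, L.res_eval hpar _, L.res_eval hpar _, L.res_eval hpar _⟩

/-- The model over the valuation ring. -/
theorem exists_model : ∃ E : WeierstrassCurve V,
    E.map V.subtype = L.curve ∧ E.map (residue V) = L.resCurve hpar :=
  ⟨(L.reduces hpar).model, (L.reduces hpar).model_map_subtype, (L.reduces hpar).model_map⟩

variable [CharZero K] [NeZero (q * r)]

omit [DecidableEq F] in
theorem inKer_iff_redTo_zero {W : WeierstrassCurve F} {k : Type*} [Field k] {π : V →+* k}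
    {W₀ : WeierstrassCurve k} {P : W.toAffine.Point} :
    InKer V P ↔ RedTo π W₀ P 0 := by
  rcases P with _ | ⟨x, y, h⟩
  · exact ⟨fun _ => rfl, fun _ => trivial⟩
  · exact ⟨fun hx => Or.inl ⟨hx, rfl⟩, fun h0 => h0.elim (fun h1 => h1.1)
      fun ⟨_, _, _, _, _, e⟩ => absurd e.symm (WeierstrassCurve.Affine.Point.some_ne_zero _)⟩

omit [CharZero K] [NeZero (q * r)] in
include hpar in
theorem inKer_add {P Q : L.curve.toAffine.Point} (hP : InKer V P) (hQ : InKer V Q) :
    InKer V (P + Q) := by
  classical
  refine (inKer_iff_redTo_zero (π := residue V) (W₀ := L.resCurve hpar)).mpr ?_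
  have h := (inKer_iff_redTo_zero.mp hP).add (L.reduces hpar)
    ((inKer_iff_redTo_zero (W₀ := L.resCurve hpar)).mp hQ)
  rwa [add_zero] at h

omit [CharZero K] [NeZero (q * r)] in
include hpar in
theorem inKer_nsmul {P : L.curve.toAffine.Point} (hP : InKer V P) (n : ℕ) :
    InKer V (n • P) := by
  induction n with
  | zero => rw [zero_smul]; trivial
  | succ n ih => rw [succ_nsmul]; exact L.inKer_add hpar ih hP

variable [Fact q.Prime]

include hpar in
/-- A kernel of reduction on `q`-torsion which is neither trivial nor everything is a line. -/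
theorem exists_line (hΔ : fam.Δ ≠ 0) {P Q : L.curve.toAffine.Point} (hP0 : P ≠ 0)
    (hP : q • P = 0) (hPk : InKer V P) (hQ : q • Q = 0) (hQk : ¬InKer V Q) :
    ∀ R : L.curve.toAffine.Point, q • R = 0 → (InKer V R ↔ R ∈ AddSubgroup.zmultiples P) := by
  have hmem : ∀ R ∈ AddSubgroup.zmultiples P, InKer V R := by
    intro R hR
    have : IsOfFinAddOrder P :=
      isOfFinAddOrder_iff_nsmul_eq_zero.mpr ⟨q, (Fact.out : q.Prime).pos, hP⟩
    obtain ⟨n, rfl⟩ := (this.mem_multiples_iff_mem_zmultiples).mpr hR
    exact L.inKer_nsmul hpar hPk n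
  have hQP : Q ∉ AddSubgroup.zmultiples P := fun h => hQk (hmem Q h)
  refine fun R hR => ⟨fun hk => ?_, hmem R⟩
  obtain ⟨i, j, rfl⟩ := L.exists_combo hΔ hP0 hP hQ hQP hR
  by_contra hn
  have hj : ¬q ∣ j := fun ⟨c, hc⟩ => hn (by
    rw [hc, mul_comm, mul_nsmul', hQ, nsmul_zero, add_zero]
    exact AddSubgroup.nsmul_mem _ (AddSubgroup.mem_zmultiples P) i)
  obtain ⟨u, v, hu⟩ : ∃ u v : ℕ, u * j = 1 + v * q := by
    obtain ⟨u, -, hu⟩ := Nat.exists_mul_mod_eq_one_of_coprime
      ((Nat.Prime.coprime_iff_not_dvd Fact.out).mpr hj).symm (Fact.out : q.Prime).one_lt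
    exact ⟨u, j * u / q, by
      conv_lhs => rw [mul_comm, ← Nat.mod_add_div (j * u) q, hu, mul_comm q]⟩
  refine hQk ?_
  have h1 : InKer V (u • (i • P + j • Q) + (q - 1) • (u • (i • P))) :=
    L.inKer_add hpar (L.inKer_nsmul hpar hk u)
      (L.inKer_nsmul hpar (L.inKer_nsmul hpar (L.inKer_nsmul hpar hPk i) u) _)
  have h2 : u • (i • P + j • Q) + (q - 1) • (u • (i • P)) = Q := by
    rw [smul_add, smul_smul u j, hu, add_smul, one_smul, mul_nsmul', hQ, nsmul_zero, add_zero,
      add_comm (u • i • P) Q, add_assoc, ← succ_nsmul',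
      Nat.sub_add_cancel (Fact.out : q.Prime).one_le, smul_comm u i P, smul_comm q i,
      smul_comm q u, hP, nsmul_zero, nsmul_zero, add_zero]
  rwa [h2] at h1

end LevelData

end Fermat.Agent.Carayol
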