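import Mathlib.FieldTheory.SeparableClosure
import Mathlib.FieldTheory.PurelyInseparable.Basic
import Mathlib.FieldTheory.KummerPolynomial
import Mathlib.FieldTheory.IsAlgClosed.AlgebraicClosure

/-!
# A degree bound for inseparable extensions

A lower bound for the degree of an extension containing a `q`th root of a non-`q`th power and
having many automorphisms.

Main result: `mul_card_le_finrank`.
-/

set_option autoImplicit false

open Polynomial

namespace Fermat.Agent.Carayol

/-- A separable `q`th root of an element of the ground field lies in the ground field. -/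
theorem mem_range_of_pow_eq {k L : Type*} [Field k] [Field L] [Algebra k L] {q : ℕ}
    [Fact q.Prime] [CharP L q] {x : L} {c : k} (hx : x ^ q = algebraMap k L c)
    (hsep : IsSeparable k x) : ∃ y : k, y ^ q = c := by
  have hroot : aeval x (X ^ q - C c) = 0 := by simp [hx]
  have hm : (X ^ q - C c).Monic := monic_X_pow_sub_C c (Fact.out : q.Prime).ne_zero
  have hint : IsIntegral k x := ⟨_, hm, hroot⟩
  by_contra hno
  push Not at hno
  have hirr := X_pow_sub_C_irreducible_of_prime (Fact.out : q.Prime) hno
  have he : minpoly k x = X ^ q - C c := (minpoly.eq_of_irreducible_of_monic hirr hroot hm).symm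
  have hs : (minpoly k x).Separable := hsep
  rw [he] at hs
  have : CharP k q := (RingHom.charP_iff _ (algebraMap k L).injective q).mpr inferInstance
  rw [separable_def, derivative_sub, derivative_X_pow, derivative_C, sub_zero,
    CharP.cast_eq_zero, map_zero, zero_mul, isCoprime_zero_right] at hs
  have := natDegree_eq_zero_of_isUnit hs
  rw [natDegree_X_pow_sub_C] at this
  exact (Fact.out : q.Prime).ne_zero this

/-- `q · #H ≤ [L : k]` for a set `H` of embeddings of `L`. -/
theorem mul_card_le_finrank {k L E : Type*} [Field k] [Field L] [Algebra k L] [Field E]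
    [Algebra k E] [FiniteDimensional k L] {q : ℕ} [Fact q.Prime] [CharP L q] {x : L} {c : k}
    (hx : x ^ q = algebraMap k L c) (hc : ∀ y : k, y ^ q ≠ c) (H : Set (L →ₐ[k] E)) :
    q * H.ncard ≤ Module.finrank k L := by
  set S := separableClosure k L
  have hcard : H.ncard ≤ Module.finrank k S := by
    let j : E →ₐ[k] AlgebraicClosure E := IsScalarTower.toAlgHom k E (AlgebraicClosure E)
    have h1 : H.ncard ≤ Nat.card (L →ₐ[k] AlgebraicClosure E) := by
      rw [← Nat.card_coe_set_eq]
      refine Nat.card_le_card_of_injective (fun f : H => j.comp f.1) fun a b hab => ?_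
      exact Subtype.ext (AlgHom.ext fun y => j.injective (DFunLike.congr_fun hab y))
    rwa [← Field.finSepDegree_eq_of_isAlgClosed, Field.finSepDegree_eq] at h1
  have hS : q ≤ Module.finrank S L := by
    have hno : ∀ y : S, y ^ q ≠ algebraMap k S c := fun y hy => by
      obtain ⟨z, hz⟩ := mem_range_of_pow_eq (k := k) (x := (y : L)) (c := c)
        (by simpa using congrArg (fun u : S => (u : L)) hy)
        (mem_separableClosure_iff.mp y.2)
      exact hc z hz
    have hirr := X_pow_sub_C_irreducible_of_prime (Fact.out : q.Prime) hno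
    have hroot : aeval x (X ^ q - C (algebraMap k S c)) = 0 := by
      simp [hx, ← IsScalarTower.algebraMap_apply]
    have hm : (X ^ q - C (algebraMap k S c)).Monic :=
      monic_X_pow_sub_C _ (Fact.out : q.Prime).ne_zero
    have := minpoly.natDegree_le (A := S) x
    rwa [← minpoly.eq_of_irreducible_of_monic hirr hroot hm, natDegree_X_pow_sub_C] at this
  rw [← Module.finrank_mul_finrank k S L, mul_comm (Module.finrank k S)]
  exact Nat.mul_le_mul hS hcard

/-- The generators exhaust the field when enough automorphisms are seen on them. -/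
theorem adjoin_eq_top_of_card {k L : Type*} [Field k] [Field L] [Algebra k L]
    [FiniteDimensional k L] {q : ℕ} [Fact q.Prime] [CharP L q] {S : Set L} {x : L} (hxS : x ∈ S)
    {c : k} (hx : x ^ q = algebraMap k L c) (hc : ∀ y : k, y ^ q ≠ c) (H : Set (L ≃ₐ[k] L))
    (hH : ∀ σ ∈ H, ∀ τ ∈ H, (∀ s ∈ S, σ s = τ s) → σ = τ)
    (hdeg : Module.finrank k L ≤ q * H.ncard) : IntermediateField.adjoin k S = ⊤ := by
  set L' := IntermediateField.adjoin k S
  have : CharP L' q := (RingHom.charP_iff _ (algebraMap L' L).injective q).mpr inferInstance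
  let x' : L' := ⟨x, IntermediateField.subset_adjoin k S hxS⟩
  have hx' : x' ^ q = algebraMap k L' c := Subtype.ext (by simpa using hx)
  set H' : Set (L' →ₐ[k] L) := (fun σ : L ≃ₐ[k] L => (σ : L →ₐ[k] L).comp L'.val) '' H
  have hinj : Set.InjOn (fun σ : L ≃ₐ[k] L => (σ : L →ₐ[k] L).comp L'.val) H :=
    fun σ hσ τ hτ h => hH σ hσ τ hτ fun s hs =>
      DFunLike.congr_fun h (⟨s, IntermediateField.subset_adjoin k S hs⟩ : L')
  have hle := mul_card_le_finrank hx' hc H'
  rw [Set.InjOn.ncard_image hinj] at hle
  refine IntermediateField.eq_of_le_of_finrank_le le_top ?_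
  rw [IntermediateField.finrank_top']
  omega

end Fermat.Agent.Carayol
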