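import Fermat.Agent.EC.Torsion.Main
import Fermat.Agent.EC.Isogeny.FunctionPoints
import Mathlib.RingTheory.Derivation.Basic
import Mathlib.Algebra.DualNumber

/-!
# The invariant differential identity

The invariant differential and division polynomials: for every Weierstrass curve,
`(Φₙ′ ΨSqₙ − Φₙ ΨSqₙ′)² Ψ₂Sq = n² ΨSqₙ (4Φₙ³ + b₂ Φₙ² ΨSqₙ + 2b₄ Φₙ ΨSqₙ² + b₆ ΨSqₙ³)`.

Proof: on the function field of the universal curve the derivation `D` with
`D x = 2y + a₁x + a₃` has `D x(nP) = n (2 y(nP) + a₁ x(nP) + a₃)`, by induction along the chord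
and tangent construction.

Main result: `invariant_identity`.
-/

set_option autoImplicit false

open Polynomial WeierstrassCurve

namespace Fermat.Agent.Carayol

section Step

variable {K : Type*} [Field K] [DecidableEq K] (D : Derivation ℤ K K) {W : WeierstrassCurve K}
  (h₁ : D W.a₁ = 0) (h₂ : D W.a₂ = 0) (h₃ : D W.a₃ = 0) (h₄ : D W.a₄ = 0) (h₆ : D W.a₆ = 0)

/-- `2y + a₁x + a₃`. -/
def uCoord (W : WeierstrassCurve K) (x y : K) : K := 2 * y + W.a₁ * x + W.a₃

/-- `D x = d · (2y + a₁x + a₃)`: the logarithmic derivative of the point is `d`. -/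
def HasLog (W : WeierstrassCurve K) (d x y : K) : Prop := D x = d * uCoord W x y

omit [DecidableEq K] in
theorem derivation_two : D (2 : K) = 0 := by exact_mod_cast D.map_natCast 2

omit [DecidableEq K] in
theorem derivation_three : D (3 : K) = 0 := by exact_mod_cast D.map_natCast 3

include h₁ h₂ h₃ h₄ h₆ in
omit [DecidableEq K] in
theorem derivation_equation {x y : K} (h : W.toAffine.Equation x y) :
    D y * uCoord W x y = (3 * x ^ 2 + 2 * W.a₂ * x + W.a₄ - W.a₁ * y) * D x := by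
  have e := congrArg D ((Affine.equation_iff x y).mp h)
  simp only [map_add, Derivation.leibniz, Derivation.leibniz_pow, smul_eq_mul, nsmul_eq_mul,
    h₁, h₂, h₃, h₄, h₆] at e
  push_cast at e
  unfold uCoord
  linear_combination e

variable {x₁ y₁ x₂ y₂ d₁ d₂ : K}

include h₁ h₂ h₃ h₄ h₆ in
/-- The tangent step. -/
theorem hasLog_double (hn : W.toAffine.Equation x₁ y₁) (hu : uCoord W x₁ y₁ ≠ 0)
    (hd : HasLog D W d₁ x₁ y₁) :
    HasLog D W (2 * d₁) (W.toAffine.addX x₁ x₁ (W.toAffine.slope x₁ x₁ y₁ y₁))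
      (W.toAffine.addY x₁ x₁ y₁ (W.toAffine.slope x₁ x₁ y₁ y₁)) := by
  have hyy : y₁ ≠ W.toAffine.negY x₁ y₁ := fun h => hu (by
    simp only [Affine.negY] at h; unfold uCoord; linear_combination h)
  set ℓ := W.toAffine.slope x₁ x₁ y₁ y₁ with hℓdef
  have hℓ : ℓ * uCoord W x₁ y₁ = 3 * x₁ ^ 2 + 2 * W.a₂ * x₁ + W.a₄ - W.a₁ * y₁ := by
    rw [hℓdef, Affine.slope_of_Y_ne rfl hyy,
      show y₁ - W.toAffine.negY x₁ y₁ = uCoord W x₁ y₁ by unfold uCoord Affine.negY; ring,
      div_mul_cancel₀ _ hu]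
  have hy : D y₁ = ℓ * D x₁ := mul_right_cancel₀ hu (by
    linear_combination (derivation_equation D h₁ h₂ h₃ h₄ h₆ hn) - D x₁ * hℓ)
  have e := congrArg D hℓ
  simp only [uCoord, map_add, map_sub, Derivation.leibniz, Derivation.leibniz_pow, smul_eq_mul,
    nsmul_eq_mul, h₁, h₂, h₃, h₄, derivation_two D, derivation_three D] at e
  push_cast at e
  have key : D ℓ = 2 * d₁ * (x₁ - (ℓ ^ 2 + W.a₁ * ℓ - W.a₂ - x₁ - x₁)) := by
    refine mul_right_cancel₀ hu ?_
    unfold HasLog at hd
    unfold uCoord at hd ⊢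
    linear_combination e + (-2 * ℓ - W.a₁) * hy +
      (2 * (x₁ - (ℓ ^ 2 + W.a₁ * ℓ - W.a₂ - x₁ - x₁))) * hd
  unfold HasLog at hd ⊢
  simp only [Affine.addX, Affine.addY, Affine.negAddY, Affine.negY, uCoord] at hd ⊢
  simp only [map_add, map_sub, Derivation.leibniz, Derivation.leibniz_pow, smul_eq_mul,
    nsmul_eq_mul, h₁, h₂, key, hd]
  push_cast
  ring

include h₁ h₂ h₃ h₄ h₆ in
/-- The chord step. -/
theorem hasLog_add (hn₁ : W.toAffine.Equation x₁ y₁) (hn₂ : W.toAffine.Equation x₂ y₂)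
    (hu₁ : uCoord W x₁ y₁ ≠ 0) (hu₂ : uCoord W x₂ y₂ ≠ 0) (hx : x₁ ≠ x₂)
    (hx₁ : W.toAffine.addX x₁ x₂ (W.toAffine.slope x₁ x₂ y₁ y₂) ≠ x₁)
    (hx₂ : W.toAffine.addX x₁ x₂ (W.toAffine.slope x₁ x₂ y₁ y₂) ≠ x₂)
    (hd₁ : HasLog D W d₁ x₁ y₁) (hd₂ : HasLog D W d₂ x₂ y₂) :
    HasLog D W (d₁ + d₂) (W.toAffine.addX x₁ x₂ (W.toAffine.slope x₁ x₂ y₁ y₂))
      (W.toAffine.addY x₁ x₂ y₁ (W.toAffine.slope x₁ x₂ y₁ y₂)) := by
  have hd : x₁ - x₂ ≠ 0 := sub_ne_zero.mpr hx
  set ℓ := W.toAffine.slope x₁ x₂ y₁ y₂ with hℓdef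
  set x₃ := W.toAffine.addX x₁ x₂ ℓ with hx₃def
  set y₃ := W.toAffine.addY x₁ x₂ y₁ ℓ with hy₃def
  set c := y₁ - ℓ * x₁ with hcdef
  have hsum : x₁ + x₂ + x₃ = ℓ ^ 2 + W.a₁ * ℓ - W.a₂ := by
    rw [hx₃def, Affine.addX]; ring
  have hy₁ : y₁ = ℓ * x₁ + c := by rw [hcdef]; ring
  have hy₂ : y₂ = ℓ * x₂ + c := by
    rw [hcdef, hℓdef, Affine.slope_of_X_ne hx]; field_simp; ring
  have E₁ := (Affine.equation_iff x₁ y₁).mp hn₁
  have E₂ := (Affine.equation_iff x₂ y₂).mp hn₂
  rw [hy₁] at E₁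
  rw [hy₂] at E₂
  -- the second symmetric function of the three roots
  have he₂ : x₁ * x₂ + x₁ * x₃ + x₂ * x₃ = W.a₄ - 2 * ℓ * c - W.a₁ * c - W.a₃ * ℓ :=
    mul_right_cancel₀ hd (by linear_combination E₁ - E₂ + (x₁ ^ 2 - x₂ ^ 2) * hsum)
  have hY₃ : uCoord W x₃ y₃ = -uCoord W x₃ (ℓ * x₃ + c) := by
    rw [hy₃def, Affine.addY, Affine.negAddY, Affine.negY, ← hx₃def, hcdef, uCoord, uCoord]; ring
  have hne₃ : W.toAffine.Equation x₃ (ℓ * x₃ + c) := by
    rw [Affine.equation_iff]
    linear_combination E₁ + ((x₁ - x₃) * (x₁ + x₃)) * hsum + (x₃ - x₁) * he₂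
  -- the derivative of the line at each root
  have hline : ∀ x : K, D (ℓ * x + c) = ℓ * D x + (x * D ℓ + D c) := fun x => by
    simp only [map_add, Derivation.leibniz, smul_eq_mul]; ring
  have root : ∀ x : K, W.toAffine.Equation x (ℓ * x + c) →
      (3 * x ^ 2 - 2 * (x₁ + x₂ + x₃) * x + (x₁ * x₂ + x₁ * x₃ + x₂ * x₃)) * D x =
        (x * D ℓ + D c) * uCoord W x (ℓ * x + c) := fun x hx => by
    have := derivation_equation D h₁ h₂ h₃ h₄ h₆ hx
    rw [hline] at this
    unfold uCoord at this ⊢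
    linear_combination -this + D x * he₂ - 2 * x * D x * hsum
  have r₁ : (x₁ - x₂) * (x₁ - x₃) * d₁ = x₁ * D ℓ + D c := by
    refine mul_right_cancel₀ hu₁ ?_
    have := root x₁ (hy₁ ▸ hn₁)
    rw [← hy₁] at this
    unfold HasLog at hd₁
    linear_combination this - (x₁ - x₂) * (x₁ - x₃) * hd₁
  have r₂ : (x₂ - x₁) * (x₂ - x₃) * d₂ = x₂ * D ℓ + D c := by
    refine mul_right_cancel₀ hu₂ ?_
    have := root x₂ (hy₂ ▸ hn₂)
    rw [← hy₂] at this
    unfold HasLog at hd₂
    linear_combination this - (x₂ - x₁) * (x₂ - x₃) * hd₂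
  have r₃ : (x₃ - x₁) * (x₃ - x₂) * (d₁ + d₂) = -(x₃ * D ℓ + D c) :=
    mul_left_cancel₀ hd (by linear_combination (x₂ - x₃) * r₁ + (x₃ - x₁) * r₂)
  have hne : (x₃ - x₁) * (x₃ - x₂) ≠ 0 :=
    mul_ne_zero (sub_ne_zero.mpr hx₁) (sub_ne_zero.mpr hx₂)
  refine mul_left_cancel₀ hne ?_
  rw [hY₃]
  linear_combination root x₃ hne₃ + uCoord W x₃ (ℓ * x₃ + c) * r₃

end Step

section Lift

variable {K : Type*} [Field K]

/-- A section of the first projection of the dual numbers gives a derivation. -/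
def derivationOfLift (Φ : K →+* DualNumber K) (h : ∀ z, (Φ z).fst = z) : Derivation ℤ K K :=
  Derivation.mk'
    (AddMonoidHom.toIntLinearMap
      { toFun := fun z => (Φ z).snd
        map_zero' := by simp
        map_add' := fun a b => by simp })
    fun a b => by
      change (Φ (a * b)).snd = a • (Φ b).snd + b • (Φ a).snd
      simp [map_mul, TrivSqZeroExt.snd_mul, h, mul_comm]

theorem derivationOfLift_apply (Φ : K →+* DualNumber K) (h : ∀ z, (Φ z).fst = z) (z : K) :
    derivationOfLift Φ h z = (Φ z).snd := rfl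

/-- The tangent vector `(u, G)` lies on the curve. -/
theorem dual_equation {x y a₁ a₂ a₃ a₄ a₆ : K}
    (E : y ^ 2 + a₁ * x * y + a₃ * y = x ^ 3 + a₂ * x ^ 2 + a₄ * x + a₆) :
    (TrivSqZeroExt.inl y + TrivSqZeroExt.inr (3 * x ^ 2 + 2 * a₂ * x + a₄ - a₁ * y) :
      DualNumber K) *
        (TrivSqZeroExt.inl y + TrivSqZeroExt.inr (3 * x ^ 2 + 2 * a₂ * x + a₄ - a₁ * y)) =
      (TrivSqZeroExt.inl x + TrivSqZeroExt.inr (2 * y + a₁ * x + a₃)) ^ 3 +
        TrivSqZeroExt.inl a₂ * (TrivSqZeroExt.inl x + TrivSqZeroExt.inr (2 * y + a₁ * x + a₃)) ^ 2 +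
        TrivSqZeroExt.inl a₄ * (TrivSqZeroExt.inl x + TrivSqZeroExt.inr (2 * y + a₁ * x + a₃)) +
        TrivSqZeroExt.inl a₆ +
      -(TrivSqZeroExt.inl a₁ * (TrivSqZeroExt.inl x + TrivSqZeroExt.inr (2 * y + a₁ * x + a₃)) +
          TrivSqZeroExt.inl a₃) *
        (TrivSqZeroExt.inl y + TrivSqZeroExt.inr (3 * x ^ 2 + 2 * a₂ * x + a₄ - a₁ * y)) := by
  apply TrivSqZeroExt.ext
  · simp [pow_succ]
    linear_combination E
  · simp [pow_succ]
    ring

end Lift

section Generic

open Fermat.Agent.Isogeny (FF xF yF genPt)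

variable {k : Type*} [Field k] (W : WeierstrassCurve k)

theorem eval₂_base (p : k[X]) :
    algebraMap (RatFunc k) (FF W) (algebraMap k[X] (RatFunc k) p) =
      p.eval₂ (algebraMap k (FF W)) (xF W) := by
  have : (algebraMap (RatFunc k) (FF W)).comp (algebraMap k[X] (RatFunc k)) =
      eval₂RingHom (algebraMap k (FF W)) (xF W) := by
    refine Polynomial.ringHom_ext (fun c => ?_) ?_
    · simp [Fermat.Agent.Isogeny.algebraMap_FF_eq]
    · simp [xF]
  exact congrArg (fun f => f p) this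

theorem eval₂_xF_injective : Function.Injective (eval₂ (algebraMap k (FF W)) (xF W)) :=
  fun p q h => RatFunc.algebraMap_injective (K := k) ((algebraMap (RatFunc k) (FF W)).injective
    (by rw [eval₂_base, eval₂_base]; exact h))

variable [W.IsElliptic]

omit [W.IsElliptic] in
/-- A derivation on `k(x) + k(x) y`. -/
theorem exists_derivation_aux {K : Type*} [Field K] (g : RatFunc k →+* K) (y : K)
    (re im : K → RatFunc k) (hdec : ∀ z, z = g (re z) + g (im z) * y)
    (huniq : ∀ a b a' b', g a + g b * y = g a' + g b' * y → a = a' ∧ b = b')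
    (E : (W.map (g.comp RatFunc.C)).toAffine.Equation (g RatFunc.X) y) :
    ∃ D : Derivation ℤ K K, (∀ c, D (g (RatFunc.C c)) = 0) ∧
      D (g RatFunc.X) = uCoord (W.map (g.comp RatFunc.C)) (g RatFunc.X) y := by
  rw [Affine.equation_iff] at E
  simp only [WeierstrassCurve.toAffine, WeierstrassCurve.map_a₁, WeierstrassCurve.map_a₂,
    WeierstrassCurve.map_a₃, WeierstrassCurve.map_a₄, WeierstrassCurve.map_a₆,
    RingHom.comp_apply] at E
  simp only [uCoord, WeierstrassCurve.map_a₁, WeierstrassCurve.map_a₃, RingHom.comp_apply]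
  have hA := dual_equation E
  set u := 2 * y + g (RatFunc.C W.a₁) * g RatFunc.X + g (RatFunc.C W.a₃)
  set yD : DualNumber K := TrivSqZeroExt.inl y + TrivSqZeroExt.inr (3 * g RatFunc.X ^ 2 +
    2 * g (RatFunc.C W.a₂) * g RatFunc.X + g (RatFunc.C W.a₄) - g (RatFunc.C W.a₁) * y)
  let φ₀ : k[X] →+* DualNumber K :=
    eval₂RingHom ((TrivSqZeroExt.inlHom K K).comp (g.comp RatFunc.C))
      (TrivSqZeroExt.inl (g RatFunc.X) + TrivSqZeroExt.inr u)
  have hfst : ∀ p, (φ₀ p).fst = g (algebraMap k[X] (RatFunc k) p) := fun p => by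
    have : (TrivSqZeroExt.fstHom K K K).toRingHom.comp φ₀ =
        g.comp (algebraMap k[X] (RatFunc k)) :=
      Polynomial.ringHom_ext (fun c => by simp [φ₀]) (by simp [φ₀])
    exact congrArg (fun f => f p) this
  have hunit : ∀ p : nonZeroDivisors k[X], IsUnit (φ₀ p) := fun p => by
    rw [TrivSqZeroExt.isUnit_iff_isUnit_fst, hfst, isUnit_iff_ne_zero, _root_.map_ne_zero,
      ← map_zero (algebraMap k[X] (RatFunc k))]
    exact (RatFunc.algebraMap_injective (K := k)).ne (nonZeroDivisors.ne_zero p.2)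
  let ψ : RatFunc k →+* DualNumber K := IsLocalization.lift hunit
  have hψ : ∀ r, (ψ r).fst = g r := fun r => by
    have : (TrivSqZeroExt.fstHom K K K).toRingHom.comp ψ = g :=
      IsLocalization.ringHom_ext (nonZeroDivisors k[X]) (RingHom.ext fun p => by
        simp [ψ, IsLocalization.lift_eq, hfst])
    exact congrArg (fun f => f r) this
  have hψC : ∀ c : k, ψ (RatFunc.C c) = TrivSqZeroExt.inl (g (RatFunc.C c)) := fun c => by
    rw [← RatFunc.algebraMap_C, IsLocalization.lift_eq]; simp [φ₀]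
  have hψX : ψ RatFunc.X = TrivSqZeroExt.inl (g RatFunc.X) + TrivSqZeroExt.inr u := by
    rw [← RatFunc.algebraMap_X, IsLocalization.lift_eq]; simp [φ₀]
  set α : RatFunc k := RatFunc.X ^ 3 + RatFunc.C W.a₂ * RatFunc.X ^ 2 +
    RatFunc.C W.a₄ * RatFunc.X + RatFunc.C W.a₆ with hα
  set β : RatFunc k := -(RatFunc.C W.a₁ * RatFunc.X + RatFunc.C W.a₃) with hβ
  have hy : y * y = g α + g β * y := by
    simp only [hα, hβ, map_add, map_neg, map_mul, map_pow]
    linear_combination E
  have hyD : yD * yD = ψ α + ψ β * yD := by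
    simp only [hα, hβ, map_add, map_neg, map_mul, map_pow, hψC, hψX]
    exact hA
  have hadd : ∀ a b, re (a + b) = re a + re b ∧ im (a + b) = im a + im b := fun a b =>
    huniq _ _ _ _ (by
      rw [← hdec, map_add, map_add]
      linear_combination hdec a + hdec b)
  have hmul : ∀ a b, re (a * b) = re a * re b + α * (im a * im b) ∧
      im (a * b) = re a * im b + im a * re b + β * (im a * im b) := fun a b =>
    huniq _ _ _ _ (by
      rw [← hdec]
      simp only [map_add, map_mul]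
      linear_combination b * hdec a + (g (re a) + g (im a) * y) * hdec b +
        g (im a) * g (im b) * hy)
  have h10 : re 1 = 1 ∧ im 1 = 0 := huniq _ _ _ _ (by rw [← hdec]; simp)
  have h00 : re 0 = 0 ∧ im 0 = 0 := huniq _ _ _ _ (by rw [← hdec]; simp)
  let Φ : K →+* DualNumber K :=
    { toFun := fun z => ψ (re z) + ψ (im z) * yD
      map_one' := by simp [h10.1, h10.2]
      map_mul' := fun a b => by
        rw [(hmul a b).1, (hmul a b).2]
        simp only [map_add, map_mul]
        linear_combination -(ψ (im a) * ψ (im b)) * hyD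
      map_zero' := by simp [h00.1, h00.2]
      map_add' := fun a b => by rw [(hadd a b).1, (hadd a b).2, map_add, map_add]; ring }
  have hΦ : ∀ z, (Φ z).fst = z := fun z => by
    simp [Φ, hψ, yD, ← hdec]
  refine ⟨derivationOfLift Φ hΦ, fun c => ?_, ?_⟩
  · have : re (g (RatFunc.C c)) = RatFunc.C c ∧ im (g (RatFunc.C c)) = 0 :=
      huniq _ _ _ _ (by rw [← hdec]; simp)
    rw [derivationOfLift_apply]
    simp [Φ, this.1, this.2, hψC]
  · have : re (g RatFunc.X) = RatFunc.X ∧ im (g RatFunc.X) = 0 :=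
      huniq _ _ _ _ (by rw [← hdec]; simp)
    rw [derivationOfLift_apply]
    simp [Φ, this.1, this.2, hψX]

/-- The invariant derivation. -/
theorem exists_derivation.{v} {k : Type v} [Field k] (W : WeierstrassCurve k) [W.IsElliptic] :
    ∃ (K : Type v) (_ : Field K) (_ : DecidableEq K) (f : k →+* K) (x y : K)
      (D : Derivation ℤ K K), Function.Injective (eval₂ f x) ∧
      (W.map f).toAffine.Nonsingular x y ∧
      (∀ c, D (f c) = 0) ∧ D x = uCoord (W.map f) x y := by
  obtain ⟨D, hDc, hDx⟩ := exists_derivation_aux W (algebraMap (RatFunc k) (FF W)) (yF W)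
    QuadraticAlgebra.re QuadraticAlgebra.im
    (fun z => by ext <;> simp [yF, QuadraticAlgebra.algebraMap_eq])
    (fun a b a' b' h => by
      have h1 := congrArg QuadraticAlgebra.re h
      have h2 := congrArg QuadraticAlgebra.im h
      simp [yF, QuadraticAlgebra.algebraMap_eq] at h1 h2
      exact ⟨h1, h2⟩)
    (Fermat.Agent.Isogeny.equation_generic W)
  exact ⟨FF W, inferInstance, inferInstance, algebraMap k (FF W), xF W, yF W, D,
    eval₂_xF_injective W, Fermat.Agent.Isogeny.nonsingular_generic W, hDc, hDx⟩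

theorem invariant_identity_of_charZero [CharZero k] (n : ℕ) :
    (derivative (W.Φ n) * W.ΨSq n - W.Φ n * derivative (W.ΨSq n)) ^ 2 * W.Ψ₂Sq =
      C ((n : k) ^ 2) * W.ΨSq n * (C 4 * W.Φ n ^ 3 + C W.b₂ * W.Φ n ^ 2 * W.ΨSq n +
        C (2 * W.b₄) * W.Φ n * W.ΨSq n ^ 2 + C W.b₆ * W.ΨSq n ^ 3) := by
  rcases Nat.eq_zero_or_pos n with rfl | hn
  · simp
  obtain ⟨K, _, _, f, x, y, D, hinj, hns, hDc, hDx⟩ := exists_derivation W
  set V := W.map f with hV
  have : V.IsElliptic := inferInstanceAs ((W.map f).IsElliptic)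
  set P : V.toAffine.Point := .some x y hns with hP
  have hΨ : ∀ m : ℕ, m ≠ 0 → (V.ΨSq m).eval x ≠ 0 := fun m hm => by
    rw [hV, WeierstrassCurve.map_ΨSq, eval_map,
      ← eval₂_zero (f) x]
    refine hinj.ne (W.ΨSq_ne_zero ?_)
    exact_mod_cast Nat.cast_ne_zero.mpr hm
  have hnt : ∀ m : ℕ, m ≠ 0 → m • P ≠ 0 := fun m hm h =>
    hΨ m hm ((EC.Torsion.nsmul_some_eq_zero_iff m hns).mp h)
  have ha : ∀ a : k, D (f a) = 0 := hDc
  have h₁ : D V.a₁ = 0 := ha _
  have h₂ : D V.a₂ = 0 := ha _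
  have h₃ : D V.a₃ = 0 := ha _
  have h₄ : D V.a₄ = 0 := ha _
  have h₆ : D V.a₆ = 0 := ha _
  have huz : ∀ {m : ℕ}, m ≠ 0 → ∀ {X Y : K} (h : V.toAffine.Nonsingular X Y),
      m • P = .some X Y h → uCoord V X Y ≠ 0 := by
    intro m hm X Y h he hu
    refine hnt (2 * m) (by omega) ?_
    rw [mul_nsmul', he, two_nsmul]
    exact Affine.Point.add_self_of_Y_eq
      (by simp only [Affine.negY]; unfold uCoord at hu; linear_combination hu)
  have hstep : ∀ m : ℕ, 0 < m → ∃ X Y h, m • P = .some X Y h ∧ HasLog D V (m : K) X Y := by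
    intro m hm
    induction m using Nat.strong_induction_on with
    | _ m ih =>
    have hlog1 : HasLog D V 1 x y := by unfold HasLog; rw [hDx, one_mul]
    rcases (show m = 1 ∨ m = 2 ∨ 3 ≤ m by omega) with rfl | rfl | h3
    · exact ⟨x, y, _, one_nsmul P, by simpa using hlog1⟩
    · have hu := huz one_ne_zero hns (one_nsmul P)
      have hyy : y ≠ V.toAffine.negY x y := fun h => hu (by
        simp only [Affine.negY] at h; unfold uCoord; linear_combination h)
      refine ⟨_, _, _, (two_nsmul P).trans (Affine.Point.add_self_of_Y_ne hyy), ?_⟩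
      simpa using hasLog_double D h₁ h₂ h₃ h₄ h₆ hns.1 hu hlog1
    · obtain ⟨j, rfl⟩ : ∃ j, m = j + 1 := ⟨m - 1, by omega⟩
      obtain ⟨X, Y, h, he, hlog⟩ := ih j (by omega) (by omega)
      have hu := huz (by omega) h he
      have hu1 := huz one_ne_zero hns (one_nsmul P)
      have hne : ∀ {a : ℕ} {b : ℕ}, b < a → ∀ {X Y X' Y' : K} (h : V.toAffine.Nonsingular X Y)
          (h' : V.toAffine.Nonsingular X' Y'), a • P = .some X Y h → b • P = .some X' Y' h' →
          X ≠ X' := by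
        intro a b hab X Y X' Y' h h' ha hb hX
        subst hX
        rcases Affine.Y_eq_of_X_eq h.1 h'.1 rfl with hY | hY
        · subst hY
          refine hnt (a - b) (by omega) ?_
          rw [sub_nsmul _ hab.le, ha, hb, add_neg_cancel]
        · refine hnt (a + b) (by omega) ?_
          rw [add_nsmul, ha, hb]
          exact Affine.Point.add_of_Y_eq rfl hY
      have hx := hne (show 1 < j by omega) h hns he
        (one_nsmul P)
      have hadd : (j + 1) • P = _ := ((succ_nsmul P j).trans (by rw [he])).trans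
        (Affine.Point.add_of_X_ne (h₂ := hns) hx)
      refine ⟨_, _, _, hadd, ?_⟩
      rw [Nat.cast_add, Nat.cast_one]
      exact hasLog_add D h₁ h₂ h₃ h₄ h₆ h.1 hns.1 hu hu1 hx
        (hne (show j < j + 1 by omega) _ h hadd he)
        (hne (show 1 < j + 1 by omega) _ hns hadd
          (one_nsmul P)) hlog hlog1
  obtain ⟨X, Y, h, he, hlog⟩ := hstep n hn
  have hX := EC.Torsion.mul_eval_ΨSq_eq_eval_Φ (W := V.toAffine) (n : ℤ)
    hns h (by rw [natCast_zsmul]; exact he)
  apply hinj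
  have hDp : ∀ p : k[X], D ((p.map (f)).eval x) =
      ((derivative p).map (f)).eval x * D x := by
    intro p
    induction p using Polynomial.induction_on' with
    | add p q hp hq => simp [hp, hq]; ring
    | monomial i a =>
      rcases i with _ | i
      · simp [ha]
      · simp [Derivation.leibniz, Derivation.leibniz_pow, ha]; ring
  have hu2 : ∀ {X Y : K}, V.toAffine.Equation X Y →
      uCoord V X Y ^ 2 = 4 * X ^ 3 + V.b₂ * X ^ 2 + 2 * V.b₄ * X + V.b₆ := fun h => by
    rw [Affine.equation_iff] at h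
    simp only [uCoord, WeierstrassCurve.b₂, WeierstrassCurve.b₄, WeierstrassCurve.b₆]
    linear_combination 4 * h
  have e := congrArg D hX
  simp only [hV, WeierstrassCurve.map_ΨSq, WeierstrassCurve.map_Φ,
    Derivation.leibniz, smul_eq_mul, hDp] at e hX
  unfold HasLog at hlog
  rw [hlog, hDx] at e
  have hyX := hu2 h.1
  have hyx := hu2 hns.1
  simp only [hV, WeierstrassCurve.map_b₂, WeierstrassCurve.map_b₄,
    WeierstrassCurve.map_b₆, eval_map] at *
  simp only [eval₂_mul, eval₂_sub, eval₂_add, eval₂_pow, eval₂_C, Ψ₂Sq, eval₂_X, map_natCast,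
    map_pow, map_mul, map_ofNat, eval₂_natCast, eval₂_ofNat]
  generalize eval₂ f x (derivative (W.Φ ↑n)) = a at *
  generalize eval₂ f x (derivative (W.ΨSq ↑n)) = b at *
  generalize eval₂ f x (W.Φ ↑n) = p at *
  generalize eval₂ f x (W.ΨSq ↑n) = s at *
  subst hX
  generalize uCoord (W.map f) X Y = uX at *
  generalize uCoord (W.map f) x y = ux at *
  linear_combination (-(a * s - X * s * b) ^ 2) * hyx + ((n : K) ^ 2 * s ^ 4) * hyX +
    (-s * ((a * s - X * s * b) * ux + (n : K) * s ^ 2 * uX)) * e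

end Generic

/-- The identity, as a property of a curve. -/
def InvariantIdentity {R : Type*} [CommRing R] (W : WeierstrassCurve R) (n : ℕ) : Prop :=
  (derivative (W.Φ n) * W.ΨSq n - W.Φ n * derivative (W.ΨSq n)) ^ 2 * W.Ψ₂Sq =
    C ((n : R) ^ 2) * W.ΨSq n * (C 4 * W.Φ n ^ 3 + C W.b₂ * W.Φ n ^ 2 * W.ΨSq n +
      C (2 * W.b₄) * W.Φ n * W.ΨSq n ^ 2 + C W.b₆ * W.ΨSq n ^ 3)

theorem InvariantIdentity.map {R S : Type*} [CommRing R] [CommRing S] {W : WeierstrassCurve R}
    {n : ℕ} (h : InvariantIdentity W n) (f : R →+* S) : InvariantIdentity (W.map f) n := by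
  have := congrArg (Polynomial.map f) h
  simpa only [InvariantIdentity, Polynomial.map_mul, Polynomial.map_add, Polynomial.map_sub,
    Polynomial.map_pow, Polynomial.map_C, ← derivative_map, WeierstrassCurve.map_Φ,
    WeierstrassCurve.map_ΨSq, WeierstrassCurve.map_Ψ₂Sq, WeierstrassCurve.map_b₂,
    WeierstrassCurve.map_b₄, WeierstrassCurve.map_b₆, map_natCast, map_ofNat, _root_.map_mul,
    _root_.map_pow, Polynomial.map_ofNat, Polynomial.map_natCast] using this

theorem InvariantIdentity.of_map {R S : Type*} [CommRing R] [CommRing S] {W : WeierstrassCurve R}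
    {n : ℕ} {f : R →+* S} (hf : Function.Injective f) (h : InvariantIdentity (W.map f) n) :
    InvariantIdentity W n := by
  refine Polynomial.map_injective f hf ?_
  simpa only [InvariantIdentity, Polynomial.map_mul, Polynomial.map_add, Polynomial.map_sub,
    Polynomial.map_pow, Polynomial.map_C, ← derivative_map, WeierstrassCurve.map_Φ,
    WeierstrassCurve.map_ΨSq, WeierstrassCurve.map_Ψ₂Sq, WeierstrassCurve.map_b₂,
    WeierstrassCurve.map_b₄, WeierstrassCurve.map_b₆, map_natCast, map_ofNat, _root_.map_mul,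
    _root_.map_pow, Polynomial.map_ofNat, Polynomial.map_natCast] using h

/-- **The invariant differential identity for the division polynomials.** -/
theorem invariant_identity {R : Type*} [CommRing R] (W : WeierstrassCurve R) (n : ℕ) :
    InvariantIdentity W n := by
  rw [← EC.Torsion.universalCurve_map W]
  refine InvariantIdentity.map ?_ _
  let f : MvPolynomial (Fin 5) ℤ →+* FractionRing (MvPolynomial (Fin 5) ℤ) := algebraMap _ _
  have hf : Function.Injective f := IsFractionRing.injective _ _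
  have : CharZero (FractionRing (MvPolynomial (Fin 5) ℤ)) := charZero_of_injective_ringHom hf
  have : (EC.Torsion.universalCurve.map f).IsElliptic := by
    rw [WeierstrassCurve.isElliptic_iff, WeierstrassCurve.map_Δ, isUnit_iff_ne_zero]
    exact (map_ne_zero_iff f hf).mpr EC.Torsion.universalCurve_Δ_ne_zero
  exact InvariantIdentity.of_map hf (invariant_identity_of_charZero _ n)

end Fermat.Agent.Carayol
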