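import Fermat.Agent.Carayol.LegendreFormal
import Fermat.Agent.Carayol.PointTorsion
import Fermat.Agent.Carayol.PointGen

/-!
# Supersingular points of the Legendre family

Closed points of supersingular reduction of the Legendre family: regular, one component for each
line of `q`-torsion.

Main result: `legendre_supersingular`.
-/

set_option autoImplicit false

open Polynomial IsLocalRing Fermat.Agent.EC.Reduction

namespace Fermat.Agent.Carayol

section Generic

variable {K F : Type*} [Field K] [Field F] [Algebra K F]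
variable {W : ValuationSubring K} {q : ℕ} {t : F} {M : ValuationSubring F}

/-- Changing the pair of generators. -/
theorem gen2_of_span (hb : BaseData W q) (hc : Cover K t) (hM : IsPoint W q t M) {z₀ w₀ z w : F}
    (hg : Gen2 W t M z₀ w₀) (hz : z ∈ locRing W t M) (hzM : z ∈ M.nonunits)
    (hw : w ∈ locRing W t M) (hwM : w ∈ M.nonunits)
    (h₀ : haveI := isLocalRing_locAt (M := M) (locRing_le hM.evW_mem)
      (⟨z₀, le_locAt hg.1⟩ : locAt (locRing W t M) M) ∈
        Ideal.span {(⟨z, le_locAt hz⟩ : locAt (locRing W t M) M), ⟨w, le_locAt hw⟩} ⊔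
          maximalIdeal (locAt (locRing W t M) M) ^ 2)
    (h₁ : haveI := isLocalRing_locAt (M := M) (locRing_le hM.evW_mem)
      (⟨w₀, le_locAt hg.2.2.1⟩ : locAt (locRing W t M) M) ∈
        Ideal.span {(⟨z, le_locAt hz⟩ : locAt (locRing W t M) M), ⟨w, le_locAt hw⟩} ⊔
          maximalIdeal (locAt (locRing W t M) M) ^ 2) :
    Gen2 W t M z w := by
  have := isLocalRing_locAt (M := M) (locRing_le hM.evW_mem)
  have := isNoetherianRing_locRing hb hc hM
  have := isNoetherianRing_locAt (M := M) (C := locRing W t M) (locRing_le hM.evW_mem)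
  set R := locAt (locRing W t M) M
  have hRle : R ≤ locRing W t M := locAt_locAt
  set J := Ideal.span {(⟨z, le_locAt hz⟩ : R), ⟨w, le_locAt hw⟩}
  have hm : maximalIdeal R ≤ J := by
    refine Submodule.le_of_le_smul_of_le_jacobson_bot (IsNoetherian.noetherian _)
      (IsLocalRing.jacobson_eq_maximalIdeal ⊥ bot_ne_top).ge fun x hx => ?_
    rw [smul_eq_mul, ← pow_two]
    obtain ⟨a, ha, b, hb', e⟩ := hg.2.2.2.2 x (hRle x.2)
      ((mem_maximalIdeal_locAt (locRing_le hM.evW_mem) x).mp hx)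
    rw [show x = (⟨a, le_locAt ha⟩ : R) * ⟨z₀, le_locAt hg.1⟩ +
      ⟨b, le_locAt hb'⟩ * ⟨w₀, le_locAt hg.2.2.1⟩ from Subtype.ext e]
    exact add_mem (Ideal.mul_mem_left _ _ h₀) (Ideal.mul_mem_left _ _ h₁)
  refine ⟨hz, hzM, hw, hwM, fun x hx hxn => ?_⟩
  obtain ⟨a, b, e⟩ := Ideal.mem_span_pair.mp
    (hm ((mem_maximalIdeal_locAt (locRing_le hM.evW_mem) ⟨x, le_locAt hx⟩).mpr hxn))
  exact ⟨a, hRle a.2, b, hRle b.2, (congrArg Subtype.val e).symm⟩

end Generic

variable {K F : Type*} [Field K] [CharZero K] [Field F] [DecidableEq F] [Algebra K F]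
  {q r : ℕ} [NeZero (q * r)] [Fact q.Prime] (L : LevelData K F legendreFam q r)
  {W : ValuationSubring K} [IsAlgClosed (IsLocalRing.ResidueField W)]
  {M : ValuationSubring F} (hb : BaseData W q) (hM : IsPoint W q L.par M) (h2 : q ≠ 2)
  (h0 : L.parRes hM.par_mem ≠ 0) (h1 : L.parRes hM.par_mem ≠ 1) (hqr : r.Coprime q)
  (hL : topCoeff (L.resCurve hM.par_mem) q = 0)

namespace LevelData

include hb hM h2 h0 h1 hL in
/-- The parameter is a constant modulo the ideal at a supersingular point. -/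
theorem legendre_par_near_ss {C : Subring F} {I : Ideal (locAt C M)}
    (hF : NearFrame W q L.par M I) (htC : L.par ∈ C)
    (hu : ∀ A : L.curve.toAffine.Point, q • A = 0 → A ≠ 0 →
      ∃ h : (xOf A)⁻¹ ∈ locAt C M, (⟨_, h⟩ : locAt C M) ∈ I) :
    NearConst W M I L.par := by
  classical
  have hq := (Fact.out : q.Prime).ne_zero
  obtain ⟨m, hm⟩ := odd_of_ne_two (q := q) h2
  have hodd : Odd q := ⟨m, hm⟩
  have hm0 : 0 < m := by have := (Fact.out : q.Prime).two_le; omega
  set t' : locAt C M := ⟨L.par, le_locAt htC⟩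
  set U := legendreAt t'
  have hUF : U.map (locAt C M).subtype = L.curve := by
    rw [map_legendreAt, L.legendre_curve]; rfl
  obtain ⟨hsp, hroots⟩ := L.splits_preΨ' legendre_Δ_ne_zero hodd
  set Sr := (L.curve.preΨ' q).roots
  have hc : ∀ c ∈ Sr, c ≠ 0 ∧ ∃ h : c⁻¹ ∈ locAt C M, (⟨_, h⟩ : locAt C M) ∈ I := by
    intro c hc
    obtain ⟨A, hA0, hA, rfl⟩ := hroots c hc
    exact ⟨L.legendre_xOf_ne_zero hM h2 h0 h1 hA0 hA, hu A hA hA0⟩
  set G : (locAt C M)[X] := Polynomial.C ((U.preΨ' q).eval 0) *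
    (Sr.attach.map fun c => 1 - Polynomial.C ⟨c.1⁻¹, (hc c.1 c.2).2.fst⟩ * Polynomial.X).prod
  have hG : G = U.preΨ' q := by
    refine Polynomial.map_injective (locAt C M).subtype Subtype.val_injective ?_
    rw [← WeierstrassCurve.map_preΨ', hUF, Polynomial.map_mul, map_C, Polynomial.map_multiset_prod,
      Multiset.map_map]
    have e : (Multiset.map (Polynomial.map (locAt C M).subtype ∘ fun c : {c // c ∈ Sr} =>
        1 - Polynomial.C ⟨c.1⁻¹, (hc c.1 c.2).2.fst⟩ * Polynomial.X) Sr.attach).prod =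
        (Sr.map fun c => 1 - Polynomial.C c⁻¹ * Polynomial.X).prod := by
      simp only [Function.comp_def, Polynomial.map_sub, Polynomial.map_one, Polynomial.map_mul,
        map_C, map_X]
      exact congrArg Multiset.prod
        (Multiset.attach_map_val' Sr fun c => 1 - Polynomial.C c⁻¹ * Polynomial.X)
    have hrev : (Sr.map fun c => Polynomial.X - Polynomial.C c).prod =
        Polynomial.C (Sr.map fun c => -c).prod *
          (Sr.map fun c => 1 - Polynomial.C c⁻¹ * Polynomial.X).prod := by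
      rw [map_multiset_prod, Multiset.map_map, ← Multiset.prod_map_mul]
      refine congrArg Multiset.prod (Multiset.map_congr rfl fun c hc' => ?_)
      simp only [Function.comp_apply, mul_sub, mul_one, ← mul_assoc, ← map_mul, neg_mul,
        mul_inv_cancel₀ (hc c hc').1, map_neg, map_one]
      ring
    have hprod := hsp.eq_prod_roots
    rw [e]
    conv_rhs => rw [hprod, show (L.curve.preΨ' q).roots = Sr from rfl, hrev, ← mul_assoc,
      ← map_mul]
    congr 2
    show (locAt C M).subtype ((U.preΨ' q).eval 0) = _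
    rw [← eval_map_apply, ← WeierstrassCurve.map_preΨ', hUF, map_zero]
    conv_lhs => rw [hprod, show (L.curve.preΨ' q).roots = Sr from rfl]
    rw [eval_mul, eval_C, eval_multiset_prod, Multiset.map_map]
    simp
  have htop : topCoeff U q ∈ I := by
    rw [topCoeff, redH, coeff_contract hq, ← hG, show (q - 1) / 2 = m by omega,
      ← Ideal.Quotient.eq_zero_iff_mem, ← coeff_map, Polynomial.map_mul, map_C,
      Polynomial.map_multiset_prod, Multiset.map_map]
    rw [Multiset.prod_eq_one fun p hp => ?_, mul_one, coeff_C, if_neg (by positivity)]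
    obtain ⟨c, -, rfl⟩ := Multiset.mem_map.mp hp
    simp only [Function.comp_apply, Polynomial.map_sub, Polynomial.map_one, Polynomial.map_mul,
      map_C, map_X, Ideal.Quotient.eq_zero_iff_mem.mpr (hc c.1 c.2).2.snd, map_zero, zero_mul,
      sub_zero]
  set pZ := topCoeff (legendreAt (Polynomial.X : ℤ[X])) q
  have hpev : ∀ {R : Type _} [CommRing R] (s : R),
      eval₂ (Int.castRingHom R) s pZ = topCoeff (legendreAt s) q := by
    intro R _ s
    rw [← coe_eval₂RingHom, ← map_topCoeff _ hq, map_legendreAt, coe_eval₂RingHom, eval₂_X]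
  refine nearConst_of_root hF hb hM (G := pZ.map (Int.castRingHom F)) (fun i => ?_) t'.2
    (fun h => ?_) ?_
  · obtain ⟨N, hN⟩ := exists_nearSubring hF
    refine (hN _).mp ?_
    rw [coeff_map]
    exact intCast_mem N _
  · convert htop
    show (pZ.map (Int.castRingHom F)).eval L.par = _
    rw [eval_map, hpev, ← L.legendre_curve, ← hUF, map_topCoeff _ hq]
    rfl
  · intro hn
    rw [derivative_map, eval_map] at hn
    have := charP_residueField hM.q_mem
    obtain ⟨w₀, hw₀⟩ := hM.exists_par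
    let g : W →+* M := ((algebraMap K F).comp W.subtype).codRestrict M.toSubring fun w => by
      simpa [evW_C] using hM.evW_mem (Polynomial.C w)
    let φ : W →+* ResidueField M := (residue M).comp g
    have hφ : φ w₀ = L.parRes hM.par_mem := by
      refine (sub_eq_zero.mp ?_).symm
      simp only [φ, RingHom.comp_apply, LevelData.parRes, ← map_sub]
      exact (mem_nonunits_iff_residue (sub_mem hM.par_mem (g w₀).2)).mp hw₀
    set c := residue W w₀
    have hkey : ∀ p : ℤ[X], eval₂ (Int.castRingHom (ResidueField M)) (L.parRes hM.par_mem) p = 0 →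
        eval₂ (Int.castRingHom (ResidueField W)) c p = 0 := by
      intro p hp
      rw [← hφ, ← RingHom.ext_int (φ.comp (Int.castRingHom W)) (Int.castRingHom _),
        ← hom_eval₂] at hp
      rw [← RingHom.ext_int ((residue W).comp (Int.castRingHom W)) (Int.castRingHom _),
        ← hom_eval₂, residue_eq_zero_iff, IsLocalRing.mem_maximalIdeal]
      exact fun hu => not_isUnit_zero (hp ▸ hu.map φ)
    have hd : eval₂ (Int.castRingHom (ResidueField W)) c (derivative pZ) = 0 := by
      refine hkey _ ?_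
      have hr := L.res_eval hM.par_mem (derivative pZ)
      rw [← hr.2]
      exact (mem_nonunits_iff_residue hr.mem).mp hn
    have hv : eval₂ (Int.castRingHom (ResidueField W)) c pZ = 0 := by
      refine hkey _ ?_
      rw [hpev, ← L.legendre_resCurve hM.par_mem]
      exact hL
    have := charP_residue_base hb
    have hc0 : c ≠ 0 := fun h => h0 (by
      rw [← hφ]
      have hw : w₀ ∈ maximalIdeal W := (residue_eq_zero_iff _).mp h
      rw [hb.uniformizer, Ideal.mem_span_singleton'] at hw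
      obtain ⟨d, rfl⟩ := hw
      rw [map_mul, map_natCast, CharP.cast_eq_zero, mul_zero])
    have hc1 : c ≠ 1 := fun h => h1 (by
      rw [← hφ, ← map_one φ, ← sub_eq_zero, ← map_sub]
      have hw : w₀ - 1 ∈ maximalIdeal W := (residue_eq_zero_iff _).mp (by
        rw [map_sub, map_one, sub_eq_zero]; exact h)
      rw [hb.uniformizer, Ideal.mem_span_singleton'] at hw
      obtain ⟨d, hd⟩ := hw
      rw [← hd, map_mul, map_natCast, CharP.cast_eq_zero, mul_zero])
    refine not_sq_dvd_topCoeff (k := ResidueField W) h2 hc0 hc1 ?_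
    have hp : topCoeff (legendreAt (Polynomial.X : (ResidueField W)[X])) q =
        pZ.map (Int.castRingHom (ResidueField W)) := by
      rw [← coe_mapRingHom, ← map_topCoeff _ hq, map_legendreAt, coe_mapRingHom, map_X]
    rw [hp]
    set p := pZ.map (Int.castRingHom (ResidueField W))
    obtain ⟨g', hg'⟩ := dvd_iff_isRoot.mpr (show p.IsRoot c by rwa [IsRoot, eval_map])
    have hd' : (derivative p).eval c = 0 := by rwa [derivative_map, eval_map]
    rw [hg', derivative_mul, derivative_X_sub_C, one_mul, eval_add, eval_mul, eval_sub, eval_X,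
      eval_C, sub_self, zero_mul, add_zero] at hd'
    rw [hg', pow_two]
    exact mul_dvd_mul_left _ (dvd_iff_isRoot.mpr hd')

include hb hM h2 h0 h1 hqr hL in
/-- **A supersingular point is regular, with one component for each line.** -/
theorem legendre_supersingular :
    GoodPoint W q L.par M ∧
    (∀ V V', IsVert W q L.par V → Through W L.par M V → IsVert W q L.par V' →
      Through W L.par M V' →
      (∀ Q : L.curve.toAffine.Point, q • Q = 0 → (InKer V Q ↔ InKer V' Q)) → V = V') ∧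
    ∀ P : L.curve.toAffine.Point, P ≠ 0 → q • P = 0 →
      ∃ V, IsVert W q L.par V ∧ Through W L.par M V ∧ InKer V P := by
  classical
  have hΔ := legendre_Δ_ne_zero
  have hc := L.cover hΔ
  have hΔres := L.legendre_resCurve_Δ_ne_zero hM.par_mem hM.q_mem h2 h0 h1
  have hss : ∀ A : L.curve.toAffine.Point, q • A = 0 → InKer M A := fun A hA =>
    L.legendre_inKer_of_topCoeff_eq_zero hM.par_mem hM.q_mem h2 h0 h1 hL hA
  have hzR : ∀ A : L.curve.toAffine.Point, q • A = 0 → zOf A ∈ locRing W L.par M := fun A hA => by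
    rcases eq_or_ne A 0 with rfl | hA0
    · exact zero_mem _
    · exact (L.legendre_zOf_mem hM h2 h0 h1 hA0 hA (hss A hA)).1
  have huR : ∀ A : L.curve.toAffine.Point, q • A = 0 → (xOf A)⁻¹ ∈ locRing W L.par M :=
      fun A hA => by
    rcases eq_or_ne A 0 with rfl | hA0
    · rw [show xOf (0 : L.curve.toAffine.Point) = 0 from rfl, inv_zero]; exact zero_mem _
    · exact L.legendre_inv_xOf_mem hM h2 h0 h1 hA0 hA
  obtain ⟨V₀, hV₀, hT₀⟩ := exists_through hb hc hM
  obtain ⟨P₀, hP₀0, hP₀, hline₀, -⟩ := L.legendre_vert hV₀ hb h2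
  obtain ⟨Q₀, hQ₀, hQP₀⟩ := L.exists_qTorsion_notMem hΔ hP₀
  set S : Set F := {L.par} ∪ ((fun A => zOf A) '' {A : L.curve.toAffine.Point | q • A = 0} ∪
    (fun A => (xOf A)⁻¹) '' {A : L.curve.toAffine.Point | q • A = 0}) ∪
    ⋃ R ∈ {R : L.curve.toAffine.Point | r • R = 0}, pointCoords R
  have hSz : ∀ A : L.curve.toAffine.Point, q • A = 0 → zOf A ∈ S := fun A hA =>
    Or.inl (Or.inr (Or.inl ⟨A, hA, rfl⟩))
  have hSu : ∀ A : L.curve.toAffine.Point, q • A = 0 → (xOf A)⁻¹ ∈ S := fun A hA =>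
    Or.inl (Or.inr (Or.inr ⟨A, hA, rfl⟩))
  have htS : L.par ∈ S := Or.inl (Or.inl rfl)
  have hrS : ∀ R : L.curve.toAffine.Point, r • R = 0 → pointCoords R ⊆ S := fun R hR a ha =>
    Or.inr (Set.mem_iUnion₂.mpr ⟨R, hR, ha⟩)
  have hSfin : S.Finite := by
    have hfin := L.finite_qTorsion hΔ (Fact.out : q.Prime).ne_zero
    refine ((Set.finite_singleton _).union ((hfin.image _).union (hfin.image _))).union
      ((L.finite_rTorsion hΔ).biUnion fun R _ => ?_)
    rcases R with _ | ⟨a, b, n⟩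
    exacts [Set.finite_empty, (Set.finite_singleton b).insert a]
  have hSR : S ⊆ locRing W L.par M := by
    rintro a ((rfl | ⟨A, hA, rfl⟩ | ⟨A, hA, rfl⟩) | ha)
    · exact chart_le_locRing par_mem_chart
    · exact hzR A hA
    · exact huR A hA
    · obtain ⟨R, hR, ha⟩ := Set.mem_iUnion₂.mp ha
      rcases R with _ | ⟨a', b', n⟩
      · exact ha.elim
      obtain ⟨hac, hbc⟩ := L.rTorsion_mem_chart hΔ hqr hb hR
      rcases ha with rfl | rfl
      exacts [chart_le_locRing hac, chart_le_locRing hbc]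
  set C := genRing W S
  have hSC : S ⊆ C := subset_genRing S
  have htC : L.par ∈ C := hSC htS
  have hzC : ∀ A : L.curve.toAffine.Point, q • A = 0 → zOf A ∈ C := fun A hA => hSC (hSz A hA)
  have huC : ∀ A : L.curve.toAffine.Point, q • A = 0 → (xOf A)⁻¹ ∈ C := fun A hA => hSC (hSu A hA)
  have hC : C ≤ M.toSubring := genRing_le hM.evW_mem hSR
  have := isLocalRing_locAt (M := M) hC
  have hzM : ∀ A : L.curve.toAffine.Point, q • A = 0 → zOf A ∈ M.nonunits := fun A hA =>
    L.legendre_zOf_nonunits hM h2 h0 h1 hss hA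
  set I := Ideal.span {(⟨zOf P₀, le_locAt (hzC P₀ hP₀)⟩ : locAt C M),
      ⟨zOf Q₀, le_locAt (hzC Q₀ hQ₀)⟩} ⊔ maximalIdeal (locAt C M) ^ 2
  have hzI : ∀ A : L.curve.toAffine.Point, ∀ hA : q • A = 0,
      (⟨zOf A, le_locAt (hzC A hA)⟩ : locAt C M) ∈ I := fun A hA =>
    L.legendre_zOf_mem_span hM h2 h0 h1 hss hC htC hzC huC hP₀0 hP₀ hQ₀ hQP₀ hA
  have huI : ∀ A : L.curve.toAffine.Point, ∀ hA : q • A = 0, A ≠ 0 →
      (⟨(xOf A)⁻¹, le_locAt (huC A hA)⟩ : locAt C M) ∈ I := by
    intro A hA hA0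
    have hD : (1 - (xOf A)⁻¹) * (1 - L.par * (xOf A)⁻¹) ∈ C :=
      mul_mem (sub_mem (one_mem _) (huC A hA)) (sub_mem (one_mem _) (mul_mem htC (huC A hA)))
    rw [show (⟨(xOf A)⁻¹, le_locAt (huC A hA)⟩ : locAt C M) =
      (⟨zOf A, le_locAt (hzC A hA)⟩ * ⟨_, le_locAt hD⟩) * ⟨zOf A, le_locAt (hzC A hA)⟩ from
      Subtype.ext (by
        simp only [Subring.coe_mul]
        linear_combination -(L.legendre_sq_zOf hM h2 h0 h1 hA0 hA))]
    exact Ideal.mul_mem_left _ _ (hzI A hA)
  have hqI : (q : locAt C M) ∈ I := by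
    have hxP := L.legendre_xOf_ne_zero hM h2 h0 h1 hP₀0 hP₀
    have hI := huI P₀ hP₀ hP₀0
    obtain ⟨x₁, y₁, n₁, rfl⟩ := LevelData.exists_some_of_ne_zero hP₀0
    have hu₁ := huC _ hP₀
    simp only [xOf_some] at hxP hu₁ hI
    obtain ⟨a, ha, e⟩ := L.legendre_q_eq_mul_inv_xOf h2 htC hP₀ hxP hu₁
    rw [show (q : locAt C M) = ⟨a, le_locAt ha⟩ * ⟨x₁⁻¹, le_locAt hu₁⟩ from Subtype.ext (by
      rw [← map_natCast (locAt C M).subtype] at e
      exact e)]
    exact Ideal.mul_mem_left _ _ hI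
  have hIm : I ≤ maximalIdeal (locAt C M) := by
    refine sup_le (Ideal.span_le.mpr ?_) (Ideal.pow_le_self two_ne_zero)
    rintro _ (rfl | rfl)
    exacts [(mem_maximalIdeal_locAt hC _).mpr (hzM P₀ hP₀),
      (mem_maximalIdeal_locAt hC _).mpr (hzM Q₀ hQ₀)]
  have hF : NearFrame W q L.par M I := by
    refine ⟨genRing_le_locRing hSR, algebraMap_mem_genRing S,
      fun a ha => (mem_maximalIdeal_locAt hC a).mp (hIm ha), fun a b ha hb' => ?_, hqI⟩
    refine Submodule.mem_sup_right ?_
    rw [pow_two]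
    exact Ideal.mul_mem_mul ((mem_maximalIdeal_locAt hC a).mpr ha)
      ((mem_maximalIdeal_locAt hC b).mpr hb')
  have htn : NearConst W M I L.par := L.legendre_par_near_ss hb hM h2 h0 h1 hL hF htC
    fun A hA hA0 => ⟨le_locAt (huC A hA), huI A hA hA0⟩
  have hall : ∀ g ∈ S, NearConst W M I g := by
    rintro a ((rfl | ⟨A, hA, rfl⟩ | ⟨A, hA, rfl⟩) | ha)
    · exact htn
    · exact nearConst_of_mem hF _ (hzI A hA)
    · rcases eq_or_ne A 0 with rfl | hA0
      · refine nearConst_of_mem hF (le_locAt (huC 0 hA)) ?_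
        convert I.zero_mem
        show (xOf (0 : L.curve.toAffine.Point))⁻¹ = (0 : F)
        rw [show xOf (0 : L.curve.toAffine.Point) = 0 from rfl, inv_zero]
      · exact nearConst_of_mem hF _ (huI A hA hA0)
    · obtain ⟨R, hR, ha'⟩ := Set.mem_iUnion₂.mp ha
      rcases R with _ | ⟨a', b', n⟩
      · exact ha'.elim
      have := L.rTorsion_near hΔ hqr hb hM hM.par_mem hΔres hF htn hR
        (le_locAt (hSC (hrS _ hR (Or.inl rfl)))) (le_locAt (hSC (hrS _ hR (Or.inr rfl))))
      rcases ha' with rfl | rfl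
      exacts [this.1, this.2]
  have hgenF : IntermediateField.adjoin K S = ⊤ := by
    have hsub := IntermediateField.subset_adjoin K S
    have hcoord : ∀ A : L.curve.toAffine.Point, q • A = 0 →
        pointCoords A ⊆ (IntermediateField.adjoin K S : Set F) := by
      intro A hA
      rcases A with _ | ⟨a, b, n⟩
      · exact Set.empty_subset _
      have ha : a ∈ IntermediateField.adjoin K S := inv_inv a ▸ inv_mem (hsub (hSu _ hA))
      have hb' : b ∈ IntermediateField.adjoin K S := by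
        have := div_mem ha (hsub (hSz _ hA))
        have ha0 : a ≠ 0 := L.legendre_xOf_ne_zero hM h2 h0 h1
          (WeierstrassCurve.Affine.Point.some_ne_zero n) hA
        rwa [zOf_some, div_div_cancel₀ ha0] at this
      rintro c (hc | hc)
      · exact (show c = a from hc) ▸ ha
      · exact (show c = b from hc) ▸ hb'
    exact L.adjoin_eq_top_of_torsion hΔ hqr htS hP₀0 hP₀ hQ₀ hQP₀ (hcoord _ hP₀) (hcoord _ hQ₀)
      fun R hR => (hrS R hR).trans hsub
  have hzV : ∀ V, IsVert W q L.par V → ∀ A : L.curve.toAffine.Point, A ≠ 0 → q • A = 0 →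
      InKer V A → zOf A ∈ V.nonunits :=
    fun V hV A hA0 hA hk => L.legendre_zOf_mem_nonunits hM h2 h0 h1 hV hA0 hA hk
  obtain ⟨-, hufd, hgen₀⟩ := locRing_eq_of_generators hb hc hM hV₀ hT₀ hSfin hSR htS hgenF
    (hzC P₀ hP₀) (hzC Q₀ hQ₀) (L.legendre_zOf_ne_zero hM h2 h0 h1 hP₀0 hP₀)
    (hzV V₀ hV₀ P₀ hP₀0 hP₀ ((hline₀ P₀ hP₀).mpr (AddSubgroup.mem_zmultiples P₀)))
    (hzM Q₀ hQ₀) hall hqI
  -- every basis gives generators
  have hgen : ∀ P Q : L.curve.toAffine.Point, P ≠ 0 → q • P = 0 → q • Q = 0 →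
      Q ∉ AddSubgroup.zmultiples P → Gen2 W L.par M (zOf P) (zOf Q) := by
    intro P Q hP0 hP hQ hQP
    have hspan := fun {A : L.curve.toAffine.Point} (hA : q • A = 0) =>
      L.legendre_zOf_mem_span hM h2 h0 h1 hss (C := locRing W L.par M) (locRing_le hM.evW_mem)
        (chart_le_locRing par_mem_chart) hzR huR hP0 hP hQ hQP hA
    exact gen2_of_span hb hc hM hgen₀ (hzR P hP) (hzM P hP) (hzR Q hQ) (hzM Q hQ)
      (hspan hP₀) (hspan hQ₀)
  have hsame : ∀ V V', IsVert W q L.par V → Through W L.par M V → IsVert W q L.par V' →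
      Through W L.par M V' → ∀ P : L.curve.toAffine.Point, P ≠ 0 → q • P = 0 →
      InKer V P → InKer V' P → V = V' := by
    intro V V' hV hT hV' hT' P hP0 hP hk hk'
    obtain ⟨Q, hQ, hQP⟩ := L.exists_qTorsion_notMem hΔ hP
    exact eq_of_through_gen hb hc hM (L.legendre_zOf_ne_zero hM h2 h0 h1 hP0 hP)
      (hgen P Q hP0 hP hQ hQP) hV hT hV' hT' (hzV V hV P hP0 hP hk) (hzV V' hV' P hP0 hP hk')
  refine ⟨⟨fun V hV hT => ?_, fun V V' hV hT hV' hT' hne x hx hxn => ?_⟩,
    fun V V' hV hT hV' hT' hiff => ?_, fun P hP0 hP => ?_⟩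
  · obtain ⟨P, hP0, hP, hline, -⟩ := L.legendre_vert hV hb h2
    obtain ⟨Q, hQ, hQP⟩ := L.exists_qTorsion_notMem hΔ hP
    exact ⟨_, _, hzV V hV P hP0 hP ((hline P hP).mpr (AddSubgroup.mem_zmultiples P)),
      hgen P Q hP0 hP hQ hQP⟩
  · obtain ⟨P, hP0, hP, hline, -⟩ := L.legendre_vert hV hb h2
    obtain ⟨P', hP'0, hP', hline', -⟩ := L.legendre_vert hV' hb h2
    have hk := (hline P hP).mpr (AddSubgroup.mem_zmultiples P)
    have hk' := (hline' P' hP').mpr (AddSubgroup.mem_zmultiples P')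
    have hP'P : P' ∉ AddSubgroup.zmultiples P := fun h =>
      hne (hsame V V' hV hT hV' hT' P' hP'0 hP' ((hline P' hP').mpr h) hk')
    obtain ⟨a, ha, b, hb', e⟩ := (hgen P P' hP0 hP hP' hP'P).2.2.2.2 x hx hxn
    exact ⟨a * zOf P, mul_mem ha (hzR P hP), b * zOf P', mul_mem hb' (hzR P' hP'),
      nonunits_mul_left (hT.locRing_le hV.evW_mem ha) (hzV V hV P hP0 hP hk),
      nonunits_mul_left (hT'.locRing_le hV'.evW_mem hb') (hzV V' hV' P' hP'0 hP' hk'), e⟩
  · obtain ⟨P, hP0, hP, hline, -⟩ := L.legendre_vert hV hb h2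
    have hk := (hline P hP).mpr (AddSubgroup.mem_zmultiples P)
    exact hsame V V' hV hT hV' hT' P hP0 hP hk ((hiff P hP).mp hk)
  · have := hufd
    obtain ⟨Q, hQ, hQP⟩ := L.exists_qTorsion_notMem hΔ hP
    have hqz : ∃ a ∈ locRing W L.par M, (q : F) = a * zOf P := by
      have hsq := L.legendre_sq_zOf hM h2 h0 h1 hP0 hP
      have hxP := L.legendre_xOf_ne_zero hM h2 h0 h1 hP0 hP
      have hu := huR P hP
      have hz := hzR P hP
      obtain ⟨x₁, y₁, n₁, rfl⟩ := LevelData.exists_some_of_ne_zero hP0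
      rw [xOf_some] at hsq hxP hu
      obtain ⟨a, ha, e⟩ := L.legendre_q_eq_mul_inv_xOf h2
        (chart_le_locRing (W := W) par_mem_chart) hP hxP hu
      refine ⟨a * (zOf (W := L.curve) (.some x₁ y₁ n₁) *
        ((1 - x₁⁻¹) * (1 - L.par * x₁⁻¹))), mul_mem ha (mul_mem hz (mul_mem
          (sub_mem (one_mem _) hu) (sub_mem (one_mem _)
            (mul_mem (chart_le_locRing par_mem_chart) hu)))),
        ?_⟩
      rw [e]
      linear_combination -a * hsq
    have hgen' : ∀ V, IsVert W q L.par V → Through W L.par M V → zOf P ∉ V.nonunits →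
        ∃ g, g ∈ V.nonunits ∧ Gen2 W L.par M (zOf P) g := by
      intro V hV hT hnot
      obtain ⟨P', hP'0, hP', hline', -⟩ := L.legendre_vert hV hb h2
      have hk' := (hline' P' hP').mpr (AddSubgroup.mem_zmultiples P')
      refine ⟨zOf P', hzV V hV P' hP'0 hP' hk', hgen P P' hP0 hP hP' fun h => hnot ?_⟩
      obtain ⟨n, hn⟩ := exists_nsmul_of_mem_zmultiples hP hP'0 h
      exact hzV V hV P hP0 hP (hn ▸ L.inKer_nsmul hV.par_mem hk' n)
    obtain ⟨V, hV, hT, hzPV⟩ := exists_through_mem hb hc hM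
      (L.legendre_zOf_ne_zero hM h2 h0 h1 hP0 hP) (hzR P hP) (hzM P hP) hqz hgen'
    refine ⟨V, hV, hT, ?_⟩
    have hu : (xOf P)⁻¹ ∈ V.nonunits := by
      rw [← L.legendre_sq_zOf hM h2 h0 h1 hP0 hP]
      refine nonunits_mul_right ?_ (pow_two (zOf P) ▸ nonunits_mul_left
        (ValuationSubring.nonunits_subset hzPV) hzPV)
      exact hT.locRing_le hV.evW_mem (mul_mem (sub_mem (one_mem _) (huR P hP))
        (sub_mem (one_mem _) (mul_mem (chart_le_locRing par_mem_chart) (huR P hP))))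
    have hx0 := L.legendre_xOf_ne_zero hM h2 h0 h1 hP0 hP
    obtain ⟨x, y, h, rfl⟩ := LevelData.exists_some_of_ne_zero hP0
    rw [xOf_some] at hu hx0
    exact ((ValuationSubring.mem_nonunits_iff_or V).mp hu).elim
      (fun h => absurd (inv_eq_zero.mp h) hx0) (fun h => by rwa [inv_inv] at h)

end LevelData

end Fermat.Agent.Carayol
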