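import Fermat.Agent.Carayol.LegendreOrdinary
import Fermat.Agent.Carayol.LegendreSupersingular
import Fermat.Agent.Carayol.ChartsInv
import Fermat.Agent.Carayol.Transform
import Mathlib.RingTheory.Henselian
import Fermat.Agent.Carayol.Inertia

/-!
# The special fibre for the Legendre family

The special fibre of the two-chart model of the Legendre level curve. The behaviour at
the cusp `λ = 0` is a hypothesis here and is supplied by `Cusp.Main`.

Main result: `legendre_specialFibre`.
-/

set_option autoImplicit false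

open Polynomial IsLocalRing Fermat.Agent.EC.Reduction

namespace Fermat.Agent.Carayol

section Generic

variable {K F : Type*} [Field K] [Field F] [Algebra K F]

/-- The constants in the residue field of a point. -/
noncomputable def cstRes {W : ValuationSubring K} {q : ℕ} {t : F} {M : ValuationSubring F}
    (hM : IsPoint W q t M) : W →+* ResidueField M :=
  (residue M).comp (((algebraMap K F).comp W.subtype).codRestrict M.toSubring fun w => by
    simpa [evW_C] using hM.evW_mem (Polynomial.C w))

theorem eval₂_cstRes {W : ValuationSubring K} {q : ℕ} {t : F} {M : ValuationSubring F}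
    (hb : BaseData W q) (hM : IsPoint W q t M) (p : ℤ[X]) (w : W) :
    eval₂ (Int.castRingHom (ResidueField M)) (cstRes hM w) p = 0 ↔
      eval₂ (Int.castRingHom (ResidueField W)) (residue W w) p = 0 := by
  rw [← RingHom.ext_int ((cstRes hM).comp (Int.castRingHom W)) (Int.castRingHom _),
    ← RingHom.ext_int ((residue W).comp (Int.castRingHom W)) (Int.castRingHom _), ← hom_eval₂,
    ← hom_eval₂]
  set a := eval₂ (Int.castRingHom W) w p
  refine ⟨fun h => ?_, fun h => ?_⟩
  · rw [residue_eq_zero_iff, IsLocalRing.mem_maximalIdeal]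
    exact fun hu => not_isUnit_zero (h ▸ hu.map (cstRes hM))
  · rw [residue_eq_zero_iff, hb.uniformizer, Ideal.mem_span_singleton'] at h
    obtain ⟨d, hd⟩ := h
    have hq : cstRes hM (q : W) = 0 := by
      have : (q : ResidueField M) = 0 := by
        rw [← map_natCast (residue M)]
        exact (mem_nonunits_iff_residue (natCast_mem M q)).mp hM.q_mem
      rwa [map_natCast]
    rw [← hd, map_mul, hq, mul_zero]

end Generic

variable {K F : Type*} [Field K] [CharZero K] [Field F] [DecidableEq F] [Algebra K F]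
  {q r : ℕ} [NeZero (q * r)] [Fact q.Prime]

namespace LevelData

variable (L : LevelData K F legendreFam q r) {W : ValuationSubring K}

omit [CharZero K] [NeZero (q * r)] [Fact q.Prime] in
theorem parRes_eq_cstRes {M : ValuationSubring F} (hM : IsPoint W q L.par M) {w : W}
    (hw : L.par - algebraMap K F w ∈ M.nonunits) : L.parRes hM.par_mem = cstRes hM w := by
  refine sub_eq_zero.mp ?_
  simp only [cstRes, RingHom.comp_apply, LevelData.parRes, ← map_sub]
  exact (mem_nonunits_iff_residue (sub_mem hM.par_mem (by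
    simpa [evW_C] using hM.evW_mem (Polynomial.C w)))).mp hw

omit [CharZero K] [NeZero (q * r)] [Fact q.Prime] in
theorem parRes_ne_of_notMem {M : ValuationSubring F} (hM : IsPoint W q L.par M)
    (h0 : L.par ∉ M.nonunits) (h1 : L.par - 1 ∉ M.nonunits) :
    L.parRes hM.par_mem ≠ 0 ∧ L.parRes hM.par_mem ≠ 1 := by
  refine ⟨fun h => h0 ((mem_nonunits_iff_residue hM.par_mem).mpr h), fun h => h1 ?_⟩
  have hm : L.par - 1 ∈ M := sub_mem hM.par_mem (one_mem _)
  rw [mem_nonunits_iff_residue hm, show (⟨L.par - 1, hm⟩ : M) = ⟨L.par, hM.par_mem⟩ - 1 from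
    Subtype.ext rfl, map_sub, map_one, sub_eq_zero]
  exact h

variable [IsAlgClosed (IsLocalRing.ResidueField W)] (hb : BaseData W q) (h2 : q ≠ 2)
  (hqr : r.Coprime q)

include hb h2 hqr in
/-- A point of good reduction is good, and its components are told apart by their lines. -/
theorem legendre_good {M : ValuationSubring F} (hM : IsPoint W q L.par M)
    (h0 : L.parRes hM.par_mem ≠ 0) (h1 : L.parRes hM.par_mem ≠ 1) :
    GoodPoint W q L.par M ∧
    ∀ V V', IsVert W q L.par V → Through W L.par M V → IsVert W q L.par V' →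
      Through W L.par M V' →
      (∀ Q : L.curve.toAffine.Point, q • Q = 0 → (InKer V Q ↔ InKer V' Q)) → V = V' := by
  by_cases hL : topCoeff (L.resCurve hM.par_mem) q = 0
  · exact ⟨(L.legendre_supersingular hb hM h2 h0 h1 hqr hL).1,
      (L.legendre_supersingular hb hM h2 h0 h1 hqr hL).2.1⟩
  · obtain ⟨hg, hu⟩ := L.legendre_ordinary hb hM h2 h0 h1 hqr hL
    exact ⟨hg, fun V V' hV hT hV' hT' _ => hu V V' hV hT hV' hT'⟩

include hb h2 in
omit [CharZero K] in
/-- There is a supersingular parameter. -/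
theorem exists_supersingular_par :
    ∃ w : W, eval₂ (Int.castRingHom (ResidueField W)) (residue W w)
        (topCoeff (legendreAt (Polynomial.X : ℤ[X])) q) = 0 ∧
      residue W w ≠ 0 ∧ residue W w ≠ 1 := by
  have hq := (Fact.out : q.Prime).ne_zero
  have := charP_residue_base hb
  set p := topCoeff (legendreAt (Polynomial.X : (ResidueField W)[X])) q
  set h := hasseCoeff (legendreAt (Polynomial.X : (ResidueField W)[X])) q
  have hsq : p ^ 2 = h ^ 2 := by
    rw [topCoeff_sq _ h2]
  obtain ⟨c, hc⟩ : ∃ c, h.IsRoot c := by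
    refine IsAlgClosed.exists_root h fun hd => ?_
    have h1 : (q - 1) / 2 ≤ h.natDegree :=
      natDegree_hasseCoeff_legendreAt_X (k := ResidueField W) (q := q) h2
    have h0 : h.natDegree = 0 := natDegree_eq_zero_iff_degree_le_zero.mpr hd.le
    have := (Fact.out : q.Prime).two_le
    have := (Fact.out : q.Prime).odd_of_ne_two h2
    obtain ⟨m, hm⟩ := this
    omega
  have hev : ∀ s : ResidueField W, h.eval s = hasseCoeff (legendreAt s) q := fun s => by
    rw [← coe_evalRingHom, ← map_hasseCoeff, map_legendreAt, coe_evalRingHom, eval_X]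
  have hc0 : c ≠ 0 := fun e => hasseCoeff_legendreAt_zero (k := ResidueField W) (q := q) h2
    (by rw [← hev]; subst e; exact hc)
  have hc1 : c ≠ 1 := fun e => hasseCoeff_legendreAt_one (k := ResidueField W) (q := q) h2
    (by rw [← hev]; subst e; exact hc)
  have hpc : p.eval c = 0 := by
    have := congrArg (eval c) hsq
    rwa [eval_pow, eval_pow, hc, zero_pow two_ne_zero, pow_eq_zero_iff two_ne_zero] at this
  obtain ⟨w, rfl⟩ := residue_surjective c
  refine ⟨w, ?_, hc0, hc1⟩
  have e : ∀ R : Type _, ∀ _ : CommRing R, ∀ s : R,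
      eval₂ (Int.castRingHom R) s (topCoeff (legendreAt (Polynomial.X : ℤ[X])) q) =
        topCoeff (legendreAt s) q := by
    intro R _ s
    rw [← coe_eval₂RingHom, ← map_topCoeff _ hq, map_legendreAt, coe_eval₂RingHom, eval₂_X]
  rw [e]
  rwa [← coe_evalRingHom, ← map_topCoeff _ hq, map_legendreAt, coe_evalRingHom, eval_X] at hpc

section Changes

variable [HenselianLocalRing W]

omit [CharZero K] in
include hb h2 in
theorem exists_sqrt_neg_one : ∃ i : W, i ^ 2 = -1 := by
  have := charP_residue_base hb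
  obtain ⟨a₀, ha₀⟩ := IsAlgClosed.exists_pow_nat_eq (-1 : ResidueField W) (n := 2) two_pos
  obtain ⟨a, rfl⟩ := residue_surjective a₀
  obtain ⟨i, hi, -⟩ := HenselianLocalRing.is_henselian (Polynomial.X ^ 2 - Polynomial.C (-1 : W))
    (monic_X_pow_sub_C _ two_ne_zero) a
    (by
      rw [← residue_eq_zero_iff, eval_sub, eval_pow, eval_X, eval_C, map_sub, map_pow, ha₀,
        map_neg, map_one, sub_self])
    (by
      rw [derivative_sub, derivative_X_pow, derivative_C, sub_zero]
      simp only [Nat.cast_ofNat, Nat.add_one_sub_one, pow_one, eval_mul, eval_C, eval_X]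
      refine IsLocalRing.notMem_maximalIdeal.mp fun h => ?_
      rw [← residue_eq_zero_iff, map_mul, map_ofNat, mul_eq_zero] at h
      refine h.elim (two_ne_zero_of_charP (q := q) h2) fun h => ?_
      rw [h, zero_pow two_ne_zero, eq_comm, neg_eq_zero] at ha₀
      exact one_ne_zero ha₀)
  exact ⟨i, by rwa [IsRoot, eval_sub, eval_pow, eval_X, eval_C, sub_eq_zero] at hi⟩

include hb h2 in
omit [CharZero K] [NeZero (q * r)] in
/-- The level structure at `1 - t`. -/
theorem exists_one_sub : ∃ L' : LevelData K F legendreFam q r, L'.par = 1 - L.par := by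
  obtain ⟨i, hi⟩ := exists_sqrt_neg_one hb h2
  have hiK : algebraMap K F (i : K) ^ 2 = -1 := by
    rw [← map_pow, ← SubmonoidClass.coe_pow, hi]; simp
  have hi0 : algebraMap K F (i : K) ≠ 0 := fun h => by simp [h] at hiK
  let C : WeierstrassCurve.VariableChange F := ⟨Units.mk0 _ hi0, 1, 0, 0⟩
  have hC : C • L.curve =
      legendreFam.map (eval₂RingHom (Int.castRingHom F) (1 - L.par)) := by
    rw [legendre_map, L.legendre_curve]
    ext <;> simp [C, legendreAt, WeierstrassCurve.variableChange_a₁,
      WeierstrassCurve.variableChange_a₂,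
      WeierstrassCurve.variableChange_a₃, WeierstrassCurve.variableChange_a₄,
      WeierstrassCurve.variableChange_a₆] <;> field_simp
    · linear_combination (2 - L.par) * hiK
    · linear_combination ((L.par - 1) * (algebraMap K F (i : K) ^ 2 - 1)) * hiK
  have ht : Transcendental K (1 - L.par) := fun h => L.transcendental (by
    simpa using (isAlgebraic_one (R := K) (A := F)).sub h)
  refine ⟨L.transform C ht hC fun Z hZ _ => ?_, rfl⟩
  exact ⟨by simpa using sub_mem (one_mem Z) hZ, Z.algebraMap_mem _, one_mem Z, zero_mem Z,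
    zero_mem Z⟩

variable (h4 : 4 ∣ r)

omit [Fact (Nat.Prime q)] in
omit [IsAlgClosed (IsLocalRing.ResidueField W)] [HenselianLocalRing W] in
include h4 in
theorem exists_sqrt_par : ∃ v, ∃ x y : F, ∃ h : L.curve.toAffine.Nonsingular x y,
    L.basis v = .some x y h ∧ x ^ 2 = L.par := by
  classical
  have hΔ := legendre_Δ_ne_zero
  have hE := isElliptic_curve L hΔ
  have : (legendreAt L.par).IsElliptic := by
    rw [← L.legendre_curve]; exact hE
  have hns : L.curve.toAffine.Nonsingular 0 0 := by
    rw [L.legendre_curve]; exact nonsingular_twoTorsion (Or.inl rfl)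
  set T : L.curve.toAffine.Point := .some 0 0 hns
  have h2T : 2 • T = 0 := by
    rw [two_nsmul, WeierstrassCurve.Affine.Point.add_of_Y_eq rfl]
    simp [WeierstrassCurve.Affine.negY, LevelData.curve, legendreFam]
  obtain ⟨k, hk⟩ : 4 ∣ q * r := h4.mul_left q
  obtain ⟨v, hv⟩ := L.exists_basis_eq hΔ T (by
    rw [hk, show 4 * k = (2 * k) * 2 by ring, mul_nsmul', h2T, nsmul_zero])
  have hhalf : ∀ a : ZMod (q * r), 2 • a = 0 → ∃ b : ZMod (q * r), 2 • b = a := by
    intro a ha
    have hd : q * r ∣ 2 * a.val := by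
      rw [← ZMod.natCast_eq_zero_iff]
      push_cast
      rw [ZMod.natCast_zmod_val, ← ha, nsmul_eq_mul, Nat.cast_ofNat]
    have hd2 : 2 * k ∣ a.val := by
      refine Nat.dvd_of_mul_dvd_mul_left two_pos ?_
      have e : q * r = 2 * (2 * k) := by rw [hk]; ring
      exact e ▸ hd
    obtain ⟨j, hj⟩ := hd2
    refine ⟨((k * j : ℕ) : ZMod (q * r)), ?_⟩
    rw [nsmul_eq_mul, ← Nat.cast_mul, ← mul_assoc, ← hj, ZMod.natCast_zmod_val]
  have hv2 : 2 • v = 0 := L.injective_basis (by rw [map_nsmul, hv, h2T, _root_.map_zero])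
  obtain ⟨b₁, hb₁⟩ := hhalf v.1 (by have := congrArg Prod.fst hv2; simpa using this)
  obtain ⟨b₂, hb₂⟩ := hhalf v.2 (by have := congrArg Prod.snd hv2; simpa using this)
  have h2R : 2 • L.basis (b₁, b₂) = T := by
    rw [← map_nsmul, ← hv]
    exact congrArg _ (Prod.ext hb₁ hb₂)
  rcases hR : L.basis (b₁, b₂) with _ | ⟨x, y, h⟩
  · rw [hR, ← WeierstrassCurve.Affine.Point.zero_def, nsmul_zero] at h2R
    exact absurd h2R.symm (WeierstrassCurve.Affine.Point.some_ne_zero hns)
  refine ⟨(b₁, b₂), x, y, h, hR, ?_⟩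
  rw [hR] at h2R
  have hmul := EC.Torsion.mul_eval_ΨSq_eq_eval_Φ (W := L.curve.toAffine) ((2 : ℕ) : ℤ) h hns
    (by rw [natCast_zsmul]; exact h2R)
  rw [zero_mul] at hmul
  rw [Nat.cast_ofNat, WeierstrassCurve.Φ_two] at hmul
  simp [LevelData.curve, legendreFam, WeierstrassCurve.b₄, WeierstrassCurve.b₆,
    WeierstrassCurve.b₈] at hmul
  refine sub_eq_zero.mp ((pow_eq_zero_iff two_ne_zero).mp ?_)
  linear_combination -hmul

omit [IsAlgClosed (IsLocalRing.ResidueField W)] [HenselianLocalRing W] in
include h4 in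
omit [Fact (Nat.Prime q)] in
/-- The level structure at `1 / t`. -/
theorem exists_inv : ∃ L' : LevelData K F legendreFam q r, L'.par = L.par⁻¹ := by
  obtain ⟨v, x, y, h, hv, hx⟩ := L.exists_sqrt_par h4
  have ht0 : L.par ≠ 0 := fun e => L.transcendental (e ▸ isAlgebraic_zero)
  have hx0 : x ≠ 0 := fun e => ht0 (by rw [← hx, e, zero_pow two_ne_zero])
  let C : WeierstrassCurve.VariableChange F := ⟨Units.mk0 _ hx0, 0, 0, 0⟩
  have hC : C • L.curve =
      legendreFam.map (eval₂RingHom (Int.castRingHom F) L.par⁻¹) := by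
    rw [legendre_map, L.legendre_curve]
    ext <;> simp [C, legendreAt, WeierstrassCurve.variableChange_a₁,
      WeierstrassCurve.variableChange_a₂,
      WeierstrassCurve.variableChange_a₃, WeierstrassCurve.variableChange_a₄,
      WeierstrassCurve.variableChange_a₆] <;> field_simp
    · linear_combination (1 + L.par) * hx
    · linear_combination (-(x ^ 2 + L.par)) * hx
  have ht : Transcendental K L.par⁻¹ := fun h => L.transcendental (by simpa using h.inv)
  refine ⟨L.transform C ht hC fun Z hZ hpts => ?_, rfl⟩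
  refine ⟨by simpa using inv_mem hZ, ?_, zero_mem Z, zero_mem Z, zero_mem Z⟩
  obtain ⟨x', y', hn', e, hxx, -⟩ := changeHom_some C hC h
  have hm := hpts v
  rw [hv, e] at hm
  have hx'Z : x' ∈ Z := hm (Or.inl rfl)
  have hxx' : x = x ^ 2 * x' := by simpa [C] using hxx
  have : x = x'⁻¹ := by
    refine eq_inv_of_mul_eq_one_left (mul_left_cancel₀ hx0 ?_)
    linear_combination -hxx'
  show x ∈ Z
  rw [this]
  exact inv_mem hx'Z

end Changes

include hb h2 hqr in
/-- **The special fibre of the Legendre level curve.** -/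
theorem legendre_specialFibre [HenselianLocalRing W] (hu : UniqueExt W) (h4 : 4 ∣ r)
    (hcusp : ∀ (L' : LevelData K F legendreFam q r) (M : ValuationSubring F),
      IsPoint W q L'.par M → L'.par ∈ M.nonunits → GoodPoint W q L'.par M ∧
        ∀ V V', IsVert W q L'.par V → Through W L'.par M V → IsVert W q L'.par V' →
          Through W L'.par M V' → V = V') :
    SpecialFibre W L L.par := by
  have hΔ := legendre_Δ_ne_zero
  have hT := L.transcendental
  have hchart₀ : ∀ M, IsPoint W q L.par M → GoodPoint W q L.par M ∧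
      ∀ V V', IsVert W q L.par V → Through W L.par M V → IsVert W q L.par V' →
        Through W L.par M V' →
        (∀ Q : L.curve.toAffine.Point, q • Q = 0 → (InKer V Q ↔ InKer V' Q)) → V = V' := by
    intro M hM
    by_cases h0 : L.par ∈ M.nonunits
    · obtain ⟨hg, hu'⟩ := hcusp L M hM h0
      exact ⟨hg, fun V V' hV hT hV' hT' _ => hu' V V' hV hT hV' hT'⟩
    by_cases h1 : L.par - 1 ∈ M.nonunits
    · obtain ⟨L', hL'⟩ := L.exists_one_sub hb h2
      have haff : IsAffineChange W L.par L'.par := hL' ▸ isAffineChange_one_sub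
      obtain ⟨hg, hu'⟩ := hcusp L' M (haff.isPoint hM) (by
        rw [hL', ← neg_sub]; exact neg_mem h1)
      exact ⟨haff.symm.goodPoint hg, fun V V' hV hTh hV' hTh' _ => hu' V V' (haff.isVert hV)
        (haff.through_iff.mpr hTh) (haff.isVert hV') (haff.through_iff.mpr hTh')⟩
    obtain ⟨g0, g1⟩ := L.parRes_ne_of_notMem hM h0 h1
    exact L.legendre_good hb h2 hqr hM g0 g1
  have hchart₁ : ∀ M, IsPoint W q L.par⁻¹ M → GoodPoint W q L.par⁻¹ M ∧
      ∀ V V', IsVert W q L.par⁻¹ V → Through W L.par⁻¹ M V → IsVert W q L.par⁻¹ V' →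
        Through W L.par⁻¹ M V' →
        (∀ Q : L.curve.toAffine.Point, q • Q = 0 → (InKer V Q ↔ InKer V' Q)) → V = V' := by
    intro M hM
    by_cases h0 : L.par⁻¹ ∈ M.nonunits
    · obtain ⟨L', hL'⟩ := L.exists_inv h4
      obtain ⟨hg, hu'⟩ := hcusp L' M (by rw [hL']; exact hM) (by rw [hL']; exact h0)
      rw [hL'] at hg hu'
      exact ⟨hg, fun V V' hV hT hV' hT' _ => hu' V V' hV hT hV' hT'⟩
    have hM' : IsPoint W q L.par M := by simpa using hM.inv hb h0
    have h0' : L.par ∉ M.nonunits := by simpa using inv_notMem_nonunits hM h0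
    obtain ⟨hg, hu'⟩ := hchart₀ M hM'
    refine ⟨hg.inv hb hM' h0' hT, fun V V' hV hTh hV' hTh' hiff => ?_⟩
    have hV₁ := (isVert_inv_iff hT).mp hV
    have hV₂ := (isVert_inv_iff hT).mp hV'
    exact hu' V V' hV₁ ((through_inv hb hM' h0' hT hV₁).mp hTh) hV₂
      ((through_inv hb hM' h0' hT hV₂).mp hTh') hiff
  refine
    { base := hb
      unique_ext := hu
      cover := L.cover hΔ
      mem_fixPar_iff := fun σ => mem_fixPar
      isVert_inv := fun V => isVert_inv_iff hT
      good₀ := fun M hM => (hchart₀ M hM).1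
      good₁ := fun M hM => (hchart₁ M hM).1
      kernel := fun V hV => ?_
      separated₀ := fun M V V' hM hV hTh hV' hTh' => (hchart₀ M hM).2 V V' hV hTh hV' hTh'
      separated₁ := fun M V V' hM hV hTh hV' hTh' => (hchart₁ M hM).2 V V' hV hTh hV' hTh'
      inertia := fun V hV P Q hP0 hP hQ hPk hQk a b ha => ?_
      supersingular := ?_ }
  · obtain ⟨P, hP0, hP, hline, -⟩ := L.legendre_vert hV hb h2
    exact ⟨P, hP0, hP, hline⟩
  · obtain ⟨g0, g1⟩ := L.legendre_vert_parRes_ne hV
    obtain ⟨-, -, -, -, hcard⟩ := L.legendre_vert hV hb h2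
    exact L.exists_inertia hV.par_mem
      (L.legendre_resCurve_Δ_ne_zero hV.par_mem hV.q_mem h2 g0 g1) hqr hV.q_mem hΔ hcard hP0 hP hQ
      hPk hQk ha
  · obtain ⟨w, hw, hw0, hw1⟩ := exists_supersingular_par (q := q) hb h2
    refine ⟨w, fun M hM hwM => ?_⟩
    have hpr := L.parRes_eq_cstRes hM hwM
    have g0 : L.parRes hM.par_mem ≠ 0 := fun h => hw0 (by
      have := (eval₂_cstRes hb hM Polynomial.X w).mp (by rw [eval₂_X, ← hpr, h])
      rwa [eval₂_X] at this)
    have g1 : L.parRes hM.par_mem ≠ 1 := fun h => hw1 (by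
      have := (eval₂_cstRes hb hM (Polynomial.X - 1) w).mp (by simp [← hpr, h])
      simpa [sub_eq_zero] using this)
    have hL : topCoeff (L.resCurve hM.par_mem) q = 0 := by
      rw [L.legendre_resCurve hM.par_mem, hpr]
      have := (eval₂_cstRes hb hM (topCoeff (legendreAt (Polynomial.X : ℤ[X])) q) w).mpr hw
      rwa [← coe_eval₂RingHom, ← map_topCoeff _ (Fact.out : q.Prime).ne_zero, map_legendreAt,
        coe_eval₂RingHom, eval₂_X] at this
    obtain ⟨-, hsep, hall⟩ := L.legendre_supersingular hb hM h2 g0 g1 hqr hL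
    exact ⟨hsep, hall⟩

end LevelData

end Fermat.Agent.Carayol
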