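import Fermat.Agent.Carayol.LegendrePoint
import Mathlib.RingTheory.Ideal.Quotient.Basic

/-!
# Additivity of the uniformiser

At a supersingular point the uniformiser `x / y` is additive on the `q`-torsion modulo the square of
the maximal ideal.

Main result: `legendre_zOf_add`.
-/

set_option autoImplicit false

open Polynomial IsLocalRing Fermat.Agent.EC.Reduction

namespace Fermat.Agent.Carayol

/-- The chord relation between the values of `x / y` at three collinear points. -/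
theorem chord_identity {F : Type*} [Field F] {t xA yA xB yB l n xC yC : F}
    (hA : yA ^ 2 = xA * (xA - 1) * (xA - t)) (hB : yB ^ 2 = xB * (xB - 1) * (xB - t))
    (hne : xA ≠ xB) (hlA : yA = l * xA + n) (hlB : yB = l * xB + n)
    (hxC : xC = l ^ 2 + (1 + t) - xA - xB) (hyC : yC = l * xC + n)
    (hA0 : yA ≠ 0) (hB0 : yB ≠ 0) (hC0 : yC ≠ 0) :
    (xA / yA + xB / yB + xC / yC) * (n ^ 2 + (1 + t) * l * n + t * l ^ 2) =
      (1 + t) * n + 2 * t * l := by
  have hd : xA - xB ≠ 0 := sub_ne_zero.mpr hne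
  have e2 : xA * xB + (xA + xB) * xC = t - 2 * l * n := by
    subst hlA hlB hxC
    refine mul_left_cancel₀ hd ?_
    linear_combination hA - hB
  have e3 : xA * xB * xC = n ^ 2 := by
    subst hlA hlB
    linear_combination -hA + xA * e2 - xA ^ 2 * hxC
  have hprod : yA * yB * yC = n * (n ^ 2 + (1 + t) * l * n + t * l ^ 2) := by
    subst hlA hlB hyC
    linear_combination l ^ 3 * e3 + l ^ 2 * n * e2 + l * n ^ 2 * hxC
  have hnum : xA * yB * yC + xB * yA * yC + xC * yA * yB = n * ((1 + t) * n + 2 * t * l) := by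
    subst hlA hlB hyC
    linear_combination 3 * l ^ 2 * e3 + 2 * l * n * e2 + n ^ 2 * hxC
  have hsum : (xA / yA + xB / yB + xC / yC) * (yA * yB * yC) =
      xA * yB * yC + xB * yA * yC + xC * yA * yB := by
    field_simp
  refine mul_right_cancel₀ (mul_ne_zero (mul_ne_zero hA0 hB0) hC0) ?_
  linear_combination (n ^ 2 + (1 + t) * l * n + t * l ^ 2) * hsum -
    ((1 + t) * n + 2 * t * l) * hprod + (n ^ 2 + (1 + t) * l * n + t * l ^ 2) * hnum

/-- The addition law for `x / y` in the coordinates at the origin: `D` and `Au` are the two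
denominators, `lam` the slope and `wA - lam * zA` the intercept. -/
theorem chord_reduced {F : Type*} [Field F] {t xA yA xB yB zA zB wA wB D Di Au Ai lam sl n : F}
    (hA : yA ^ 2 = xA * (xA - 1) * (xA - t)) (hB : yB ^ 2 = xB * (xB - 1) * (xB - t))
    (hne : xA ≠ xB) (hyA : yA ≠ 0) (hyB : yB ≠ 0) (hzA : zA = xA / yA) (hzB : zB = xB / yB)
    (hwA : wA = yA⁻¹) (hwB : wB = yB⁻¹) (hD : D = 1 + (1 + t) * zB ^ 2 - t * zB * (wA + wB))
    (hDi : D * Di = 1)
    (hlam : lam = (zA ^ 2 + zA * zB + zB ^ 2 - (1 + t) * wA * (zA + zB) + t * wA ^ 2) * Di)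
    (hAu : Au = 1 - (1 + t) * lam + t * lam ^ 2) (hAi : Au * Ai = 1)
    (hsl : sl * (xA - xB) = yA - yB) (hn : n = yA - sl * xA) {xC : F}
    (hxC : xC = sl ^ 2 + (1 + t) - xA - xB) (hy3 : sl * xC + n ≠ 0) :
    ((1 + t) * -1 + 2 * t * lam) * (wA - lam * zA) * Ai =
      xC / -(sl * xC + n) - zA - zB := by
  have hd : xA - xB ≠ 0 := sub_ne_zero.mpr hne
  have hcA : wA = zA ^ 3 - (1 + t) * zA ^ 2 * wA + t * zA * wA ^ 2 := by
    rw [hzA, hwA]; field_simp; linear_combination hA
  have hcB : wB = zB ^ 3 - (1 + t) * zB ^ 2 * wB + t * zB * wB ^ 2 := by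
    rw [hzB, hwB]; field_simp; linear_combination hB
  have hslope : wA - wB = lam * (zA - zB) := by
    linear_combination (Di) * hcA - Di * hcB - (wA - wB) * hDi + (wA - wB) * Di * hD -
      (zA - zB) * hlam
  generalize hnu : wA - lam * zA = nu
  have hkey : nu * (zA - zB) = (xA - xB) / (yA * yB) := by
    have : nu * (zA - zB) = zA * wB - zB * wA := by
      linear_combination zA * hslope - (zA - zB) * hnu
    rw [this, hzA, hzB, hwA, hwB]
    field_simp
  have hzne : zA - zB ≠ 0 := fun e => by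
    rw [e, mul_zero, eq_comm, div_eq_zero_iff] at hkey
    exact hkey.elim hd (mul_ne_zero hyA hyB)
  have hn1 : n * nu = 1 := by
    refine mul_right_cancel₀ hzne ?_
    rw [mul_assoc, hkey, one_mul, hn, hzA, hzB]
    field_simp
    linear_combination -xA * hsl
  have hl : lam = -(sl * nu) := by
    refine mul_right_cancel₀ hzne ?_
    rw [← hslope, neg_mul, mul_assoc, hkey, hwA, hwB]
    field_simp
    linear_combination hsl
  have hch := chord_identity hA hB hne (l := sl) (n := n) (yC := sl * xC + n)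
    (by rw [hn]; ring) (by rw [hn]; linear_combination hsl) hxC rfl hyA hyB hy3
  rw [← hzA, ← hzB] at hch
  have hA0 : 1 - (1 + t) * lam + t * lam ^ 2 ≠ 0 := fun e => by
    rw [hAu, e, zero_mul] at hAi
    exact zero_ne_one hAi
  have hAi' : Ai = (1 - (1 + t) * lam + t * lam ^ 2)⁻¹ := by
    rw [← hAu]; exact eq_inv_of_mul_eq_one_right hAi
  rw [hAi', div_neg, ← mul_left_inj' hA0, inv_mul_cancel_right₀ hA0, hl]
  linear_combination nu ^ 2 * hch + ((zA + zB + xC / (sl * xC + n)) *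
    (-(1 + t) * sl * nu - (n * nu + 1)) + (1 + t) * nu) * hn1

variable {K F : Type*} [Field K] [CharZero K] [Field F] [DecidableEq F] [Algebra K F]
  {q r : ℕ} [NeZero (q * r)] [Fact q.Prime] (L : LevelData K F legendreFam q r)
  {W : ValuationSubring K} {M : ValuationSubring F}

namespace LevelData

omit [CharZero K] [NeZero (q * r)] [Fact q.Prime] in
theorem legendre_neg_some {x y : F} (h : L.curve.toAffine.Nonsingular x y) :
    zOf (-(WeierstrassCurve.Affine.Point.some x y h : L.curve.toAffine.Point)) = -(x / y) := by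
  rw [WeierstrassCurve.Affine.Point.neg_some, zOf_some]
  simp [WeierstrassCurve.Affine.negY, LevelData.curve, legendreFam, div_neg]

omit [CharZero K] [NeZero (q * r)] [Fact (Nat.Prime q)] in
theorem legendre_zOf_neg (A : L.curve.toAffine.Point) : zOf (-A) = -zOf A := by
  rcases A with _ | ⟨x, y, h⟩
  · rw [← WeierstrassCurve.Affine.Point.zero_def, neg_zero]
    exact (neg_zero (G := F)).symm
  · rw [L.legendre_neg_some h, zOf_some]

variable (hM : IsPoint W q L.par M) (h2 : q ≠ 2)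
  (h0 : L.parRes hM.par_mem ≠ 0) (h1 : L.parRes hM.par_mem ≠ 1)
  (hss : ∀ A : L.curve.toAffine.Point, q • A = 0 → InKer M A)
  {C : Subring F} (hC : C ≤ M.toSubring) (htC : L.par ∈ C)
  (hzC : ∀ A : L.curve.toAffine.Point, q • A = 0 → zOf A ∈ C)
  (huC : ∀ A : L.curve.toAffine.Point, q • A = 0 → (xOf A)⁻¹ ∈ C)

omit [CharZero K] [NeZero (q * r)] in
include hM h2 h0 h1 hss in
theorem legendre_zOf_nonunits {A : L.curve.toAffine.Point} (hA : q • A = 0) :
    zOf A ∈ M.nonunits := by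
  rcases eq_or_ne A 0 with rfl | hA0
  · exact (ValuationSubring.mem_nonunits_iff_or M).mpr (Or.inl rfl)
  · exact (L.legendre_zOf_mem hM h2 h0 h1 hA0 hA (hss A hA)).2

include hM h2 h0 h1 hss hC htC hzC huC in
omit [CharZero K] [NeZero (q * r)] in
/-- The case of two points with different abscissae. -/
theorem legendre_zOf_add_of_ne {A B : L.curve.toAffine.Point} (hA0 : A ≠ 0) (hA : q • A = 0)
    (hB0 : B ≠ 0) (hB : q • B = 0) (hne : xOf A ≠ xOf B) :
    haveI := isLocalRing_locAt (M := M) hC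
    ∃ e ∈ maximalIdeal (locAt C M) ^ 2, (e : F) = zOf (A + B) - zOf A - zOf B := by
  classical
  have := isLocalRing_locAt (M := M) hC
  set m := maximalIdeal (locAt C M)
  have hmem := mem_maximalIdeal_locAt (M := M) hC
  have hzA := L.legendre_zOf_nonunits hM h2 h0 h1 hss hA
  have hzB := L.legendre_zOf_nonunits hM h2 h0 h1 hss hB
  have hS : q • (A + B) = 0 := by rw [nsmul_add, hA, hB, add_zero]
  have huA := (L.legendre_inKer_iff_inv hM h2 h0 h1 hA0 hA).mp (hss A hA)
  have huB := (L.legendre_inKer_iff_inv hM h2 h0 h1 hB0 hB).mp (hss B hB)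
  let zA : locAt C M := ⟨zOf A, le_locAt (hzC A hA)⟩
  let zB : locAt C M := ⟨zOf B, le_locAt (hzC B hB)⟩
  let vA : locAt C M := zA * ⟨(xOf A)⁻¹, le_locAt (huC A hA)⟩
  let vB : locAt C M := zB * ⟨(xOf B)⁻¹, le_locAt (huC B hB)⟩
  let t : locAt C M := ⟨L.par, le_locAt htC⟩
  have hzAm : zA ∈ m := (hmem _).mpr hzA
  have hzBm : zB ∈ m := (hmem _).mpr hzB
  have hvA : vA ∈ m ^ 2 := by
    rw [pow_two]; exact Ideal.mul_mem_mul hzAm ((hmem _).mpr huA)
  have hvB : vB ∈ m ^ 2 := by
    rw [pow_two]; exact Ideal.mul_mem_mul hzBm ((hmem _).mpr huB)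
  have hle : m ^ 2 ≤ m := Ideal.pow_le_self two_ne_zero
  -- slope and intercept in the coordinates at the origin
  have hden : IsUnit (1 + (1 + t) * zB ^ 2 - t * zB * (vA + vB)) := by
    refine IsLocalRing.notMem_maximalIdeal.mp fun h => IsLocalRing.notMem_maximalIdeal.mpr
      (isUnit_one : IsUnit (1 : locAt C M)) ?_
    rw [show (1 : locAt C M) = (1 + (1 + t) * zB ^ 2 - t * zB * (vA + vB)) -
      ((1 + t) * zB * zB - t * (vA + vB) * zB) by ring]
    exact sub_mem h (sub_mem (Ideal.mul_mem_left _ _ hzBm) (Ideal.mul_mem_left _ _ hzBm))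
  obtain ⟨den, hdenu⟩ := hden
  let num : locAt C M := zA ^ 2 + zA * zB + zB ^ 2 - (1 + t) * vA * (zA + zB) + t * vA ^ 2
  have hnum : num ∈ m ^ 2 := by
    refine add_mem (sub_mem (add_mem (add_mem ?_ ?_) ?_)
      (Ideal.mul_mem_right _ _ (Ideal.mul_mem_left _ _ hvA))) (Ideal.mul_mem_left _ _ ?_)
    · exact Ideal.pow_mem_pow hzAm 2
    · rw [pow_two]; exact Ideal.mul_mem_mul hzAm hzBm
    · exact Ideal.pow_mem_pow hzBm 2
    · exact Ideal.pow_mem_pow (hle hvA) 2
  let lam : locAt C M := num * ((den⁻¹ : (locAt C M)ˣ) : locAt C M)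
  let nu : locAt C M := vA - lam * zA
  have hlam : lam ∈ m ^ 2 := Ideal.mul_mem_right _ _ hnum
  have hnu : nu ∈ m ^ 2 := sub_mem hvA (Ideal.mul_mem_right _ _ hlam)
  have hAu : IsUnit (1 - (1 + t) * lam + t * lam ^ 2) := by
    refine IsLocalRing.notMem_maximalIdeal.mp fun h => IsLocalRing.notMem_maximalIdeal.mpr
      (isUnit_one : IsUnit (1 : locAt C M)) ?_
    rw [show (1 : locAt C M) = (1 - (1 + t) * lam + t * lam ^ 2) -
      (-(1 + t) * lam + t * lam * lam) by ring]
    exact sub_mem h (add_mem (Ideal.mul_mem_left _ _ (hle hlam))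
      (Ideal.mul_mem_left _ _ (hle hlam)))
  obtain ⟨Au, hAu'⟩ := hAu
  refine ⟨((1 + t) * -1 + 2 * t * lam) * nu * ((Au⁻¹ : (locAt C M)ˣ) : locAt C M),
    Ideal.mul_mem_right _ _ (Ideal.mul_mem_left _ _ hnu), ?_⟩
  -- affine coordinates
  have hxA0 := L.legendre_xOf_ne_zero hM h2 h0 h1 hA0 hA
  have hxB0 := L.legendre_xOf_ne_zero hM h2 h0 h1 hB0 hB
  have hdenF := congrArg Subtype.val hdenu
  have hden1 := congrArg Subtype.val den.mul_inv
  have hAF := congrArg Subtype.val hAu'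
  have hA1 := congrArg Subtype.val Au.mul_inv
  obtain ⟨xA, yA, nA, rfl⟩ := LevelData.exists_some_of_ne_zero hA0
  obtain ⟨xB, yB, nB, rfl⟩ := LevelData.exists_some_of_ne_zero hB0
  rw [xOf_some] at hxA0 hxB0
  rw [xOf_some, xOf_some] at hne
  have hyA := L.legendre_yOf_ne_zero h2 hA
  have hyB := L.legendre_yOf_ne_zero h2 hB
  have heA := L.legendre_equation nA.1
  have heB := L.legendre_equation nB.1
  set sl := (yA - yB) / (xA - xB)
  set n := yA - sl * xA
  have hd : xA - xB ≠ 0 := sub_ne_zero.mpr hne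
  have hsl : sl * (xA - xB) = yA - yB := div_mul_cancel₀ _ hd
  have hxy : ¬(xA = xB ∧ yA = L.curve.toAffine.negY xB yB) := fun e => hne e.1
  rw [WeierstrassCurve.Affine.Point.add_some hxy] at hS ⊢
  have hy3 := L.legendre_yOf_ne_zero h2 hS
  simp only [zOf_some, xOf_some, Subring.coe_mul, Subring.coe_add, AddSubgroupClass.coe_sub,
    Subring.coe_one, Subring.coe_neg, SubmonoidClass.coe_pow,
    show ((2 : locAt C M) : F) = 2 from rfl, t, zA, zB, vA, vB, num, lam, nu]
      at hdenF hAF hden1 hA1 ⊢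
  have hX : L.curve.toAffine.addX xA xB (L.curve.toAffine.slope xA xB yA yB) =
      sl ^ 2 + (1 + L.par) - xA - xB := by
    rw [WeierstrassCurve.Affine.slope_of_X_ne hne]
    simp [WeierstrassCurve.Affine.addX, LevelData.curve, legendreFam, sl]
    ring
  set xC := sl ^ 2 + (1 + L.par) - xA - xB with hxC
  have hY : L.curve.toAffine.addY xA xB yA (L.curve.toAffine.slope xA xB yA yB) =
      -(sl * xC + n) := by
    rw [WeierstrassCurve.Affine.addY, WeierstrassCurve.Affine.negAddY, hX,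
      WeierstrassCurve.Affine.slope_of_X_ne hne]
    simp [WeierstrassCurve.Affine.negY, LevelData.curve, legendreFam, sl, n]
    ring
  rw [hX, hY]
  rw [hY, neg_ne_zero] at hy3
  exact chord_reduced heA heB hne hyA hyB rfl rfl (by field_simp) (by field_simp) hdenF hden1 rfl
    hAF hA1 hsl rfl hxC hy3

include hM h2 h0 h1 hss hC htC hzC huC in
/-- **Additivity modulo the square of the maximal ideal.** -/
theorem legendre_zOf_add {A B : L.curve.toAffine.Point} (hA : q • A = 0) (hB : q • B = 0) :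
    haveI := isLocalRing_locAt (M := M) hC
    ∃ e ∈ maximalIdeal (locAt C M) ^ 2, (e : F) = zOf (A + B) - zOf A - zOf B := by
  classical
  have := isLocalRing_locAt (M := M) hC
  have h0z : zOf (0 : L.curve.toAffine.Point) = 0 := rfl
  rcases eq_or_ne A 0 with rfl | hA0
  · exact ⟨0, zero_mem _, by rw [zero_add, h0z]; simp⟩
  rcases eq_or_ne B 0 with rfl | hB0
  · exact ⟨0, zero_mem _, by rw [add_zero, h0z]; simp⟩
  have hadd := fun {A B : L.curve.toAffine.Point} =>
    L.legendre_zOf_add_of_ne (A := A) (B := B) hM h2 h0 h1 hss hC htC hzC huC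
  rcases eq_or_ne (xOf A) (xOf B) with hx | hx
  swap
  · exact hadd hA0 hA hB0 hB hx
  rcases eq_or_eq_neg_of_xOf_eq hA0 hB0 hx with rfl | rfl
  swap
  · exact ⟨0, zero_mem _, by rw [neg_add_cancel, h0z, L.legendre_zOf_neg]; simp⟩
  obtain ⟨T, hT, hTA⟩ := L.exists_qTorsion_notMem legendre_Δ_ne_zero hA
  have hT0 : T ≠ 0 := fun h => hTA (h ▸ zero_mem _)
  have h2ne : ∀ {P : L.curve.toAffine.Point}, P ≠ 0 → q • P = 0 → P + P ≠ 0 := by
    intro P hP0 hP h
    rw [← two_nsmul, smul_eq_zero_iff_dvd hP0 hP] at h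
    exact h2 ((Nat.prime_dvd_prime_iff_eq Fact.out Nat.prime_two).mp h)
  have hTn : ∀ {U : L.curve.toAffine.Point}, U ≠ 0 → (U = T ∨ U = -T) → xOf A ≠ xOf U := by
    intro U hU hUT he
    have hUA : U ∈ AddSubgroup.zmultiples A := by
      rcases eq_or_eq_neg_of_xOf_eq hA0 hU he with e | e
      · exact e ▸ AddSubgroup.mem_zmultiples A
      · rw [← neg_neg U, ← e]; exact neg_mem (AddSubgroup.mem_zmultiples A)
    rcases hUT with rfl | rfl
    · exact hTA hUA
    · exact hTA (neg_mem_iff.mp hUA)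
  have hTne0 : -T ≠ 0 := neg_ne_zero.mpr hT0
  have hTq : q • -T = 0 := by rw [smul_neg, hT, neg_zero]
  have hp0 : A + T ≠ 0 := fun h => hTA (by
    rw [eq_neg_of_add_eq_zero_right h]; exact neg_mem (AddSubgroup.mem_zmultiples A))
  have hm0 : A + -T ≠ 0 := fun h => hTA (by
    have := eq_neg_of_add_eq_zero_right h
    rw [neg_inj] at this
    rw [this]; exact AddSubgroup.mem_zmultiples A)
  have hpq : q • (A + T) = 0 := by rw [nsmul_add, hA, hT, add_zero]
  have hmq : q • (A + -T) = 0 := by rw [nsmul_add, hA, hTq, add_zero]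
  have hne : xOf (A + T) ≠ xOf (A + -T) := fun he => by
    rcases eq_or_eq_neg_of_xOf_eq hp0 hm0 he with e | e
    · refine h2ne hT0 hT ?_
      rw [add_right_inj] at e
      exact eq_neg_iff_add_eq_zero.mp e
    · refine h2ne hA0 hA ?_
      rw [neg_add, neg_neg] at e
      rw [← sub_eq_zero] at e
      rw [← e]; abel
  obtain ⟨e₁, h₁, e₁'⟩ := hadd hA0 hA hT0 hT (hTn hT0 (Or.inl rfl))
  obtain ⟨e₂, h₂, e₂'⟩ := hadd hA0 hA hTne0 hTq (hTn hTne0 (Or.inr rfl))
  obtain ⟨e₃, h₃, e₃'⟩ := hadd hp0 hpq hm0 hmq hne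
  refine ⟨e₁ + e₂ + e₃, add_mem (add_mem h₁ h₂) h₃, ?_⟩
  rw [show A + T + (A + -T) = A + A by abel] at e₃'
  rw [L.legendre_zOf_neg] at e₂'
  simp only [Subring.coe_add, e₁', e₂', e₃']
  ring

include hM h2 h0 h1 hss hC htC hzC huC in
/-- The values on the `q`-torsion lie in the span of those on a basis, modulo the square. -/
theorem legendre_zOf_mem_span {P Q : L.curve.toAffine.Point} (hP0 : P ≠ 0) (hP : q • P = 0)
    (hQ : q • Q = 0) (hQP : Q ∉ AddSubgroup.zmultiples P) {A : L.curve.toAffine.Point}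
    (hA : q • A = 0) :
    haveI := isLocalRing_locAt (M := M) hC
    (⟨zOf A, le_locAt (hzC A hA)⟩ : locAt C M) ∈
      Ideal.span {(⟨zOf P, le_locAt (hzC P hP)⟩ : locAt C M), ⟨zOf Q, le_locAt (hzC Q hQ)⟩} ⊔
        maximalIdeal (locAt C M) ^ 2 := by
  classical
  have := isLocalRing_locAt (M := M) hC
  set J := Ideal.span {(⟨zOf P, le_locAt (hzC P hP)⟩ : locAt C M), ⟨zOf Q, le_locAt (hzC Q hQ)⟩} ⊔
    maximalIdeal (locAt C M) ^ 2
  have hstep : ∀ {A B : L.curve.toAffine.Point} (hA : q • A = 0) (hB : q • B = 0)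
      (hAB : q • (A + B) = 0), (⟨zOf A, le_locAt (hzC A hA)⟩ : locAt C M) ∈ J →
      (⟨zOf B, le_locAt (hzC B hB)⟩ : locAt C M) ∈ J →
      (⟨zOf (A + B), le_locAt (hzC _ hAB)⟩ : locAt C M) ∈ J := by
    intro A B hA hB hAB h₁ h₂
    obtain ⟨e, he, he'⟩ := L.legendre_zOf_add hM h2 h0 h1 hss hC htC hzC huC hA hB
    convert add_mem (add_mem h₁ h₂) (Submodule.mem_sup_right he : e ∈ J)
    simp only [Subring.coe_add, he']
    ring
  have hmul : ∀ {G : L.curve.toAffine.Point} (hG : q • G = 0),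
      (⟨zOf G, le_locAt (hzC G hG)⟩ : locAt C M) ∈ J →
      ∀ i : ℕ, ∀ h : q • (i • G) = 0, (⟨zOf (i • G), le_locAt (hzC _ h)⟩ : locAt C M) ∈ J := by
    intro G hG hGJ i
    induction i with
    | zero => intro h; convert J.zero_mem; simp only [zero_smul]; rfl
    | succ i ih =>
      intro h
      have hi : q • (i • G) = 0 := by rw [smul_comm, hG, nsmul_zero]
      convert hstep hi hG (by rwa [← succ_nsmul]) (ih hi) hGJ using 3
      rw [succ_nsmul]
  obtain ⟨i, j, rfl⟩ := L.exists_combo legendre_Δ_ne_zero hP0 hP hQ hQP hA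
  exact hstep (by rw [smul_comm, hP, nsmul_zero]) (by rw [smul_comm, hQ, nsmul_zero]) hA
    (hmul hP (Submodule.mem_sup_left (Ideal.subset_span (by simp))) i
      (by rw [smul_comm, hP, nsmul_zero]))
    (hmul hQ (Submodule.mem_sup_left (Ideal.subset_span (by simp))) j
      (by rw [smul_comm, hQ, nsmul_zero]))

end LevelData

end Fermat.Agent.Carayol
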