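import Fermat.Agent.Carayol.DivModLegendre
import Mathlib.Algebra.Polynomial.Reverse
import Mathlib.FieldTheory.IsAlgClosed.AlgebraicClosure

/-!
# A functional equation of division polynomials

The functional equation of the division polynomials of the Legendre curve under translation by
`(0, 0)`, and the resulting identity between the values at `1` and at the parameter.

Main result: `preΨ'_identity`.
-/

set_option autoImplicit false

open Polynomial WeierstrassCurve

namespace Fermat.Agent.Carayol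

variable {k : Type*} [Field k] [DecidableEq k] {t : k} [(legendreAt t).IsElliptic] {n : ℕ}

theorem xOf_add_origin {x y : k} (h : (legendreAt t).toAffine.Nonsingular x y) (hx : x ≠ 0) :
    ∃ z w, ∃ h' : (legendreAt t).toAffine.Nonsingular z w,
      (Affine.Point.some x y h : (legendreAt t).toAffine.Point) +
        Affine.Point.some 0 0 (nonsingular_twoTorsion (Or.inl rfl)) = Affine.Point.some z w h' ∧
      z = t / x := by
  have hxy : ¬(x = 0 ∧ y = (legendreAt t).toAffine.negY 0 0) := fun e => hx e.1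
  refine ⟨_, _, _, Affine.Point.add_some hxy, ?_⟩
  rw [Affine.slope_of_X_ne hx]
  have he := (Affine.equation_iff x y).mp h.1
  simp only [legendreAt, WeierstrassCurve.toAffine, Affine.addX] at he ⊢
  field_simp
  linear_combination x * he

theorem nsmul_origin (hn : Odd n) :
    n • (Affine.Point.some 0 0 (nonsingular_twoTorsion (Or.inl rfl)) :
      (legendreAt t).toAffine.Point) =
      Affine.Point.some 0 0 (nonsingular_twoTorsion (Or.inl rfl)) := by
  obtain ⟨m, rfl⟩ := hn
  rw [succ_nsmul, mul_nsmul, two_nsmul_twoTorsion (Or.inl rfl), smul_zero, zero_add]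

theorem eval_Φ_twoTorsion (hn : Odd n) {e : k} (he : e = 0 ∨ e = 1 ∨ e = t) :
    ((legendreAt t).Φ n).eval e = e * ((legendreAt t).ΨSq n).eval e := by
  obtain ⟨m, rfl⟩ := hn
  exact (EC.Torsion.mul_eval_ΨSq_eq_eval_Φ (W := (legendreAt t).toAffine) ((2 * m + 1 : ℕ) : ℤ)
    (nonsingular_twoTorsion he) (nonsingular_twoTorsion he) (by
      rw [natCast_zsmul, succ_nsmul, mul_nsmul, two_nsmul_twoTorsion he, smul_zero,
        zero_add])).symm

omit [DecidableEq k] [(legendreAt t).IsElliptic] in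
theorem eval_reflect_comp (p : k[X]) {N : ℕ} (hN : p.natDegree ≤ N) {x : k} (hx : x ≠ 0) :
    ((p.comp (C t * X)).reflect N).eval x = x ^ N * p.eval (t / x) := by
  have : Invertible x⁻¹ := invertibleOfNonzero (inv_ne_zero hx)
  have hd : (p.comp (C t * X)).natDegree ≤ N := by
    refine natDegree_comp_le.trans (le_trans ?_ hN)
    exact (Nat.mul_le_mul_left _ ((natDegree_C_mul_le t X).trans natDegree_X_le)).trans_eq
      (mul_one _)
  have h := eval₂_reflect_mul_pow (RingHom.id k) x⁻¹ N _ hd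
  rw [invOf_eq_inv, inv_inv, eval₂_id, eval₂_id] at h
  rw [show t / x = (C t * X).eval x⁻¹ by simp [div_eq_mul_inv], ← eval_comp, ← h, inv_pow]
  field_simp

variable [IsAlgClosed k] (hn : Odd n) (hnk : (n : k) ≠ 0)

include hn hnk in
/-- Translation by `(0, 0)` exchanges the numerator and the denominator of multiplication. -/
theorem mul_Φ_eq_reflect (ht : t ≠ 0) :
    (((legendreAt t).ΨSq n).comp (C t * X)).reflect (n ^ 2) =
      C (((legendreAt t).ΨSq n).eval 0) * (legendreAt t).Φ n := by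
  set Ψ := (legendreAt t).ΨSq n with hΨdef
  set Φ := (legendreAt t).Φ n with hΦdef
  set N := n ^ 2
  set Ψ' := (Ψ.comp (C t * X)).reflect N
  set Φ' := (Φ.comp (C t * X)).reflect N
  have hΨd : Ψ.natDegree ≤ N :=
    ((legendreAt t).natDegree_ΨSq_le (n : ℤ)).trans (by simp [N])
  have hΦd : Φ.natDegree ≤ N := ((legendreAt t).natDegree_Φ_le (n : ℤ)).trans (by simp [N])
  have hΨ0 : Ψ ≠ 0 := fun h => (legendreAt t).coeff_ΨSq_ne_zero (n := (n : ℤ))
    (by simpa using hnk) (by rw [← hΨdef, h, coeff_zero])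
  have hbad : ({0} ∪ {x | Ψ.IsRoot x} ∪ (fun x => t / x) ⁻¹' {x | Ψ.IsRoot x} : Set k).Finite := by
    refine ((Set.finite_singleton 0).union (finite_setOfPred_isRoot hΨ0)).union ?_
    refine (finite_setOfPred_isRoot hΨ0).preimage fun a _ b _ h => ?_
    simpa [div_eq_mul_inv, ht] using h
  have hid : Φ * Φ' = C t * (Ψ * Ψ') := by
    refine eq_of_infinite_eval_eq _ _ (Set.Infinite.mono ?_ hbad.infinite_compl)
    intro x hx
    simp only [Set.mem_compl_iff, Set.mem_union, Set.mem_singleton_iff, Set.mem_ofPred_eq,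
      Set.mem_preimage, not_or, IsRoot.def] at hx
    obtain ⟨⟨hx0, hΨx⟩, hΨx'⟩ := hx
    show (Φ * Φ').eval x = (C t * (Ψ * Ψ')).eval x
    obtain ⟨y, hy⟩ := EC.Torsion.exists_nonsingular (legendreAt t).toAffine x
    obtain ⟨z, w, hzw, hsum, rfl⟩ := xOf_add_origin hy hx0
    have hP : ((n : ℤ) • (Affine.Point.some x y hy : (legendreAt t).toAffine.Point)) ≠ 0 :=
      fun h => hΨx ((EC.Torsion.zsmul_some_eq_zero_iff (W := (legendreAt t).toAffine) _ hy).mp h)
    rcases hm : (n : ℤ) • (Affine.Point.some x y hy : (legendreAt t).toAffine.Point) with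
      _ | ⟨x', y', h'⟩
    · exact absurd hm hP
    have hx'0 : x' ≠ 0 := by
      rintro rfl
      have hy'0 : y' = 0 := by
        have := (Affine.equation_iff 0 y').mp h'.1
        simpa [legendreAt] using this
      subst hy'0
      refine hΨx' ((EC.Torsion.zsmul_some_eq_zero_iff (W := (legendreAt t).toAffine) _ hzw).mp ?_)
      rw [← hsum, zsmul_add, hm, natCast_zsmul, nsmul_origin hn, ← two_nsmul]
      exact two_nsmul_twoTorsion (Or.inl rfl)
    obtain ⟨z', w', h'', hsum', rfl⟩ := xOf_add_origin h' hx'0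
    have e₁ : x' * Ψ.eval x = Φ.eval x :=
      EC.Torsion.mul_eval_ΨSq_eq_eval_Φ (W := (legendreAt t).toAffine) (n : ℤ) hy h' hm
    have e₂ : t / x' * Ψ.eval (t / x) = Φ.eval (t / x) :=
      EC.Torsion.mul_eval_ΨSq_eq_eval_Φ (W := (legendreAt t).toAffine) (n : ℤ) hzw h'' (by
        rw [← hsum, zsmul_add, hm, natCast_zsmul, nsmul_origin hn, hsum'])
    simp only [eval_mul, eval_C, Φ', Ψ', eval_reflect_comp _ hΦd hx0,
      eval_reflect_comp _ hΨd hx0, ← e₁, ← e₂]
    field_simp
  have hdvd : Φ ∣ Ψ' := by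
    have h1 : Φ ∣ C t * (Ψ * Ψ') := ⟨Φ', hid.symm⟩
    rw [(isUnit_C.mpr ht.isUnit).dvd_mul_left] at h1
    exact (EC.Torsion.isCoprime_Φ_ΨSq (W := (legendreAt t).toAffine) (n : ℤ)).dvd_of_dvd_mul_left h1
  have hmon : Φ.Monic := monic_of_natDegree_le_of_coeff_eq_one N hΦd (by
    have := (legendreAt t).coeff_Φ (n : ℤ)
    simpa [N, hΦdef] using this)
  have hΦN : Φ.natDegree = N := by simp [N, hΦdef]
  have hd' : Ψ'.natDegree ≤ N := natDegree_le_iff_coeff_eq_zero.mpr fun j hj => by
    simp only [Ψ', coeff_reflect, revAt_eq_self_of_lt (show N < j by omega)]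
    refine coeff_eq_zero_of_natDegree_lt (lt_of_le_of_lt ?_ hj)
    refine natDegree_comp_le.trans (le_trans ?_ hΨd)
    exact (Nat.mul_le_mul_left _ ((natDegree_C_mul_le t X).trans natDegree_X_le)).trans_eq
      (mul_one _)
  obtain ⟨g, hg⟩ := hdvd
  have hg0 : g = C (g.coeff 0) := by
    rcases eq_or_ne g 0 with rfl | hgne
    · simp
    refine eq_C_of_natDegree_eq_zero ?_
    have := hmon.natDegree_mul' hgne
    rw [← hg] at this
    omega
  have hlead : g.coeff 0 = Ψ.eval 0 := by
    have hc : Ψ'.coeff N = Ψ.eval 0 := by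
      simp only [Ψ', coeff_reflect, revAt_le le_rfl, Nat.sub_self, coeff_zero_eq_eval_zero,
        eval_comp, eval_mul, eval_X, mul_zero]
    rw [hg, hg0, coeff_mul_C, ← hΦN, hmon.coeff_natDegree, one_mul] at hc
    exact hc
  rw [hg, hg0, hlead, mul_comm]

include hn hnk in
theorem preΨ'_identity_of_isAlgClosed (ht : t ≠ 0) :
    t * ((legendreAt t).preΨ' n).eval t ^ 4 =
      t ^ (n ^ 2) * ((legendreAt t).preΨ' n).eval 1 ^ 4 := by
  have hfun := mul_Φ_eq_reflect hn hnk ht
  set Ψ := (legendreAt t).ΨSq n with hΨdef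
  have hΨd : Ψ.natDegree ≤ n ^ 2 :=
    ((legendreAt t).natDegree_ΨSq_le (n : ℤ)).trans (by simp)
  have h1 := congrArg (eval 1) hfun
  have h2 := congrArg (eval t) hfun
  rw [eval_reflect_comp _ hΨd one_ne_zero, eval_mul, eval_C,
    eval_Φ_twoTorsion hn (Or.inr (Or.inl rfl)), one_pow, one_mul, div_one, one_mul] at h1
  rw [eval_reflect_comp _ hΨd ht, eval_mul, eval_C,
    eval_Φ_twoTorsion hn (Or.inr (Or.inr rfl)), div_self ht] at h2
  rw [← hΨdef] at h1 h2
  have hsq : ∀ x : k, Ψ.eval x = ((legendreAt t).preΨ' n).eval x ^ 2 := fun x => by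
    rw [hΨdef, ΨSq_ofNat, if_neg (Nat.not_even_iff_odd.mpr hn), mul_one, eval_pow]
  have key : t * Ψ.eval t ^ 2 = t ^ (n ^ 2) * Ψ.eval 1 ^ 2 := by
    linear_combination (t * Ψ.eval t) * h1 - Ψ.eval 1 * h2
  rw [hsq, hsq] at key
  linear_combination key

/-- **The values of the division polynomial at `1` and at the parameter.** -/
theorem preΨ'_identity {K : Type*} [Field K] {t : K} {n : ℕ} [(legendreAt t).IsElliptic]
    (hn : Odd n) (hnK : (n : K) ≠ 0) (ht : t ≠ 0) :
    t * ((legendreAt t).preΨ' n).eval t ^ 4 =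
      t ^ (n ^ 2) * ((legendreAt t).preΨ' n).eval 1 ^ 4 := by
  classical
  let φ := algebraMap K (AlgebraicClosure K)
  have : (legendreAt (φ t)).IsElliptic := by
    rw [← map_legendreAt]; infer_instance
  refine φ.injective ?_
  have h := preΨ'_identity_of_isAlgClosed (t := φ t) hn
    (by rwa [← map_natCast φ, _root_.map_ne_zero]) ((_root_.map_ne_zero φ).mpr ht)
  rw [← map_legendreAt, WeierstrassCurve.map_preΨ', ← map_one φ, eval_map_apply,
    eval_map_apply] at h
  simpa only [map_mul, map_pow] using h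

end Fermat.Agent.Carayol
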