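import Fermat.Agent.Carayol.GoodRed
import Fermat.Agent.Carayol.DivModLegendre

/-!
# The kernel of reduction of the Legendre family

The kernel of reduction on the `q`-torsion of the Legendre family at a place of good reduction of
residue characteristic `q`.

Main result: `legendre_exists_line`.
-/

set_option autoImplicit false

open Polynomial IsLocalRing Fermat.Agent.EC.Reduction

namespace Fermat.Agent.Carayol

section Generic

variable {K F : Type*} [Field K] [CharZero K] [Field F] [DecidableEq F] [Algebra K F]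
  {fam : WeierstrassCurve ℤ[X]} {q r : ℕ} [NeZero (q * r)] (L : LevelData K F fam q r)

namespace LevelData

omit [DecidableEq F] in
theorem exists_some_of_ne_zero {W : WeierstrassCurve F} {Q : W.toAffine.Point} (hQ : Q ≠ 0) :
    ∃ x y h, Q = WeierstrassCurve.Affine.Point.some x y h := by
  rcases Q with _ | ⟨x, y, h⟩
  · exact absurd rfl hQ
  · exact ⟨x, y, h, rfl⟩

/-- The division polynomial of odd order `q` splits over `F`, with roots `x` of torsion points. -/
theorem splits_preΨ' (hΔ : fam.Δ ≠ 0) (hq : Odd q) :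
    (L.curve.preΨ' q).Splits ∧
      ∀ c ∈ (L.curve.preΨ' q).roots, ∃ Q : L.curve.toAffine.Point,
        Q ≠ 0 ∧ q • Q = 0 ∧ xOf Q = c := by
  classical
  have hE := isElliptic_curve L hΔ
  let Ω := AlgebraicClosure F
  let φ := algebraMap F Ω
  have : (L.curve.map φ).toAffine.IsElliptic := by
    have : L.curve.IsElliptic := hE
    exact inferInstanceAs (L.curve.map φ).IsElliptic
  have key : ∀ c : Ω, ((L.curve.preΨ' q).map φ).IsRoot c →
      ∃ Q : L.curve.toAffine.Point, Q ≠ 0 ∧ q • Q = 0 ∧ φ (xOf Q) = c := by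
    intro c hc
    obtain ⟨y, hy⟩ := EC.Torsion.exists_nonsingular (L.curve.map φ).toAffine c
    rw [← WeierstrassCurve.map_preΨ'] at hc
    have hP :=
      (EC.Torsion.nsmul_some_eq_zero_iff_of_odd (W := (L.curve.map φ).toAffine) hq hy).mpr hc
    obtain ⟨v, hv⟩ := L.exists_basis_eq_of_nsmul hΔ φ (.some c y hy)
      (by rw [mul_comm, mul_nsmul', hP, nsmul_zero])
    refine ⟨L.basis v, fun h0 => ?_, pointMap_injective φ L.curve ?_, ?_⟩
    · rw [h0, map_zero] at hv
      exact WeierstrassCurve.Affine.Point.some_ne_zero hy hv.symm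
    · rw [map_nsmul, hv, hP, map_zero]
    · rcases hb : L.basis v with _ | ⟨x, y', h⟩
      · rw [hb, ← WeierstrassCurve.Affine.Point.zero_def, map_zero] at hv
        exact absurd hv.symm (WeierstrassCurve.Affine.Point.some_ne_zero hy)
      · rw [hb, pointMap_some, WeierstrassCurve.Affine.Point.some.injEq] at hv
        rw [xOf_some]; exact hv.1
  refine ⟨Polynomial.Splits.of_splits_map_of_injective φ.injective (IsAlgClosed.splits _)
    fun a ha => ?_, fun c hc => ?_⟩
  · obtain ⟨Q, -, -, h⟩ := key a (isRoot_of_mem_roots ha)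
    exact ⟨_, h⟩
  · obtain ⟨Q, h1, h2, h⟩ := key (φ c) ((isRoot_of_mem_roots hc).map)
    exact ⟨Q, h1, h2, φ.injective h⟩

variable {V : ValuationSubring F} (hpar : L.par ∈ V) [Fact q.Prime]

omit [NeZero (q * r)] [Fact (Nat.Prime q)] in
/-- Poles of multiples: `x(iP)/x(P)` reduces to `1/i²`. -/
theorem res_xOf_nsmul (hΔ : fam.Δ ≠ 0) {P : L.curve.toAffine.Point} (hP : InKer V P) (hP0 : P ≠ 0)
    (hpar : L.par ∈ V) {i : ℕ} (hi : i • P ≠ 0) (hik : (i : ResidueField V) ≠ 0) :
    xOf (i • P) / xOf P ∈ V ∧ xOf P / xOf (i • P) ∈ V := by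
  classical
  have hE := isElliptic_curve L hΔ
  obtain ⟨x, y, h, rfl⟩ := exists_some_of_ne_zero hP0
  obtain ⟨x', y', h', e⟩ := exists_some_of_ne_zero hi
  obtain ⟨E, hE1, hE2⟩ := L.exists_model hpar
  have hx : x ∉ V := hP
  have hmul := EC.Torsion.mul_eval_ΨSq_eq_eval_Φ (W := L.curve.toAffine) (i : ℤ) h h'
    (by rw [natCast_zsmul]; exact e)
  rw [e, xOf_some, xOf_some]
  have hi1 : 1 ≤ i := Nat.one_le_iff_ne_zero.mpr fun h0 => hi (by rw [h0, zero_smul])
  have hΦ := residue_eval_at_pole (p := E.Φ i) (d := i ^ 2)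
    (by simp) hx
  have hΨ := residue_eval_at_pole (p := E.ΨSq i) (d := i ^ 2 - 1)
    (by simpa using E.natDegree_ΨSq_le (i : ℤ)) hx
  rw [← WeierstrassCurve.map_Φ, hE1] at hΦ
  rw [← WeierstrassCurve.map_ΨSq, hE1] at hΨ
  have hcΦ : (E.Φ i).coeff (i ^ 2) = 1 := by simpa using E.coeff_Φ (i : ℤ)
  have hcΨ : (E.ΨSq i).coeff (i ^ 2 - 1) = ((i : ℤ) ^ 2 : ℤ) := by
    simpa using E.coeff_ΨSq (i : ℤ)
  rw [hcΦ, map_one] at hΦ
  rw [hcΨ, map_intCast] at hΨ
  have hne : (((i : ℤ) ^ 2 : ℤ) : ResidueField V) ≠ 0 := by push_cast; exact pow_ne_zero _ hik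
  have hx0 : x ≠ 0 := fun h0 => hx (h0 ▸ V.zero_mem)
  have hquot : x' / x = ((L.curve.Φ i).eval x / x ^ (i ^ 2)) /
      ((L.curve.ΨSq i).eval x / x ^ (i ^ 2 - 1)) := by
    have hΨ0 : (L.curve.ΨSq i).eval x ≠ 0 := fun h0 => by
      have := hΨ.ne_zero hne
      rw [h0, zero_div] at this; exact this rfl
    rw [show i ^ 2 = (i ^ 2 - 1) + 1 from (Nat.sub_add_cancel (Nat.one_le_pow _ _ hi1)).symm,
      Nat.add_sub_cancel, pow_succ, ← hmul]
    field_simp
  have hr : Res (residue V) (x' / x) (1 / (((i : ℤ) ^ 2 : ℤ) : ResidueField V)) := by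
    rw [hquot]; exact hΦ.div hΨ hne
  have hr' := hr.inv (one_div_ne_zero hne)
  rw [inv_div] at hr'
  exact ⟨hr.mem, hr'.mem⟩

end LevelData

end Generic

section Legendre

variable {K F : Type*} [Field K] [CharZero K] [Field F] [DecidableEq F] [Algebra K F]
  {q r : ℕ} [NeZero (q * r)] [Fact q.Prime] (L : LevelData K F legendreFam q r)
  {V : ValuationSubring F} (hpar : L.par ∈ V)

theorem legendre_Δ_ne_zero : legendreFam.Δ ≠ 0 := by
  intro h
  have h2 := congrArg (Polynomial.eval (2 : ℤ)) h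
  simp [legendreFam, WeierstrassCurve.Δ, WeierstrassCurve.b₂,
    WeierstrassCurve.b₄, WeierstrassCurve.b₆, WeierstrassCurve.b₈] at h2

theorem legendre_map {R : Type*} [CommRing R] (t : R) :
    legendreFam.map (eval₂RingHom (Int.castRingHom R) t) = legendreAt t := by
  ext <;> simp [legendreFam, legendreAt]

omit [CharZero K] [NeZero (q * r)] [Fact (Nat.Prime q)] in
theorem LevelData.legendre_curve : L.curve = legendreAt L.par := legendre_map L.par

omit [CharZero K] [NeZero (q * r)] [Fact (Nat.Prime q)] in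
theorem LevelData.legendre_resCurve : L.resCurve hpar = legendreAt (L.parRes hpar) :=
  legendre_map (L.parRes hpar)

variable (hqV : (q : F) ∈ V.nonunits)

omit [DecidableEq F] in
include hqV in
theorem charP_residueField : CharP (ResidueField V) q :=
  (CharP.charP_iff_prime_eq_zero Fact.out).mpr (by
    rw [← map_natCast (residue V)]
    exact (mem_nonunits_iff_residue (natCast_mem V q)).mp hqV)

variable (h2 : q ≠ 2) (h0 : L.parRes hpar ≠ 0) (h1 : L.parRes hpar ≠ 1)

omit [CharZero K] [NeZero (q * r)] in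
include hqV h2 h0 h1 in
theorem LevelData.legendre_resCurve_Δ_ne_zero : (L.resCurve hpar).Δ ≠ 0 := by
  have := charP_residueField hqV
  have := isElliptic_legendreAt (q := q) h2 h0 h1
  rw [L.legendre_resCurve hpar]
  exact (WeierstrassCurve.isUnit_Δ _).ne_zero

include hpar hqV h2 h0 h1 in
omit [CharZero K] [NeZero (q * r)] in
/-- At good reduction `x` of a nonzero `q`-torsion point does not vanish modulo the place. -/
theorem LevelData.legendre_xOf_notMem_nonunits {Q : L.curve.toAffine.Point} (hQ0 : Q ≠ 0)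
    (hQ : q • Q = 0) : xOf Q ∉ V.nonunits := by
  classical
  intro hx
  have := charP_residueField hqV
  obtain ⟨x, y, h, rfl⟩ := LevelData.exists_some_of_ne_zero hQ0
  rw [xOf_some] at hx
  have hxV : x ∈ V := ValuationSubring.nonunits_subset hx
  obtain ⟨Q₀, hred⟩ := exists_redTo_of_Δ_ne_zero (L.reduces hpar)
    (L.legendre_resCurve_Δ_ne_zero hpar hqV h2 h0 h1) (.some x y h)
  have hq0 : q • Q₀ = 0 := by
    refine (hred.nsmul (L.reduces hpar) q).unique ?_
    rw [hQ]; exact RedTo.zero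
  rcases hred with ⟨hxn, -⟩ | ⟨x₀, y₀, hns, hxr, -, rfl⟩
  · exact hxn hxV
  have hx0 : x₀ = 0 := by
    rw [← hxr.2]; exact (mem_nonunits_iff_residue _).mp hx
  have he := hns.1
  rw [WeierstrassCurve.Affine.equation_iff] at he
  have hns' := hns
  subst hx0
  have hy0 : y₀ = 0 := by
    simp [L.legendre_resCurve hpar, legendreAt] at he
    exact he
  subst hy0
  have hT : (L.resCurve hpar).toAffine.negY 0 0 = 0 := by
    simp [WeierstrassCurve.Affine.negY, L.legendre_resCurve hpar, legendreAt]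
  have h2T : 2 • (WeierstrassCurve.Affine.Point.some 0 0 hns :
      (L.resCurve hpar).toAffine.Point) = 0 := by
    rw [two_nsmul, WeierstrassCurve.Affine.Point.add_of_Y_eq rfl hT.symm]
  obtain ⟨m, hm⟩ := odd_of_ne_two (q := q) h2
  have e : ∀ n, n = 2 * m + 1 → n • (WeierstrassCurve.Affine.Point.some 0 0 hns :
      (L.resCurve hpar).toAffine.Point) = .some 0 0 hns := fun n hn => by
    rw [hn, succ_nsmul, mul_nsmul, h2T, nsmul_zero, zero_add]
  exact WeierstrassCurve.Affine.Point.some_ne_zero _ ((e q hm).symm.trans hq0)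

include hqV h2 h0 h1 in
omit [CharZero K] [NeZero (q * r)] in
/-- **Supersingular reduction**: the whole `q`-torsion reduces to the origin. -/
theorem LevelData.legendre_inKer_of_topCoeff_eq_zero (hL : topCoeff (L.resCurve hpar) q = 0)
    {Q : L.curve.toAffine.Point} (hQ : q • Q = 0) : InKer V Q := by
  classical
  have := charP_residueField hqV
  have hΔ := L.legendre_resCurve_Δ_ne_zero hpar hqV h2 h0 h1
  have : (L.resCurve hpar).IsElliptic := ⟨isUnit_iff_ne_zero.mpr hΔ⟩
  obtain ⟨Q₀, hred⟩ := exists_redTo_of_Δ_ne_zero (L.reduces hpar) hΔ Q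
  have hq0 : q • Q₀ = 0 := by
    refine (hred.nsmul (L.reduces hpar) q).unique ?_
    rw [hQ]; exact RedTo.zero
  rw [eq_zero_of_topCoeff_eq_zero h2 hL hq0] at hred
  exact LevelData.inKer_iff_redTo_zero.mpr hred

include hqV h2 h0 h1 in
/-- **Ordinary reduction**: the kernel is a line and the valuation of `q` is that of
`u ^ ((q - 1) / 2)`, `u = 1 / x` on the line. -/
theorem LevelData.legendre_exists_line (hL : topCoeff (L.resCurve hpar) q ≠ 0) :
    ∃ P : L.curve.toAffine.Point, P ≠ 0 ∧ q • P = 0 ∧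
      (∀ Q : L.curve.toAffine.Point, q • Q = 0 → (InKer V Q ↔ Q ∈ AddSubgroup.zmultiples P)) ∧
      (q : F) * xOf P ^ ((q - 1) / 2) ∈ V ∧ (q : F) * xOf P ^ ((q - 1) / 2) ∉ V.nonunits := by
  classical
  have := charP_residueField hqV
  have hΔ := L.legendre_resCurve_Δ_ne_zero hpar hqV h2 h0 h1
  have : (L.resCurve hpar).IsElliptic := ⟨isUnit_iff_ne_zero.mpr hΔ⟩
  have hodd := odd_of_ne_two (q := q) h2
  obtain ⟨hsp, hroots⟩ := L.splits_preΨ' legendre_Δ_ne_zero hodd
  obtain ⟨E, hE1, hE2⟩ := L.exists_model hpar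
  set p := E.preΨ' q with hpdef
  have hpF : p.map V.subtype = L.curve.preΨ' q := by
    rw [hpdef, ← WeierstrassCurve.map_preΨ', hE1]
  have hpk : p.map (residue V) = expand (ResidueField V) q (redH (L.resCurve hpar) q) := by
    rw [hpdef, ← WeierstrassCurve.map_preΨ', hE2, expand_redH _ h2]
  obtain ⟨m, hm⟩ := hodd
  have hm' : (q - 1) / 2 = m := by omega
  have hdegH : (redH (L.resCurve hpar) q).natDegree = m :=
    le_antisymm (hm' ▸ natDegree_redH_le _ h2) (le_natDegree_of_ne_zero (hm' ▸ hL))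
  have hp0 : p.map (residue V) ≠ 0 := by
    rw [hpk, expand_ne_zero (Fact.out : q.Prime).pos]
    exact fun h => hL (by rw [topCoeff, h, coeff_zero])
  set S := (L.curve.preΨ' q).roots
  have hq0F : (q : F) ≠ 0 := by
    have : CharZero F := charZero_of_injective_algebraMap (algebraMap K F).injective
    exact_mod_cast (Fact.out : q.Prime).ne_zero
  have hdeg := L.curve.natDegree_preΨ' (n := q) hq0F
  have hlead : (L.curve.preΨ' q).leadingCoeff = (q : F) := by
    rw [Polynomial.leadingCoeff, hdeg, L.curve.coeff_preΨ',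
      if_neg (Nat.not_even_iff_odd.mpr ⟨m, hm⟩)]
  have hfac : p.map V.subtype = C (q : F) * (((S.filter (· ∉ V)).map fun c => X - C c).prod *
      ((S.filter (· ∈ V)).map fun c => X - C c).prod) := by
    rw [hpF, ← Multiset.prod_add, ← Multiset.map_add, add_comm, Multiset.filter_add_not]
    conv_lhs => rw [hsp.eq_prod_roots, hlead]
  obtain ⟨hB, hunit, hnn⟩ := residue_split (fun c hc => (Multiset.mem_filter.mp hc).2)
    (fun c hc => (Multiset.mem_filter.mp hc).2) hfac hp0
  rw [hpk, natDegree_expand, hdegH] at hB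
  have hcard : Multiset.card (S.filter (· ∉ V)) + Multiset.card (S.filter (· ∈ V)) =
      (q ^ 2 - 1) / 2 := by
    rw [← Multiset.card_add, add_comm, Multiset.filter_add_not]
    rw [← hsp.natDegree_eq_card_roots, hdeg, if_neg (Nat.not_even_iff_odd.mpr ⟨m, hm⟩)]
  have hA : Multiset.card (S.filter (· ∉ V)) = m := by
    have h3 : (q ^ 2 - 1) / 2 = m * q + m := by
      have : q ^ 2 = 2 * (m * q + m) + 1 := by subst hm; ring
      omega
    have hB' : Multiset.card (S.filter (· ∈ V)) = m * q := hB.symm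
    have hcard' : Multiset.card (S.filter (· ∉ V)) + m * q = (q ^ 2 - 1) / 2 := hB' ▸ hcard
    omega
  have hm0 : 0 < m := by
    have := (Fact.out : q.Prime).two_le
    omega
  obtain ⟨c, hc⟩ := Multiset.card_pos_iff_exists_mem.mp (hA ▸ hm0)
  obtain ⟨P, hP0, hPq, hPc⟩ := hroots c (Multiset.mem_filter.mp hc).1
  have hinker : ∀ Q : L.curve.toAffine.Point, Q ≠ 0 → (InKer V Q ↔ xOf Q ∉ V) := fun Q hQ => by
    obtain ⟨x, y, h, rfl⟩ := LevelData.exists_some_of_ne_zero hQ
    rfl
  have hPk : InKer V P := (hinker P hP0).mpr (hPc ▸ (Multiset.mem_filter.mp hc).2)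
  obtain ⟨d, hd⟩ := Multiset.card_pos_iff_exists_mem.mp
    (show 0 < Multiset.card (S.filter (· ∈ V)) by
      rw [← hB]; exact Nat.mul_pos hm0 (Fact.out : q.Prime).pos)
  obtain ⟨Q, hQ0, hQq, hQd⟩ := hroots d (Multiset.mem_filter.mp hd).1
  have hQk : ¬InKer V Q := fun h => (hinker Q hQ0).mp h (hQd ▸ (Multiset.mem_filter.mp hd).2)
  have hline := L.exists_line hpar legendre_Δ_ne_zero hP0 hPq hPk hQq hQk
  refine ⟨P, hP0, hPq, hline, ?_⟩
  -- all poles have the valuation of that of `P`
  have hpole : ∀ c ∈ S.filter (· ∉ V), V.valuation c = V.valuation (xOf P) := by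
    intro c hc
    obtain ⟨R, hR0, hRq, hRc⟩ := hroots c (Multiset.mem_filter.mp hc).1
    have hRk : InKer V R := (hinker R hR0).mpr (hRc ▸ (Multiset.mem_filter.mp hc).2)
    have hfin : IsOfFinAddOrder P :=
      isOfFinAddOrder_iff_nsmul_eq_zero.mpr ⟨q, (Fact.out : q.Prime).pos, hPq⟩
    obtain ⟨i, rfl⟩ := hfin.mem_multiples_iff_mem_zmultiples.mpr ((hline R hRq).mp hRk)
    have hik : (i : ResidueField V) ≠ 0 := by
      rw [Ne, CharP.cast_eq_zero_iff (ResidueField V) q]
      rintro ⟨j, rfl⟩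
      exact hR0 (by show (q * j) • P = 0; rw [mul_comm, mul_nsmul', hPq, nsmul_zero])
    obtain ⟨h3, h4⟩ := L.res_xOf_nsmul legendre_Δ_ne_zero hPk hP0 hpar hR0 hik
    rw [← hRc]
    have hxP : xOf P ≠ 0 := fun h => (hinker P hP0).mp hPk (h ▸ V.zero_mem)
    have hxR : xOf (i • P) ≠ 0 := fun h => (hinker _ hR0).mp hRk (h ▸ V.zero_mem)
    rw [← V.valuation_le_one_iff, map_div₀,
      div_le_one₀ (zero_lt_iff.mpr ((Valuation.ne_zero_iff _).mpr hxP))] at h3
    rw [← V.valuation_le_one_iff, map_div₀,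
      div_le_one₀ (zero_lt_iff.mpr ((Valuation.ne_zero_iff _).mpr hxR))] at h4
    exact le_antisymm h3 h4
  have hv : V.valuation ((S.filter (· ∉ V)).prod) = V.valuation (xOf P) ^ m := by
    rw [map_multiset_prod, Multiset.map_congr rfl hpole, Multiset.map_const',
      Multiset.prod_replicate,
      hA]
  rw [hm']
  constructor
  · rw [← V.valuation_le_one_iff, map_mul, map_pow, ← hv, ← map_mul, V.valuation_le_one_iff]
    exact hunit
  · rw [ValuationSubring.mem_nonunits_iff, map_mul, map_pow, ← hv, ← map_mul,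
      ← ValuationSubring.mem_nonunits_iff]
    exact hnn

end Legendre

end Fermat.Agent.Carayol
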