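import Fermat.Agent.Carayol.LegendrePoint
import Fermat.Agent.Carayol.LegendreIdentity
import Fermat.Agent.Carayol.PointTorsion
import Fermat.Agent.Carayol.PointGen
import Mathlib.Algebra.CharP.Lemmas

/-!
# Ordinary points of the Legendre family

Closed points of ordinary reduction of the Legendre family: regular, on a single component.

Main result: `legendre_ordinary`.
-/

set_option autoImplicit false

open Polynomial IsLocalRing Fermat.Agent.EC.Reduction

namespace Fermat.Agent.Carayol

theorem eq_C_mul_prod_of_roots {B : Type*} [CommRing B] [Nontrivial B] {p : B[X]} {d : ℕ}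
    (hd : p.natDegree ≤ d) {ι : Type*} (s : Finset ι) {c : ι → B}
    (hc : ∀ i ∈ s, ∀ j ∈ s, i ≠ j → IsUnit (c i - c j)) (hs : s.card = d)
    (hroot : ∀ i ∈ s, p.IsRoot (c i)) : p = C (p.coeff d) * ∏ i ∈ s, (X - C (c i)) := by
  have hdvd : ∏ i ∈ s, (X - C (c i)) ∣ p :=
    Finset.prod_dvd_of_coprime (fun i hi j hj hij =>
      isCoprime_X_sub_C_of_isUnit_sub (hc i hi j hj hij))
      fun i hi => dvd_iff_isRoot.mpr (hroot i hi)
  obtain ⟨g, hg⟩ := hdvd
  have hm : (∏ i ∈ s, (X - C (c i))).Monic := monic_prod_of_monic _ _ fun i _ => monic_X_sub_C _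
  have hdeg : (∏ i ∈ s, (X - C (c i))).natDegree = d := by
    rw [natDegree_prod_of_monic _ _ fun i _ => monic_X_sub_C _]
    simp [hs]
  rcases eq_or_ne g 0 with rfl | hg0
  · simp [hg]
  obtain ⟨a, rfl⟩ : ∃ a, g = C a := by
    refine ⟨g.coeff 0, eq_C_of_natDegree_eq_zero ?_⟩
    rw [hg, hm.natDegree_mul' hg0] at hd
    omega
  have h1 : (∏ i ∈ s, (X - C (c i))).coeff d = 1 := by rw [← hdeg]; exact hm.coeff_natDegree
  rw [hg, coeff_mul_C, h1, one_mul, mul_comm]

section Identity

variable {B : Type*} [CommRing B] [Nontrivial B] {q : ℕ} [Fact q.Prime] [CharP B q]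

/-- The parameter is a `q`th power in a ring of characteristic `q` containing a full set of
abscissae of a line of `q`-torsion with unit differences. -/
theorem exists_pow_eq_par (h2 : q ≠ 2) {t : B} {a : ℕ → B}
    (hid : t * ((legendreAt t).preΨ' q).eval t ^ 4 =
      t ^ (q ^ 2) * ((legendreAt t).preΨ' q).eval 1 ^ 4)
    (hL : IsUnit (topCoeff (legendreAt t) q))
    (hroot : ∀ i ∈ Finset.Icc 1 ((q - 1) / 2), ((legendreAt t).preΨ' q).eval (a i) = 0)
    (hne : ∀ i ∈ Finset.Icc 1 ((q - 1) / 2), ∀ j ∈ Finset.Icc 1 ((q - 1) / 2), i ≠ j →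
      IsUnit (a i ^ q - a j ^ q))
    (ht : ∀ i ∈ Finset.Icc 1 ((q - 1) / 2), IsUnit (t - a i)) :
    ∃ ξ, t = ξ ^ q := by
  set s := Finset.Icc 1 ((q - 1) / 2)
  set U := legendreAt t
  have hexp := expand_redH U h2 (q := q)
  have hh : redH U q = C (topCoeff U q) * ∏ i ∈ s, (X - C (a i ^ q)) :=
    eq_C_mul_prod_of_roots (natDegree_redH_le U h2) s hne (by simp [s]) fun i hi => by
      rw [IsRoot, ← expand_eval, hexp]; exact hroot i hi
  have hev : ∀ e : B, (U.preΨ' q).eval e = topCoeff U q * (∏ i ∈ s, (e - a i)) ^ q := by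
    intro e
    rw [← hexp, expand_eval, hh, eval_mul, eval_C, eval_prod, ← Finset.prod_pow]
    congr 1
    refine Finset.prod_congr rfl fun i _ => ?_
    rw [eval_sub, eval_X, eval_C, ← sub_pow_char]
  rw [hev, hev] at hid
  set P := ∏ i ∈ s, (t - a i)
  set R := ∏ i ∈ s, (1 - a i)
  obtain ⟨u, hu⟩ := (Finset.prod_induction _ IsUnit (fun _ _ => IsUnit.mul) isUnit_one ht :
    IsUnit P)
  refine ⟨t ^ q * R ^ 4 * ((u⁻¹ : Bˣ) : B) ^ 4, ?_⟩
  have e : t * (P ^ 4) ^ q = (t ^ q) ^ q * (R ^ 4) ^ q := by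
    refine (hL.pow 4).mul_left_cancel ?_
    linear_combination hid
  rw [mul_pow, mul_pow, ← e, mul_assoc, ← mul_pow, ← mul_pow,
    show P = (u : B) from hu.symm, Units.mul_inv, one_pow, one_pow, mul_one]

end Identity

variable {K F : Type*} [Field K] [CharZero K] [Field F] [DecidableEq F] [Algebra K F]
  {q r : ℕ} [NeZero (q * r)] [Fact q.Prime] (L : LevelData K F legendreFam q r)
  {W : ValuationSubring K} [IsAlgClosed (IsLocalRing.ResidueField W)]
  {M : ValuationSubring F} (hb : BaseData W q) (hM : IsPoint W q L.par M) (h2 : q ≠ 2)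
  (h0 : L.parRes hM.par_mem ≠ 0) (h1 : L.parRes hM.par_mem ≠ 1) (hqr : r.Coprime q)
  (hL : topCoeff (L.resCurve hM.par_mem) q ≠ 0)

namespace LevelData

section Par

variable {C : Subring F} {I : Ideal (locAt C M)} (hF : NearFrame W q L.par M I)

include hb hM h2 h0 h1 hL hF in
omit [NeZero (q * r)] in
/-- The parameter is a constant modulo the ideal at an ordinary point. -/
theorem legendre_par_near (htC : L.par ∈ C) {x y : F}
    {h : L.curve.toAffine.Nonsingular x y} (hxC : x ∈ C)
    (hQ : q • (WeierstrassCurve.Affine.Point.some x y h : L.curve.toAffine.Point) = 0)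
    (hQk : ¬InKer M (WeierstrassCurve.Affine.Point.some x y h : L.curve.toAffine.Point))
    {z : locAt C M} (hzI : z ∈ I) (hzq : (q : locAt C M) ∈ Ideal.span {z}) :
    NearConst W M I L.par := by
  classical
  have hC : C ≤ M.toSubring := hF.le_valuation hM
  have := charP_residueField hM.q_mem
  have := isLocalRing_locAt hC
  have hΔres := L.legendre_resCurve_Δ_ne_zero hM.par_mem hM.q_mem h2 h0 h1
  set Q : L.curve.toAffine.Point := WeierstrassCurve.Affine.Point.some x y h
  obtain ⟨Q₀, hred⟩ := exists_redTo_of_Δ_ne_zero (L.reduces hM.par_mem) hΔres Q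
  have hQ₀ : q • Q₀ = 0 := by
    refine (hred.nsmul (L.reduces hM.par_mem) q).unique ?_
    rw [hQ]; exact RedTo.zero
  rcases hred with ⟨hxn, -⟩ | ⟨x₀, y₀, n₀, hx₀, hy₀, rfl⟩
  · exact absurd hxn hQk
  have hred : RedTo (residue M) (L.resCurve hM.par_mem) Q (.some x₀ y₀ n₀) := RedTo.of_res hx₀ hy₀
  set Q₀ : (L.resCurve hM.par_mem).toAffine.Point := .some x₀ y₀ n₀
  have hQ₀0 : Q₀ ≠ 0 := WeierstrassCurve.Affine.Point.some_ne_zero n₀
  have : (L.resCurve hM.par_mem).IsElliptic := ⟨isUnit_iff_ne_zero.mpr hΔres⟩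
  set s := Finset.Icc 1 ((q - 1) / 2)
  have hne0 : ∀ i ∈ s, i • Q₀ ≠ 0 := fun i hi h0' => by
    rw [Finset.mem_Icc] at hi
    have := Nat.le_of_dvd (by omega) ((smul_eq_zero_iff_dvd hQ₀0 hQ₀ i).mp h0')
    omega
  have hle : (C : Subring F) ≤ locAt C M := le_locAt
  let gC : ℤ[X] →+* C := eval₂RingHom (Int.castRingHom C) ⟨L.par, htC⟩
  have hgC : (legendreFam.map gC).map C.subtype = L.curve := by
    rw [WeierstrassCurve.map_map, LevelData.curve]
    congr 1
    exact Polynomial.ringHom_ext (fun n => by simp [gC]) (by simp [gC])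
  have ha : ∀ i ∈ s, xOf (i • Q) ∈ locAt C M ∧
      Res (residue M) (xOf (i • Q)) (xOf (i • Q₀)) ∧
      (L.curve.preΨ' q).eval (xOf (i • Q)) = 0 := by
    intro i hi
    have hredi := hred.nsmul (L.reduces hM.par_mem) i
    rcases hiQ : i • Q₀ with _ | ⟨a₀, b₀, m₀⟩
    · exact absurd hiQ (hne0 i hi)
    rcases hiQ' : i • Q with _ | ⟨a, b, m⟩
    · rw [hiQ'] at hredi
      exact absurd (hredi.unique RedTo.zero) (hne0 i hi)
    rw [hiQ', hiQ] at hredi
    rcases hredi with ⟨-, e⟩ | ⟨a₁, b₁, m₁, ha₁, -, e⟩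
    · exact absurd e (WeierstrassCurve.Affine.Point.some_ne_zero m₀)
    obtain ⟨rfl, -⟩ := (WeierstrassCurve.Affine.Point.some.injEq ..).mp e
    rw [xOf_some, xOf_some]
    have := isElliptic_curve L legendre_Δ_ne_zero
    refine ⟨?_, ha₁, ?_⟩
    · have hmul := EC.Torsion.mul_eval_ΨSq_eq_eval_Φ (W := L.curve.toAffine) (i : ℤ) h m
        (by rw [natCast_zsmul]; exact hiQ')
      have hΨres : (L.curve.ΨSq i).eval x ∉ M.nonunits := by
        obtain ⟨E, hE1, hE2⟩ := L.exists_model hM.par_mem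
        have hz : ((L.resCurve hM.par_mem).ΨSq i).eval x₀ ≠ 0 := fun hz =>
          hne0 i hi (by
            rw [← natCast_zsmul]
            exact (EC.Torsion.zsmul_some_eq_zero_iff (W := (L.resCurve hM.par_mem).toAffine)
              (i : ℤ) n₀).mpr hz)
        intro hn
        refine hz ?_
        have hxM : x ∈ M := hx₀.mem
        have ev : (L.curve.ΨSq i).eval x = (((E.ΨSq i).eval ⟨x, hxM⟩ : M) : F) := by
          rw [← hE1, WeierstrassCurve.map_ΨSq]
          exact eval_map_apply (f := M.subtype) (p := E.ΨSq i) ⟨x, hxM⟩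
        rw [← hE2, WeierstrassCurve.map_ΨSq, ← hx₀.2, eval_map_apply]
        rw [ev] at hn
        exact (mem_nonunits_iff_residue (Subtype.mem _)).mp hn
      have hmem : ∀ p : C[X], ((p.map C.subtype).eval x) ∈ locAt C M := fun p => by
        rw [show x = C.subtype ⟨x, hxC⟩ from rfl, eval_map_apply]
        exact hle (Subtype.mem _)
      have hΦ : (L.curve.Φ i).eval x ∈ locAt C M := by
        rw [← hgC, WeierstrassCurve.map_Φ]; exact hmem _
      have hΨ : (L.curve.ΨSq i).eval x ∈ locAt C M := by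
        rw [← hgC, WeierstrassCurve.map_ΨSq]; exact hmem _
      rw [show a = (L.curve.Φ i).eval x * ((L.curve.ΨSq i).eval x)⁻¹ by
        rw [eq_mul_inv_iff_mul_eq₀ (ne_zero_of_notMem_nonunits hΨres)]; exact hmul]
      exact mul_mem hΦ (inv_mem_locAt hC hΨ hΨres)
    · exact (EC.Torsion.nsmul_some_eq_zero_iff_of_odd (W := L.curve.toAffine)
        (odd_of_ne_two (q := q) h2) m).mp (by
          rw [← hiQ', smul_comm, hQ, smul_zero])
  set t' : locAt C M := ⟨L.par, hle htC⟩
  let a' : ℕ → locAt C M := fun i => if hi : i ∈ s then ⟨xOf (i • Q), (ha i hi).1⟩ else 0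
  let ρ : locAt C M →+* ResidueField M :=
    (residue M).comp (Subring.inclusion (locAt_le_valuation hC))
  have hρ : ∀ u : locAt C M, ρ u ≠ 0 → IsUnit u := fun u hu =>
    (isUnit_locAt_iff hC u).mpr fun hn =>
      hu ((mem_nonunits_iff_residue (locAt_le_valuation hC u.2)).mp hn)
  have hρt : ρ t' = L.parRes hM.par_mem := rfl
  have hρa : ∀ i ∈ s, ρ (a' i) = xOf (i • Q₀) := fun i hi => by
    simp only [a', dif_pos hi]
    exact (ha i hi).2.1.2
  have hinj : Function.Injective (locAt C M).subtype := Subtype.val_injective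
  have hF' : L.curve = (legendreAt t').map (locAt C M).subtype := by
    rw [L.legendre_curve, map_legendreAt]; rfl
  have : (legendreAt L.par).IsElliptic := by
    rw [← L.legendre_curve]; exact isElliptic_curve L legendre_Δ_ne_zero
  have : CharZero F := charZero_of_injective_algebraMap (algebraMap K F).injective
  have hid : t' * ((legendreAt t').preΨ' q).eval t' ^ 4 =
      t' ^ (q ^ 2) * ((legendreAt t').preΨ' q).eval 1 ^ 4 := by
    refine hinj ?_
    have h0F : L.par ≠ 0 := fun e => h0 ((mem_nonunits_iff_residue hM.par_mem).mp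
      ((ValuationSubring.mem_nonunits_iff_or M).mpr (Or.inl e)))
    have hid := preΨ'_identity (t := L.par) (odd_of_ne_two (q := q) h2)
      (Nat.cast_ne_zero.mpr (Fact.out : q.Prime).ne_zero) h0F
    rw [show legendreAt L.par = (legendreAt t').map (locAt C M).subtype by
        rw [map_legendreAt]; rfl,
      WeierstrassCurve.map_preΨ', ← map_one (locAt C M).subtype,
      show L.par = (locAt C M).subtype t' from rfl, eval_map_apply, eval_map_apply] at hid
    simpa only [map_mul, map_pow] using hid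
  set B := locAt C M ⧸ Ideal.span {z}
  let π : locAt C M →+* B := Ideal.Quotient.mk _
  have : Nontrivial B := Ideal.Quotient.nontrivial_iff.mpr fun htop =>
    one_notMem_nonunits M (by
      have : (1 : locAt C M) ∈ I :=
        (Ideal.span_le.mpr (Set.singleton_subset_iff.mpr hzI)) (htop ▸ trivial)
      exact hF.mem_max 1 this)
  have : CharP B q := (CharP.charP_iff_prime_eq_zero Fact.out).mpr (by
    rw [← map_natCast π]; exact Ideal.Quotient.eq_zero_iff_mem.mpr hzq)
  have hres : L.resCurve hM.par_mem = (legendreAt t').map ρ := by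
    rw [map_legendreAt, hρt]; exact L.legendre_resCurve hM.par_mem
  obtain ⟨ξ, hξ⟩ := exists_pow_eq_par (B := B) h2 (t := π t') (a := fun i => π (a' i))
    (by
      have := congrArg π hid
      simpa only [map_mul, map_pow, ← eval_map_apply, ← WeierstrassCurve.map_preΨ', map_legendreAt,
        map_one] using this)
    (by
      rw [← map_legendreAt, map_topCoeff _ (Fact.out : q.Prime).ne_zero]
      refine (hρ _ ?_).map π
      rw [← map_topCoeff _ (Fact.out : q.Prime).ne_zero, ← hres]
      exact hL)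
    (fun i hi => by
      rw [← map_legendreAt, WeierstrassCurve.map_preΨ', eval_map_apply]
      have : ((legendreAt t').preΨ' q).eval (a' i) = 0 := hinj (by
        rw [← eval_map_apply, ← WeierstrassCurve.map_preΨ', ← hF', map_zero]
        rw [show a' i = ⟨xOf (i • Q), (ha i hi).1⟩ from dif_pos hi]
        exact (ha i hi).2.2)
      rw [this, map_zero])
    (fun i hi j hj hij => by
      rw [← map_pow, ← map_pow, ← map_sub]
      refine (hρ _ ?_).map π
      rw [map_sub, map_pow, map_pow, hρa i hi, hρa j hj, ← sub_pow_char]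
      exact pow_ne_zero _ (sub_ne_zero.mpr fun e =>
        hij (xOf_smul_injOn hQ₀0 hQ₀ (Finset.mem_coe.mpr hi) (Finset.mem_coe.mpr hj) e)))
    (fun i hi => by
      rw [← map_sub]
      refine (hρ _ ?_).map π
      rw [map_sub, hρt, hρa i hi, sub_ne_zero]
      intro e
      rcases hiQ : i • Q₀ with _ | ⟨a₀, b₀, m₀⟩
      · exact absurd hiQ (hne0 i hi)
      have h2Q : 2 • (i • Q₀) = 0 := by
        rw [hiQ, two_nsmul_eq_zero_iff m₀]
        rw [hiQ, xOf_some] at e
        rw [show L.resCurve hM.par_mem = legendreAt (L.parRes hM.par_mem) from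
          L.legendre_resCurve hM.par_mem, legendreAt_Ψ₂Sq, e]
        simp
      have hqi : q • (i • Q₀) = 0 := by rw [smul_comm, hQ₀, nsmul_zero]
      have hg : Nat.gcd q 2 • (i • Q₀) = 0 := gcd_nsmul_eq_zero.mpr ⟨hqi, h2Q⟩
      rw [(Nat.coprime_primes Fact.out Nat.prime_two).mpr h2, one_smul] at hg
      exact hne0 i hi hg)
  obtain ⟨ξ', rfl⟩ := Ideal.Quotient.mk_surjective ξ
  obtain ⟨d, hd⟩ := exists_residue_const hb hM (((locAt_mono hF.le).trans locAt_locAt) ξ'.2)
  refine (nearConst_iff hF).mpr ⟨hle htC, d ^ q, ?_⟩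
  have h₁ : t' - ξ' ^ q ∈ I :=
    (Ideal.span_le.mpr (Set.singleton_subset_iff.mpr hzI)) (Ideal.Quotient.eq.mp
      (hξ.trans (map_pow _ _ _).symm))
  set δ := ξ' - cstAt hF.const d
  have hδ : (δ : F) ∈ M.nonunits := hd
  have h₂ : ξ' ^ q - cstAt (M := M) hF.const d ^ q ∈ I := by
    have e : ξ' ^ q = (cstAt hF.const d + δ) ^ q := by rw [add_sub_cancel]
    rw [e, add_pow_prime_eq Fact.out]
    have hδq : δ ^ q ∈ I := by
      obtain ⟨k, hk⟩ := Nat.exists_eq_add_of_le (Fact.out : q.Prime).two_le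
      rw [hk, pow_add, pow_two]
      exact I.mul_mem_right _ (hF.sq_mem δ δ hδ hδ)
    rw [add_assoc, add_sub_cancel_left]
    exact add_mem hδq (I.mul_mem_right _ (I.mul_mem_right _ (I.mul_mem_right _ hF.q_mem)))
  show t' - cstAt hF.const (d ^ q) ∈ I
  rw [map_pow, show t' - cstAt (M := M) hF.const d ^ q =
    (t' - ξ' ^ q) + (ξ' ^ q - cstAt hF.const d ^ q) by ring]
  exact add_mem h₁ h₂

end Par

include hb hM h2 h0 h1 hqr hL in
/-- **An ordinary point is regular and lies on one component.** -/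
theorem legendre_ordinary :
    GoodPoint W q L.par M ∧ ∀ V V', IsVert W q L.par V → Through W L.par M V →
      IsVert W q L.par V' → Through W L.par M V' → V = V' := by
  classical
  have hΔ := legendre_Δ_ne_zero
  have hc := L.cover hΔ
  have hΔres := L.legendre_resCurve_Δ_ne_zero hM.par_mem hM.q_mem h2 h0 h1
  obtain ⟨P, hP0, hP, hline, -⟩ := L.legendre_exists_line hM.par_mem hM.q_mem h2 h0 h1 hL
  obtain ⟨Q, hQ, hQP⟩ := L.exists_qTorsion_notMem hΔ hP
  have hPk : InKer M P := (hline P hP).mpr (AddSubgroup.mem_zmultiples P)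
  have hQk : ¬InKer M Q := fun h => hQP ((hline Q hQ).mp h)
  -- all components through the point have the same line
  have hzV : ∀ V, IsVert W q L.par V → Through W L.par M V → zOf P ∈ V.nonunits := by
    intro V hV hT
    refine L.legendre_zOf_mem_nonunits hM h2 h0 h1 hV hP0 hP ?_
    obtain ⟨P', hP'0, hP', hline', -⟩ := L.legendre_vert hV hb h2
    have hP'k : InKer V P' := (hline' P' hP').mpr (AddSubgroup.mem_zmultiples P')
    obtain ⟨n, hn⟩ := exists_nsmul_of_mem_zmultiples hP hP'0
      ((hline P' hP').mp (L.legendre_inKer_of_through hM h2 h0 h1 hV hT hP' hP'k))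
    rw [hn]
    exact L.inKer_nsmul hV.par_mem hP'k n
  obtain ⟨hzR, hzM⟩ := L.legendre_zOf_mem hM h2 h0 h1 hP0 hP hPk
  have huR := L.legendre_inv_xOf_mem hM h2 h0 h1 hP0 hP
  have hz0 := L.legendre_zOf_ne_zero hM h2 h0 h1 hP0 hP
  have hsq := L.legendre_sq_zOf hM h2 h0 h1 hP0 hP
  have hxP := L.legendre_xOf_ne_zero hM h2 h0 h1 hP0 hP
  obtain ⟨x₁, y₁, n₁, rfl⟩ := LevelData.exists_some_of_ne_zero hP0
  obtain ⟨x, y, h, rfl⟩ := LevelData.exists_some_of_ne_zero
    (show Q ≠ 0 from fun e => hQk (e ▸ trivial))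
  rw [xOf_some] at huR hsq hxP
  rw [zOf_some] at hzR hzM hz0 hsq hzV
  have hy₁ := L.legendre_yOf_ne_zero h2 hP
  obtain ⟨hxR, hyR⟩ := L.legendre_coords_mem hM h2 h0 h1 hQ hQk
  obtain ⟨c₀, hc₀⟩ := exists_residue_const hb hM hxR
  set S : Set F := ({L.par, x₁ / y₁, x₁⁻¹, x, y} : Set F) ∪
    ⋃ R ∈ {R : L.curve.toAffine.Point | r • R = 0}, pointCoords R
  have hsmall : ∀ a ∈ ({L.par, x₁ / y₁, x₁⁻¹, x, y} : Set F), a ∈ S := fun a ha => Or.inl ha
  have hrS : ∀ R : L.curve.toAffine.Point, r • R = 0 → pointCoords R ⊆ S := fun R hR a ha =>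
    Or.inr (Set.mem_iUnion₂.mpr ⟨R, hR, ha⟩)
  have hSfin : S.Finite := by
    refine Set.Finite.union (Set.toFinite _) ((L.finite_rTorsion hΔ).biUnion fun R _ => ?_)
    rcases R with _ | ⟨a, b, n⟩
    exacts [Set.finite_empty, (Set.finite_singleton b).insert a]
  have hSR : S ⊆ locRing W L.par M := by
    rintro a (ha | ha)
    · simp only [Set.mem_insert_iff, Set.mem_singleton_iff] at ha
      rcases ha with rfl | rfl | rfl | rfl | rfl
      exacts [chart_le_locRing par_mem_chart, hzR, huR, hxR, hyR]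
    · obtain ⟨R, hR, ha⟩ := Set.mem_iUnion₂.mp ha
      rcases R with _ | ⟨a', b', n⟩
      · exact ha.elim
      obtain ⟨hac, hbc⟩ := L.rTorsion_mem_chart hΔ hqr hb hR
      rcases ha with rfl | rfl
      exacts [chart_le_locRing hac, chart_le_locRing hbc]
  have hgenF : IntermediateField.adjoin K S = ⊤ := by
    have hsub := IntermediateField.subset_adjoin K S
    refine L.adjoin_eq_top_of_torsion hΔ hqr (hsmall _ (by simp)) hP0 hP hQ hQP ?_ ?_
      fun R hR => (hrS R hR).trans hsub
    · have hx₁ : x₁ ∈ IntermediateField.adjoin K S :=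
        inv_inv x₁ ▸ inv_mem (hsub (hsmall x₁⁻¹ (by simp)))
      rintro a (ha | ha)
      · exact (show a = x₁ from ha) ▸ hx₁
      · have := div_mem hx₁ (hsub (hsmall (x₁ / y₁) (by simp)))
        rw [div_div_cancel₀ hxP] at this
        exact (show a = y₁ from ha) ▸ this
    · rintro a (rfl | rfl) <;> exact hsub (hsmall _ (by simp))
  set C := genRing W S with hCdef
  have hSC : S ⊆ C := subset_genRing S
  have htC : L.par ∈ C := hSC (hsmall _ (by simp))
  have hzC : x₁ / y₁ ∈ C := hSC (hsmall _ (by simp))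
  have huC : x₁⁻¹ ∈ C := hSC (hsmall _ (by simp))
  have hwC : x - algebraMap K F c₀ ∈ C :=
    sub_mem (hSC (hsmall _ (by simp))) (algebraMap_mem_genRing S c₀)
  have hC : C ≤ M.toSubring := genRing_le hM.evW_mem hSR
  have := isLocalRing_locAt (M := M) hC
  set z' : locAt C M := ⟨x₁ / y₁, le_locAt hzC⟩
  set w' : locAt C M := ⟨x - algebraMap K F c₀, le_locAt hwC⟩
  set I := Ideal.span {z', w'} ⊔ maximalIdeal (locAt C M) ^ 2
  have hzI : z' ∈ I := Submodule.mem_sup_left (Ideal.subset_span (by simp))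
  have hwI : w' ∈ I := Submodule.mem_sup_left (Ideal.subset_span (by simp))
  have hD : (1 - x₁⁻¹) * (1 - L.par * x₁⁻¹) ∈ C :=
    mul_mem (sub_mem (one_mem _) huC) (sub_mem (one_mem _) (mul_mem htC huC))
  have huz : (⟨x₁⁻¹, le_locAt huC⟩ : locAt C M) ∈ Ideal.span {z'} :=
    Ideal.mem_span_singleton'.mpr
      ⟨z' * ⟨_, le_locAt hD⟩, Subtype.ext (by
        simp only [Subring.coe_mul, z']
        linear_combination hsq)⟩
  have hzq : (q : locAt C M) ∈ Ideal.span {z'} := by
    obtain ⟨a, ha, e⟩ := L.legendre_q_eq_mul_inv_xOf h2 htC hP hxP huC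
    rw [show (q : locAt C M) = ⟨a, le_locAt ha⟩ * ⟨x₁⁻¹, le_locAt huC⟩ from Subtype.ext (by
      rw [← map_natCast (locAt C M).subtype] at e
      exact e)]
    exact Ideal.mul_mem_left _ _ huz
  have hF : NearFrame W q L.par M I := by
    refine ⟨genRing_le_locRing hSR, algebraMap_mem_genRing S, fun a ha => ?_, fun a b ha hb' => ?_,
      Submodule.mem_sup_left (Ideal.span_mono (by simp) hzq)⟩
    · refine (mem_maximalIdeal_locAt hC a).mp ((show I ≤ maximalIdeal (locAt C M) from
        sup_le (Ideal.span_le.mpr ?_) (Ideal.pow_le_self two_ne_zero)) ha)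
      rintro _ (rfl | rfl)
      exacts [(mem_maximalIdeal_locAt hC _).mpr hzM, (mem_maximalIdeal_locAt hC _).mpr hc₀]
    · refine Submodule.mem_sup_right ?_
      rw [pow_two]
      exact Ideal.mul_mem_mul ((mem_maximalIdeal_locAt hC a).mpr ha)
        ((mem_maximalIdeal_locAt hC b).mpr hb')
  have htn : NearConst W M I L.par :=
    L.legendre_par_near hb hM h2 h0 h1 hL hF htC (hSC (hsmall x (by simp))) hQ hQk hzI hzq
  have hxn : NearConst W M I x := ⟨c₀, le_locAt hwC, hwI⟩
  have hyn : NearConst W M I y := by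
    obtain ⟨N, hN⟩ := exists_nearSubring hF
    have hf : x * (x - 1) * (x - L.par) ∈ N :=
      mul_mem (mul_mem ((hN x).mpr hxn) (sub_mem ((hN x).mpr hxn) (one_mem N)))
        (sub_mem ((hN x).mpr hxn) ((hN _).mpr htn))
    refine nearConst_of_root hF hb hM
      (G := Polynomial.X ^ 2 - Polynomial.C (x * (x - 1) * (x - L.par)))
      (fun i => (hN _).mp ?_) (le_locAt (hSC (hsmall y (by simp)))) (fun hm => ?_) ?_
    · simp only [coeff_sub, coeff_X_pow, coeff_C]
      refine sub_mem ?_ ?_ <;> split_ifs <;> first | exact one_mem N | exact zero_mem N | exact hf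
    · convert I.zero_mem
      simp [L.legendre_equation h.1]
    · simp only [derivative_sub, derivative_X_pow, derivative_C, sub_zero, eval_mul, eval_C,
        eval_X, Nat.cast_ofNat, Nat.add_one_sub_one, pow_one]
      refine mul_notMem_nonunits (fun h2n => ?_) fun hyn => ?_
      · have := charP_residueField hM.q_mem
        refine two_ne_zero_of_charP (k := ResidueField M) (q := q) h2 ?_
        have := (mem_nonunits_iff_residue (natCast_mem M 2)).mp (by exact_mod_cast h2n)
        rwa [show (⟨((2 : ℕ) : F), _⟩ : M) = ((2 : ℕ) : M) from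
          Subtype.ext (map_natCast M.subtype 2).symm, map_natCast, Nat.cast_ofNat] at this
      · -- the reduction of a point of odd order is not of order two
        have : (L.resCurve hM.par_mem).IsElliptic := ⟨isUnit_iff_ne_zero.mpr hΔres⟩
        obtain ⟨Q₀, hred⟩ := exists_redTo_of_Δ_ne_zero (L.reduces hM.par_mem) hΔres
          (WeierstrassCurve.Affine.Point.some x y h)
        have hQ₀ : q • Q₀ = 0 := by
          refine (hred.nsmul (L.reduces hM.par_mem) q).unique ?_
          rw [hQ]; exact RedTo.zero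
        rcases hred with ⟨hxn', -⟩ | ⟨x₀, y₀, n₀, -, hy₀, rfl⟩
        · exact hQk hxn'
        have hy00 : y₀ = 0 := by
          rw [← hy₀.2]; exact (mem_nonunits_iff_residue hy₀.mem).mp hyn
        subst hy00
        have h2Q : 2 • (WeierstrassCurve.Affine.Point.some x₀ 0 n₀ :
            (L.resCurve hM.par_mem).toAffine.Point) = 0 := by
          rw [two_nsmul, WeierstrassCurve.Affine.Point.add_of_Y_eq rfl]
          simp [WeierstrassCurve.Affine.negY, L.legendre_resCurve hM.par_mem, legendreAt]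
        have hg : Nat.gcd q 2 • (WeierstrassCurve.Affine.Point.some x₀ 0 n₀ :
            (L.resCurve hM.par_mem).toAffine.Point) = 0 := gcd_nsmul_eq_zero.mpr ⟨hQ₀, h2Q⟩
        rw [(Nat.coprime_primes Fact.out Nat.prime_two).mpr h2, one_smul] at hg
        exact WeierstrassCurve.Affine.Point.some_ne_zero n₀ hg
  have hall : ∀ g ∈ S, NearConst W M I g := by
    rintro a (ha | ha)
    · simp only [Set.mem_insert_iff, Set.mem_singleton_iff] at ha
      rcases ha with rfl | rfl | rfl | rfl | rfl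
      exacts [htn, nearConst_of_mem hF _ hzI,
        nearConst_of_mem hF _ (Submodule.mem_sup_left (Ideal.span_mono (by simp) huz)), hxn, hyn]
    · obtain ⟨R, hR, ha'⟩ := Set.mem_iUnion₂.mp ha
      rcases R with _ | ⟨a', b', n⟩
      · exact ha'.elim
      have := L.rTorsion_near hΔ hqr hb hM hM.par_mem hΔres hF htn hR
        (le_locAt (hSC (hrS _ hR (Or.inl rfl)))) (le_locAt (hSC (hrS _ hR (Or.inr rfl))))
      rcases ha' with rfl | rfl
      exacts [this.1, this.2]
  obtain ⟨V₀, hV₀, hT₀⟩ := exists_through hb hc hM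
  obtain ⟨-, -, hgen⟩ := locRing_eq_of_generators hb hc hM hV₀ hT₀ hSfin hSR (hsmall _ (by simp))
    hgenF hzC hwC hz0 (hzV V₀ hV₀ hT₀) hc₀ hall hF.q_mem
  have huniq : ∀ V V', IsVert W q L.par V → Through W L.par M V →
      IsVert W q L.par V' → Through W L.par M V' → V = V' := fun V V' hV hT hV' hT' =>
    eq_of_through_gen hb hc hM hz0 hgen hV hT hV' hT' (hzV V hV hT) (hzV V' hV' hT')
  refine ⟨⟨fun V hV hT => ⟨_, _, hzV V hV hT, hgen⟩, fun V V' hV hT hV' hT' hne => ?_⟩, huniq⟩
  exact absurd (huniq V V' hV hT hV' hT') hne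

end LevelData

end Fermat.Agent.Carayol
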