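import Fermat.Agent.Carayol.LegendreVert

/-!
# Torsion at a point of good reduction

The `q`-torsion of the Legendre family at a point of good reduction: membership in the local ring,
the uniformiser `x / y` on the kernel of reduction, and the divisibility of `q` by `1 / x`.

Main result: `legendre_q_eq_mul_inv_xOf`.
-/

set_option autoImplicit false

open Polynomial IsLocalRing Fermat.Agent.EC.Reduction

namespace Fermat.Agent.Carayol

section Generic

variable {K F : Type*} [Field K] [Field F] [Algebra K F]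
variable {W : ValuationSubring K} {q : ℕ} {t : F} {M : ValuationSubring F} {C : Subring F}

theorem IsPoint.par_mem (hM : IsPoint W q t M) : t ∈ M := by
  simpa [evW_X] using hM.evW_mem X

theorem inv_mem_locAt (hC : C ≤ M.toSubring) {x : F} (hx : x ∈ locAt C M)
    (hn : x ∉ M.nonunits) : x⁻¹ ∈ locAt C M := by
  obtain ⟨y, hy⟩ := ((isUnit_locAt_iff hC ⟨x, hx⟩).mpr hn).exists_right_inv
  rw [show x⁻¹ = (y : F) from inv_eq_of_mul_eq_one_right (congrArg Subtype.val hy)]
  exact y.2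

theorem mem_nonunits_of_pow {V : ValuationSubring F} {x : F} {n : ℕ}
    (hx : x ^ n ∈ V.nonunits) : x ∈ V.nonunits :=
  by_contra fun h => pow_notMem_nonunits h n hx

/-- The coordinate at the origin. -/
def zOf {W : WeierstrassCurve F} : W.toAffine.Point → F
  | .zero => 0
  | .some x y _ => x / y

theorem zOf_some {W : WeierstrassCurve F} {x y : F} (h : W.toAffine.Nonsingular x y) :
    zOf (W := W) (.some x y h) = x / y := rfl

theorem exists_nsmul_of_mem_zmultiples {G : Type*} [AddCommGroup G] {q : ℕ} [Fact q.Prime]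
    {P P' : G} (hP : q • P = 0) (hP' : P' ≠ 0) (h : P' ∈ AddSubgroup.zmultiples P) :
    ∃ m : ℕ, P = m • P' := by
  obtain ⟨n, rfl⟩ := (isOfFinAddOrder_iff_nsmul_eq_zero.mpr
    ⟨q, (Fact.out : q.Prime).pos, hP⟩).mem_multiples_iff_mem_zmultiples.mpr h
  have hn : ¬q ∣ n := fun ⟨c, hc⟩ => hP' (by
    show n • P = 0
    rw [hc, mul_comm, mul_nsmul', hP, nsmul_zero])
  obtain ⟨u, -, hu⟩ := Nat.exists_mul_mod_eq_one_of_coprime
    ((Nat.Prime.coprime_iff_not_dvd Fact.out).mpr hn).symm (Fact.out : q.Prime).one_lt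
  refine ⟨u, ?_⟩
  show P = u • n • P
  conv_rhs => rw [smul_smul, mul_comm, ← Nat.mod_add_div (n * u) q, hu]
  rw [add_nsmul, one_smul, mul_comm, mul_nsmul', hP, nsmul_zero, add_zero]

end Generic

variable {K F : Type*} [Field K] [CharZero K] [Field F] [DecidableEq F] [Algebra K F]
  {q r : ℕ} [NeZero (q * r)] [Fact q.Prime] (L : LevelData K F legendreFam q r)
  {W : ValuationSubring K} {M : ValuationSubring F}

namespace LevelData

omit [CharZero K] [NeZero (q * r)] [Fact q.Prime] in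
theorem legendre_equation {x y : F} (h : L.curve.toAffine.Equation x y) :
    y ^ 2 = x * (x - 1) * (x - L.par) := by
  have he := (WeierstrassCurve.Affine.equation_iff x y).mp h
  rw [show L.curve.toAffine.a₁ = 0 by simp [LevelData.curve, legendreFam],
    show L.curve.toAffine.a₂ = -(1 + L.par) by simp [LevelData.curve, legendreFam],
    show L.curve.toAffine.a₃ = 0 by simp [LevelData.curve, legendreFam],
    show L.curve.toAffine.a₄ = L.par by simp [LevelData.curve, legendreFam],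
    show L.curve.toAffine.a₆ = 0 by simp [LevelData.curve, legendreFam]] at he
  linear_combination he

variable (hM : IsPoint W q L.par M) (h2 : q ≠ 2)
  (h0 : L.parRes hM.par_mem ≠ 0) (h1 : L.parRes hM.par_mem ≠ 1)

omit [CharZero K] [NeZero (q * r)] [Fact q.Prime] in
include h0 h1 in
theorem legendre_parRes_ne_of_center {M' : ValuationSubring F} (hM' : IsPoint W q L.par M')
    (hiff : ∀ a ∈ locRing W L.par M, a ∈ M' ∧ (a ∈ M.nonunits ↔ a ∈ M'.nonunits)) :
    L.parRes hM'.par_mem ≠ 0 ∧ L.parRes hM'.par_mem ≠ 1 := by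
  have ht : L.par ∈ locRing W L.par M := chart_le_locRing par_mem_chart
  refine ⟨fun h => h0 ?_, fun h => h1 ?_⟩
  · exact (mem_nonunits_iff_residue hM.par_mem).mp
      ((hiff _ ht).2.mpr ((mem_nonunits_iff_residue hM'.par_mem).mpr h))
  · have hm : L.par - 1 ∈ locRing W L.par M := sub_mem ht (one_mem _)
    have hn : L.par - 1 ∈ M'.nonunits := (mem_nonunits_iff_residue (hiff _ hm).1).mpr (by
      rw [show (⟨L.par - 1, (hiff _ hm).1⟩ : M') = ⟨L.par, hM'.par_mem⟩ - 1 from Subtype.ext rfl,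
        map_sub, map_one, sub_eq_zero]
      exact h)
    have hmM : L.par - 1 ∈ M := sub_mem hM.par_mem (one_mem _)
    have := (mem_nonunits_iff_residue hmM).mp ((hiff _ hm).2.mpr hn)
    rw [show (⟨L.par - 1, hmM⟩ : M) = ⟨L.par, hM.par_mem⟩ - 1 from Subtype.ext rfl, map_sub,
      map_one, sub_eq_zero] at this
    exact this

omit [CharZero K] [NeZero (q * r)] in
include h2 h0 h1 in
theorem legendre_xOf_ne_zero {Q : L.curve.toAffine.Point} (hQ0 : Q ≠ 0) (hQ : q • Q = 0) :
    xOf Q ≠ 0 :=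
  ne_zero_of_notMem_nonunits
    (L.legendre_xOf_notMem_nonunits hM.par_mem hM.q_mem h2 h0 h1 hQ0 hQ)

include hM h2 h0 h1 in
omit [CharZero K] [NeZero (q * r)] in
/-- `1 / x` is regular at the point. -/
theorem legendre_inv_xOf_mem {Q : L.curve.toAffine.Point} (hQ0 : Q ≠ 0) (hQ : q • Q = 0) :
    (xOf Q)⁻¹ ∈ locRing W L.par M := by
  refine mem_locRing_of_forall hM fun M' hM' hiff => ?_
  obtain ⟨h0', h1'⟩ := L.legendre_parRes_ne_of_center hM h0 h1 hM' hiff
  exact inv_mem_of_notMem_nonunits'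
    (L.legendre_xOf_notMem_nonunits hM'.par_mem hM'.q_mem h2 h0' h1' hQ0 hQ)

omit [CharZero K] [NeZero (q * r)] in
include h2 h0 h1 in
theorem legendre_inKer_iff_inv {Q : L.curve.toAffine.Point} (hQ0 : Q ≠ 0) (hQ : q • Q = 0) :
    InKer M Q ↔ (xOf Q)⁻¹ ∈ M.nonunits := by
  have hx0 := L.legendre_xOf_ne_zero hM h2 h0 h1 hQ0 hQ
  obtain ⟨x, y, h, rfl⟩ := LevelData.exists_some_of_ne_zero hQ0
  rw [xOf_some] at hx0 ⊢
  refine ⟨fun hx => inv_mem_nonunits_of_notMem hx, fun hn => ?_⟩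
  rcases (ValuationSubring.mem_nonunits_iff_or M).mp hn with h0 | h1
  · exact absurd (inv_eq_zero.mp h0) hx0
  · rwa [inv_inv] at h1

include hM h2 h0 h1 in
omit [CharZero K] [NeZero (q * r)] in
/-- The kernel at a component through the point lies in the kernel at the point. -/
theorem legendre_inKer_of_through {V : ValuationSubring F} (hV : IsVert W q L.par V)
    (hT : Through W L.par M V) {Q : L.curve.toAffine.Point} (hQ : q • Q = 0) (hk : InKer V Q) :
    InKer M Q := by
  rcases eq_or_ne Q 0 with rfl | hQ0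
  · trivial
  rw [L.legendre_inKer_iff_inv hM h2 h0 h1 hQ0 hQ]
  refine hT.nonunits hM.evW_mem (L.legendre_inv_xOf_mem hM h2 h0 h1 hQ0 hQ) ?_ hV.evW_mem
  obtain ⟨x, y, h, rfl⟩ := LevelData.exists_some_of_ne_zero hQ0
  rw [xOf_some]
  exact inv_mem_nonunits_of_notMem hk

omit [CharZero K] [NeZero (q * r)] in
include h2 in
theorem legendre_yOf_ne_zero {x y : F} {h : L.curve.toAffine.Nonsingular x y}
    (hQ : q • (WeierstrassCurve.Affine.Point.some x y h : L.curve.toAffine.Point) = 0) :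
    y ≠ 0 := by
  rintro rfl
  have h2Q : 2 • (WeierstrassCurve.Affine.Point.some x 0 h : L.curve.toAffine.Point) = 0 := by
    rw [two_nsmul, WeierstrassCurve.Affine.Point.add_of_Y_eq rfl]
    simp [WeierstrassCurve.Affine.negY, LevelData.curve, legendreFam]
  obtain ⟨m, hm⟩ := odd_of_ne_two (q := q) h2
  have e : ∀ n, n = 2 * m + 1 → n • (WeierstrassCurve.Affine.Point.some x 0 h :
      L.curve.toAffine.Point) = .some x 0 h := fun n hn => by
    rw [hn, succ_nsmul, mul_nsmul, h2Q, nsmul_zero, zero_add]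
  exact WeierstrassCurve.Affine.Point.some_ne_zero h ((e q hm).symm.trans hQ)

include h2 h0 h1 in
omit [CharZero K] [NeZero (q * r)] in
/-- `(x / y) ^ 2 (1 - u) (1 - t u) = u` for `u = 1 / x`. -/
theorem legendre_sq_zOf {Q : L.curve.toAffine.Point} (hQ0 : Q ≠ 0) (hQ : q • Q = 0) :
    zOf Q ^ 2 * ((1 - (xOf Q)⁻¹) * (1 - L.par * (xOf Q)⁻¹)) = (xOf Q)⁻¹ := by
  have hx0 := L.legendre_xOf_ne_zero hM h2 h0 h1 hQ0 hQ
  obtain ⟨x, y, h, rfl⟩ := LevelData.exists_some_of_ne_zero hQ0
  rw [xOf_some] at hx0 ⊢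
  rw [zOf_some]
  have hy := L.legendre_yOf_ne_zero h2 hQ
  have he := L.legendre_equation h.1
  field_simp
  linear_combination -he

omit [CharZero K] [NeZero (q * r)] in
include hM h2 h0 h1 in
theorem legendre_zOf_ne_zero {Q : L.curve.toAffine.Point} (hQ0 : Q ≠ 0) (hQ : q • Q = 0) :
    zOf Q ≠ 0 := fun h => inv_ne_zero (L.legendre_xOf_ne_zero hM h2 h0 h1 hQ0 hQ) (by
  rw [← L.legendre_sq_zOf hM h2 h0 h1 hQ0 hQ, h]; ring)

omit [CharZero K] [NeZero (q * r)] [Fact q.Prime] in
theorem one_sub_mul_notMem_nonunits {V : ValuationSubring F} {u : F} (hu : u ∈ V.nonunits)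
    (ht : L.par ∈ V) : (1 - u) * (1 - L.par * u) ∉ V.nonunits := by
  have key : ∀ a ∈ V.nonunits, 1 - a ∉ V.nonunits := fun a ha hn =>
    one_notMem_nonunits V (by simpa using add_mem hn ha)
  exact mul_notMem_nonunits (key _ hu) (key _ (nonunits_mul_left ht hu))

include hM h2 h0 h1 in
omit [CharZero K] [NeZero (q * r)] in
/-- On the kernel of reduction `x / y` is regular and vanishes at the point. -/
theorem legendre_zOf_mem {Q : L.curve.toAffine.Point} (hQ0 : Q ≠ 0) (hQ : q • Q = 0)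
    (hk : InKer M Q) : zOf Q ∈ locRing W L.par M ∧ zOf Q ∈ M.nonunits := by
  have hu := L.legendre_inv_xOf_mem hM h2 h0 h1 hQ0 hQ
  have hn := (L.legendre_inKer_iff_inv hM h2 h0 h1 hQ0 hQ).mp hk
  have ht : L.par ∈ locRing W L.par M := chart_le_locRing par_mem_chart
  have hD : (1 - (xOf Q)⁻¹) * (1 - L.par * (xOf Q)⁻¹) ∈ locRing W L.par M :=
    mul_mem (sub_mem (one_mem _) hu) (sub_mem (one_mem _) (mul_mem ht hu))
  have hDn := L.one_sub_mul_notMem_nonunits hn hM.par_mem
  have hD0 := ne_zero_of_notMem_nonunits hDn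
  have e : zOf Q ^ 2 = (xOf Q)⁻¹ * ((1 - (xOf Q)⁻¹) * (1 - L.par * (xOf Q)⁻¹))⁻¹ := by
    rw [eq_mul_inv_iff_mul_eq₀ hD0]
    exact L.legendre_sq_zOf hM h2 h0 h1 hQ0 hQ
  have hz2 : zOf Q ^ 2 ∈ locRing W L.par M := e ▸ mul_mem hu (inv_mem_locRing hM.evW_mem hD hDn)
  refine ⟨?_, mem_nonunits_of_pow (n := 2) (e ▸ nonunits_mul_right
    (inv_mem_of_notMem_nonunits' hDn) hn)⟩
  refine (Subring.isIntegrallyClosedIn_iff.mp (isIntegrallyClosedIn_locRing hM.evW_mem))
    ⟨X ^ 2 - Polynomial.C ⟨_, hz2⟩, monic_X_pow_sub_C _ two_ne_zero, ?_⟩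
  simp only [eval₂_sub, eval₂_X_pow, eval₂_C]
  exact sub_self _

include hM h2 h0 h1 in
omit [CharZero K] [NeZero (q * r)] in
/-- Coordinates away from the kernel are regular at the point. -/
theorem legendre_coords_mem {x y : F} {h : L.curve.toAffine.Nonsingular x y}
    (hQ : q • (WeierstrassCurve.Affine.Point.some x y h : L.curve.toAffine.Point) = 0)
    (hk : ¬InKer M (WeierstrassCurve.Affine.Point.some x y h : L.curve.toAffine.Point)) :
    x ∈ locRing W L.par M ∧ y ∈ locRing W L.par M := by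
  have hu := L.legendre_inv_xOf_mem hM h2 h0 h1 (WeierstrassCurve.Affine.Point.some_ne_zero h) hQ
  have hn : x⁻¹ ∉ M.nonunits := fun hn => hk
    ((L.legendre_inKer_iff_inv hM h2 h0 h1 (WeierstrassCurve.Affine.Point.some_ne_zero h)
      hQ).mpr hn)
  rw [xOf_some] at hu
  have hx : x ∈ locRing W L.par M := inv_inv x ▸ inv_mem_locRing hM.evW_mem hu hn
  have ht : L.par ∈ locRing W L.par M := chart_le_locRing par_mem_chart
  refine ⟨hx, ?_⟩
  refine (Subring.isIntegrallyClosedIn_iff.mp (isIntegrallyClosedIn_locRing hM.evW_mem))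
    ⟨X ^ 2 - Polynomial.C ⟨x * (x - 1) * (x - L.par),
      mul_mem (mul_mem hx (sub_mem hx (one_mem _))) (sub_mem hx ht)⟩,
      monic_X_pow_sub_C _ two_ne_zero, ?_⟩
  simp only [eval₂_sub, eval₂_X_pow, eval₂_C]
  exact sub_eq_zero.mpr (L.legendre_equation h.1)

include hM h2 h0 h1 in
omit [CharZero K] [NeZero (q * r)] in
/-- A generator of the kernel at a component vanishes along it. -/
theorem legendre_zOf_mem_nonunits {V : ValuationSubring F} (hV : IsVert W q L.par V)
    {Q : L.curve.toAffine.Point} (hQ0 : Q ≠ 0) (hQ : q • Q = 0) (hk : InKer V Q) :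
    zOf Q ∈ V.nonunits := by
  have hu : (xOf Q)⁻¹ ∈ V.nonunits := by
    obtain ⟨x, y, h, rfl⟩ := LevelData.exists_some_of_ne_zero hQ0
    rw [xOf_some]
    exact inv_mem_nonunits_of_notMem hk
  have hDn := L.one_sub_mul_notMem_nonunits hu hV.par_mem
  refine mem_nonunits_of_pow (n := 2) ?_
  rw [show zOf Q ^ 2 = (xOf Q)⁻¹ * ((1 - (xOf Q)⁻¹) * (1 - L.par * (xOf Q)⁻¹))⁻¹ by
    rw [eq_mul_inv_iff_mul_eq₀ (ne_zero_of_notMem_nonunits hDn)]
    exact L.legendre_sq_zOf hM h2 h0 h1 hQ0 hQ]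
  exact nonunits_mul_right (inv_mem_of_notMem_nonunits' hDn) hu

include h2 in
omit [NeZero (q * r)] in
/-- `1 / x` divides `q` at a nonzero point of order `q`. -/
theorem legendre_q_eq_mul_inv_xOf {S : Subring F} (ht : L.par ∈ S) {x y : F}
    {h : L.curve.toAffine.Nonsingular x y}
    (hQ : q • (WeierstrassCurve.Affine.Point.some x y h : L.curve.toAffine.Point) = 0)
    (hx0 : x ≠ 0) (hu : x⁻¹ ∈ S) : ∃ a ∈ S, (q : F) = a * x⁻¹ := by
  classical
  have hE := isElliptic_curve L legendre_Δ_ne_zero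
  have hodd := odd_of_ne_two (q := q) h2
  let g : ℤ[X] →+* S := eval₂RingHom (Int.castRingHom S) ⟨L.par, ht⟩
  have hg : (legendreFam.map g).map S.subtype = L.curve := by
    rw [WeierstrassCurve.map_map, LevelData.curve]
    congr 1
    exact Polynomial.ringHom_ext (fun n => by simp [g]) (by simp [g])
  set E := legendreFam.map g
  set D := (q ^ 2 - 1) / 2
  have hroot : (L.curve.preΨ' q).eval x = 0 :=
    (EC.Torsion.nsmul_some_eq_zero_iff_of_odd (W := L.curve.toAffine) hodd h).mp hQ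
  rw [← hg, WeierstrassCurve.map_preΨ'] at hroot
  have hdeg : (E.preΨ' q).natDegree ≤ D := by
    have := E.natDegree_preΨ'_le q
    rwa [if_neg (Nat.not_even_iff_odd.mpr hodd)] at this
  have : Invertible x := invertibleOfNonzero hx0
  have hrev := eval₂_reflect_mul_pow S.subtype x D (E.preΨ' q) hdeg
  rw [invOf_eq_inv, ← eval_map (p := E.preΨ' q), hroot] at hrev
  have hz : eval₂ S.subtype x⁻¹ (reflect D (E.preΨ' q)) = 0 :=
    (mul_eq_zero.mp hrev).resolve_right (pow_ne_zero _ hx0)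
  have hc : (reflect D (E.preΨ' q)).coeff 0 = (q : S) := by
    rw [coeff_reflect, revAt_le (Nat.zero_le _), Nat.sub_zero]
    have := E.coeff_preΨ' q
    rwa [if_neg (Nat.not_even_iff_odd.mpr hodd), if_neg (Nat.not_even_iff_odd.mpr hodd)] at this
  rw [← divX_mul_X_add (reflect D (E.preΨ' q)), eval₂_add, eval₂_mul, eval₂_X, eval₂_C, hc,
    map_natCast, show eval₂ S.subtype x⁻¹ (divX (reflect D (E.preΨ' q))) =
      (((divX (reflect D (E.preΨ' q))).eval ⟨x⁻¹, hu⟩ : S) : F) from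
      eval₂_at_apply S.subtype (⟨x⁻¹, hu⟩ : S)] at hz
  refine ⟨_, neg_mem (Subtype.mem ((divX (reflect D (E.preΨ' q))).eval ⟨x⁻¹, hu⟩)), ?_⟩
  linear_combination hz

end LevelData

end Fermat.Agent.Carayol
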