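import Fermat.Agent.Carayol.LegendreKernel

/-!
# Components for the Legendre family

Components of the special fibre of the Legendre family: their generic reduction is ordinary, one
line of `q`-torsion reduces to the origin and inertia is as large as possible.

Main result: `legendre_vert`.
-/

set_option autoImplicit false

open Polynomial IsLocalRing Fermat.Agent.EC.Reduction

namespace Fermat.Agent.Carayol

section Generic

variable {K F : Type*} [Field K] [Field F] [Algebra K F]
variable {W : ValuationSubring K} {q : ℕ} {t : F} {V : ValuationSubring F}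

theorem IsVert.par_mem (hV : IsVert W q t V) : t ∈ V := by
  simpa [evW_X] using hV.evW_mem X

theorem IsVert.evW_notMem_nonunits (hV : IsVert W q t V) (ht : Transcendental K t) {p : W[X]}
    (hp : p.map (residue W) ≠ 0) : evW W t p ∉ V.nonunits := fun h =>
  ((ValuationSubring.mem_nonunits_iff_or V).mp h).elim (evW_ne_zero ht hp)
    fun h' => h' (hV.unit p hp)

theorem evW_map_intCast (p : ℤ[X]) :
    evW W t (p.map (Int.castRingHom W)) = eval₂ (Int.castRingHom F) t p := by
  rw [evW, coe_eval₂RingHom, eval₂_map]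
  congr 1
  exact RingHom.ext_int _ _

theorem charP_residue_base (hb : BaseData W q) : CharP (ResidueField W) q :=
  (CharP.charP_iff_prime_eq_zero hb.prime).mpr (by
    rw [← map_natCast (residue W), residue_eq_zero_iff, hb.uniformizer]
    exact Ideal.mem_span_singleton_self _)

end Generic

variable {K F : Type*} [Field K] [CharZero K] [Field F] [DecidableEq F] [Algebra K F]
  {q r : ℕ} [NeZero (q * r)] (L : LevelData K F legendreFam q r)
  {W : ValuationSubring K}
  {V : ValuationSubring F}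

namespace LevelData

variable (hV : IsVert W q L.par V)

omit [CharZero K] [NeZero (q * r)] in
include hV in
theorem legendre_vert_parRes_ne : L.parRes hV.par_mem ≠ 0 ∧ L.parRes hV.par_mem ≠ 1 := by
  refine ⟨fun h => hV.par_sub_notMem L.transcendental 0 ?_,
    fun h => hV.par_sub_notMem L.transcendental 1 ?_⟩
  · simpa using (mem_nonunits_iff_residue hV.par_mem).mpr h
  · have hm : L.par - 1 ∈ V := sub_mem hV.par_mem V.one_mem
    have : L.par - 1 ∈ V.nonunits := (mem_nonunits_iff_residue hm).mpr (by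
      rw [show (⟨L.par - 1, hm⟩ : V) = ⟨L.par, hV.par_mem⟩ - 1 from Subtype.ext rfl, map_sub,
        map_one, sub_eq_zero]
      exact h)
    simpa using this

variable (hb : BaseData W q) (h2 : q ≠ 2)

omit [CharZero K] in
include hb h2 in
theorem legendre_topCoeff_X_map_ne_zero :
    ((topCoeff (legendreAt (X : ℤ[X])) q).map (Int.castRingHom W)).map (residue W) ≠ 0 := by
  have := Fact.mk hb.prime
  have := charP_residue_base hb
  rw [Polynomial.map_map, RingHom.ext_int ((residue W).comp (Int.castRingHom W))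
    (Int.castRingHom (ResidueField W)), ← coe_mapRingHom, ← map_topCoeff _ hb.prime.ne_zero,
    map_legendreAt, coe_mapRingHom, map_X]
  intro h0
  refine coeff_hasseCoeff_legendreAt_X (k := ResidueField W) (q := q) h2 ?_
  have hz : hasseCoeff (legendreAt (X : (ResidueField W)[X])) q = 0 := by
    have e := topCoeff_sq (legendreAt (X : (ResidueField W)[X])) (q := q) h2
    rw [h0, zero_pow two_ne_zero] at e
    exact eq_zero_of_pow_eq_zero e.symm
  rw [hz, coeff_zero]

include hV hb h2 in
omit [CharZero K] [NeZero (q * r)] in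
/-- The generic reduction is ordinary. -/
theorem legendre_vert_topCoeff : topCoeff (L.resCurve hV.par_mem) q ≠ 0 := by
  have := Fact.mk hb.prime
  have hr := L.res_eval hV.par_mem (topCoeff (legendreAt (X : ℤ[X])) q)
  intro h
  refine hV.evW_notMem_nonunits L.transcendental (legendre_topCoeff_X_map_ne_zero hb h2) ?_
  rw [evW_map_intCast, mem_nonunits_iff_residue hr.mem]
  rw [hr.2, ← coe_eval₂RingHom, ← map_topCoeff _ hb.prime.ne_zero, map_legendreAt,
    coe_eval₂RingHom, eval₂_X, ← L.legendre_resCurve hV.par_mem, h]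

omit [CharZero K] [NeZero (q * r)] in
/-- The parameter at the origin: `(x / y) ^ 2` is `1 / x` up to a unit. -/
theorem legendre_sq_div {x y : F} (h : L.curve.toAffine.Equation x y) (hpar : L.par ∈ V)
    (hx : x ∉ V) : (x / y) ^ 2 * x ∈ V ∧ (x / y) ^ 2 * x ∉ V.nonunits := by
  have hx0 : x ≠ 0 := fun e => hx (e ▸ V.zero_mem)
  have hu := inv_mem_nonunits_of_notMem hx
  have huV : x⁻¹ ∈ V := inv_mem_of_notMem hx
  have hd1 : (1 - x⁻¹) * (1 - L.par * x⁻¹) ∈ V :=
    mul_mem (sub_mem V.one_mem huV) (sub_mem V.one_mem (mul_mem hpar huV))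
  have hd2 : (1 - x⁻¹) * (1 - L.par * x⁻¹) ∉ V.nonunits := by
    rw [mem_nonunits_iff_residue hd1]
    have h1 : residue V ⟨x⁻¹, huV⟩ = 0 := (mem_nonunits_iff_residue huV).mp hu
    rw [show (⟨_, hd1⟩ : V) = (1 - ⟨x⁻¹, huV⟩) * (1 - ⟨L.par, hpar⟩ * ⟨x⁻¹, huV⟩) from
      Subtype.ext rfl, map_mul, map_sub, map_sub, map_mul, map_one, h1]
    simp
  have he := (WeierstrassCurve.Affine.equation_iff x y).mp h
  rw [show L.curve.toAffine.a₁ = 0 by simp [LevelData.curve, legendreFam],
    show L.curve.toAffine.a₂ = -(1 + L.par) by simp [LevelData.curve, legendreFam],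
    show L.curve.toAffine.a₃ = 0 by simp [LevelData.curve, legendreFam],
    show L.curve.toAffine.a₄ = L.par by simp [LevelData.curve, legendreFam],
    show L.curve.toAffine.a₆ = 0 by simp [LevelData.curve, legendreFam]] at he
  have hd0 := ne_zero_of_notMem_nonunits hd2
  have e : (x / y) ^ 2 * x = ((1 - x⁻¹) * (1 - L.par * x⁻¹))⁻¹ := by
    refine eq_inv_of_mul_eq_one_left ?_
    have hy : y ≠ 0 := by
      rintro rfl
      refine hd0 ?_
      field_simp
      refine mul_left_cancel₀ hx0 ?_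
      linear_combination -he
    field_simp
    linear_combination -he
  rw [e]
  refine ⟨inv_mem_of_notMem_nonunits' hd2, fun hn => ?_⟩
  rcases (ValuationSubring.mem_nonunits_iff_or V).mp hn with h0 | h1
  · exact hd0 (inv_eq_zero.mp h0)
  · exact h1 (by rwa [inv_inv])

variable [Fact q.Prime]

include hV hb h2 in
/-- Along a component one line of `q`-torsion reduces to the origin and inertia is large. -/
theorem legendre_vert :
    ∃ P : L.curve.toAffine.Point, P ≠ 0 ∧ q • P = 0 ∧
      (∀ Q : L.curve.toAffine.Point, q • Q = 0 → (InKer V Q ↔ Q ∈ AddSubgroup.zmultiples P)) ∧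
      q * (q - 1) ≤ Nat.card (inertiaV K L.par V) := by
  classical
  have := charP_residueField hV.q_mem
  obtain ⟨h0, h1⟩ := L.legendre_vert_parRes_ne hV
  have hL := L.legendre_vert_topCoeff hV hb h2
  obtain ⟨P, hP0, hP, hline, hq1, hq2⟩ :=
    L.legendre_exists_line hV.par_mem hV.q_mem h2 h0 h1 hL
  refine ⟨P, hP0, hP, hline, ?_⟩
  have hΔres := L.legendre_resCurve_Δ_ne_zero hV.par_mem hV.q_mem h2 h0 h1
  obtain ⟨x, y, hn, rfl⟩ := LevelData.exists_some_of_ne_zero hP0
  have hx : x ∉ V := (hline _ hP).mpr (AddSubgroup.mem_zmultiples _)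
  rw [xOf_some] at hq1 hq2
  obtain ⟨hz1, hz2⟩ := L.legendre_sq_div hn.1 hV.par_mem hx
  obtain ⟨m, hm⟩ := odd_of_ne_two (q := q) h2
  rw [show (q - 1) / 2 = m by omega] at hq1 hq2
  set c := (x / y) ^ 2 * x
  have hzc : (x / y) ^ (q - 1) = c ^ m * (x ^ m)⁻¹ := by
    have hx0 : x ≠ 0 := fun e => hx (e ▸ V.zero_mem)
    rw [show q - 1 = 2 * m by omega, pow_mul]
    simp only [c, mul_pow]
    field_simp
  have hz0 : x / y ≠ 0 := fun h => by
    simp only [c, h] at hz2
    exact hz2 (by simp)
  -- a `q`th root of the parameter modulo the place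
  obtain ⟨Q, hQ, hQk⟩ : ∃ Q : L.curve.toAffine.Point, q • Q = 0 ∧ ¬InKer V Q := by
    obtain ⟨Q, hQ, hQP⟩ := L.exists_qTorsion_notMem legendre_Δ_ne_zero hP
    exact ⟨Q, hQ, fun h => hQP ((hline Q hQ).mp h)⟩
  obtain ⟨Q₀, hred⟩ := exists_redTo_of_Δ_ne_zero (L.reduces hV.par_mem) hΔres Q
  have hQ₀ : q • Q₀ = 0 := by
    refine (hred.nsmul (L.reduces hV.par_mem) q).unique ?_
    rw [hQ]; exact RedTo.zero
  have hQ₀0 : Q₀ ≠ 0 := by
    rintro rfl
    exact hQk (LevelData.inKer_iff_redTo_zero.mpr hred)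
  have := isElliptic_legendreAt (q := q) h2 h0 h1
  revert Q₀
  rw [L.legendre_resCurve hV.par_mem]
  intro Q₀ _ hQ₀ hQ₀0
  have hξ := xiOf_pow h2 hQ₀0 hQ₀
  obtain ⟨ξ, hξ'⟩ := residue_surjective (xiOf q (L.parRes hV.par_mem)
    (WeierstrassCurve.Affine.Point.some 0 0 (nonsingular_twoTorsion (Or.inl rfl))) Q₀)
  refine (inertia_bound hb (L.cover legendre_Δ_ne_zero) hV hz0 ?_ ?_ ξ.2 ?_).1
  · rw [hzc, show c ^ m * (x ^ m)⁻¹ / (q : F) = c ^ m * ((q : F) * x ^ m)⁻¹ by field_simp]
    exact mul_mem (pow_mem hz1 _) (inv_mem_of_notMem_nonunits' hq2)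
  · rw [hzc, show (q : F) / (c ^ m * (x ^ m)⁻¹) = ((q : F) * x ^ m) * (c ^ m)⁻¹ by field_simp]
    exact mul_mem hq1 (inv_mem_of_notMem_nonunits' (pow_notMem_nonunits hz2 m))
  · rw [mem_nonunits_iff_residue (sub_mem (pow_mem ξ.2 q) hV.par_mem),
      show (⟨(ξ : F) ^ q - L.par, _⟩ : V) = ξ ^ q - ⟨L.par, hV.par_mem⟩ from Subtype.ext rfl,
      map_sub, map_pow, hξ', hξ]
    exact sub_self _

end LevelData

end Fermat.Agent.Carayol
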