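import Fermat.Agent.Carayol.Glue
import Mathlib.RingTheory.Valuation.LocalSubring
import Mathlib.FieldTheory.Galois.Basic
import Mathlib.RingTheory.DedekindDomain.IntegralClosure
import Mathlib.RingTheory.DiscreteValuationRing.Basic
import Mathlib.RingTheory.Polynomial.RationalRoot
import Mathlib.Algebra.Polynomial.Reverse
import Mathlib.FieldTheory.RatFunc.Basic

/-!
# The integral model of a cover of the line

The integral model of a finite Galois cover of the `t`-line over a discrete valuation ring `W`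
with uniformiser `q`: the chart ring, valuation rings over the special fibre ("vertical"), and the
criterion "integral over `K[t]` and in every vertical valuation ring".

Main result: `mem_chart_of_forall`.
-/

set_option autoImplicit false

open Polynomial IntermediateField
open scoped IntermediateField

namespace Fermat.Agent.Carayol

variable {K F : Type*} [Field K] [Field F] [Algebra K F]

/-- A finite Galois extension of the rational function field `K(t)`. -/
structure Cover (K : Type*) {F : Type*} [Field K] [Field F] [Algebra K F] (t : F) : Prop where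
  transcendental : Transcendental K t
  finite : FiniteDimensional K⟮t⟯ F
  galois : IsGalois K⟮t⟯ F

/-- The uniformiser `q` and the transcendence of the parameter. -/
structure BaseData (W : ValuationSubring K) (q : ℕ) : Prop where
  prime : q.Prime
  charZero : CharZero K
  dvr : IsDiscreteValuationRing W
  uniformizer : IsLocalRing.maximalIdeal W = Ideal.span {(q : W)}

/-- Evaluation of integral polynomials at `t`. -/
noncomputable def evW (W : ValuationSubring K) (t : F) : W[X] →+* F :=
  eval₂RingHom ((algebraMap K F).comp W.subtype) t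

/-- The integral closure of `W[t]`. -/
noncomputable def chart (W : ValuationSubring K) (t : F) : Subring F :=
  letI := (evW W t).toAlgebra
  (integralClosure W[X] F).toSubring

/-- Valuation rings lying over the special fibre of the `t`-line. -/
structure IsVert (W : ValuationSubring K) (q : ℕ) (t : F) (V : ValuationSubring F) : Prop where
  evW_mem : ∀ p : W[X], evW W t p ∈ V
  q_mem : (q : F) ∈ V.nonunits
  unit : ∀ p : W[X], p.map (IsLocalRing.residue W) ≠ 0 → (evW W t p)⁻¹ ∈ V

variable {W : ValuationSubring K} {q : ℕ} {t : F}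

theorem evW_C (w : W) : evW W t (C w) = algebraMap K F w := by simp [evW]

theorem evW_X : evW W t X = t := by simp [evW]

theorem evW_eq_aeval (p : W[X]) : evW W t p = aeval t (p.map W.subtype) := by
  rw [evW, coe_eval₂RingHom, aeval_def, eval₂_map]

theorem evW_injective (ht : Transcendental K t) : Function.Injective (evW W t) := by
  intro a b h
  rw [evW_eq_aeval, evW_eq_aeval] at h
  exact Polynomial.map_injective _ Subtype.val_injective (transcendental_iff_injective.mp ht h)

theorem mem_chart {x : F} : x ∈ chart W t ↔ (evW W t).IsIntegralElem x := Iff.rfl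

theorem evW_mem_chart (p : W[X]) : evW W t p ∈ chart W t :=
  mem_chart.mpr ((evW W t).isIntegralElem_map)

theorem algebraMap_mem_chart (w : W) : algebraMap K F w ∈ chart W t := by
  simpa [evW_C] using evW_mem_chart (t := t) (C w)

theorem par_mem_chart : t ∈ chart W t := by
  simpa [evW_X] using evW_mem_chart (W := W) (t := t) X

theorem natCast_mem_chart (n : ℕ) : (n : F) ∈ chart W t := natCast_mem _ n

theorem mem_of_root_evW {S : Subring F} {x : F} (hx : x ∈ chart W t)
    (hS : ∀ p : W[X], evW W t p ∈ S) (hint : ∀ y : F, IsIntegral S y → y ∈ S) : x ∈ S := by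
  obtain ⟨P, hP, hroot⟩ := mem_chart.mp hx
  refine hint x ⟨P.map ((evW W t).codRestrict S hS), hP.map _, ?_⟩
  rw [eval₂_map]
  exact hroot

theorem mem_valuationSubring_of_mem_chart {V : ValuationSubring F} {x : F} (hx : x ∈ chart W t)
    (hV : ∀ p : W[X], evW W t p ∈ V) : x ∈ V :=
  mem_of_root_evW (S := V.toSubring) hx hV fun y hy => by
    obtain ⟨z, rfl⟩ := (IsIntegrallyClosedIn.isIntegral_iff (R := V) (A := F)).mp hy
    exact z.2

theorem rootClosed_chart : RootClosed (chart W t) := fun x _ hm hx => by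
  let : Algebra W[X] F := (evW W t).toAlgebra
  exact IsIntegral.of_pow (R := W[X]) hm hx

/-- The automorphisms fixing `t`. -/
def fixPar (K : Type*) {F : Type*} [Field K] [Field F] [Algebra K F] (t : F) :
    Subgroup (F ≃ₐ[K] F) :=
  MulAction.stabilizer (F ≃ₐ[K] F) t

theorem mem_fixPar {σ : F ≃ₐ[K] F} : σ ∈ fixPar K t ↔ σ t = t := Iff.rfl

theorem apply_eq_of_mem_adjoin {σ : F ≃ₐ[K] F} (hσ : σ ∈ fixPar K t) {x : F} (hx : x ∈ K⟮t⟯) :
    σ x = x := by
  obtain ⟨r, s, rfl⟩ := (mem_adjoin_simple_iff K x).mp hx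
  rw [map_div₀, ← aeval_algHom_apply, ← aeval_algHom_apply, mem_fixPar.mp hσ]

/-- Automorphisms fixing `t` are the Galois group over `K(t)`. -/
noncomputable def fixParEquiv (t : F) : fixPar K t ≃* (F ≃ₐ[K⟮t⟯] F) where
  toFun σ := AlgEquiv.ofRingEquiv (f := (σ.1 : F ≃+* F)) fun x => apply_eq_of_mem_adjoin σ.2 x.2
  invFun σ := ⟨σ.restrictScalars K, σ.commutes ⟨t, mem_adjoin_simple_self K t⟩⟩
  left_inv σ := by ext; rfl
  right_inv σ := by ext; rfl
  map_mul' σ τ := by ext; rfl

namespace Cover

variable (hc : Cover K t)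

include hc in
theorem finite_fixPar : Finite (fixPar K t) :=
  have := hc.finite
  Finite.of_equiv _ (fixParEquiv t).symm.toEquiv

include hc in
theorem mem_adjoin_of_fixed {x : F} (h : ∀ σ ∈ fixPar K t, σ x = x) : x ∈ K⟮t⟯ := by
  have := hc.finite
  have := hc.galois
  have hx : x ∈ (⊥ : IntermediateField K⟮t⟯ F) := by
    rw [IsGalois.mem_bot_iff_fixed]
    intro σ
    exact h _ ((fixParEquiv t).symm σ).2
  obtain ⟨y, rfl⟩ := IntermediateField.mem_bot.mp hx
  exact y.2

include hc in
theorem inv : Cover K t⁻¹ := by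
  have h : K⟮t⁻¹⟯ = K⟮t⟯ := by
    refine le_antisymm (adjoin_simple_le_iff.mpr (inv_mem (mem_adjoin_simple_self K t)))
      (adjoin_simple_le_iff.mpr ?_)
    simpa using inv_mem (mem_adjoin_simple_self K t⁻¹)
  refine ⟨fun halg => hc.transcendental ?_, h ▸ hc.finite, h ▸ hc.galois⟩
  simpa using halg.inv

include hc in
/-- The characteristic polynomial of `x` over `K(t)`. -/
theorem exists_monic (x : F) (S : Subring F) (hS : ∀ σ ∈ fixPar K t, σ x ∈ S) :
    ∃ P : F[X], P.Monic ∧ P.eval x = 0 ∧ ∀ i, P.coeff i ∈ S ∧ P.coeff i ∈ K⟮t⟯ := by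
  classical
  have := hc.finite_fixPar
  cases nonempty_fintype (fixPar K t)
  set P := ∏ σ : fixPar K t, (X - C (σ.1 x)) with hP
  refine ⟨P, monic_prod_of_monic _ _ fun σ _ => monic_X_sub_C _, ?_, fun i => ⟨?_, ?_⟩⟩
  · rw [hP, eval_prod]
    exact Finset.prod_eq_zero (Finset.mem_univ 1) (by simp)
  · have : P ∈ lifts S.subtype := by
      refine Subsemiring.prod_mem _ fun σ _ => ?_
      exact ⟨X - C ⟨σ.1 x, hS _ σ.2⟩, by simp⟩
    obtain ⟨Q, hQ⟩ := this
    rw [← hQ, coe_mapRingHom, coeff_map]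
    exact (Q.coeff i).2
  · refine hc.mem_adjoin_of_fixed fun τ hτ => ?_
    have : P.map (τ : F →+* F) = P := by
      rw [hP, Polynomial.map_prod]
      refine Fintype.prod_equiv (Equiv.mulLeft (⟨τ, hτ⟩ : fixPar K t)) _ _ fun σ => ?_
      simp
    conv_rhs => rw [← this, coeff_map]
    rfl

end Cover

theorem mem_aeval_of_isIntegral (ht : Transcendental K t) {x : F} (hx : x ∈ K⟮t⟯)
    (hint : ∀ V : ValuationSubring F, (∀ p : K[X], aeval t p ∈ V) → x ∈ V) :
    ∃ p : K[X], aeval t p = x := by
  let : Algebra K[X] F := (aeval (R := K) t).toRingHom.toAlgebra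
  have hinj : Function.Injective (algebraMap K[X] F) := transcendental_iff_injective.mp ht
  have hxint : IsIntegral K[X] x := by
    have h : x ∈ (⨅ V : {V : ValuationSubring F //
        Set.range (algebraMap K[X] F) ⊆ V.toSubring}, V.1.toSubring) :=
      Subring.mem_iInf.mpr fun V => hint V.1 fun p => V.2 ⟨p, rfl⟩
    rw [iInf_valuationSubring_superset] at h
    obtain ⟨Q, hQ, hQ0⟩ := h
    have hlift : ∀ y : Subring.closure (Set.range (algebraMap K[X] F)),
        (y : F) ∈ (algebraMap K[X] F).range :=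
      fun y => (Subring.closure_le.mpr (fun z hz => hz)) y.2
    have hQl : Q.map (Subring.subtype _) ∈ lifts (algebraMap K[X] F) := by
      rw [lifts_iff_coeff_lifts]
      intro n
      rw [coeff_map]
      exact hlift (Q.coeff n)
    obtain ⟨Q', hQ', -, hQm⟩ := lifts_and_natDegree_eq_and_monic hQl (hQ.map _)
    refine ⟨Q', hQm, ?_⟩
    rw [eval₂_eq_eval_map, hQ', eval_map]
    exact hQ0
  obtain ⟨r, s, rfl⟩ := (mem_adjoin_simple_iff K x).mp hx
  rcases eq_or_ne s 0 with rfl | hs
  · exact ⟨0, by simp⟩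
  let ψ : RatFunc K →+* F := IsFractionRing.lift hinj
  have hψ : ∀ p : K[X], ψ (algebraMap K[X] (RatFunc K) p) = aeval t p :=
    fun p => IsFractionRing.lift_algebraMap hinj p
  let ψ' : RatFunc K →ₐ[K[X]] F := { ψ with commutes' := hψ }
  set y := algebraMap K[X] (RatFunc K) r / algebraMap K[X] (RatFunc K) s
  have hy : ψ' y = aeval t r / aeval t s := by
    change ψ y = _
    rw [map_div₀, hψ, hψ]
  rw [← hy] at hxint ⊢
  obtain ⟨p, hp⟩ := IsIntegrallyClosed.isIntegral_iff.mp
    ((isIntegral_algHom_iff ψ' ψ.injective).mp hxint)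
  exact ⟨p, by rw [← hp]; exact (hψ p).symm⟩

section Criterion

variable (hb : BaseData W q) (hc : Cover K t)

namespace IsVert

theorem comap {V : ValuationSubring F} (hV : IsVert W q t V) {σ : F ≃ₐ[K] F}
    (hσ : σ ∈ fixPar K t) : IsVert W q t (V.comap (σ : F →+* F)) := by
  have he : ∀ p : W[X], σ (evW W t p) = evW W t p := fun p => by
    rw [evW_eq_aeval, ← aeval_algHom_apply, mem_fixPar.mp hσ]
  refine ⟨fun p => ?_, ?_, fun p hp => ?_⟩
  · show σ (evW W t p) ∈ V
    rw [he]; exact hV.evW_mem p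
  · rw [ValuationSubring.mem_nonunits_iff_or]
    refine ((ValuationSubring.mem_nonunits_iff_or V).mp hV.q_mem).imp id fun h hm => h ?_
    simpa using (show σ ((q : F)⁻¹) ∈ V from hm)
  · show σ ((evW W t p)⁻¹) ∈ V
    rw [map_inv₀, he]; exact hV.unit p hp

end IsVert

include hb in
theorem exists_primitive (p : K[X]) (hp : p ≠ 0) :
    ∃ (j : ℤ) (p₀ : W[X]), p₀.map (IsLocalRing.residue W) ≠ 0 ∧
      p = C ((q : K) ^ j) * p₀.map W.subtype := by
  have := hb.dvr
  have := hb.charZero
  have hirr : Irreducible (q : W) :=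
    (IsDiscreteValuationRing.irreducible_iff_uniformizer _).mpr hb.uniformizer
  have hq : (q : K) ≠ 0 := Nat.cast_ne_zero.mpr hb.prime.ne_zero
  classical
  -- each nonzero coefficient is a power of `q` times a unit
  have hord : ∀ c : K, c ≠ 0 → ∃ (j : ℤ) (u : Wˣ), c = (q : K) ^ j * (u : W) := by
    intro c hc
    obtain ⟨a, b, hb0, rfl⟩ := IsFractionRing.div_surjective (A := W) c
    have ha : a ≠ 0 := fun h => hc (by simp [h])
    have hb1 : b ≠ 0 := nonZeroDivisors.ne_zero hb0
    obtain ⟨i, u, rfl⟩ := IsDiscreteValuationRing.eq_unit_mul_pow_irreducible ha hirr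
    obtain ⟨i', u', rfl⟩ := IsDiscreteValuationRing.eq_unit_mul_pow_irreducible hb1 hirr
    refine ⟨(i : ℤ) - i', u * u'⁻¹, ?_⟩
    have hinv : (((u'⁻¹ : Wˣ) : W) : K) * ((u' : W) : K) = 1 := by
      rw [← MulMemClass.coe_mul, Units.inv_mul]; rfl
    have hu' : ((u' : W) : K) ≠ 0 := fun h => one_ne_zero (by rw [← hinv, h, mul_zero])
    rw [eq_comm, eq_div_iff (by simp [hu', hq, map_mul, map_pow])]
    simp only [zpow_sub₀ hq, zpow_natCast, map_mul, map_pow, map_natCast, Units.val_mul,
      MulMemClass.coe_mul]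
    show (q : K) ^ i / (q : K) ^ i' * (((u : W) : K) * ((u'⁻¹ : Wˣ) : W)) *
      (((u' : W) : K) * (q : K) ^ i') = ((u : W) : K) * (q : K) ^ i
    field_simp
    linear_combination hinv
  choose! ord un hun using hord
  obtain ⟨i₀, hi₀, hmin⟩ := p.support.exists_min_image (fun i => ord (p.coeff i))
    (support_nonempty.mpr hp)
  set j := ord (p.coeff i₀)
  have hmem : ∀ i, (q : K) ^ (-j) * p.coeff i ∈ W := by
    intro i
    rcases eq_or_ne (p.coeff i) 0 with h | h
    · rw [h, mul_zero]; exact W.zero_mem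
    · obtain ⟨n, hn⟩ := Int.eq_ofNat_of_zero_le
        (sub_nonneg.mpr (hmin i (mem_support_iff.mpr h)))
      rw [hun _ h, ← mul_assoc, ← zpow_add₀ hq, show -j + ord (p.coeff i) = (n : ℤ) by omega,
        zpow_natCast]
      exact W.mul_mem _ _ (pow_mem (natCast_mem W q) n) (un (p.coeff i) : W).2
  have hl : C ((q : K) ^ (-j)) * p ∈ lifts W.subtype := by
    rw [lifts_iff_coeff_lifts]
    intro i
    rw [coeff_C_mul]
    exact ⟨⟨_, hmem i⟩, rfl⟩
  obtain ⟨p₀, hp₀⟩ := hl
  rw [coe_mapRingHom] at hp₀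
  refine ⟨j, p₀, fun h0 => ?_, ?_⟩
  · have hc0 := congrArg (coeff · i₀) h0
    simp only [coeff_map, coeff_zero, IsLocalRing.residue_eq_zero_iff] at hc0
    have e : p₀.coeff i₀ = (un (p.coeff i₀) : W) := Subtype.ext (by
      have := congrArg (coeff · i₀) hp₀
      simp only [coeff_map, coeff_C_mul] at this
      refine this.trans ?_
      conv_lhs => rw [hun _ (mem_support_iff.mp hi₀)]
      rw [← mul_assoc, ← zpow_add₀ hq, neg_add_cancel, zpow_zero, one_mul])
    exact (IsLocalRing.mem_maximalIdeal _).mp (e ▸ hc0) (un (p.coeff i₀)).isUnit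
  · rw [hp₀, ← mul_assoc, ← map_mul, ← zpow_add₀ hq, add_neg_cancel, zpow_zero, map_one, one_mul]

include hb in
theorem mem_evW_of_vert (ht : Transcendental K t) {x : F} (hpoly : ∃ p : K[X], aeval t p = x)
    {V : ValuationSubring F} (hV : IsVert W q t V) (hx : x ∈ V) : ∃ p : W[X], evW W t p = x := by
  obtain ⟨p, rfl⟩ := hpoly
  rcases eq_or_ne p 0 with rfl | hp
  · exact ⟨0, by simp⟩
  obtain ⟨j, p₀, hp₀, rfl⟩ := exists_primitive hb p hp
  rcases le_or_gt 0 j with hj | hj
  · obtain ⟨n, rfl⟩ := Int.eq_ofNat_of_zero_le hj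
    refine ⟨C ((q : W) ^ n) * p₀, ?_⟩
    rw [evW_eq_aeval, Polynomial.map_mul, Polynomial.map_C, map_pow, map_natCast, zpow_natCast]
  · exfalso
    obtain ⟨n, hn⟩ : ∃ n : ℕ, j = -((n + 1 : ℕ) : ℤ) := ⟨(-j).toNat - 1, by omega⟩
    have hu := hV.unit p₀ hp₀
    have hne : evW W t p₀ ≠ 0 := (map_ne_zero_iff _ (evW_injective ht)).mpr fun h =>
      hp₀ (by simp [h])
    have h2 := V.mul_mem _ _ hx hu
    rw [hn, evW_eq_aeval, map_mul, aeval_C, mul_assoc, mul_inv_cancel₀ (by rwa [← evW_eq_aeval]),
      mul_one, zpow_neg, zpow_natCast, map_inv₀, map_pow, map_natCast, pow_succ', mul_inv] at h2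
    have h3 : ((q : F))⁻¹ ∈ V := by
      have := V.mul_mem _ _ h2 (pow_mem (natCast_mem V q) n)
      rwa [inv_mul_cancel_right₀ (pow_ne_zero n ?_)] at this
      rw [← map_natCast (algebraMap K F), Ne, map_eq_zero_iff _ (algebraMap K F).injective]
      have := hb.charZero
      exact_mod_cast hb.prime.ne_zero
    rcases (ValuationSubring.mem_nonunits_iff_or V).mp hV.q_mem with hq0 | hq1
    · have := hb.charZero
      rw [← map_natCast (algebraMap K F), map_eq_zero_iff _ (algebraMap K F).injective,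
        Nat.cast_eq_zero] at hq0
      exact hb.prime.ne_zero hq0
    · exact hq1 h3

include hb hc in
/-- **Criterion**: integral over `K[t]` and in every vertical ring implies in the chart. -/
theorem mem_chart_of_forall {x : F} (hV₀ : ∃ V, IsVert W q t V)
    (hgen : ∀ V : ValuationSubring F, (∀ p : K[X], aeval t p ∈ V) → x ∈ V)
    (hvert : ∀ V, IsVert W q t V → x ∈ V) : x ∈ chart W t := by
  obtain ⟨P, hPm, hPx, hP⟩ := hc.exists_monic x
    ((⨅ V : {V : ValuationSubring F // (∀ p : K[X], aeval t p ∈ V)}, V.1.toSubring) ⊓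
      ⨅ V : {V : ValuationSubring F // IsVert W q t V}, V.1.toSubring) fun σ hσ => by
    refine Subring.mem_inf.mpr ⟨Subring.mem_iInf.mpr fun V => ?_, Subring.mem_iInf.mpr fun V => ?_⟩
    · exact hgen (V.1.comap (σ : F →+* F)) fun p => by
        show σ (aeval t p) ∈ V.1
        rw [← aeval_algHom_apply, mem_fixPar.mp hσ]; exact V.2 p
    · exact hvert _ (V.2.comap hσ)
  have hc' : ∀ i, ∃ p : W[X], evW W t p = P.coeff i := fun i => by
    obtain ⟨h1, h2⟩ := Subring.mem_inf.mp (hP i).1
    obtain ⟨V, hV⟩ := hV₀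
    exact mem_evW_of_vert hb hc.transcendental
      (mem_aeval_of_isIntegral hc.transcendental (hP i).2 fun V hV =>
      Subring.mem_iInf.mp h1 ⟨V, hV⟩) hV (Subring.mem_iInf.mp h2 ⟨V, hV⟩)
  have hl : P ∈ lifts (evW W t) := by
    rw [lifts_iff_coeff_lifts]; exact fun i => hc' i
  obtain ⟨P', hP', -, hP'm⟩ := lifts_and_natDegree_eq_and_monic hl hPm
  exact mem_chart.mpr ⟨P', hP'm, by
    show eval₂ (evW W t) x P' = 0
    rw [eval₂_eq_eval_map, hP']; exact hPx⟩

end Criterion

end Fermat.Agent.Carayol
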