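import Fermat.Agent.Carayol.Descent.Algebraic
import Fermat.Agent.Carayol.Model

/-!
# Consequences of a level structure

Consequences of a level structure: all torsion points, the Galois cover of the parameter line,
and the `q`- and `r`-parts of the level structure.

Main result: `cover`.
-/

set_option autoImplicit false

open Polynomial IntermediateField
open scoped IntermediateField

namespace Fermat.Agent.Carayol

variable {K F : Type*} [Field K] [CharZero K] [Field F] [DecidableEq F] [Algebra K F]
  {fam : WeierstrassCurve ℤ[X]} {q r : ℕ} [NeZero (q * r)] (L : LevelData K F fam q r)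

namespace LevelData

omit [CharZero K] [NeZero (q * r)] in
theorem nsmul_basis (v : ZMod (q * r) × ZMod (q * r)) : (q * r) • L.basis v = 0 := by
  rw [← map_nsmul, ← Nat.cast_smul_eq_nsmul (ZMod (q * r)), ZMod.natCast_self, zero_smul, map_zero]

/-- Every torsion point over an extension comes from the level structure. -/
theorem exists_basis_eq_of_nsmul (hΔ : fam.Δ ≠ 0) {Ω : Type*} [Field Ω] [DecidableEq Ω]
    [IsAlgClosed Ω] (φ : F →+* Ω) (P : (L.curve.map φ).toAffine.Point)
    (hP : (q * r) • P = 0) : ∃ v, pointMap φ L.curve (L.basis v) = P := by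
  have hE := isElliptic_curve L hΔ
  have : CharZero F := charZero_of_injective_algebraMap (algebraMap K F).injective
  have : CharZero Ω := charZero_of_injective_ringHom φ.injective
  have : (L.curve.map φ).toAffine.IsElliptic := by
    have : L.curve.IsElliptic := hE
    exact inferInstanceAs (L.curve.map φ).IsElliptic
  have hN : ((q * r : ℕ) : Ω) ≠ 0 := Nat.cast_ne_zero.mpr (NeZero.ne _)
  let f : ZMod (q * r) × ZMod (q * r) →
      {Q : (L.curve.map φ).toAffine.Point // (q * r) • Q = 0} := fun v =>
    ⟨pointMap φ L.curve (L.basis v), by rw [← map_nsmul, L.nsmul_basis, map_zero]⟩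
  have hcard := EC.Torsion.natCard_setOf_nsmul_eq_zero (W := (L.curve.map φ).toAffine) hN
  have hinj : Function.Injective f := fun v w h =>
    L.injective_basis (pointMap_injective φ L.curve (congrArg Subtype.val h))
  have : Finite {Q : (L.curve.map φ).toAffine.Point // (q * r) • Q = 0} :=
    Nat.finite_of_card_ne_zero (by rw [hcard]; exact pow_ne_zero _ (NeZero.ne _))
  have hsurj : Function.Surjective f := by
    refine ((Nat.bijective_iff_injective_and_card f).mpr ⟨hinj, ?_⟩).2
    rw [hcard, Nat.card_prod, Nat.card_zmod, pow_two]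
  obtain ⟨v, hv⟩ := hsurj ⟨P, hP⟩
  exact ⟨v, congrArg Subtype.val hv⟩

/-- Every torsion point comes from the level structure. -/
theorem exists_basis_eq (hΔ : fam.Δ ≠ 0) (P : L.curve.toAffine.Point) (hP : (q * r) • P = 0) :
    ∃ v, L.basis v = P := by
  classical
  obtain ⟨v, hv⟩ := L.exists_basis_eq_of_nsmul hΔ (algebraMap F (AlgebraicClosure F))
    (pointMap _ L.curve P) (by rw [← map_nsmul, hP, map_zero])
  exact ⟨v, pointMap_injective _ _ hv⟩

theorem normal_adjoin_par (hΔ : fam.Δ ≠ 0) : Normal K⟮L.par⟯ F := by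
  classical
  have := finiteDimensional_adjoin_par L hΔ
  let Ω := AlgebraicClosure F
  have : Algebra.IsAlgebraic K⟮L.par⟯ Ω := Algebra.IsAlgebraic.trans K⟮L.par⟯ F Ω
  have : IsAlgClosure K⟮L.par⟯ Ω := ⟨inferInstance, inferInstance⟩
  let j : F →ₐ[K⟮L.par⟯] Ω := IsScalarTower.toAlgHom _ F Ω
  suffices h : Normal K⟮L.par⟯ j.fieldRange by
    exact Normal.of_algEquiv (h := h) (AlgEquiv.ofInjectiveField j).symm
  rw [IntermediateField.normal_iff_forall_map_le']
  intro σ
  have htop : IntermediateField.adjoin K⟮L.par⟯ (⋃ v, pointCoords (L.basis v)) = ⊤ := by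
    refine IntermediateField.restrictScalars_injective K ?_
    rw [IntermediateField.restrictScalars_top, IntermediateField.adjoin_adjoin_left,
      ← L.adjoin_eq_top, Set.singleton_union]
  rw [AlgHom.fieldRange_eq_map, ← htop, IntermediateField.adjoin_map,
    IntermediateField.adjoin_map, IntermediateField.adjoin_le_iff]
  rintro _ ⟨_, ⟨z, hz, rfl⟩, rfl⟩
  obtain ⟨v, hv⟩ := Set.mem_iUnion.mp hz
  let ψ : F →+* Ω := (σ.toAlgHom.comp j).toRingHom
  have hψ : L.curve.map ψ = L.curve.map (j : F →+* Ω) := by
    rw [curve, WeierstrassCurve.map_map, WeierstrassCurve.map_map]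
    congr 1
    refine Polynomial.ringHom_ext (fun n => by simp) ?_
    simp only [RingHom.comp_apply, coe_eval₂RingHom, eval₂_X]
    show σ (j L.par) = j L.par
    rw [show j L.par = algebraMap K⟮L.par⟯ Ω ⟨L.par, mem_adjoin_simple_self K L.par⟩ from rfl,
      AlgEquiv.commutes]
  let P : (L.curve.map (j : F →+* Ω)).toAffine.Point :=
    pointCast hψ (pointMap ψ L.curve (L.basis v))
  obtain ⟨u, hu⟩ := L.exists_basis_eq_of_nsmul hΔ (j : F →+* Ω) P (by
    simp only [P]
    rw [← map_nsmul, ← map_nsmul, L.nsmul_basis, map_zero, map_zero])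
  rcases hb : L.basis v with _ | ⟨x, y, hn⟩
  · rw [hb] at hv; exact hv.elim
  rw [hb] at hv
  simp only [P, hb, pointMap_some, pointCast_some] at hu
  rcases hb' : L.basis u with _ | ⟨x', y', hn'⟩
  · rw [hb', ← WeierstrassCurve.Affine.Point.zero_def, map_zero] at hu
    exact absurd hu.symm (WeierstrassCurve.Affine.Point.some_ne_zero _)
  rw [hb', pointMap_some, WeierstrassCurve.Affine.Point.some.injEq] at hu
  have hmem : ∀ z' ∈ pointCoords (L.basis u), (j z' : Ω) ∈
      IntermediateField.adjoin K⟮L.par⟯ (j '' ⋃ v, pointCoords (L.basis v)) := fun z' hz' =>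
    subset_adjoin _ _ ⟨z', Set.mem_iUnion.mpr ⟨u, hz'⟩, rfl⟩
  rw [hb'] at hmem
  rcases hv with rfl | rfl
  · show σ (j z) ∈ _
    rw [show σ (j z) = j x' from hu.1.symm]
    exact hmem _ (Or.inl rfl)
  · show σ (j z) ∈ _
    rw [show σ (j z) = j y' from hu.2.symm]
    exact hmem _ (Or.inr rfl)

/-- The parameter makes `F` a finite Galois cover of the line. -/
theorem cover (hΔ : fam.Δ ≠ 0) : Cover K L.par := by
  have : CharZero F := charZero_of_injective_algebraMap (algebraMap K F).injective
  have := finiteDimensional_adjoin_par L hΔ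
  have := L.normal_adjoin_par hΔ
  exact ⟨L.transcendental, inferInstance, ⟨⟩⟩

end LevelData

end Fermat.Agent.Carayol
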