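import Fermat.Agent.Carayol.VertMain
import Mathlib.RingTheory.Ideal.GoingUp
import Mathlib.RingTheory.Polynomial.Basic

/-!
# Closed points of the special fibre

Closed points of the special fibre of the chart, given by valuation rings centred there, their
local rings, and the vertical valuations through them.

Main results: `exists_residue_const`, `exists_point`.
-/

set_option autoImplicit false

open Polynomial IntermediateField
open scoped IntermediateField

namespace Fermat.Agent.Carayol

variable {K F : Type*} [Field K] [Field F] [Algebra K F]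
variable {W : ValuationSubring K} {q : ℕ} {t : F}

/-! ### The chart ring -/

section Chart

variable (hb : BaseData W q) (hc : Cover K t)

include hb hc in
theorem exists_chart_div (x : F) :
    ∃ a ∈ chart W t, ∃ b : W[X], evW W t b ≠ 0 ∧ x * evW W t b = a := by
  classical
  let : Algebra W[X] F := (evW W t).toAlgebra
  have hinj : Function.Injective (algebraMap W[X] F) := evW_injective hc.transcendental
  have := hc.finite
  have halg : IsAlgebraic W[X] x := by
    obtain ⟨P, hP, hPx⟩ := (Algebra.IsAlgebraic.isAlgebraic (R := K⟮t⟯) x)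
    have hsplit : ∀ i, ∃ a b : W[X], evW W t b ≠ 0 ∧
        ((P.coeff i : K⟮t⟯) : F) * evW W t b = evW W t a := by
      intro i
      rcases eq_or_ne (P.coeff i) 0 with h0 | h0
      · exact ⟨0, 1, by simp, by simp [h0]⟩
      obtain ⟨j, a, b, ha, hb', e⟩ := exists_rep hb (P.coeff i).2
        (fun h => h0 (Subtype.ext h))
      rcases le_or_gt 0 j with hj | hj
      · obtain ⟨m, rfl⟩ := Int.eq_ofNat_of_zero_le hj
        refine ⟨C ((q : W) ^ m) * a, b, evW_ne_zero hc.transcendental hb', ?_⟩
        rw [e, map_mul, evW_C]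
        have := evW_ne_zero hc.transcendental hb'
        simp only [zpow_natCast, SubmonoidClass.coe_pow, map_pow]
        push_cast
        field_simp
      · obtain ⟨m, rfl⟩ : ∃ m : ℕ, j = -(m : ℤ) := ⟨(-j).toNat, by omega⟩
        refine ⟨a, C ((q : W) ^ m) * b, ?_, ?_⟩
        · rw [map_mul, evW_C]
          refine mul_ne_zero ?_ (evW_ne_zero hc.transcendental hb')
          simp only [SubmonoidClass.coe_pow, map_pow]
          push_cast
          exact pow_ne_zero _ (q_ne_zero hb)
        · rw [e, map_mul, evW_C]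
          have := evW_ne_zero hc.transcendental hb'
          have := q_ne_zero (F := F) hb
          simp only [zpow_neg, zpow_natCast, SubmonoidClass.coe_pow, map_pow]
          push_cast
          field_simp
    choose a b hb0 hab using hsplit
    -- clear the denominators
    set D := ∏ i ∈ P.support, b i
    have hD : evW W t D ≠ 0 := by
      rw [map_prod]; exact Finset.prod_ne_zero_iff.mpr fun i _ => hb0 i
    let Q : W[X][X] := ∑ i ∈ P.support, C (a i * ∏ k ∈ P.support.erase i, b k) * X ^ i
    have hQm : Q.map (evW W t) = C (evW W t D) * P.map (algebraMap K⟮t⟯ F) := by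
      ext i
      simp only [Q, Polynomial.map_sum, Polynomial.map_mul, Polynomial.map_C, Polynomial.map_pow,
        Polynomial.map_X, finsetSum_coeff, coeff_C_mul, coeff_X_pow, mul_ite, mul_one, mul_zero,
        Finset.sum_ite_eq, coeff_map]
      split_ifs with hi
      · have hDi : evW W t D = evW W t (b i) * evW W t (∏ k ∈ P.support.erase i, b k) := by
          rw [← map_mul, Finset.mul_prod_erase _ _ hi]
        rw [map_mul, ← hab i, hDi]
        simp only [IntermediateField.algebraMap_apply]
        ring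
      · rw [notMem_support_iff.mp hi]; simp
    refine ⟨Q, fun h0 => ?_, ?_⟩
    · rw [h0, Polynomial.map_zero, eq_comm, mul_eq_zero, C_eq_zero] at hQm
      exact hQm.elim hD ((Polynomial.map_ne_zero_iff (algebraMap K⟮t⟯ F).injective).mpr hP)
    · rw [aeval_def, eval₂_eq_eval_map, show algebraMap W[X] F = evW W t from rfl, hQm, eval_mul,
        eval_map, ← aeval_def, hPx, mul_zero]
  obtain ⟨y, hy, hy'⟩ := halg.exists_integral_multiple
  refine ⟨_, hy', y, fun h => hy (hinj (h.trans (map_zero _).symm)), ?_⟩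
  rw [Algebra.smul_def, mul_comm]
  rfl

include hb hc in
theorem isNoetherianRing_chart : IsNoetherianRing (chart W t) := by
  have := hb.dvr
  have := hc.finite
  have := hc.galois
  let : Algebra W[X] F := (evW W t).toAlgebra
  let g : W[X] →+* K⟮t⟯ := (evW W t).codRestrict K⟮t⟯.toSubfield.toSubring evW_mem_adjoin
  let : Algebra W[X] K⟮t⟯ := g.toAlgebra
  have : IsScalarTower W[X] K⟮t⟯ F := IsScalarTower.of_algebraMap_eq' rfl
  have hginj : Function.Injective g := fun a b h => evW_injective hc.transcendental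
    (congrArg Subtype.val h)
  have : FaithfulSMul W[X] K⟮t⟯ := (faithfulSMul_iff_algebraMap_injective _ _).mpr hginj
  have : IsFractionRing W[X] K⟮t⟯ := by
    refine IsFractionRing.of_field _ _ fun z => ?_
    rcases eq_or_ne z 0 with rfl | hz
    · exact ⟨0, 1, by simp⟩
    obtain ⟨j, a, b, ha, hb', e⟩ := exists_rep hb z.2 (fun h => hz (Subtype.ext h))
    have hq := q_ne_zero (F := F) hb
    have hb0 := evW_ne_zero hc.transcendental hb'
    have hC : ∀ m : ℕ, evW W t (C ((q : W) ^ m)) = (q : F) ^ m := fun m => by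
      rw [evW_C]; push_cast; simp
    rcases le_or_gt 0 j with hj | hj
    · obtain ⟨m, rfl⟩ := Int.eq_ofNat_of_zero_le hj
      refine ⟨C ((q : W) ^ m) * a, b, Subtype.ext ?_⟩
      show (z : F) = evW W t _ / evW W t b
      rw [e, map_mul, hC, zpow_natCast, mul_div_assoc]
    · obtain ⟨m, rfl⟩ : ∃ m : ℕ, j = -(m : ℤ) := ⟨(-j).toNat, by omega⟩
      refine ⟨a, C ((q : W) ^ m) * b, Subtype.ext ?_⟩
      show (z : F) = evW W t a / evW W t _
      rw [e, map_mul, hC, zpow_neg, zpow_natCast]
      field_simp
  exact IsIntegralClosure.isNoetherianRing W[X] K⟮t⟯ F (integralClosure W[X] F)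

end Chart

/-! ### Points -/

/-- A valuation ring centred at a closed point of the special fibre of the chart. -/
structure IsPoint (W : ValuationSubring K) (q : ℕ) (t : F) (M : ValuationSubring F) : Prop where
  evW_mem : ∀ p : W[X], evW W t p ∈ M
  q_mem : (q : F) ∈ M.nonunits
  exists_par : ∃ w : W, t - algebraMap K F w ∈ M.nonunits

/-- The local ring of a subring at the centre of `M`. -/
def locAt (C : Subring F) (M : ValuationSubring F) : Subring F where
  carrier := {x | ∃ a ∈ C, ∃ b ∈ C, b ∉ M.nonunits ∧ x * b = a}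
  mul_mem' := by
    rintro x y ⟨a, ha, b, hb, hbn, hx⟩ ⟨a', ha', b', hb', hbn', hy⟩
    refine ⟨a * a', mul_mem ha ha', b * b', mul_mem hb hb', fun h => ?_, by rw [← hx, ← hy]; ring⟩
    rw [ValuationSubring.mem_nonunits_iff, map_mul] at h
    simp only [ValuationSubring.mem_nonunits_iff, not_lt] at hbn hbn'
    exact absurd h (not_lt.mpr (le_mul_of_one_le_of_le hbn hbn'))
  one_mem' := ⟨1, one_mem _, 1, one_mem _, fun h => by
    rw [ValuationSubring.mem_nonunits_iff, map_one] at h; exact lt_irrefl _ h, one_mul 1⟩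
  add_mem' := by
    rintro x y ⟨a, ha, b, hb, hbn, hx⟩ ⟨a', ha', b', hb', hbn', hy⟩
    refine ⟨a * b' + b * a', add_mem (mul_mem ha hb') (mul_mem hb ha'), b * b', mul_mem hb hb',
      fun h => ?_, by rw [← hx, ← hy]; ring⟩
    rw [ValuationSubring.mem_nonunits_iff, map_mul] at h
    simp only [ValuationSubring.mem_nonunits_iff, not_lt] at hbn hbn'
    exact absurd h (not_lt.mpr (le_mul_of_one_le_of_le hbn hbn'))
  zero_mem' := ⟨0, zero_mem _, 1, one_mem _, fun h => by
    rw [ValuationSubring.mem_nonunits_iff, map_one] at h; exact lt_irrefl _ h, zero_mul 1⟩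
  neg_mem' := by
    rintro x ⟨a, ha, b, hb, hbn, hx⟩
    exact ⟨-a, neg_mem ha, b, hb, hbn, by rw [← hx]; ring⟩

/-- The local ring of the chart at the centre of `M`. -/
noncomputable def locRing (W : ValuationSubring K) (t : F) (M : ValuationSubring F) : Subring F :=
  locAt (chart W t) M

variable {M : ValuationSubring F}

theorem chart_le_locRing : chart W t ≤ locRing W t M := fun x hx =>
  ⟨x, hx, 1, one_mem _, fun h => by
    rw [ValuationSubring.mem_nonunits_iff, map_one] at h; exact lt_irrefl _ h, mul_one x⟩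

theorem inv_mem_of_notMem_nonunits' {V : ValuationSubring F} {b : F} (hb : b ∉ V.nonunits) :
    b⁻¹ ∈ V := by
  by_contra h
  exact hb ((ValuationSubring.mem_nonunits_iff_or V).mpr (Or.inr h))

theorem ne_zero_of_notMem_nonunits {V : ValuationSubring F} {b : F} (hb : b ∉ V.nonunits) :
    b ≠ 0 := fun h => hb ((ValuationSubring.mem_nonunits_iff_or V).mpr (Or.inl h))

theorem eq_mul_inv_of_mul_eq {V : ValuationSubring F} {x a b : F} (hb : b ∉ V.nonunits)
    (h : x * b = a) : x = a * b⁻¹ := by
  rw [← h, mul_inv_cancel_right₀ (ne_zero_of_notMem_nonunits hb)]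

theorem locRing_le (hM : ∀ p : W[X], evW W t p ∈ M) : locRing W t M ≤ M.toSubring := by
  rintro x ⟨a, ha, b, hb, hbn, hx⟩
  rw [eq_mul_inv_of_mul_eq hbn hx]
  exact M.mul_mem _ _ (mem_valuationSubring_of_mem_chart ha hM) (inv_mem_of_notMem_nonunits' hbn)

theorem nonunits_mul_left {V : ValuationSubring F} {x y : F} (hx : x ∈ V)
    (hy : y ∈ V.nonunits) : x * y ∈ V.nonunits := by
  rw [ValuationSubring.mem_nonunits_iff, map_mul]
  exact lt_of_le_of_lt (mul_le_of_le_one_left' ((V.valuation_le_one_iff x).mpr hx)) hy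

theorem nonunits_mul_right {V : ValuationSubring F} {x y : F} (hy : y ∈ V)
    (hx : x ∈ V.nonunits) : x * y ∈ V.nonunits := mul_comm x y ▸ nonunits_mul_left hy hx

theorem mul_notMem_nonunits {V : ValuationSubring F} {x y : F} (hx : x ∉ V.nonunits)
    (hy : y ∉ V.nonunits) : x * y ∉ V.nonunits := by
  rw [ValuationSubring.mem_nonunits_iff, map_mul, not_lt]
  exact le_mul_of_one_le_of_le (le_of_not_gt hx) (le_of_not_gt hy)

theorem inv_mem_locRing (_hM : ∀ p : W[X], evW W t p ∈ M) {x : F} (hx : x ∈ locRing W t M)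
    (hn : x ∉ M.nonunits) : x⁻¹ ∈ locRing W t M := by
  obtain ⟨a, ha, b, hb, hbn, hxa⟩ := hx
  refine ⟨b, hb, a, ha, hxa ▸ mul_notMem_nonunits hn hbn, ?_⟩
  rw [← hxa, ← mul_assoc, inv_mul_cancel₀ (ne_zero_of_notMem_nonunits hn), one_mul]

/-- Vertical valuations through a point. -/
def Through (W : ValuationSubring K) (t : F) (M V : ValuationSubring F) : Prop :=
  ∀ x ∈ chart W t, x ∈ V.nonunits → x ∈ M.nonunits

theorem Through.locRing_le {V : ValuationSubring F} (h : Through W t M V)
    (hV : ∀ p : W[X], evW W t p ∈ V) : locRing W t M ≤ V.toSubring := by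
  rintro x ⟨a, ha, b, hb, hbn, hx⟩
  have hbV : b ∉ V.nonunits := fun hh => hbn (h b hb hh)
  rw [eq_mul_inv_of_mul_eq hbV hx]
  exact V.mul_mem _ _ (mem_valuationSubring_of_mem_chart ha hV) (inv_mem_of_notMem_nonunits' hbV)

theorem Through.nonunits {V : ValuationSubring F} (h : Through W t M V) {x : F}
    (_hM : ∀ p : W[X], evW W t p ∈ M) (hx : x ∈ locRing W t M) (hV : x ∈ V.nonunits)
    (hVp : ∀ p : W[X], evW W t p ∈ V) : x ∈ M.nonunits := by
  obtain ⟨a, ha, b, hb, hbn, hxa⟩ := hx
  rw [eq_mul_inv_of_mul_eq hbn hxa]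
  exact nonunits_mul_right (inv_mem_of_notMem_nonunits' hbn)
    (h a ha (hxa ▸ nonunits_mul_right (mem_valuationSubring_of_mem_chart hb hVp) hV))

/-- Two generators of the maximal ideal of the local ring at `M`. -/
def Gen2 (W : ValuationSubring K) (t : F) (M : ValuationSubring F) (z w : F) : Prop :=
  z ∈ locRing W t M ∧ z ∈ M.nonunits ∧ w ∈ locRing W t M ∧ w ∈ M.nonunits ∧
    ∀ x ∈ locRing W t M, x ∈ M.nonunits →
      ∃ a ∈ locRing W t M, ∃ b ∈ locRing W t M, x = a * z + b * w

/-- A point with regular local ring and normal crossing vertical valuations through it. -/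
structure GoodPoint (W : ValuationSubring K) (q : ℕ) (t : F) (M : ValuationSubring F) : Prop where
  exists_gen : ∀ V, IsVert W q t V → Through W t M V → ∃ z w, z ∈ V.nonunits ∧ Gen2 W t M z w
  cross : ∀ V V', IsVert W q t V → Through W t M V → IsVert W q t V' → Through W t M V' →
    V ≠ V' → ∀ x ∈ locRing W t M, x ∈ M.nonunits →
      ∃ a ∈ locRing W t M, ∃ b ∈ locRing W t M,
        a ∈ V.nonunits ∧ b ∈ V'.nonunits ∧ x = a + b

section Residue

variable [IsAlgClosed (IsLocalRing.ResidueField W)]

/-- Elements of the local ring at a point are constants modulo the maximal ideal. -/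
theorem exists_residue_const (hb : BaseData W q) (hM : IsPoint W q t M) {x : F}
    (hx : x ∈ locRing W t M) : ∃ w : W, x - algebraMap K F w ∈ M.nonunits := by
  classical
  have := hb.dvr
  let φ : W →+* IsLocalRing.ResidueField M := (IsLocalRing.residue M).comp
    (((algebraMap K F).comp W.subtype).codRestrict M.toSubring fun w => by
      simpa [evW_C] using hM.evW_mem (C w))
  have hres : ∀ (y : F) (hy : y ∈ M), IsLocalRing.residue M ⟨y, hy⟩ = 0 ↔ y ∈ M.nonunits := by
    intro y hy
    rw [IsLocalRing.residue_eq_zero_iff, ValuationSubring.mem_nonunits_iff_exists_mem_maximalIdeal]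
    exact ⟨fun h => ⟨hy, h⟩, fun ⟨_, h⟩ => h⟩
  have hφq : φ (q : W) = 0 := (hres _ _).mpr (by
    show algebraMap K F ((q : W) : K) ∈ M.nonunits
    push_cast
    simpa using hM.q_mem)
  let ι : IsLocalRing.ResidueField W →+* IsLocalRing.ResidueField M :=
    Ideal.Quotient.lift (IsLocalRing.maximalIdeal W) φ fun w hw => by
      rw [hb.uniformizer, Ideal.mem_span_singleton'] at hw
      obtain ⟨c, rfl⟩ := hw
      rw [map_mul, hφq, mul_zero]
  have hι : ∀ w : W, ι (IsLocalRing.residue W w) = φ w := fun _ => Ideal.Quotient.lift_mk _ _ _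
  obtain ⟨w₀, hw₀⟩ := hM.exists_par
  let ev : W[X] →+* IsLocalRing.ResidueField M := (IsLocalRing.residue M).comp
    ((evW W t).codRestrict M.toSubring hM.evW_mem)
  have htM : t ∈ M := by simpa [evW_X] using hM.evW_mem X
  have hev : ev = ι.comp ((IsLocalRing.residue W).comp (Polynomial.evalRingHom w₀)) := by
    refine Polynomial.ringHom_ext (fun w => ?_) ?_
    · simp only [ev, RingHom.comp_apply, coe_evalRingHom, eval_C, hι]
      exact congrArg (IsLocalRing.residue M) (Subtype.ext (evW_C w))
    · simp only [ev, RingHom.comp_apply, coe_evalRingHom, eval_X, hι, φ]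
      rw [← sub_eq_zero, ← map_sub]
      refine (hres _ _).mpr ?_
      show evW W t X - algebraMap K F (w₀ : K) ∈ M.nonunits
      rwa [evW_X]
  have key : ∀ a ∈ chart W t, ∃ w : W, a - algebraMap K F w ∈ M.nonunits := by
    intro a ha
    have haM := mem_valuationSubring_of_mem_chart ha hM.evW_mem
    obtain ⟨P, hP, hPa⟩ := mem_chart.mp ha
    set r := IsLocalRing.residue M ⟨a, haM⟩
    have hroot : eval₂ ev r P = 0 := by
      have h1 : eval₂ ((evW W t).codRestrict M.toSubring hM.evW_mem) (⟨a, haM⟩ : M) P = 0 := by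
        refine Subtype.ext ?_
        rw [show ((eval₂ ((evW W t).codRestrict M.toSubring hM.evW_mem) (⟨a, haM⟩ : M) P : M) : F) =
          M.subtype (eval₂ ((evW W t).codRestrict M.toSubring hM.evW_mem) (⟨a, haM⟩ : M) P)
            from rfl,
          hom_eval₂]
        exact hPa
      exact (hom_eval₂ P _ (IsLocalRing.residue M) (⟨a, haM⟩ : M)).symm.trans
        (by rw [h1, map_zero])
    rw [hev, ← eval₂_map] at hroot
    set Q := P.map ((IsLocalRing.residue W).comp (Polynomial.evalRingHom w₀))
    have hQ0 : Q ≠ 0 := (hP.map _).ne_zero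
    obtain ⟨c, hc⟩ : r ∈ ι.range := by
      have hs := (IsAlgClosed.splits Q).eq_prod_roots_of_monic (hP.map _)
      rw [hs, eval₂_multiset_prod, Multiset.prod_eq_zero_iff, Multiset.map_map, Multiset.mem_map]
        at hroot
      obtain ⟨c, -, hc⟩ := hroot
      simp at hc
      exact ⟨c, (sub_eq_zero.mp hc).symm⟩
    obtain ⟨w, rfl⟩ := IsLocalRing.residue_surjective c
    refine ⟨w, (hres _ (sub_mem haM (by simpa [evW_C] using hM.evW_mem (C w)))).mp ?_⟩
    rw [hι] at hc
    exact (map_sub (IsLocalRing.residue M) ⟨a, haM⟩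
      ⟨algebraMap K F w, by simpa [evW_C] using hM.evW_mem (C w)⟩).trans (sub_eq_zero.mpr hc.symm)
  obtain ⟨a, ha, b, hb', hbn, hxa⟩ := hx
  obtain ⟨wa, hwa⟩ := key a ha
  obtain ⟨wb, hwb⟩ := key b hb'
  have hu : IsUnit wb := by
    by_contra hu
    rw [← mem_nonunits_iff, ← IsLocalRing.mem_maximalIdeal, hb.uniformizer,
      Ideal.mem_span_singleton'] at hu
    obtain ⟨c, rfl⟩ := hu
    refine hbn ?_
    have : algebraMap K F ((c * (q : W) : W) : K) ∈ M.nonunits := by
      rw [show ((c * (q : W) : W) : K) = (c : K) * (q : K) by rfl, map_mul, map_natCast]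
      exact nonunits_mul_left (by simpa [evW_C] using hM.evW_mem (C c)) hM.q_mem
    have h2 := (ValuationSubring.mem_nonunits_iff _).mp hwb
    rw [ValuationSubring.mem_nonunits_iff] at this ⊢
    rw [show b = (b - algebraMap K F ((c * (q : W) : W) : K)) +
      algebraMap K F ((c * (q : W) : W) : K) by ring]
    exact lt_of_le_of_lt (M.valuation.map_add _ _) (max_lt h2 this)
  obtain ⟨u, rfl⟩ := hu
  refine ⟨wa * (u⁻¹ : Wˣ), ?_⟩
  have huu : algebraMap K F ((u : W) : K) * algebraMap K F (((u⁻¹ : Wˣ) : W) : K) = 1 := by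
    rw [← map_mul, ← MulMemClass.coe_mul, Units.mul_inv]; simp
  rw [show x - algebraMap K F ((wa * ((u⁻¹ : Wˣ) : W) : W) : K) =
      b⁻¹ * ((a - algebraMap K F wa) * 1 -
      (b - algebraMap K F ((u : W) : K)) *
        (algebraMap K F wa * algebraMap K F (((u⁻¹ : Wˣ) : W) : K))) from ?_]
  · refine nonunits_mul_left (inv_mem_of_notMem_nonunits' hbn) ?_
    have hm : algebraMap K F wa * algebraMap K F (((u⁻¹ : Wˣ) : W) : K) ∈ M :=
      M.mul_mem _ _ (by simpa [evW_C] using hM.evW_mem (C wa))
        (by simpa [evW_C] using hM.evW_mem (C ((u⁻¹ : Wˣ) : W)))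
    rw [ValuationSubring.mem_nonunits_iff]
    exact lt_of_le_of_lt (M.valuation.map_sub _ _)
      (max_lt (by rw [mul_one]; exact hwa) (nonunits_mul_right hm hwb))
  · have hb0 := ne_zero_of_notMem_nonunits hbn
    rw [MulMemClass.coe_mul, map_mul, eq_mul_inv_of_mul_eq hbn hxa]
    field_simp
    linear_combination -(algebraMap K F wa) * huu

end Residue

section Existence

variable [IsAlgClosed (IsLocalRing.ResidueField W)] (hb : BaseData W q) (hc : Cover K t)

include hb in
/-- Every prime of the chart containing `q` is contained in the centre of a point. -/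
theorem exists_point (P : Ideal (chart W t)) (hP : P ≠ ⊤)
    (hq : (⟨(q : F), natCast_mem_chart q⟩ : chart W t) ∈ P) :
    ∃ M, IsPoint W q t M ∧ ∀ x : chart W t, x ∈ P → (x : F) ∈ M.nonunits := by
  have := hb.dvr
  obtain ⟨m, hm, hPm⟩ := P.exists_le_maximal hP
  obtain ⟨M, hle, hsub⟩ := Ideal.image_subset_nonunits_valuationSubring m hm.ne_top
  have hPM : ∀ x : chart W t, x ∈ m → (x : F) ∈ M.nonunits := fun x hx => hsub ⟨x, hx, rfl⟩
  refine ⟨M, ⟨fun p => hle (evW_mem_chart p), hPM _ (hPm hq), ?_⟩, fun x hx => hPM x (hPm hx)⟩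
  let : Algebra W[X] F := (evW W t).toAlgebra
  let m' : Ideal (integralClosure W[X] F) := m
  have : m'.IsMaximal := hm
  have : (m'.comap (algebraMap W[X] (integralClosure W[X] F))).IsMaximal :=
    Ideal.isMaximal_comap_of_isIntegral_of_isMaximal (R := W[X]) (S := integralClosure W[X] F) m'
  set I := m'.comap (algebraMap W[X] (integralClosure W[X] F)) with hI
  have hqI : (C (q : W) : W[X]) ∈ I := by
    rw [hI, Ideal.mem_comap, map_natCast, map_natCast]
    have e : ((q : ℕ) : integralClosure W[X] F) =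
        (⟨(q : F), natCast_mem_chart q⟩ : chart W t) := Subtype.ext (by simp)
    exact e ▸ hPm hq
  have hsurj : Function.Surjective (Polynomial.mapRingHom (IsLocalRing.residue W)) :=
    Polynomial.map_surjective _ IsLocalRing.residue_surjective
  have hker : RingHom.ker (Polynomial.mapRingHom (IsLocalRing.residue W)) ≤ I := by
    rw [Polynomial.ker_mapRingHom, IsLocalRing.ker_residue, hb.uniformizer, Ideal.map_span,
      Ideal.span_le]
    rintro _ ⟨_, rfl, rfl⟩
    exact hqI
  have hJne : I.map (Polynomial.mapRingHom (IsLocalRing.residue W)) ≠ ⊤ := fun h => by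
    have h2 := congrArg (Ideal.comap (Polynomial.mapRingHom (IsLocalRing.residue W))) h
    rw [Ideal.comap_map_of_surjective _ hsurj, Ideal.comap_top, ← RingHom.ker_eq_comap_bot,
      sup_eq_left.mpr hker] at h2
    exact Ideal.IsPrime.ne_top' h2
  obtain ⟨g, hg⟩ := (IsPrincipalIdealRing.principal
    (I.map (Polynomial.mapRingHom (IsLocalRing.residue W)))).principal
  rw [← Ideal.span] at hg
  have hJmax : (I.map (Polynomial.mapRingHom (IsLocalRing.residue W))).IsMaximal :=
    (Ideal.map_eq_top_or_isMaximal_of_surjective _ hsurj inferInstance).resolve_left hJne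
  rw [hg] at hJne hJmax
  obtain ⟨c, hcm⟩ : ∃ c, (X - C c) ∈ Ideal.span ({g} : Set _) := by
    by_cases hg0 : g = 0
    · exfalso
      rw [hg0, Ideal.span_singleton_eq_bot.mpr rfl] at hJmax
      have h := hJmax.eq_of_le (J := Ideal.span {X}) (by
        rw [Ne, Ideal.span_singleton_eq_top]; exact Polynomial.not_isUnit_X) bot_le
      exact Polynomial.X_ne_zero (Ideal.span_singleton_eq_bot.mp h.symm)
    · have hdeg : g.degree ≠ 0 := fun h => hJne (Ideal.span_singleton_eq_top.mpr
        (Polynomial.isUnit_iff_degree_eq_zero.mpr h))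
      obtain ⟨c, hc⟩ := IsAlgClosed.exists_root g hdeg
      have hle : Ideal.span {g} ≤ Ideal.span {X - C c} :=
        Ideal.span_singleton_le_span_singleton.mpr (dvd_iff_isRoot.mpr hc)
      exact ⟨c, hJmax.eq_of_le (by
        rw [Ne, Ideal.span_singleton_eq_top]; exact Polynomial.not_isUnit_X_sub_C c) hle ▸
          Ideal.mem_span_singleton_self _⟩
  obtain ⟨w, rfl⟩ := IsLocalRing.residue_surjective c
  rw [← hg, Ideal.mem_map_iff_of_surjective _ hsurj] at hcm
  obtain ⟨p, hpI, hp⟩ := hcm
  have : X - C w ∈ I := by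
    rw [show X - C w = p + ((X - C w) - p) by ring]
    refine add_mem hpI (hker ?_)
    rw [RingHom.mem_ker, map_sub, hp]
    simp
  refine ⟨w, ?_⟩
  have h2 := hPM (⟨evW W t (X - C w), evW_mem_chart _⟩ : chart W t) this
  simpa [evW_X, evW_C] using h2

end Existence

end Fermat.Agent.Carayol
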