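import Mathlib.AlgebraicGeometry.EllipticCurve.Affine.Point

/-!
# Points along a homomorphism of fields

Functoriality of the points of a Weierstrass curve along a homomorphism of fields, and the action
of an endomorphism fixing the coefficients.

Main result: `pointAct_comp`.
-/

set_option autoImplicit false

open WeierstrassCurve

namespace Fermat.Agent.Carayol

variable {F F' F'' : Type*} [Field F] [Field F'] [Field F''] [DecidableEq F] [DecidableEq F']
  [DecidableEq F'']

/-- The points of `W` map to those of `W.map φ`. -/
noncomputable def pointMap (φ : F →+* F') (W : WeierstrassCurve F) :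
    W.toAffine.Point →+ (W.map φ).toAffine.Point where
  toFun P := match P with
    | .zero => 0
    | .some x y h => .some (φ x) (φ y) ((W.toAffine.map_nonsingular φ.injective x y).mpr h)
  map_zero' := rfl
  map_add' := by
    rintro (_ | ⟨x₁, y₁, h₁⟩) (_ | ⟨x₂, y₂, h₂⟩)
    any_goals rfl
    by_cases hxy : x₁ = x₂ ∧ y₁ = W.toAffine.negY x₂ y₂
    · rw [Affine.Point.add_of_Y_eq hxy.1 hxy.2, Affine.Point.add_of_Y_eq (congrArg φ hxy.1)
        (by rw [hxy.2]; exact (Affine.map_negY φ x₂ y₂).symm)]
    · have hxy' : ¬(φ x₁ = φ x₂ ∧ φ y₁ = (W.map φ).toAffine.negY (φ x₂) (φ y₂)) := fun h =>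
        hxy ⟨φ.injective h.1, φ.injective (by rw [h.2]; exact Affine.map_negY φ x₂ y₂)⟩
      rw [Affine.Point.add_some hxy, Affine.Point.add_some hxy', Affine.Point.some.injEq]
      simp only [WeierstrassCurve.toAffine, Affine.map_addX, Affine.map_addY, Affine.map_slope]
      trivial

theorem pointMap_some (φ : F →+* F') (W : WeierstrassCurve F) {x y : F}
    (h : W.toAffine.Nonsingular x y) :
    pointMap φ W (.some x y h) =
      .some (φ x) (φ y) ((W.toAffine.map_nonsingular φ.injective x y).mpr h) := rfl

theorem pointMap_injective (φ : F →+* F') (W : WeierstrassCurve F) :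
    Function.Injective (pointMap φ W) := by
  rintro (_ | ⟨x, y, h⟩) (_ | ⟨x', y', h'⟩) e
  any_goals contradiction
  · rfl
  · rw [pointMap_some, pointMap_some, Affine.Point.some.injEq] at e
    simp [φ.injective e.1, φ.injective e.2]

/-- Equal curves have the same points. -/
def pointCast {W W' : WeierstrassCurve F} (h : W = W') :
    W.toAffine.Point ≃+ W'.toAffine.Point :=
  h ▸ AddEquiv.refl _

theorem pointCast_some {W W' : WeierstrassCurve F} (h : W = W') {x y : F}
    (hn : W.toAffine.Nonsingular x y) :
    pointCast h (.some x y hn) = .some x y (h ▸ hn) := by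
  subst h; rfl

/-- The action on points of an endomorphism of `F` fixing the coefficients. -/
noncomputable def pointAct (σ : F →+* F) (W : WeierstrassCurve F) (h : W.map σ = W) :
    W.toAffine.Point →+ W.toAffine.Point :=
  (pointCast h).toAddMonoidHom.comp (pointMap σ W)

theorem pointAct_some (σ : F →+* F) (W : WeierstrassCurve F) (h : W.map σ = W) {x y : F}
    (hn : W.toAffine.Nonsingular x y) :
    ∃ hn', pointAct σ W h (.some x y hn) = .some (σ x) (σ y) hn' :=
  ⟨_, by simp only [pointAct, AddMonoidHom.comp_apply, pointMap_some]; exact pointCast_some h _⟩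

theorem pointAct_injective (σ : F →+* F) (W : WeierstrassCurve F) (h : W.map σ = W) :
    Function.Injective (pointAct σ W h) :=
  (pointCast h).injective.comp (pointMap_injective σ W)

/-- The action on points is functorial. -/
theorem pointAct_comp (σ τ : F →+* F) (W : WeierstrassCurve F) (h : W.map σ = W)
    (h' : W.map τ = W) (h'' : W.map (σ.comp τ) = W) (P : W.toAffine.Point) :
    pointAct (σ.comp τ) W h'' P = pointAct σ W h (pointAct τ W h' P) := by
  rcases P with _ | ⟨x, y, hn⟩
  · simp only [← Affine.Point.zero_def, _root_.map_zero]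
  · obtain ⟨_, e₁⟩ := pointAct_some τ W h' hn
    obtain ⟨_, e₂⟩ := pointAct_some (σ.comp τ) W h'' hn
    rename_i hτ hστ
    obtain ⟨_, e₃⟩ := pointAct_some σ W h hτ
    rw [e₁, e₂, e₃]; rfl

end Fermat.Agent.Carayol
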