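import Fermat.Agent.Carayol.Model
import Mathlib.NumberTheory.RamificationInertia.Galois
import Mathlib.RingTheory.DedekindDomain.AdicValuation
import Mathlib.RingTheory.DiscreteValuationRing.TFAE

/-!
# Vertical valuation rings

Vertical valuation rings: they exist, are permuted transitively, are discrete, and a
`(q-1)`st root of `q` and a `q`th root of the parameter force the inertia group to have at least
`q (q-1)` elements, with equality only if the root of `q` is a uniformiser and the residue field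
is generated by the reductions of the obvious elements.

Main result: `vert_iff`.
-/

set_option autoImplicit false

open Polynomial IntermediateField
open scoped IntermediateField Pointwise WithZero

namespace Fermat.Agent.Carayol

variable {K F : Type*} [Field K] [Field F] [Algebra K F]

/-- The decomposition group of a valuation ring over `K(t)`. -/
def stabV (K : Type*) {F : Type*} [Field K] [Field F] [Algebra K F] (t : F)
    (V : ValuationSubring F) : Subgroup (F ≃ₐ[K] F) :=
  fixPar K t ⊓
    { carrier := {σ | ∀ x, σ x ∈ V ↔ x ∈ V}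
      one_mem' := fun _ => Iff.rfl
      mul_mem' := fun {σ τ} hσ hτ x => (hσ (τ x)).trans (hτ x)
      inv_mem' := fun {σ} hσ x => by
        have := hσ (σ⁻¹ x)
        rwa [← AlgEquiv.mul_apply, mul_inv_cancel, AlgEquiv.one_apply, iff_comm] at this }

theorem mem_stabV {t : F} {V : ValuationSubring F} {σ : F ≃ₐ[K] F} :
    σ ∈ stabV K t V ↔ σ t = t ∧ ∀ x, σ x ∈ V ↔ x ∈ V := Iff.rfl

theorem nonunits_apply {t : F} {V : ValuationSubring F} {σ : F ≃ₐ[K] F} (hσ : σ ∈ stabV K t V)
    {x : F} : σ x ∈ V.nonunits ↔ x ∈ V.nonunits := by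
  rw [ValuationSubring.mem_nonunits_iff_or, ValuationSubring.mem_nonunits_iff_or,
    map_eq_zero_iff _ σ.injective, ← map_inv₀, (mem_stabV.mp hσ).2]

/-- The inertia group of a valuation ring over `K(t)`. -/
def inertiaV (K : Type*) {F : Type*} [Field K] [Field F] [Algebra K F] (t : F)
    (V : ValuationSubring F) : Subgroup (F ≃ₐ[K] F) where
  carrier := {σ | σ ∈ stabV K t V ∧ ∀ x ∈ V, σ x - x ∈ V.nonunits}
  one_mem' := ⟨(stabV K t V).one_mem, fun x _ => by simp⟩
  mul_mem' := fun {σ τ} ⟨hσ, h⟩ ⟨hτ, h'⟩ => ⟨mul_mem hσ hτ, fun x hx => by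
    rw [AlgEquiv.mul_apply, show σ (τ x) - x = (σ (τ x) - τ x) + (τ x - x) by ring]
    exact V.nonunits.add_mem (h _ ((mem_stabV.mp hτ).2 x |>.mpr hx)) (h' x hx)⟩
  inv_mem' := fun {σ} ⟨hσ, h⟩ => ⟨inv_mem hσ, fun x hx => by
    have hy : σ⁻¹ x ∈ V := ((mem_stabV.mp (inv_mem hσ)).2 x).mpr hx
    have := h _ hy
    rw [← AlgEquiv.mul_apply, mul_inv_cancel, AlgEquiv.one_apply] at this
    simpa using V.nonunits.neg_mem this⟩

theorem mem_inertiaV {t : F} {V : ValuationSubring F} {σ : F ≃ₐ[K] F} :
    σ ∈ inertiaV K t V ↔ σ ∈ stabV K t V ∧ ∀ x ∈ V, σ x - x ∈ V.nonunits := Iff.rfl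

variable {W : ValuationSubring K} {q : ℕ} {t : F}

section Gauss

/-- The Gauss valuation ring of `K(t)`. -/
def IsGauss (W : ValuationSubring K) (t : F) (A : ValuationSubring K⟮t⟯) : Prop :=
  ∀ x : K⟮t⟯, x ∈ A ↔ ∃ a b : W[X], b.map (IsLocalRing.residue W) ≠ 0 ∧
    (x : F) = evW W t a / evW W t b

theorem evW_mem_adjoin (p : W[X]) : evW W t p ∈ K⟮t⟯ := by
  rw [evW_eq_aeval]
  exact (mem_adjoin_simple_iff K _).mpr ⟨p.map W.subtype, 1, by simp⟩

variable (hb : BaseData W q) (ht : Transcendental K t)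

include hb in
theorem q_ne_zero : (q : F) ≠ 0 := by
  have := hb.charZero
  rw [← map_natCast (algebraMap K F), Ne, map_eq_zero_iff _ (algebraMap K F).injective]
  exact_mod_cast hb.prime.ne_zero

include hb in
theorem exists_rep {x : F} (hx : x ∈ K⟮t⟯) (hx0 : x ≠ 0) :
    ∃ (j : ℤ) (a b : W[X]), a.map (IsLocalRing.residue W) ≠ 0 ∧
      b.map (IsLocalRing.residue W) ≠ 0 ∧ x = (q : F) ^ j * (evW W t a / evW W t b) := by
  obtain ⟨r, s, rfl⟩ := (mem_adjoin_simple_iff K x).mp hx
  have hr : r ≠ 0 := fun h => hx0 (by simp [h])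
  have hs : s ≠ 0 := fun h => hx0 (by simp [h])
  obtain ⟨i, a, ha, rfl⟩ := exists_primitive hb r hr
  obtain ⟨i', b, hb', rfl⟩ := exists_primitive hb s hs
  refine ⟨i - i', a, b, ha, hb', ?_⟩
  simp only [map_mul, aeval_C, evW_eq_aeval, map_zpow₀, map_natCast]
  rw [zpow_sub₀ (q_ne_zero hb), mul_div_mul_comm]

theorem evW_ne_zero {b : W[X]} (ht : Transcendental K t)
    (h : b.map (IsLocalRing.residue W) ≠ 0) : evW W t b ≠ 0 :=
  (map_ne_zero_iff _ (evW_injective ht)).mpr fun h0 => h (by simp [h0])

include hb ht in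
theorem exists_gauss : ∃ A : ValuationSubring K⟮t⟯, IsGauss W t A := by
  classical
  let carrier : Set K⟮t⟯ := {x | ∃ a b : W[X], b.map (IsLocalRing.residue W) ≠ 0 ∧
    (x : F) = evW W t a / evW W t b}
  have hadd : ∀ x y, x ∈ carrier → y ∈ carrier → x + y ∈ carrier := by
    rintro x y ⟨a, b, hb', hx⟩ ⟨c, d, hd, hy⟩
    refine ⟨a * d + c * b, b * d, by rw [Polynomial.map_mul]; exact mul_ne_zero hb' hd, ?_⟩
    rw [AddMemClass.coe_add, hx, hy, div_add_div _ _ (evW_ne_zero ht hb') (evW_ne_zero ht hd)]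
    simp only [map_add, map_mul]
    ring_nf
  have hmul : ∀ x y, x ∈ carrier → y ∈ carrier → x * y ∈ carrier := by
    rintro x y ⟨a, b, hb', hx⟩ ⟨c, d, hd, hy⟩
    refine ⟨a * c, b * d, by rw [Polynomial.map_mul]; exact mul_ne_zero hb' hd, ?_⟩
    rw [MulMemClass.coe_mul, hx, hy, map_mul, map_mul, div_mul_div_comm]
  have hneg : ∀ x, x ∈ carrier → -x ∈ carrier := by
    rintro x ⟨a, b, hb', hx⟩
    exact ⟨-a, b, hb', by rw [NegMemClass.coe_neg, hx, map_neg, neg_div]⟩
  refine ⟨
    { carrier := carrier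
      mul_mem' := fun {x y} => hmul x y
      one_mem' := ⟨1, 1, by simp, by simp⟩
      add_mem' := fun {x y} => hadd x y
      zero_mem' := ⟨0, 1, by simp, by simp⟩
      neg_mem' := fun {x} => hneg x
      mem_or_inv_mem' := fun x => ?_ }, fun x => Iff.rfl⟩
  rcases eq_or_ne (x : F) 0 with h | h
  · exact Or.inl ⟨0, 1, by simp, by simp [h]⟩
  obtain ⟨j, a, b, ha, hb', he⟩ := exists_rep hb x.2 h
  rcases le_or_gt 0 j with hj | hj
  · obtain ⟨n, rfl⟩ := Int.eq_ofNat_of_zero_le hj
    exact Or.inl ⟨(q : W[X]) ^ n * a, b, hb', by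
      rw [he, map_mul, map_pow, map_natCast, zpow_natCast, mul_div_assoc]⟩
  · obtain ⟨n, hn⟩ := Int.eq_ofNat_of_zero_le (show 0 ≤ -j by omega)
    refine Or.inr ⟨(q : W[X]) ^ n * b, a, ha, ?_⟩
    push_cast
    rw [he, mul_inv, inv_div, ← zpow_neg, hn, map_mul, map_pow, map_natCast, zpow_natCast,
      mul_div_assoc]

variable {A : ValuationSubring K⟮t⟯} (hA : IsGauss W t A)

include hb ht hA in
theorem gauss_q_not_isUnit : ¬IsUnit (q : A) := by
  intro hu
  obtain ⟨v, hv⟩ := hu.exists_right_inv
  obtain ⟨a, b, hb', he⟩ := (hA v.1).mp v.2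
  have h1 : (q : F) * (evW W t a / evW W t b) = 1 := by
    rw [← he]
    exact_mod_cast congrArg (fun u : A => ((u : K⟮t⟯) : F)) hv
  rw [mul_div_assoc', div_eq_one_iff_eq (evW_ne_zero ht hb'), ← map_natCast (evW W t),
    ← map_mul] at h1
  refine hb' ?_
  rw [← evW_injective ht h1, Polynomial.map_mul, Polynomial.map_natCast,
    ← C_eq_natCast, show ((q : IsLocalRing.ResidueField W)) = 0 by
      rw [← map_natCast (IsLocalRing.residue W), IsLocalRing.residue_eq_zero_iff, hb.uniformizer]
      exact Ideal.mem_span_singleton_self _]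
  simp

include hb ht hA in
theorem gauss_exists_unit_mul_pow {x : A} (hx : x ≠ 0) :
    ∃ (n : ℕ) (u : Aˣ), x = u * (q : A) ^ n := by
  obtain ⟨j, a, b, ha, hb', he⟩ := exists_rep hb x.1.2 (fun h => hx (Subtype.ext (Subtype.ext h)))
  let u₀ : K⟮t⟯ := ⟨evW W t a / evW W t b, div_mem (evW_mem_adjoin a) (evW_mem_adjoin b)⟩
  let v₀ : K⟮t⟯ := ⟨evW W t b / evW W t a, div_mem (evW_mem_adjoin b) (evW_mem_adjoin a)⟩
  have hu : u₀ ∈ A := (hA u₀).mpr ⟨a, b, hb', rfl⟩
  have hv : v₀ ∈ A := (hA v₀).mpr ⟨b, a, ha, rfl⟩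
  have huv : u₀ * v₀ = 1 := Subtype.ext (by
    show evW W t a / evW W t b * (evW W t b / evW W t a) = 1
    field_simp [evW_ne_zero ht ha, evW_ne_zero ht hb'])
  let u : Aˣ := ⟨⟨u₀, hu⟩, ⟨v₀, hv⟩, Subtype.ext huv,
    Subtype.ext (by rw [mul_comm] at huv; exact huv)⟩
  rcases le_or_gt 0 j with hj | hj
  · obtain ⟨n, rfl⟩ := Int.eq_ofNat_of_zero_le hj
    refine ⟨n, u, Subtype.ext (Subtype.ext ?_)⟩
    push_cast
    rw [he, zpow_natCast]
    exact mul_comm _ _
  · exfalso
    obtain ⟨n, hn⟩ : ∃ n : ℕ, j = -((n + 1 : ℕ) : ℤ) := ⟨(-j).toNat - 1, by omega⟩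
    refine gauss_q_not_isUnit hb ht hA (isUnit_iff_exists_inv.mpr ⟨x * (q : A) ^ n * ↑u⁻¹, ?_⟩)
    refine Subtype.ext (Subtype.ext ?_)
    push_cast
    rw [he, hn, zpow_neg, zpow_natCast]
    show (q : F) * ((((q : F) ^ (n + 1))⁻¹ * (evW W t a / evW W t b)) * (q : F) ^ n *
      (evW W t b / evW W t a)) = 1
    have := q_ne_zero (F := F) hb
    field_simp [evW_ne_zero ht ha, evW_ne_zero ht hb']
    ring

include hb ht hA in
theorem gauss_maximalIdeal : IsLocalRing.maximalIdeal A = Ideal.span {(q : A)} := by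
  refine le_antisymm (fun x hx => ?_) (Ideal.span_le.mpr (by
    simpa [IsLocalRing.mem_maximalIdeal] using gauss_q_not_isUnit hb ht hA))
  rcases eq_or_ne x 0 with rfl | hx0
  · exact zero_mem _
  obtain ⟨n, u, rfl⟩ := gauss_exists_unit_mul_pow hb ht hA hx0
  rcases n with _ | n
  · simp at hx
  · exact Ideal.mul_mem_left _ _ (Ideal.pow_mem_of_mem _ (Ideal.mem_span_singleton_self _) _
      n.succ_pos)

include hb ht hA in
theorem gauss_irreducible : Irreducible (q : A) := by
  refine ⟨gauss_q_not_isUnit hb ht hA, fun a b hab => ?_⟩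
  have hq0 : (q : A) ≠ 0 := fun h => q_ne_zero (F := F) hb
    (by simpa using congrArg (fun u : A => ((u : K⟮t⟯) : F)) h)
  by_contra! hne
  obtain ⟨a', rfl⟩ := Ideal.mem_span_singleton'.mp
    (gauss_maximalIdeal hb ht hA ▸ (IsLocalRing.mem_maximalIdeal a).mpr hne.1)
  have : (1 : A) = a' * b := mul_left_cancel₀ hq0 (by rw [mul_one]; linear_combination hab)
  exact hne.2 (IsUnit.of_mul_eq_one a' (by rw [mul_comm]; exact this.symm))

include hb ht hA in
theorem gauss_dvr : IsDiscreteValuationRing A :=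
  IsDiscreteValuationRing.ofHasUnitMulPowIrreducibleFactorization
    ⟨q, gauss_irreducible hb ht hA, fun {x} hx => by
      obtain ⟨n, u, e⟩ := gauss_exists_unit_mul_pow hb ht hA hx
      exact ⟨n, u, by rw [e, mul_comm]⟩⟩

include hb ht hA in
/-- Residues in the Gauss ring: `t` is not a `q`th power. -/
theorem gauss_not_pow (x : A) {T : A} (hT : ((T : K⟮t⟯) : F) = t) :
    x ^ q - T ∉ IsLocalRing.maximalIdeal A := by
  intro hmem
  obtain ⟨y, hy⟩ := Ideal.mem_span_singleton'.mp (gauss_maximalIdeal hb ht hA ▸ hmem)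
  obtain ⟨a, b, hb', hx⟩ := (hA x.1).mp x.2
  obtain ⟨c, d, hd, hy'⟩ := (hA y.1).mp y.2
  have e := congrArg (fun u : A => ((u : K⟮t⟯) : F)) hy
  push_cast at e
  rw [hx, hy', hT] at e
  have hd0 := evW_ne_zero ht hd
  have hb0 := evW_ne_zero ht hb'
  rw [div_pow, div_mul_eq_mul_div, div_sub' (pow_ne_zero q hb0),
    div_eq_div_iff hd0 (pow_ne_zero q hb0)] at e
  have e' : evW W t (c * (q : W[X]) * b ^ q) = evW W t ((a ^ q - b ^ q * X) * d) := by
    simp only [map_mul, map_pow, map_sub, map_natCast, evW_X]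
    linear_combination e
  have e'' := congrArg (Polynomial.map (IsLocalRing.residue W)) (evW_injective ht e')
  have hq0 : (q : IsLocalRing.ResidueField W) = 0 := by
    rw [← map_natCast (IsLocalRing.residue W), IsLocalRing.residue_eq_zero_iff, hb.uniformizer]
    exact Ideal.mem_span_singleton_self _
  simp only [Polynomial.map_mul, Polynomial.map_natCast, Polynomial.map_sub, Polynomial.map_pow,
    Polynomial.map_X] at e''
  rw [← C_eq_natCast, hq0, map_zero, mul_zero, zero_mul] at e''
  rw [eq_comm, mul_eq_zero, or_iff_left hd, sub_eq_zero] at e''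
  have := congrArg natDegree e''
  rw [natDegree_pow, natDegree_mul (pow_ne_zero q hb') X_ne_zero, natDegree_pow,
    natDegree_X] at this
  have h1 := Nat.ModEq.refl (n := q) 0
  have : q ∣ 1 := by
    rw [← Nat.dvd_add_right (dvd_mul_right q (b.map (IsLocalRing.residue W)).natDegree), ← this]
    exact dvd_mul_right q _
  exact hb.prime.not_dvd_one this

end Gauss

section Main

variable (hb : BaseData W q) (hc : Cover K t)

include hb hc in
theorem mem_gauss_iff {A : ValuationSubring K⟮t⟯} (hA : IsGauss W t A) {V : ValuationSubring F}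
    (hV : IsVert W q t V) (x : K⟮t⟯) : x ∈ A ↔ (x : F) ∈ V := by
  constructor
  · intro hx
    obtain ⟨a, b, hb', e⟩ := (hA x).mp hx
    rw [e, div_eq_mul_inv]
    exact V.mul_mem _ _ (hV.evW_mem a) (hV.unit b hb')
  · intro hx
    rcases A.mem_or_inv_mem x with h | h
    · exact h
    rcases eq_or_ne x 0 with rfl | hx0
    · exact A.zero_mem
    by_contra hxA
    have : (⟨x⁻¹, h⟩ : A) ∈ IsLocalRing.maximalIdeal A := by
      rw [IsLocalRing.mem_maximalIdeal]
      intro hu
      obtain ⟨v, hv⟩ := hu.exists_right_inv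
      refine hxA ?_
      have : x = v.1 := (inv_mul_eq_one₀ hx0).mp (congrArg Subtype.val hv)
      rw [this]; exact v.2
    obtain ⟨y, hy⟩ := Ideal.mem_span_singleton'.mp
      (gauss_maximalIdeal hb hc.transcendental hA ▸ this)
    have e := congrArg (fun u : A => ((u : K⟮t⟯) : F)) hy
    push_cast at e
    obtain ⟨a, b, hb', ey⟩ := (hA y.1).mp y.2
    have hyV : ((y : K⟮t⟯) : F) ∈ V := by
      rw [ey, div_eq_mul_inv]
      exact V.mul_mem _ _ (hV.evW_mem a) (hV.unit b hb')
    rcases (ValuationSubring.mem_nonunits_iff_or V).mp hV.q_mem with hq0 | hq1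
    · exact q_ne_zero hb hq0
    refine hq1 ?_
    have hx0' : (x : F) ≠ 0 := fun h => hx0 (Subtype.ext h)
    have : ((q : F))⁻¹ = ((y : K⟮t⟯) : F) * (x : F) := by
      refine inv_eq_of_mul_eq_one_right ?_
      rw [← mul_assoc, mul_comm (q : F), e, inv_mul_cancel₀ hx0']
    rw [this]; exact V.mul_mem _ _ hyV hx

theorem valuationSubring_mem_of_integral {V : ValuationSubring F} {A : ValuationSubring K⟮t⟯}
    (hAV : ∀ a : A, ((a : K⟮t⟯) : F) ∈ V) (b : integralClosure A F) : (b : F) ∈ V := by
  obtain ⟨P, hP, hroot⟩ := b.2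
  obtain ⟨z, hz⟩ := (IsIntegrallyClosedIn.isIntegral_iff (R := V) (A := F) (x := (b : F))).mp
    ⟨P.map ((algebraMap A F).codRestrict V hAV), hP.map _, by rw [eval₂_map]; exact hroot⟩
  rw [← hz]; exact z.2

variable {A : ValuationSubring K⟮t⟯} (hA : IsGauss W t A)

include hb hc hA in
/-- Vertical valuation rings are the localisations of the integral closure of the Gauss ring. -/
theorem vert_iff (V : ValuationSubring F) :
    haveI := hc.finite
    haveI := hc.galois
    haveI := gauss_dvr hb hc.transcendental hA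
    haveI := IsIntegralClosure.isDedekindDomain A K⟮t⟯ F (integralClosure A F)
    haveI := IsIntegralClosure.isFractionRing_of_finite_extension A K⟮t⟯ F (integralClosure A F)
    IsVert W q t V ↔
      ∃ v : IsDedekindDomain.HeightOneSpectrum (integralClosure A F),
        v.asIdeal.under A = IsLocalRing.maximalIdeal A ∧
          V = (v.valuation F).valuationSubring := by
  have := hc.finite
  have := hc.galois
  have := gauss_dvr hb hc.transcendental hA
  have := IsIntegralClosure.isDedekindDomain A K⟮t⟯ F (integralClosure A F)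
  have := IsIntegralClosure.isFractionRing_of_finite_extension A K⟮t⟯ F (integralClosure A F)
  constructor
  · intro hV
    have hB := valuationSubring_mem_of_integral (V := V) (A := A)
      fun a => (mem_gauss_iff hb hc hA hV a.1).mp a.2
    let ι : integralClosure A F →+* V :=
      ((integralClosure A F).val.toRingHom).codRestrict V hB
    set P := (IsLocalRing.maximalIdeal V).comap ι
    have hPq : (q : integralClosure A F) ∈ P := by
      rw [Ideal.mem_comap, map_natCast, IsLocalRing.mem_maximalIdeal, mem_nonunits_iff]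
      intro hu
      obtain ⟨⟨v, hv⟩, e⟩ := hu.exists_right_inv
      have e' : (q : F) * v = 1 := by simpa using congrArg Subtype.val e
      rcases (ValuationSubring.mem_nonunits_iff_or V).mp hV.q_mem with h | h
      · exact q_ne_zero hb h
      · exact h (by rwa [inv_eq_of_mul_eq_one_right e'])
    have hP0 : P ≠ ⊥ := fun h => by
      rw [h, Ideal.mem_bot] at hPq
      exact q_ne_zero (F := F) hb (by simpa using congrArg Subtype.val hPq)
    refine ⟨⟨P, Ideal.IsPrime.comap ι, hP0⟩, ?_, ?_⟩
    · refine ((gauss_maximalIdeal hb hc.transcendental hA) ▸ (le_antisymm ?_ ?_))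
      · refine (IsLocalRing.le_maximalIdeal (Ideal.IsPrime.under A P).ne_top).trans ?_
        rw [gauss_maximalIdeal hb hc.transcendental hA]
      · rw [Ideal.span_le, Set.singleton_subset_iff, SetLike.mem_coe, Ideal.mem_comap, map_natCast]
        exact hPq
    · set v : IsDedekindDomain.HeightOneSpectrum (integralClosure A F) :=
        ⟨P, Ideal.IsPrime.comap ι, hP0⟩
      ext x
      rw [Valuation.mem_valuationSubring_iff]
      constructor
      · intro hx
        obtain ⟨n, d, h | h⟩ := v.exists_primeCompl_mul_eq_or_mul_eq x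
        · have hd : v.valuation F (algebraMap _ F (d : integralClosure A F)) = 1 :=
            v.valuation_eq_one_iff_notMem.mpr d.2
          have := congrArg (v.valuation F) h
          rw [map_mul, hd, mul_one] at this
          rw [this]; exact v.valuation_le_one n
        · by_contra hgt
          push Not at hgt
          have hn : n ∈ P := by
            have hd : v.valuation F (algebraMap _ F (d : integralClosure A F)) = 1 :=
              v.valuation_eq_one_iff_notMem.mpr d.2
            have := congrArg (v.valuation F) h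
            rw [map_mul, hd] at this
            refine (v.valuation_lt_one_iff_mem (K := F) n).mp ?_
            by_contra hge
            push Not at hge
            exact absurd (lt_of_lt_of_le hgt (le_mul_of_one_le_right' hge)) (this ▸ lt_irrefl _)
          refine d.2 ?_
          show ι d ∈ IsLocalRing.maximalIdeal V
          have : ι d = ⟨x, hx⟩ * ι n := Subtype.ext h.symm
          rw [this]
          exact Ideal.mul_mem_left _ _ hn
      · intro hx
        obtain ⟨n, d, h⟩ := v.exists_primeCompl_mul_eq_of_integer x hx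
        have hdu : IsUnit (ι d) := IsLocalRing.notMem_maximalIdeal.mp d.2
        obtain ⟨⟨e, he⟩, hde⟩ := hdu.exists_right_inv
        have hde' : ((d : integralClosure A F) : F) * e = 1 := by
          exact congrArg Subtype.val hde
        have : x = ((n : integralClosure A F) : F) * e := by
          have h' : x * ((d : integralClosure A F) : F) = ((n : integralClosure A F) : F) := h
          rw [← h', mul_assoc, hde', mul_one]
        rw [this]
        exact V.mul_mem _ _ (hB n) he
  · rintro ⟨v, hv, rfl⟩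
    have hmem : ∀ a : A, ((a : K⟮t⟯) : F) ∈ (v.valuation F).valuationSubring := fun a => by
      rw [Valuation.mem_valuationSubring_iff]
      exact v.valuation_le_one (algebraMap A (integralClosure A F) a)
    have hev : ∀ p : W[X], (⟨evW W t p, evW_mem_adjoin p⟩ : K⟮t⟯) ∈ A := fun p =>
      (hA _).mpr ⟨p, 1, by simp, by simp⟩
    refine ⟨fun p => hmem ⟨_, hev p⟩, ?_, fun p hp => ?_⟩
    · rw [← SetLike.mem_coe, ← ValuationSubring.image_maximalIdeal]
      refine ⟨⟨(q : F), natCast_mem _ q⟩, ?_, rfl⟩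
      rw [SetLike.mem_coe, Valuation.mem_maximalIdeal_iff]
      have hq : algebraMap A (integralClosure A F) (q : A) ∈ v.asIdeal := by
        have : (q : A) ∈ v.asIdeal.under A := by
          rw [hv, gauss_maximalIdeal hb hc.transcendental hA]
          exact Ideal.mem_span_singleton_self _
        exact this
      rw [map_natCast] at hq
      simpa using (v.valuation_lt_one_iff_mem (K := F) _).mpr hq
    · have : (⟨(evW W t p)⁻¹, inv_mem (evW_mem_adjoin p)⟩ : K⟮t⟯) ∈ A :=
        (hA _).mpr ⟨1, p, hp, by simp⟩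
      exact hmem ⟨_, this⟩

end Main

end Fermat.Agent.Carayol
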