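import Fermat.Agent.Carayol.Vert
import Mathlib.RingTheory.RamificationInertia.Ramification
import Fermat.Agent.Carayol.InsepBound

/-!
# The inertia bound

Vertical valuation rings: existence, transitivity and the inertia bound.

Main result: `inertia_bound`.
-/

set_option autoImplicit false

open Polynomial IntermediateField IsDedekindDomain
open scoped IntermediateField Pointwise WithZero

namespace Fermat.Agent.Carayol

variable {K F : Type*} [Field K] [Field F] [Algebra K F]
variable {W : ValuationSubring K} {q : ℕ} {t : F}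

section Facts

variable (hb : BaseData W q) (hc : Cover K t)

include hb hc in
theorem exists_isVert : ∃ V : ValuationSubring F, IsVert W q t V := by
  obtain ⟨A, hA⟩ := exists_gauss hb hc.transcendental
  have := hc.finite
  have := hc.galois
  have := gauss_dvr hb hc.transcendental hA
  have := IsIntegralClosure.isDedekindDomain A K⟮t⟯ F (integralClosure A F)
  have := IsIntegralClosure.isFractionRing_of_finite_extension A K⟮t⟯ F (integralClosure A F)
  have : FaithfulSMul A (integralClosure A F) := (faithfulSMul_iff_algebraMap_injective _ _).mpr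
    fun a b h => Subtype.ext (Subtype.ext (congrArg (fun u : integralClosure A F => (u : F)) h))
  obtain ⟨⟨P, hPp, hPo⟩⟩ :=
    (inferInstance : Nonempty ((IsLocalRing.maximalIdeal A).primesOver (integralClosure A F)))
  have hP0 : P ≠ ⊥ := by
    rintro rfl
    have h := hPo.over
    rw [Ideal.under, Ideal.comap_bot_of_injective _
      (FaithfulSMul.algebraMap_injective A (integralClosure A F))] at h
    exact IsDiscreteValuationRing.not_a_field A h
  exact ⟨_, (vert_iff hb hc hA _).mpr ⟨⟨P, hPp, hP0⟩, hPo.over.symm, rfl⟩⟩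

theorem mem_valuationSubring_valuation_iff {B : Type*} [CommRing B] [IsDedekindDomain B]
    [Algebra B F] [IsFractionRing B F] (v : HeightOneSpectrum B) (x : F) :
    x ∈ (v.valuation F).valuationSubring ↔ v.valuation F x ≤ 1 := Iff.rfl

theorem mem_nonunits_valuation_iff {B : Type*} [CommRing B] [IsDedekindDomain B]
    [Algebra B F] [IsFractionRing B F] (v : HeightOneSpectrum B) (x : F) :
    x ∈ (v.valuation F).valuationSubring.nonunits ↔ v.valuation F x < 1 := by
  rw [ValuationSubring.mem_nonunits_iff_exists_mem_maximalIdeal]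
  constructor
  · rintro ⟨hx, h⟩
    exact (Valuation.mem_maximalIdeal_iff _ _).mp h
  · exact fun h => ⟨h.le, (Valuation.mem_maximalIdeal_iff _ _).mpr h⟩

include hb hc in
theorem exists_comap_eq {V V' : ValuationSubring F} (hV : IsVert W q t V)
    (hV' : IsVert W q t V') : ∃ σ ∈ fixPar K t, V' = V.comap (σ : F →+* F) := by
  obtain ⟨A, hA⟩ := exists_gauss hb hc.transcendental
  have := hc.finite
  have := hc.galois
  have := gauss_dvr hb hc.transcendental hA
  have := IsIntegralClosure.isDedekindDomain A K⟮t⟯ F (integralClosure A F)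
  have := IsIntegralClosure.isFractionRing_of_finite_extension A K⟮t⟯ F (integralClosure A F)
  obtain ⟨v, hv, rfl⟩ := (vert_iff hb hc hA _).mp hV
  obtain ⟨v', hv', rfl⟩ := (vert_iff hb hc hA _).mp hV'
  obtain ⟨g, hg⟩ := Ideal.exists_comap_galRestrict_eq A K⟮t⟯ F (integralClosure A F)
    (p := IsLocalRing.maximalIdeal A) (P₁ := v.asIdeal) (P₂ := v'.asIdeal)
    ⟨v.isPrime, ⟨hv.symm⟩⟩ ⟨v'.isPrime, ⟨hv'.symm⟩⟩
  refine ⟨g.restrictScalars K, g.commutes ⟨t, mem_adjoin_simple_self K t⟩, ?_⟩
  have hg' : ∀ b : integralClosure A F,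
      algebraMap _ F (galRestrict A K⟮t⟯ F (integralClosure A F) g b) = g (b : F) :=
    fun b => algebraMap_galRestrict_apply A g b
  have key : ∀ b : integralClosure A F,
      v.valuation F (g (b : F)) < 1 ↔ b ∈ v'.asIdeal := fun b => by
    rw [← hg', v.valuation_lt_one_iff_mem, ← hg]; rfl
  have hV : IsVert W q t ((v.valuation F).valuationSubring.comap
      ((g.restrictScalars K : F ≃ₐ[K] F) : F →+* F)) :=
    hV.comap (σ := g.restrictScalars K) (g.commutes ⟨t, mem_adjoin_simple_self K t⟩)
  obtain ⟨w, -, hw⟩ := (vert_iff hb hc hA _).mp hV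
  rw [hw]
  congr 2
  refine (HeightOneSpectrum.ext (Ideal.ext fun b => ?_)).symm
  rw [← key, ← w.valuation_lt_one_iff_mem (K := F), ← mem_nonunits_valuation_iff,
    ← mem_nonunits_valuation_iff, ← hw]
  rw [ValuationSubring.mem_nonunits_iff_or, ValuationSubring.mem_nonunits_iff_or,
    ValuationSubring.mem_comap, map_inv₀]
  exact or_congr (map_eq_zero g).symm Iff.rfl

end Facts

section Residue

variable {B : Type*} [CommRing B] [IsDedekindDomain B] [Algebra B F] [IsFractionRing B F]
  (v : HeightOneSpectrum B) (C : Subring F)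

/-- `y` is congruent to a quotient of two elements of `C`, the second of valuation one. -/
def DivApprox (y : F) : Prop :=
  ∃ a b : F, a ∈ C ∧ b ∈ C ∧ v.valuation F b = 1 ∧ v.valuation F (y - a / b) < 1

variable {v C}

theorem DivApprox.congr {y y' : F} (h : DivApprox v C y) (hy : v.valuation F (y' - y) < 1) :
    DivApprox v C y' := by
  obtain ⟨a, b, ha, hb, hb1, hab⟩ := h
  refine ⟨a, b, ha, hb, hb1, ?_⟩
  rw [show y' - a / b = (y' - y) + (y - a / b) by ring]
  exact ((v.valuation F).map_add _ _).trans_lt (max_lt hy hab)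

theorem DivApprox.of_mem {c : F} (hc : c ∈ C) : DivApprox v C c :=
  ⟨c, 1, hc, one_mem C, map_one _, by rw [div_one, sub_self, map_zero]; exact zero_lt_one⟩

theorem DivApprox.add {y y' : F} (h : DivApprox v C y) (h' : DivApprox v C y') :
    DivApprox v C (y + y') := by
  obtain ⟨a, b, ha, hb, h1, hab⟩ := h
  obtain ⟨a', b', ha', hb', h2, hab'⟩ := h'
  have hb0 : b ≠ 0 := fun e => by rw [e, map_zero] at h1; exact zero_ne_one h1
  have hb0' : b' ≠ 0 := fun e => by rw [e, map_zero] at h2; exact zero_ne_one h2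
  refine ⟨a * b' + b * a', b * b', add_mem (mul_mem ha hb') (mul_mem hb ha'), mul_mem hb hb',
    by rw [map_mul, h1, h2, mul_one], ?_⟩
  rw [← div_add_div _ _ hb0 hb0',
    show y + y' - (a / b + a' / b') = (y - a / b) + (y' - a' / b') by ring]
  exact ((v.valuation F).map_add _ _).trans_lt (max_lt hab hab')

theorem DivApprox.neg {y : F} (h : DivApprox v C y) : DivApprox v C (-y) := by
  obtain ⟨a, b, ha, hb, h1, hab⟩ := h
  refine ⟨-a, b, neg_mem ha, hb, h1, ?_⟩
  rwa [show -y - -a / b = -(y - a / b) by ring, Valuation.map_neg]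

theorem DivApprox.mul (hC : ∀ c ∈ C, v.valuation F c ≤ 1) {y y' : F} (hy : v.valuation F y ≤ 1)
    (h : DivApprox v C y) (h' : DivApprox v C y') : DivApprox v C (y * y') := by
  obtain ⟨a, b, ha, hb, h1, hab⟩ := h
  obtain ⟨a', b', ha', hb', h2, hab'⟩ := h'
  refine ⟨a * a', b * b', mul_mem ha ha', mul_mem hb hb', by rw [map_mul, h1, h2, mul_one], ?_⟩
  rw [← div_mul_div_comm, show y * y' - a / b * (a' / b') =
    y * (y' - a' / b') + (y - a / b) * (a' / b') by ring]
  refine (v.valuation F).map_add _ _ |>.trans_lt (max_lt ?_ ?_)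
  · rw [map_mul]; exact lt_of_le_of_lt (mul_le_of_le_one_left' hy) hab'
  · rw [map_mul, map_div₀, h2, div_one]
    exact lt_of_le_of_lt (mul_le_of_le_one_right' (hC a' ha')) hab

theorem DivApprox.inv {y : F} (hy : v.valuation F y = 1) (h : DivApprox v C y) :
    DivApprox v C y⁻¹ := by
  obtain ⟨a, b, ha, hb, h1, hab⟩ := h
  have hva : v.valuation F (a / b) = 1 := by
    rw [show a / b = y - (y - a / b) by ring,
      Valuation.map_sub_eq_of_lt_left _ (by rwa [hy]), hy]
  have ha1 : v.valuation F a = 1 := by rwa [map_div₀, h1, div_one] at hva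
  refine ⟨b, a, hb, ha, ha1, ?_⟩
  have hy0 : y ≠ 0 := fun e => by rw [e, map_zero] at hy; exact zero_ne_one hy
  have ha0 : a ≠ 0 := fun e => by rw [e, map_zero] at ha1; exact zero_ne_one ha1
  have hb0 : b ≠ 0 := fun e => by rw [e, map_zero] at h1; exact zero_ne_one h1
  rw [show y⁻¹ - b / a = (y - a / b) * (-(b / (a * y))) by field_simp; ring,
    map_mul, Valuation.map_neg, map_div₀, map_mul, h1, ha1, hy]
  simpa using hab

theorem DivApprox.of_mk_eq {b b' : B} (h : DivApprox v C (algebraMap B F b))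
    (e : Ideal.Quotient.mk v.asIdeal b' = Ideal.Quotient.mk v.asIdeal b) :
    DivApprox v C (algebraMap B F b') :=
  h.congr (by rw [← map_sub, v.valuation_lt_one_iff_mem]; exact Ideal.Quotient.eq.mp e)

variable (hC : ∀ c ∈ C, v.valuation F c ≤ 1)

/-- The residues of the approximable integral elements. -/
def divApproxResidues : Subring (B ⧸ v.asIdeal) where
  carrier := {r | ∀ b, Ideal.Quotient.mk v.asIdeal b = r → DivApprox v C (algebraMap B F b)}
  mul_mem' {r r'} hr hr' b hb := by
    obtain ⟨x, rfl⟩ := Ideal.Quotient.mk_surjective r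
    obtain ⟨x', rfl⟩ := Ideal.Quotient.mk_surjective r'
    refine DivApprox.of_mk_eq (b := x * x') ?_ (hb.trans (map_mul _ _ _).symm)
    rw [map_mul]
    exact (hr x rfl).mul hC (v.valuation_le_one x) (hr' x' rfl)
  one_mem' b hb := DivApprox.of_mk_eq (b := 1)
    (by rw [map_one]; exact DivApprox.of_mem (one_mem C)) (hb.trans (map_one _).symm)
  add_mem' {r r'} hr hr' b hb := by
    obtain ⟨x, rfl⟩ := Ideal.Quotient.mk_surjective r
    obtain ⟨x', rfl⟩ := Ideal.Quotient.mk_surjective r'
    refine DivApprox.of_mk_eq (b := x + x') ?_ (hb.trans (map_add _ _ _).symm)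
    rw [map_add]
    exact (hr x rfl).add (hr' x' rfl)
  zero_mem' b hb := DivApprox.of_mk_eq (b := 0)
    (by rw [map_zero]; exact DivApprox.of_mem (zero_mem C)) (hb.trans (map_zero _).symm)
  neg_mem' {r} hr b hb := by
    obtain ⟨x, rfl⟩ := Ideal.Quotient.mk_surjective r
    refine DivApprox.of_mk_eq (b := -x) ?_ (hb.trans (map_neg _ _).symm)
    rw [map_neg]
    exact (hr x rfl).neg

theorem sub_valuation_lt_one {y : F} {n d d' : B} (hy : v.valuation F y ≤ 1)
    (h : y * algebraMap B F d = algebraMap B F n)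
    (hd : Ideal.Quotient.mk v.asIdeal d * Ideal.Quotient.mk v.asIdeal d' = 1) :
    v.valuation F (y - algebraMap B F (n * d')) < 1 := by
  rw [map_mul, ← h, show y - y * algebraMap B F d * algebraMap B F d' =
    y * algebraMap B F (1 - d * d') by rw [map_sub, map_one, map_mul]; ring, map_mul]
  refine lt_of_le_of_lt (mul_le_of_le_one_left' hy) ?_
  rw [v.valuation_lt_one_iff_mem, ← Ideal.Quotient.eq_zero_iff_mem, map_sub, map_one, map_mul, hd,
    sub_self]

theorem mem_divApproxResidues {y : F} {n d : B} {r : B ⧸ v.asIdeal} (hy : v.valuation F y ≤ 1)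
    (h : y * algebraMap B F d = algebraMap B F n) (hd : Ideal.Quotient.mk v.asIdeal d * r = 1)
    (hap : DivApprox v C y) : Ideal.Quotient.mk v.asIdeal n * r ∈ divApproxResidues hC := by
  obtain ⟨d', rfl⟩ := Ideal.Quotient.mk_surjective r
  intro b hb
  refine DivApprox.of_mk_eq (b := n * d') (hap.congr ?_) (hb.trans (map_mul _ _ _).symm)
  rw [Valuation.map_sub_swap]
  exact sub_valuation_lt_one hy h hd

theorem inv_mem_divApproxResidues {r r' : B ⧸ v.asIdeal} (hr : r ∈ divApproxResidues hC)
    (h : r * r' = 1) : r' ∈ divApproxResidues hC := by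
  obtain ⟨x, rfl⟩ := Ideal.Quotient.mk_surjective r
  have hx : x ∉ v.asIdeal := fun hx => v.isPrime.ne_top ((Ideal.eq_top_iff_one _).mpr <| by
    rw [← Ideal.Quotient.eq_zero_iff_mem, map_one, ← h, Ideal.Quotient.eq_zero_iff_mem.mpr hx,
      zero_mul])
  have hvx : v.valuation F (algebraMap B F x) = 1 := v.valuation_eq_one_iff_notMem.mpr hx
  have hx0 : algebraMap B F x ≠ 0 := fun e => by rw [e, map_zero] at hvx; exact zero_ne_one hvx
  have := mem_divApproxResidues hC (y := (algebraMap B F x)⁻¹) (n := 1) (d := x) (r := r')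
    (by rw [map_inv₀, hvx, inv_one]) (by rw [inv_mul_cancel₀ hx0, map_one]) h
    ((hr x rfl).inv hvx)
  rwa [map_one, one_mul] at this

theorem divApprox_of_residues (hall : ∀ r, r ∈ divApproxResidues hC) {x : F}
    (hx : v.valuation F x ≤ 1) : DivApprox v C x := by
  obtain ⟨n, d, h⟩ := v.exists_primeCompl_mul_eq_of_integer x hx
  have : v.asIdeal.IsMaximal := v.isMaximal
  obtain ⟨r, hr⟩ := (Ideal.Quotient.maximal_ideal_iff_isField_quotient _).mp this |>.mul_inv_cancel
    (a := Ideal.Quotient.mk v.asIdeal d) fun e => d.2 (Ideal.Quotient.eq_zero_iff_mem.mp e)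
  obtain ⟨d', rfl⟩ := Ideal.Quotient.mk_surjective r
  exact (hall _ (n * d') rfl).congr (sub_valuation_lt_one hx h hr)

end Residue

section Bound

variable (hb : BaseData W q) (hc : Cover K t) {V : ValuationSubring F} (hV : IsVert W q t V)
variable {z ξ : F} (hz0 : z ≠ 0) (hz₁ : z ^ (q - 1) / (q : F) ∈ V) (hz₂ : (q : F) / z ^ (q - 1) ∈ V)
  (hξV : ξ ∈ V) (hξ : ξ ^ q - t ∈ V.nonunits)

section Core

variable {A B : Type*} [CommRing A] [IsDedekindDomain A] [CommRing B] [IsDedekindDomain B]
  [Algebra A B] [Algebra B F] [IsFractionRing B F] [Module.Finite A B] [FaithfulSMul A B]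
  [Module.IsTorsionFree A B] [Module.Flat A B] [MulSemiringAction (F ≃ₐ[K⟮t⟯] F) B]
  [IsGaloisGroup (F ≃ₐ[K⟮t⟯] F) A B] (v : HeightOneSpectrum B) (p : Ideal A) [p.IsMaximal]
  [v.asIdeal.LiesOver p]

include hb hc hz0 in
omit [FaithfulSMul A B] [Module.IsTorsionFree A B] in
/-- The inertia bound over abstract rings in the places of the Gauss ring and its integral
closure. -/
theorem inertia_bound_core (hV : IsVert W q t (v.valuation F).valuationSubring)
    (hz₁ : z ^ (q - 1) / (q : F) ∈ (v.valuation F).valuationSubring)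
    (hz₂ : (q : F) / z ^ (q - 1) ∈ (v.valuation F).valuationSubring)
    (hξV : ξ ∈ (v.valuation F).valuationSubring)
    (hξ : ξ ^ q - t ∈ (v.valuation F).valuationSubring.nonunits)
    (hsmul : ∀ (g : F ≃ₐ[K⟮t⟯] F) (b : B), algebraMap B F (g • b) = g (algebraMap B F b))
    (hqA : p = Ideal.span {(q : A)}) (T : A) (hT : algebraMap B F (algebraMap A B T) = t)
    (hTpow' : ∀ y : A, y ^ q - T ∉ p)
    (hA : ∀ a : A, ∃ p₁ p₂ : W[X], p₂.map (IsLocalRing.residue W) ≠ 0 ∧
      algebraMap B F (algebraMap A B a) = evW W t p₁ / evW W t p₂) :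
    q * (q - 1) ≤ Nat.card (inertiaV K t (v.valuation F).valuationSubring) ∧
    (Nat.card (inertiaV K t (v.valuation F).valuationSubring) ≤ q * (q - 1) →
      (z ∈ (v.valuation F).valuationSubring.nonunits ∧
        ∀ x ∈ (v.valuation F).valuationSubring.nonunits, x / z ∈ (v.valuation F).valuationSubring) ∧
      ∀ S : Set F, S ⊆ (v.valuation F).valuationSubring →
        (∀ σ ∈ stabV K t (v.valuation F).valuationSubring,
          (∀ s ∈ S, σ s - s ∈ (v.valuation F).valuationSubring.nonunits) →
          σ ∈ inertiaV K t (v.valuation F).valuationSubring) →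
        ∀ x ∈ (v.valuation F).valuationSubring, ∃ a b : F,
          a ∈ Subring.closure (Set.range (evW W t) ∪ insert ξ S) ∧
          b ∈ Subring.closure (Set.range (evW W t) ∪ insert ξ S) ∧
          b ∉ (v.valuation F).valuationSubring.nonunits ∧
            x - a / b ∈ (v.valuation F).valuationSubring.nonunits) := by
  classical
  have hqp : Fact q.Prime := ⟨hb.prime⟩
  have := hc.finite
  have := hc.galois
  set P := v.asIdeal with hPdef
  have : P.IsPrime := v.isPrime
  have : P.IsMaximal := v.isMaximal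
  -- `e f = #D`
  set D := MulAction.stabilizer (F ≃ₐ[K⟮t⟯] F) P
  have hg0 : (p.primesOver B).ncard ≠ 0 := by
    have := Ideal.ncard_primesOver_mul_ramificationIdxIn_mul_inertiaDegIn p B
      (F ≃ₐ[K⟮t⟯] F)
    intro h
    rw [h, zero_mul] at this
    exact Nat.card_pos.ne' this.symm
  have hef : Nat.card D = P.ramificationIdx A * P.inertiaDeg A := by
    have h1 := Ideal.ncard_primesOver_mul_ramificationIdxIn_mul_inertiaDegIn p B
      (F ≃ₐ[K⟮t⟯] F)
    rw [Ideal.ramificationIdxIn_eq_ramificationIdx p P (F ≃ₐ[K⟮t⟯] F),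
      Ideal.inertiaDegIn_eq_inertiaDeg p P (F ≃ₐ[K⟮t⟯] F)] at h1
    have h2 : (p.primesOver B).ncard * Nat.card D =
        Nat.card (F ≃ₐ[K⟮t⟯] F) := by
      rw [← Algebra.IsInvariant.orbit_eq_primesOver A B (F ≃ₐ[K⟮t⟯] F) p P,
        ← Nat.card_coe_set_eq, ← Nat.card_prod]
      exact Nat.card_congr (MulAction.orbitProdStabilizerEquivGroup _ P)
    exact mul_left_cancel₀ hg0 (h2.trans h1.symm)
  -- valuations
  have hq0 := q_ne_zero (F := F) hb
  set e := P.ramificationIdx A with he_def
  have he : v.valuation F (q : F) = WithZero.exp (-(e : ℤ)) := by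
    have hne : (q : B) ≠ 0 := fun h => hq0 (by simpa using congrArg (algebraMap B F) h)
    have hmap : p.map (algebraMap A B) =
        Ideal.span {(q : B)} := by
      rw [hqA, Ideal.map_span, Set.image_singleton, map_natCast]
    rw [← map_natCast (algebraMap B F) q, v.valuation_of_algebraMap,
      v.intValuation_eq_exp_neg_multiplicity hne, he_def,
      Ideal.IsDedekindDomain.ramificationIdx_eq_multiplicity p P
        (by rw [hmap, Ne, Ideal.span_singleton_eq_bot]; exact hne),
      hmap]
  have he1 : 0 < e := Ideal.ramificationIdx_pos P A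
  set k : ℤ := -WithZero.log (v.valuation F z)
  have hk : v.valuation F z = WithZero.exp (-k) := by
    rw [neg_neg, WithZero.exp_log ((v.valuation F).ne_zero_iff.mpr hz0)]
  have hvz : v.valuation F z ^ (q - 1) = v.valuation F (q : F) := by
    refine le_antisymm ?_ ?_
    · have := (mem_valuationSubring_valuation_iff v _).mp hz₁
      rwa [map_div₀, map_pow, div_le_one₀ (zero_lt_iff.mpr ((v.valuation F).ne_zero_iff.mpr hq0))]
        at this
    · have := (mem_valuationSubring_valuation_iff v _).mp hz₂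
      rwa [map_div₀, map_pow, div_le_one₀ (zero_lt_iff.mpr
        (pow_ne_zero _ ((v.valuation F).ne_zero_iff.mpr hz0)))] at this
  have hek : (e : ℤ) = (q - 1 : ℕ) * k := by
    rw [hk, he, ← WithZero.exp_nsmul, WithZero.exp_inj, nsmul_eq_mul] at hvz
    linarith
  have hk1 : 1 ≤ k := by
    by_contra hlt
    push Not at hlt
    have : (e : ℤ) ≤ 0 := hek ▸ mul_nonpos_of_nonneg_of_nonpos (by positivity) (by omega)
    omega
  -- the residue extension
  let : Field (A ⧸ p) := Ideal.Quotient.field p
  let : Field (B ⧸ P) := Ideal.Quotient.field P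
  have hf : P.inertiaDeg A = Module.finrank (A ⧸ p) (B ⧸ P) :=
    Ideal.inertiaDeg_eq_of_isMaximal p P
  have : CharP (A ⧸ p) q := (CharP.charP_iff_prime_eq_zero hb.prime).mpr (by
    rw [← map_natCast (Ideal.Quotient.mk p), Ideal.Quotient.eq_zero_iff_mem, hqA]
    exact Ideal.mem_span_singleton_self _)
  have : CharP (B ⧸ P) q :=
    charP_of_injective_ringHom (algebraMap (A ⧸ p) (B ⧸ P)).injective q
  have hrep : ∀ x : F, x ∈ (v.valuation F).valuationSubring →
      ∃ (n d : B), d ∉ P ∧ x * algebraMap _ F d = algebraMap _ F n := fun x hx => by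
    obtain ⟨n, d, h⟩ := v.exists_primeCompl_mul_eq_of_integer x hx
    exact ⟨n, d, d.2, h⟩
  have hmem : ∀ b : B,
      algebraMap _ F b ∈ (v.valuation F).valuationSubring := fun b => v.valuation_le_one b
  have hnu : ∀ b : B,
      algebraMap _ F b ∈ (v.valuation F).valuationSubring.nonunits ↔ b ∈ P := fun b => by
    rw [mem_nonunits_valuation_iff, v.valuation_lt_one_iff_mem]
  obtain ⟨n₁, d₁, hd₁, hξeq⟩ := hrep ξ hξV
  set ξbar := Ideal.Quotient.mk P n₁ * (Ideal.Quotient.mk P d₁)⁻¹
  have hd1' : Ideal.Quotient.mk P d₁ ≠ 0 := fun h => hd₁ (Ideal.Quotient.eq_zero_iff_mem.mp h)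
  have hξbar : ξbar ^ q = algebraMap (A ⧸ p) (B ⧸ P) (Ideal.Quotient.mk p T) := by
    rw [Ideal.Quotient.algebraMap_mk_of_liesOver, mul_pow, inv_pow, ← div_eq_mul_inv,
      div_eq_iff (pow_ne_zero _ hd1'), ← map_pow, ← map_pow, ← map_mul, Ideal.Quotient.eq, ← hnu,
      map_sub, map_pow, map_mul, map_pow, ← hξeq,
      hT,
      show (ξ * algebraMap _ F d₁) ^ q - t * algebraMap _ F d₁ ^ q =
        (ξ ^ q - t) * algebraMap B F d₁ ^ q by ring,
      mem_nonunits_valuation_iff, map_mul, map_pow]
    have hξ' := (mem_nonunits_valuation_iff v _).mp hξ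
    rw [v.valuation_eq_one_iff_notMem.mpr hd₁, one_pow, mul_one]
    exact hξ'
  have hTpow : ∀ y : A ⧸ p, y ^ q ≠ Ideal.Quotient.mk p T := by
    intro y hy
    obtain ⟨y, rfl⟩ := Ideal.Quotient.mk_surjective y
    rw [← map_pow, Ideal.Quotient.eq] at hy
    exact hTpow' y hy
  -- the action on the residue field
  let φ := Ideal.Quotient.stabilizerHom P p (F ≃ₐ[K⟮t⟯] F)
  set H : Set ((B ⧸ P) ≃ₐ[A ⧸ p] (B ⧸ P)) := Set.range φ
  have hcardD : Nat.card D = Nat.card φ.ker * H.ncard := by
    rw [← Subgroup.card_mul_index φ.ker, Subgroup.index_ker, ← Nat.card_coe_set_eq]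
    rfl
  -- stabilisers
  have hstab : ∀ g : F ≃ₐ[K⟮t⟯] F,
      g ∈ D ↔ g.restrictScalars K ∈ stabV K t (v.valuation F).valuationSubring := by
    intro g
    have hgt : g.restrictScalars K t = t := g.commutes ⟨t, mem_adjoin_simple_self K t⟩
    constructor
    · intro hgD
      refine mem_stabV.mpr ⟨hgt, ?_⟩
      have hone : ∀ g ∈ D, ∀ x : F, x ∈ (v.valuation F).valuationSubring →
          g x ∈ (v.valuation F).valuationSubring := by
        intro g hgD x hx
        obtain ⟨n, d, hd, hxd⟩ := hrep x hx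
        have hd' : g • d ∉ P := fun h => hd (by
          have h' := Ideal.smul_mem_pointwise_smul g⁻¹ _ _ h
          rwa [inv_smul_smul, (MulAction.mem_stabilizer_iff.mp (inv_mem hgD) : g⁻¹ • P = P)] at h')
        have := congrArg g hxd
        rw [map_mul, ← hsmul, ← hsmul] at this
        rw [mem_valuationSubring_valuation_iff]
        have := congrArg (v.valuation F) this
        rw [map_mul, v.valuation_eq_one_iff_notMem.mpr hd', mul_one] at this
        rw [this]; exact v.valuation_le_one _
      exact fun x => ⟨fun h => by simpa using hone g⁻¹ (inv_mem hgD) _ h, hone g hgD x⟩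
    · intro hg
      refine MulAction.mem_stabilizer_iff.mpr (Ideal.ext fun b => ?_)
      rw [Ideal.mem_pointwise_smul_iff_inv_smul_mem, ← hnu, ← hnu, hsmul]
      exact (nonunits_apply (inv_mem hg) (x := algebraMap _ F b))
  have hker : ∀ g : D, g ∈ φ.ker ↔
      g.1.restrictScalars K ∈ inertiaV K t (v.valuation F).valuationSubring := by
    intro g
    have hin : g ∈ φ.ker ↔ ∀ b : B, g.1 • b - b ∈ P := by
      rw [Ideal.Quotient.ker_stabilizerHom]; rfl
    rw [hin, mem_inertiaV]
    constructor
    · refine fun h => ⟨(hstab g.1).mp g.2, fun x hx => ?_⟩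
      obtain ⟨n, d, hd, hxd⟩ := hrep x hx
      have hvd : v.valuation F (algebraMap _ F d) = 1 := v.valuation_eq_one_iff_notMem.mpr hd
      have hgx : g.1.restrictScalars K x ∈ (v.valuation F).valuationSubring :=
        ((mem_stabV.mp ((hstab g.1).mp g.2)).2 x).mpr hx
      rw [mem_nonunits_valuation_iff]
      show v.valuation F (g.1 x - x) < 1
      suffices hs : v.valuation F ((g.1 x - x) * algebraMap _ F d) < 1 by
        rwa [map_mul, hvd, mul_one] at hs
      have e' : (g.1 x - x) * algebraMap _ F d =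
          algebraMap _ F (g.1 • n - n) - g.1 x * algebraMap _ F (g.1 • d - d) := by
        have := congrArg g.1 hxd
        rw [map_mul, ← hsmul, ← hsmul] at this
        rw [map_sub, map_sub]
        linear_combination this - hxd
      rw [e']
      refine (v.valuation F).map_sub _ _ |>.trans_lt
        (max_lt ((v.valuation_lt_one_iff_mem _).mpr (h n)) ?_)
      rw [map_mul]
      exact lt_of_le_of_lt (mul_le_of_le_one_left' hgx) ((v.valuation_lt_one_iff_mem _).mpr (h d))
    · rintro ⟨-, h⟩ b
      rw [← hnu, map_sub, hsmul]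
      exact h _ (hmem b)
  have hI : Nat.card φ.ker = Nat.card (inertiaV K t (v.valuation F).valuationSubring) := by
    refine Nat.card_congr
      { toFun := fun g => ⟨g.1.1.restrictScalars K, (hker g.1).mp g.2⟩
        invFun := fun σ => ⟨⟨fixParEquiv t ⟨σ.1, (mem_stabV.mp (mem_inertiaV.mp σ.2).1).1⟩,
          (hstab _).mpr (mem_inertiaV.mp σ.2).1⟩, (hker _).mpr σ.2⟩
        left_inv := fun g => by ext; rfl
        right_inv := fun σ => by ext; rfl }
  -- the bound
  have hfin : FiniteDimensional (A ⧸ p) (B ⧸ P) :=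
    Module.Finite.of_restrictScalars_finite A _ _
  have hbound : q * H.ncard ≤ P.inertiaDeg A := by
    rw [hf]
    have := mul_card_le_finrank hξbar hTpow
      ((fun σ : (B ⧸ P) ≃ₐ[A ⧸ p] (B ⧸ P) =>
        (σ : (B ⧸ P) →ₐ[A ⧸ p] (B ⧸ P))) '' H)
    rwa [Set.ncard_image_of_injective H (f := fun σ : (B ⧸ P) ≃ₐ[A ⧸ p] (B ⧸ P) =>
        (σ : (B ⧸ P) →ₐ[A ⧸ p] (B ⧸ P)))
      (fun σ τ h => AlgEquiv.ext fun x => DFunLike.congr_fun h x)] at this
  have hH0 : 0 < H.ncard := (Set.ncard_pos (Set.toFinite H)).mpr (Set.range_nonempty φ)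
  set k' := k.toNat
  have hek' : e = (q - 1) * k' := by
    have : (k' : ℤ) = k := Int.toNat_of_nonneg (by omega)
    have h' : (e : ℤ) = ((q - 1) * k' : ℕ) := by rw [hek, Nat.cast_mul, this]
    exact_mod_cast h'
  set I := Nat.card (inertiaV K t (v.valuation F).valuationSubring)
  have hmain : (q - 1) * k' * P.inertiaDeg A = I * H.ncard := by rw [← hek', ← hef, hcardD, hI]
  refine ⟨?_, fun hle => ?_⟩
  · refine Nat.le_of_mul_le_mul_right ?_ hH0
    calc q * (q - 1) * H.ncard = (q - 1) * 1 * (q * H.ncard) := by ring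
      _ ≤ (q - 1) * k' * P.inertiaDeg A :=
        Nat.mul_le_mul (Nat.mul_le_mul_left _ (by omega)) hbound
      _ = I * H.ncard := hmain
  have hq1 : 0 < q - 1 := by have := hb.prime.two_le; omega
  have hle' : k' * P.inertiaDeg A ≤ q * H.ncard := by
    refine Nat.le_of_mul_le_mul_left ?_ hq1
    calc (q - 1) * (k' * P.inertiaDeg A) = I * H.ncard := by rw [← mul_assoc, hmain]
      _ ≤ q * (q - 1) * H.ncard := Nat.mul_le_mul_right _ hle
      _ = (q - 1) * (q * H.ncard) := by ring
  have hfle : P.inertiaDeg A ≤ q * H.ncard :=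
    (Nat.le_mul_of_pos_left _ (by omega)).trans hle'
  have hk'1 : k = 1 := by
    have : k' ≤ 1 := by
      have hf0 : 0 < P.inertiaDeg A := (Nat.mul_pos hb.prime.pos hH0).trans_le hbound
      exact Nat.le_of_mul_le_mul_right (by rw [one_mul]; exact hle'.trans hbound) hf0
    omega
  refine ⟨⟨?_, fun x hx => ?_⟩, fun S hS hsep x hx => ?_⟩
  · rw [mem_nonunits_valuation_iff, hk, ← WithZero.exp_zero, WithZero.exp_lt_exp]; omega
  · rw [mem_nonunits_valuation_iff] at hx
    rw [mem_valuationSubring_valuation_iff, map_div₀, hk, hk'1]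
    rcases eq_or_ne x 0 with rfl | hx0
    · simp
    rw [← WithZero.exp_log ((v.valuation F).ne_zero_iff.mpr hx0), ← WithZero.exp_sub,
      ← WithZero.exp_zero, WithZero.exp_le_exp]
    rw [← WithZero.exp_log ((v.valuation F).ne_zero_iff.mpr hx0), ← WithZero.exp_zero,
      WithZero.exp_lt_exp] at hx
    omega
  · let Sbar : Set (B ⧸ P) :=
      insert ξbar {r | ∃ s ∈ S, ∃ n d : B, d ∉ P ∧
        s * algebraMap _ F d = algebraMap _ F n ∧
        r = Ideal.Quotient.mk P n * (Ideal.Quotient.mk P d)⁻¹}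
    have htop := adjoin_eq_top_of_card (S := Sbar) (Set.mem_insert _ _) hξbar hTpow H ?_
      (hf ▸ hfle)
    swap
    · rintro _ ⟨g₁, rfl⟩ _ ⟨g₂, rfl⟩ hagree
      suffices g₁⁻¹ * g₂ ∈ φ.ker by
        rw [MonoidHom.mem_ker, map_mul, map_inv, inv_mul_eq_one] at this
        exact this
      rw [hker]
      refine hsep _ ((hstab _).mp (g₁⁻¹ * g₂).2) fun s hs => ?_
      obtain ⟨n, d, hd, hsd⟩ := hrep s (hS hs)
      set g := g₁⁻¹ * g₂
      have hφ : φ g (Ideal.Quotient.mk P n * (Ideal.Quotient.mk P d)⁻¹) =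
          Ideal.Quotient.mk P n * (Ideal.Quotient.mk P d)⁻¹ := by
        rw [show φ g = (φ g₁)⁻¹ * φ g₂ by rw [map_mul, map_inv], AlgEquiv.mul_apply,
          ← hagree _ (Set.mem_insert_of_mem _ ⟨s, hs, n, d, hd, hsd, rfl⟩)]
        exact (φ g₁).symm_apply_apply _
      have hgd : (g : F ≃ₐ[K⟮t⟯] F) • d ∉ P := fun h => hd (by
        have h' := Ideal.smul_mem_pointwise_smul (g.1⁻¹) _ _ h
        rwa [inv_smul_smul, (MulAction.mem_stabilizer_iff.mp (inv_mem g.2) : g.1⁻¹ • P = P)] at h')
      rw [map_mul, map_inv₀] at hφ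
      have hφ' : Ideal.Quotient.mk P (g.1 • n) * (Ideal.Quotient.mk P (g.1 • d))⁻¹ =
          Ideal.Quotient.mk P n * (Ideal.Quotient.mk P d)⁻¹ := hφ
      rw [← div_eq_mul_inv, ← div_eq_mul_inv,
        div_eq_div_iff (fun h => hgd (Ideal.Quotient.eq_zero_iff_mem.mp h))
          (fun h => hd (Ideal.Quotient.eq_zero_iff_mem.mp h)),
        ← map_mul, ← map_mul, Ideal.Quotient.eq] at hφ'
      have hlt : v.valuation F (algebraMap B F (g.1 • n * d - n * g.1 • d)) < 1 :=
        (v.valuation_lt_one_iff_mem _).mpr hφ'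
      rw [map_sub, map_mul, map_mul, hsmul, hsmul, ← hsd, map_mul] at hlt
      rw [mem_nonunits_valuation_iff]
      show v.valuation F (g.1 s - s) < 1
      rw [show g.1 s * g.1 (algebraMap _ F d) * algebraMap B F d -
          s * algebraMap B F d * g.1 (algebraMap _ F d) =
          (g.1 s - s) * (g.1 (algebraMap _ F d) * algebraMap B F d) by ring,
        map_mul, map_mul, ← hsmul, v.valuation_eq_one_iff_notMem.mpr hgd,
        v.valuation_eq_one_iff_notMem.mpr hd, mul_one, mul_one] at hlt
      exact hlt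
    have hC : ∀ c ∈ Subring.closure (Set.range (evW W t) ∪ insert ξ S), v.valuation F c ≤ 1 :=
      fun c hc => by
        refine (Subring.closure_le (t := (v.valuation F).valuationSubring.toSubring)).mpr ?_ hc
        rintro y (⟨p, rfl⟩ | rfl | hy)
        exacts [hV.evW_mem p, hξV, hS hy]
    have hall : ∀ r, r ∈ divApproxResidues hC := by
      intro r
      have hr : r ∈ IntermediateField.adjoin (A ⧸ p) Sbar := by rw [htop]; exact trivial
      induction hr using IntermediateField.adjoin_induction with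
      | mem r hr =>
        rcases hr with rfl | ⟨s, hs, n, d, hd, hsd, rfl⟩
        · exact mem_divApproxResidues hC hξV hξeq (mul_inv_cancel₀ hd1')
            (DivApprox.of_mem (Subring.subset_closure (Or.inr (Set.mem_insert _ _))))
        · exact mem_divApproxResidues hC (hS hs) hsd
            (mul_inv_cancel₀ fun h => hd (Ideal.Quotient.eq_zero_iff_mem.mp h))
            (DivApprox.of_mem (Subring.subset_closure (Or.inr (Set.mem_insert_of_mem _ hs))))
      | algebraMap r =>
        obtain ⟨a, rfl⟩ := Ideal.Quotient.mk_surjective r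
        obtain ⟨p₁, p₂, hp₂, hpa⟩ := hA a
        have h1 : v.valuation F (evW W t p₂) = 1 := by
          refine le_antisymm (hV.evW_mem p₂) ?_
          have h2 : v.valuation F (evW W t p₂)⁻¹ ≤ 1 := hV.unit p₂ hp₂
          rwa [map_inv₀, inv_le_one₀ (zero_lt_iff.mpr ((v.valuation F).ne_zero_iff.mpr
            (evW_ne_zero hc.transcendental hp₂)))] at h2
        rw [Ideal.Quotient.algebraMap_mk_of_liesOver]
        intro b hb'
        refine DivApprox.of_mk_eq ⟨evW W t p₁, evW W t p₂,
          Subring.subset_closure (Or.inl ⟨p₁, rfl⟩),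
          Subring.subset_closure (Or.inl ⟨p₂, rfl⟩), h1, ?_⟩ hb'
        rw [show algebraMap _ F (algebraMap A B a) =
          evW W t p₁ / evW W t p₂ from hpa, sub_self, map_zero]
        exact zero_lt_one
      | add r r' _ _ hr hr' => exact add_mem hr hr'
      | mul r r' _ _ hr hr' => exact mul_mem hr hr'
      | inv r _ hr =>
        by_cases hr0 : r = 0
        · rw [hr0, inv_zero]; exact zero_mem _
        · exact inv_mem_divApproxResidues hC hr (mul_inv_cancel₀ hr0)
    obtain ⟨a, b, ha, hb', hb1, hab⟩ := divApprox_of_residues hC hall hx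
    exact ⟨a, b, ha, hb', by rw [mem_nonunits_valuation_iff, hb1]; exact lt_irrefl _,
      (mem_nonunits_valuation_iff v _).mpr hab⟩

end Core

include hb hc hV hz0 hz₁ hz₂ hξV hξ in
/-- **The inertia bound, with the equality case.** -/
theorem inertia_bound :
    q * (q - 1) ≤ Nat.card (inertiaV K t V) ∧
    (Nat.card (inertiaV K t V) ≤ q * (q - 1) →
      (z ∈ V.nonunits ∧ ∀ x ∈ V.nonunits, x / z ∈ V) ∧
      ∀ S : Set F, S ⊆ V → (∀ σ ∈ stabV K t V, (∀ s ∈ S, σ s - s ∈ V.nonunits) →
          σ ∈ inertiaV K t V) →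
        ∀ x ∈ V, ∃ a b : F, a ∈ Subring.closure (Set.range (evW W t) ∪ insert ξ S) ∧
          b ∈ Subring.closure (Set.range (evW W t) ∪ insert ξ S) ∧
          b ∉ V.nonunits ∧ x - a / b ∈ V.nonunits) := by
  obtain ⟨A, hA⟩ := exists_gauss hb hc.transcendental
  have := hc.finite
  have := hc.galois
  have := gauss_dvr hb hc.transcendental hA
  have := IsIntegralClosure.isDedekindDomain A K⟮t⟯ F (integralClosure A F)
  have := IsIntegralClosure.isFractionRing_of_finite_extension A K⟮t⟯ F (integralClosure A F)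
  have := IsIntegralClosure.finite A K⟮t⟯ F (integralClosure A F)
  have hinj : Function.Injective (algebraMap A (integralClosure A F)) := fun a b h =>
    Subtype.ext (Subtype.ext (congrArg (fun u : integralClosure A F => (u : F)) h))
  have : FaithfulSMul A (integralClosure A F) :=
    (faithfulSMul_iff_algebraMap_injective _ _).mpr hinj
  have : Module.IsTorsionFree A (integralClosure A F) :=
    Module.isTorsionFree_iff_algebraMap_injective.mpr hinj
  have : Module.Flat A (integralClosure A F) := inferInstance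
  obtain ⟨v, hv, rfl⟩ := (vert_iff hb hc hA _).mp hV
  let : MulSemiringAction (F ≃ₐ[K⟮t⟯] F) (integralClosure A F) :=
    IsIntegralClosure.MulSemiringAction A K⟮t⟯ F (integralClosure A F)
  have : IsGaloisGroup (F ≃ₐ[K⟮t⟯] F) A (integralClosure A F) :=
    IsGaloisGroup.of_isFractionRing _ A (integralClosure A F) K⟮t⟯ F
  have hsmul : ∀ (g : F ≃ₐ[K⟮t⟯] F) (b : integralClosure A F),
      algebraMap _ F (g • b) = g (algebraMap _ F b) := fun g b =>
    algebraMap_galRestrict_apply A g b
  have : v.asIdeal.LiesOver (IsLocalRing.maximalIdeal A) := ⟨hv.symm⟩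
  exact inertia_bound_core hb hc hz0 v (IsLocalRing.maximalIdeal A) hV hz₁ hz₂ hξV hξ hsmul
    (gauss_maximalIdeal hb hc.transcendental hA)
    ⟨⟨t, mem_adjoin_simple_self K t⟩, (hA _).mpr ⟨X, 1, by simp, by simp [evW_X]⟩⟩ rfl
    (fun y => gauss_not_pow hb hc.transcendental hA y rfl) fun a => (hA a.1).mp a.2

end Bound

end Fermat.Agent.Carayol
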